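/-
CELL-B zero-regret leaf (helper51): the domain lemma (DOM) for the explicit local lifting rings
at `q ≡ 1 (p)`.

`C` a Noetherian domain, `l ∈ C` a prime element, `c = u * l ^ e` (`u` a unit, `e ≥ 1`), `Qe ∈ C`
not a square modulo `l` (in the field of fractions of `C ⧸ l`, spelled
`∀ a b, l ∣ a ^ 2 - Qe * b ^ 2 → l ∣ b`).  Then `Qe * X ^ 2 - c ^ 2` is a prime element of `C⟦X⟧`.

No completion and no Weierstrass division: the element is irreducible in `O⟦X⟧` for the discrete
valuation ring `O = C_(l)` (a three-coefficient computation), `O⟦X⟧` is a UFD (Mathlib), and the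
principal ideal contracts to the principal ideal of `C⟦X⟧` by a coefficient recursion.
-/
import Mathlib

set_option autoImplicit false

namespace Fermat.Agent.GB.Local.Dom

open PowerSeries

/-- the quadric power series `Qe * X ^ 2 - c ^ 2`. -/
noncomputable def quad {C : Type*} [CommRing C] (Qe c : C) : C⟦X⟧ :=
  PowerSeries.C Qe * X ^ 2 - PowerSeries.C (c ^ 2)

section basic

variable {C : Type*} [CommRing C]

theorem coeff_quad_mul (Qe c : C) (g : C⟦X⟧) (n : ℕ) :
    coeff n (quad Qe c * g) =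
      Qe * (if 2 ≤ n then coeff (n - 2) g else 0) - c ^ 2 * coeff n g := by
  rw [quad, sub_mul, map_sub, mul_assoc, coeff_C_mul, coeff_C_mul, coeff_X_pow_mul']

theorem coeff_quad (Qe c : C) (n : ℕ) :
    coeff n (quad Qe c) = (if n = 2 then Qe else 0) - (if n = 0 then c ^ 2 else 0) := by
  rw [quad, map_sub, coeff_C_mul, coeff_X_pow, coeff_C, mul_ite, mul_one, mul_zero]

theorem constantCoeff_quad (Qe c : C) : constantCoeff (quad Qe c) = - c ^ 2 := by
  simp [quad]

theorem map_quad {O : Type*} [CommRing O] (ι : C →+* O) (Qe c : C) :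
    PowerSeries.map ι (quad Qe c) = quad (ι Qe) (ι c) := by
  simp [quad, map_sub, map_mul, map_pow]

theorem quad_ne_zero [IsDomain C] (Qe c : C) (hc : c ≠ 0) : quad Qe c ≠ 0 := by
  intro h
  have := congrArg constantCoeff h
  rw [constantCoeff_quad, map_zero, neg_eq_zero] at this
  exact hc (pow_eq_zero_iff (two_ne_zero) |>.mp this)

theorem not_isUnit_quad (Qe c : C) (hc : ¬ IsUnit c) : ¬ IsUnit (quad Qe c) := by
  intro h
  have := PowerSeries.isUnit_iff_constantCoeff.mp h
  rw [constantCoeff_quad, IsUnit.neg_iff] at this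
  exact hc (isUnit_of_mul_isUnit_left (by rwa [pow_two] at this))

end basic

/-! ### (D1) irreducibility over a discrete valuation ring -/

section D1

set_option linter.overlappingInstances false

variable {O : Type*} [CommRing O] [IsDomain O] [IsLocalRing O] [ValuationRing O]

theorem irreducible_quad (Qe c : O) (hc0 : c ≠ 0) (hc : ¬ IsUnit c)
    (hQ : ∀ x : O, IsUnit (Qe - x ^ 2)) : Irreducible (quad Qe c) := by
  refine ⟨not_isUnit_quad Qe c hc, fun a b hab => ?_⟩
  by_contra hcon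
  push Not at hcon
  obtain ⟨ha, hb⟩ := hcon
  have ha0 : ¬ IsUnit (coeff 0 a) := by
    rw [coeff_zero_eq_constantCoeff_apply]; exact fun h => ha (isUnit_iff_constantCoeff.mpr h)
  have hb0 : ¬ IsUnit (coeff 0 b) := by
    rw [coeff_zero_eq_constantCoeff_apply]; exact fun h => hb (isUnit_iff_constantCoeff.mpr h)
  set a0 := coeff 0 a with ha0_def
  set b0 := coeff 0 b with hb0_def
  set a1 := coeff 1 a
  set b1 := coeff 1 b
  set a2 := coeff 2 a
  set b2 := coeff 2 b
  -- coefficient equations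
  have h0 : a0 * b0 = - c ^ 2 := by
    have := congrArg (coeff 0) hab
    rw [coeff_quad, coeff_mul, Finset.Nat.antidiagonal_zero, Finset.sum_singleton] at this
    rw [← this]; simp
  have h1 : a0 * b1 + a1 * b0 = 0 := by
    have := congrArg (coeff 1) hab
    rw [coeff_quad, coeff_mul, Finset.Nat.sum_antidiagonal_succ, Finset.Nat.antidiagonal_zero,
      Finset.sum_singleton] at this
    rw [← this]; simp
  have h2 : a0 * b2 + (a1 * b1 + a2 * b0) = Qe := by
    have := congrArg (coeff 2) hab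
    rw [coeff_quad, coeff_mul, Finset.Nat.sum_antidiagonal_succ, Finset.Nat.sum_antidiagonal_succ,
      Finset.Nat.antidiagonal_zero, Finset.sum_singleton] at this
    rw [← this]; simp
  have hQe : IsUnit Qe := by simpa using hQ 0
  -- `Qe - a1 * b1` is a non-unit
  have hnu : Qe - a1 * b1 ∈ nonunits O := by
    have : Qe - a1 * b1 = a0 * b2 + a2 * b0 := by rw [← h2]; ring
    rw [this]
    refine IsLocalRing.nonunits_add ?_ ?_
    · exact fun h => ha0 (isUnit_of_mul_isUnit_left h)
    · exact fun h => hb0 (isUnit_of_mul_isUnit_right h)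
  -- the key identity `a1 * b0 ^ 2 = b1 * c ^ 2`
  have hkey : a1 * b0 ^ 2 = b1 * c ^ 2 := by
    have e1 : a1 * b0 = - (a0 * b1) := by linear_combination h1
    calc a1 * b0 ^ 2 = (a1 * b0) * b0 := by ring
      _ = - (a0 * b1) * b0 := by rw [e1]
      _ = - b1 * (a0 * b0) := by ring
      _ = b1 * c ^ 2 := by rw [h0]; ring
  obtain ⟨w, hw | hw⟩ := ValuationRing.cond b0 c
  · -- `b0 * w = c`
    have hb0ne : b0 ≠ 0 := by rintro h; rw [h, zero_mul] at hw; exact hc0 hw.symm
    have : a1 = b1 * w ^ 2 := by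
      have h' : b0 ^ 2 * a1 = b0 ^ 2 * (b1 * w ^ 2) := by
        rw [← hw] at hkey; linear_combination hkey
      exact mul_left_cancel₀ (pow_ne_zero 2 hb0ne) h'
    apply hnu
    have e : Qe - a1 * b1 = Qe - (b1 * w) ^ 2 := by rw [this]; ring
    rw [e]; exact hQ _
  · -- `c * w = b0`
    have : b1 = a1 * w ^ 2 := by
      have h' : c ^ 2 * b1 = c ^ 2 * (a1 * w ^ 2) := by
        rw [← hw] at hkey; linear_combination - hkey
      exact mul_left_cancel₀ (pow_ne_zero 2 hc0) h'
    apply hnu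
    have e : Qe - a1 * b1 = Qe - (a1 * w) ^ 2 := by rw [this]; ring
    rw [e]; exact hQ _

theorem prime_quad [IsPrincipalIdealRing O] (Qe c : O) (hc0 : c ≠ 0) (hc : ¬ IsUnit c)
    (hQ : ∀ x : O, IsUnit (Qe - x ^ 2)) : Prime (quad Qe c) :=
  UniqueFactorizationMonoid.irreducible_iff_prime.mp (irreducible_quad Qe c hc0 hc hQ)

end D1

/-! ### (D2) contraction of the principal ideal -/

section D2

variable {C O : Type*} [CommRing C] [CommRing O] [IsDomain O]

/-- if `quad` divides `map ι f` over `O` and `c ^ 2`-divisibility descends along `ι`, then `quad`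
divides `f` over `C`. -/
theorem quad_dvd_of_map_dvd (ι : C →+* O) (hι : Function.Injective ι) (Qe c : C) (hc : c ≠ 0)
    (hsat : ∀ a : C, ι (c ^ 2) ∣ ι a → c ^ 2 ∣ a) (f : C⟦X⟧)
    (h : quad (ι Qe) (ι c) ∣ PowerSeries.map ι f) : quad Qe c ∣ f := by
  obtain ⟨g, hg⟩ := h
  have hc2 : ι (c ^ 2) ≠ 0 := by
    rw [map_pow]
    exact pow_ne_zero 2 (fun h => hc (hι (by rw [h, map_zero])))
  have hcoef : ∀ n, ι (coeff n f) =
      ι Qe * (if 2 ≤ n then coeff (n - 2) g else 0) - ι c ^ 2 * coeff n g := by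
    intro n
    rw [← coeff_quad_mul, ← hg, coeff_map]
  -- every coefficient of `g` lies in the image of `ι`
  have hex : ∀ n, ∃ b : C, ι b = coeff n g := by
    intro n
    induction n using Nat.strong_induction_on with
    | _ n ih =>
      have key : ∃ b' : C, ι b' = ι Qe * (if 2 ≤ n then coeff (n - 2) g else 0) := by
        by_cases h2 : 2 ≤ n
        · obtain ⟨b', hb'⟩ := ih (n - 2) (by omega)
          exact ⟨Qe * b', by rw [if_pos h2, map_mul, hb']⟩
        · exact ⟨0, by rw [if_neg h2, map_zero, mul_zero]⟩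
      obtain ⟨b', hb'⟩ := key
      have hdvd : ι (c ^ 2) ∣ ι (b' - coeff n f) := by
        refine ⟨coeff n g, ?_⟩
        rw [map_sub, hb', hcoef n, map_pow]; ring
      obtain ⟨b, hb⟩ := hsat _ hdvd
      refine ⟨b, ?_⟩
      apply mul_left_cancel₀ hc2
      rw [← map_mul, ← hb, map_sub, hb', hcoef n, map_pow]; ring
  choose b hb using hex
  refine ⟨PowerSeries.mk b, ?_⟩
  have hmap : PowerSeries.map ι (PowerSeries.mk b) = g := by
    ext n; rw [coeff_map, coeff_mk, hb]
  have hfg : PowerSeries.map ι f = PowerSeries.map ι (quad Qe c * PowerSeries.mk b) := by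
    rw [map_mul, map_quad, hmap, hg]
  ext n
  apply hι
  rw [← coeff_map, ← coeff_map, hfg]

end D2

/-! ### (D3) the prime ideal over a Noetherian domain -/

section D3

variable {C : Type*} [CommRing C] [IsDomain C] [IsNoetherianRing C]

theorem prime_quad_of_prime {l : C} (hl : Prime l) (Qe c : C) (u : Cˣ) (e : ℕ) (he : e ≠ 0)
    (hc : c = u * l ^ e) (hQ : ∀ a b : C, l ∣ a ^ 2 - Qe * b ^ 2 → l ∣ b) :
    Prime (quad Qe c) := by
  classical
  have hc0 : c ≠ 0 := by
    rw [hc]; exact mul_ne_zero u.ne_zero (pow_ne_zero _ hl.ne_zero)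
  have hlc : l ∣ c := by
    rw [hc]; exact Dvd.dvd.mul_left (dvd_pow_self l he) _
  have hcnu : ¬ IsUnit c := fun h => hl.not_isUnit (isUnit_of_dvd_unit hlc h)
  -- the localisation at `(l)`
  obtain ⟨P, hP⟩ : ∃ P : Ideal C, P = Ideal.span {l} := ⟨_, rfl⟩
  have hPprime : P.IsPrime := by
    rw [hP]; exact (Ideal.span_singleton_prime hl.ne_zero).mpr hl
  have hmemP : ∀ x : C, x ∈ P ↔ l ∣ x := fun x => by rw [hP, Ideal.mem_span_singleton]
  let O := Localization.AtPrime P
  let ι : C →+* O := algebraMap C O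
  have hι : Function.Injective ι :=
    IsLocalization.injective O (Ideal.primeCompl_le_nonZeroDivisors P)
  have : IsDomain O := IsLocalization.isDomain_localization (Ideal.primeCompl_le_nonZeroDivisors P)
  have : IsNoetherianRing O := IsLocalization.isNoetherianRing P.primeCompl O inferInstance
  have hmax : IsLocalRing.maximalIdeal O = Ideal.span {ι l} := by
    have h := (Localization.AtPrime.map_eq_maximalIdeal (I := P)).symm
    refine h.trans (le_antisymm ?_ ?_)
    · refine Ideal.map_le_iff_le_comap.mpr fun x hx => ?_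
      rw [Ideal.mem_comap]
      exact Ideal.mem_span_singleton.mpr (map_dvd ι ((hmemP x).mp hx))
    · rw [Ideal.span_singleton_le_iff_mem]
      exact Ideal.mem_map_of_mem _ ((hmemP l).mpr dvd_rfl)
  have hιl_nu : ¬ IsUnit (ι l) := by
    intro h
    have : ι l ∈ IsLocalRing.maximalIdeal O := by
      rw [hmax]; exact Ideal.mem_span_singleton_self _
    exact (IsLocalRing.mem_maximalIdeal _).mp this h
  have : IsDiscreteValuationRing O := by
    have hnf : ¬ IsField O := by
      intro hf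
      have : ι l ≠ 0 := by rw [Ne, map_eq_zero_iff ι hι]; exact hl.ne_zero
      obtain ⟨b, hb⟩ := hf.mul_inv_cancel this
      exact hιl_nu (IsUnit.of_mul_eq_one b hb)
    refine ((IsDiscreteValuationRing.TFAE O hnf).out 0 4).mpr ?_
    rw [hmax]
    exact ⟨⟨ι l, rfl⟩⟩
  -- the hypotheses of (D1) over `O`
  have hιc0 : ι c ≠ 0 := by rw [Ne, map_eq_zero_iff ι hι]; exact hc0
  have hιcnu : ¬ IsUnit (ι c) := by
    intro h
    have : ι l ∣ ι c := map_dvd ι hlc
    exact hιl_nu (isUnit_of_dvd_unit this h)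
  have hQO : ∀ x : O, IsUnit (ι Qe - x ^ 2) := by
    intro x
    obtain ⟨a, s, rfl⟩ := IsLocalization.exists_mk'_eq P.primeCompl x
    have hs : IsUnit (ι (s : C)) := IsLocalization.map_units O s
    have e1 : ι Qe - IsLocalization.mk' O a s ^ 2
        = ι (Qe * (s : C) ^ 2 - a ^ 2) * (hs.unit⁻¹ : Oˣ) ^ 2 := by
      have h1 : IsLocalization.mk' O a s * ι (s : C) = ι a := IsLocalization.mk'_spec O a s
      have h2 : ι (s : C) * ((hs.unit⁻¹ : Oˣ) : O) = 1 := hs.mul_val_inv
      have h3 : IsLocalization.mk' O a s = ι a * ((hs.unit⁻¹ : Oˣ) : O) := by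
        calc IsLocalization.mk' O a s
            = IsLocalization.mk' O a s * (ι (s : C) * ((hs.unit⁻¹ : Oˣ) : O)) := by
              rw [h2, mul_one]
          _ = ι a * ((hs.unit⁻¹ : Oˣ) : O) := by rw [← mul_assoc, h1]
      rw [h3, map_sub, map_mul, map_pow, map_pow]
      have h4 : ι (s : C) ^ 2 * ((hs.unit⁻¹ : Oˣ) : O) ^ 2 = 1 := by
        rw [← mul_pow, h2, one_pow]
      linear_combination (- ι Qe) * h4
    rw [e1]
    refine IsUnit.mul ?_ ((Units.isUnit _).pow 2)
    rw [IsLocalization.AtPrime.isUnit_to_map_iff O P]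
    intro hmem
    have hmem' : l ∣ Qe * (s : C) ^ 2 - a ^ 2 := (hmemP _).mp hmem
    have : l ∣ a ^ 2 - Qe * (s : C) ^ 2 := by
      have := (dvd_neg (a := l)).mpr hmem'
      rwa [neg_sub] at this
    have hls := hQ a s this
    exact s.2 ((hmemP _).mpr hls)
  have hprimeO : Prime (quad (ι Qe) (ι c)) := prime_quad (ι Qe) (ι c) hιc0 hιcnu hQO
  -- saturation
  have hsat : ∀ a : C, ι (c ^ 2) ∣ ι a → c ^ 2 ∣ a := by
    intro a ⟨y, hy⟩
    obtain ⟨b, s, rfl⟩ := IsLocalization.exists_mk'_eq P.primeCompl y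
    have h1 : ι (a * (s : C)) = ι (c ^ 2 * b) := by
      rw [map_mul, hy, mul_assoc, IsLocalization.mk'_spec, map_mul]
    have h2 : a * (s : C) = c ^ 2 * b := hι h1
    have hls : ¬ l ∣ (s : C) := fun h => s.2 ((hmemP _).mpr h)
    have h3 : l ^ (2 * e) ∣ a * (s : C) := by
      rw [h2, hc]
      exact ⟨(u : C) ^ 2 * b, by ring⟩
    have h4 : l ^ (2 * e) ∣ a := hl.pow_dvd_of_dvd_mul_right _ hls h3
    obtain ⟨a', rfl⟩ := h4
    refine ⟨((u⁻¹ : Cˣ) : C) ^ 2 * a', ?_⟩
    rw [hc]
    have : (u : C) * ((u⁻¹ : Cˣ) : C) = 1 := Units.mul_inv u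
    linear_combination (- l ^ (2 * e) * a' * (1 + (u : C) * ((u⁻¹ : Cˣ) : C))) * this
  refine ⟨quad_ne_zero Qe c hc0, not_isUnit_quad Qe c hcnu, fun f h hfh => ?_⟩
  have hO : quad (ι Qe) (ι c) ∣ PowerSeries.map ι f * PowerSeries.map ι h := by
    rw [← map_mul, ← map_quad]; exact map_dvd _ hfh
  rcases hprimeO.dvd_or_dvd hO with h' | h'
  · exact Or.inl (quad_dvd_of_map_dvd ι hι Qe c hc0 hsat f h')
  · exact Or.inr (quad_dvd_of_map_dvd ι hι Qe c hc0 hsat h h')

theorem isPrime_span_quad {l : C} (hl : Prime l) (Qe c : C) (u : Cˣ) (e : ℕ) (he : e ≠ 0)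
    (hc : c = u * l ^ e) (hQ : ∀ a b : C, l ∣ a ^ 2 - Qe * b ^ 2 → l ∣ b) :
    (Ideal.span {quad Qe c} : Ideal C⟦X⟧).IsPrime := by
  have hp := prime_quad_of_prime hl Qe c u e he hc hQ
  exact (Ideal.span_singleton_prime hp.ne_zero).mpr hp

theorem isDomain_quotient_quad {l : C} (hl : Prime l) (Qe c : C) (u : Cˣ) (e : ℕ) (he : e ≠ 0)
    (hc : c = u * l ^ e) (hQ : ∀ a b : C, l ∣ a ^ 2 - Qe * b ^ 2 → l ∣ b) :
    IsDomain (C⟦X⟧ ⧸ (Ideal.span {quad Qe c} : Ideal C⟦X⟧)) := by
  have := isPrime_span_quad hl Qe c u e he hc hQ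
  exact Ideal.Quotient.isDomain _

/-- Krull: an element divisible by all powers of a non-unit of a Noetherian domain is zero. -/
theorem eq_zero_of_forall_pow_dvd {l x : C} (hl : ¬ IsUnit l) (h : ∀ n : ℕ, l ^ n ∣ x) : x = 0 := by
  have hne : (Ideal.span {l} : Ideal C) ≠ ⊤ := by
    rw [Ne, Ideal.span_singleton_eq_top]; exact hl
  have hx : x ∈ ⨅ n : ℕ, (Ideal.span {l} : Ideal C) ^ n := by
    rw [Ideal.mem_iInf]
    intro n
    rw [Ideal.span_singleton_pow, Ideal.mem_span_singleton]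
    exact h n
  rw [Ideal.iInf_pow_eq_bot_of_isDomain _ hne] at hx
  exact hx

/-- the coefficient ring injects into the quotient: `C a ∈ (quad)` only for `a = 0`.  In
particular the quotient is `l`-torsion free (it is a domain in which `l ≠ 0`). -/
theorem C_mem_span_quad_iff {l : C} (hl : Prime l) (Qe c : C) (u : Cˣ) (e : ℕ) (he : e ≠ 0)
    (hc : c = u * l ^ e) (hQ : ∀ a b : C, l ∣ a ^ 2 - Qe * b ^ 2 → l ∣ b) (a : C) :
    PowerSeries.C a ∈ (Ideal.span {quad Qe c} : Ideal C⟦X⟧) ↔ a = 0 := by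
  constructor
  · intro h
    rw [Ideal.mem_span_singleton] at h
    obtain ⟨g, hg⟩ := h
    have hlQ : ¬ l ∣ Qe := by
      intro hd
      have : l ∣ (0 : C) ^ 2 - Qe * 1 ^ 2 := by
        rw [one_pow, mul_one, zero_pow two_ne_zero, zero_sub]; exact (dvd_neg).mpr hd
      exact hl.not_isUnit (isUnit_of_dvd_one (hQ 0 1 this))
    -- even coefficients of `g`
    have hrec : ∀ k : ℕ, Qe * coeff (2 * k) g = c ^ 2 * coeff (2 * (k + 1)) g := by
      intro k
      have := congrArg (coeff (2 * (k + 1))) hg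
      rw [coeff_quad_mul, coeff_C, if_neg (by omega), if_pos (by omega)] at this
      have e1 : 2 * (k + 1) - 2 = 2 * k := by omega
      rw [e1] at this
      linear_combination - this
    have hpow : ∀ k : ℕ, Qe ^ k * coeff 0 g = c ^ (2 * k) * coeff (2 * k) g := by
      intro k
      induction k with
      | zero => simp
      | succ k ih =>
        calc Qe ^ (k + 1) * coeff 0 g = Qe * (Qe ^ k * coeff 0 g) := by ring
          _ = Qe * (c ^ (2 * k) * coeff (2 * k) g) := by rw [ih]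
          _ = c ^ (2 * k) * (Qe * coeff (2 * k) g) := by ring
          _ = c ^ (2 * k) * (c ^ 2 * coeff (2 * (k + 1)) g) := by rw [hrec k]
          _ = c ^ (2 * (k + 1)) * coeff (2 * (k + 1)) g := by ring
    have hg0 : coeff 0 g = 0 := by
      refine eq_zero_of_forall_pow_dvd hl.not_isUnit fun n => ?_
      have h1 : l ^ n ∣ Qe ^ n * coeff 0 g := by
        rw [hpow n, hc]
        refine Dvd.dvd.mul_right ?_ _
        rw [mul_pow, ← pow_mul]
        refine Dvd.dvd.mul_left (pow_dvd_pow l ?_) _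
        have : 1 ≤ e := Nat.one_le_iff_ne_zero.mpr he
        nlinarith
      exact hl.pow_dvd_of_dvd_mul_left n (fun h => hlQ (hl.dvd_of_dvd_pow h)) h1
    have := congrArg (coeff 0) hg
    rw [coeff_quad_mul, coeff_C, if_pos rfl, if_neg (by omega), hg0] at this
    rw [this]; ring
  · rintro rfl
    rw [map_zero]; exact Ideal.zero_mem _

end D3

/-! ### (D4) producing the non-square hypothesis -/

section D4

/-- `Qe` is not a square modulo `l` (in the field of fractions of `C ⧸ l`). -/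
def NonSq {C : Type*} [CommRing C] (l Qe : C) : Prop :=
  ∀ a b : C, l ∣ a ^ 2 - Qe * b ^ 2 → l ∣ b

variable {D : Type*} [CommRing D] [IsDomain D]

/-- over a domain: `a ^ 2 = q * b ^ 2` with the lowest coefficient of `q` a non-square forces
`b = 0`. -/
theorem eq_zero_of_sq_eq_of_lc (q a b : D⟦X⟧) (h : a ^ 2 = q * b ^ 2)
    (hlc : ∀ x y : D, x ^ 2 = coeff q.order.toNat q * y ^ 2 → y = 0) : b = 0 := by
  have h1 := congrArg divXPowOrder h
  rw [divXPowOrder_pow, divXPowOrder_mul, divXPowOrder_pow] at h1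
  have h2 := congrArg constantCoeff h1
  rw [map_pow, map_mul, map_pow, constantCoeff_divXPowOrder (f := q)] at h2
  exact constantCoeff_divXPowOrder_eq_zero_iff.mp (hlc _ _ h2)

/-- over a domain: `a ^ 2 = q * b ^ 2` with `q` of odd order forces `b = 0`. -/
theorem eq_zero_of_sq_eq_of_odd (q a b : D⟦X⟧) (h : a ^ 2 = q * b ^ 2) (hq : q ≠ 0)
    (hodd : Odd q.order.toNat) : b = 0 := by
  by_contra hb
  have ha : a ≠ 0 := by
    rintro rfl
    rw [zero_pow two_ne_zero] at h
    exact (mul_ne_zero hq (pow_ne_zero 2 hb)) h.symm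
  have h1 := congrArg order h
  rw [order_pow, order_mul, order_pow] at h1
  have ea : a.order = (a.order.toNat : ℕ∞) :=
    (ENat.natCast_toNat (ne_of_lt (order_finite_iff_ne_zero.mpr ha))).symm
  have eb : b.order = (b.order.toNat : ℕ∞) :=
    (ENat.natCast_toNat (ne_of_lt (order_finite_iff_ne_zero.mpr hb))).symm
  have eq : q.order = (q.order.toNat : ℕ∞) :=
    (ENat.natCast_toNat (ne_of_lt (order_finite_iff_ne_zero.mpr hq))).symm
  rw [ea, eb, eq] at h1
  have h2 : 2 * a.order.toNat = q.order.toNat + 2 * b.order.toNat := by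
    have : ((2 * a.order.toNat : ℕ) : ℕ∞) = ((q.order.toNat + 2 * b.order.toNat : ℕ) : ℕ∞) := by
      push_cast
      simpa [two_nsmul, two_mul] using h1
    exact_mod_cast this
  obtain ⟨k, hk⟩ := hodd
  omega

variable {B : Type*} [CommRing B]

/-- divisibility by a constant is detected coefficientwise modulo that constant. -/
theorem C_dvd_iff_map_eq_zero (lam : B) (f : B⟦X⟧) :
    PowerSeries.C lam ∣ f ↔ PowerSeries.map (Ideal.Quotient.mk (Ideal.span {lam})) f = 0 := by
  constructor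
  · rintro ⟨g, rfl⟩
    rw [map_mul, PowerSeries.map_C]
    have : Ideal.Quotient.mk (Ideal.span {lam}) lam = 0 :=
      Ideal.Quotient.eq_zero_iff_mem.mpr (Ideal.mem_span_singleton_self lam)
    rw [this, map_zero, zero_mul]
  · intro h
    have hcoef : ∀ n, lam ∣ coeff n f := by
      intro n
      have := congrArg (coeff n) h
      rw [coeff_map, map_zero, Ideal.Quotient.eq_zero_iff_mem, Ideal.mem_span_singleton] at this
      exact this
    choose g hg using hcoef
    refine ⟨PowerSeries.mk g, ?_⟩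
    ext n
    rw [coeff_C_mul, coeff_mk, hg n]

theorem prime_C {lam : B} (hlam : Prime lam) : Prime (PowerSeries.C lam : B⟦X⟧) := by
  have hP : (Ideal.span {lam} : Ideal B).IsPrime :=
    (Ideal.span_singleton_prime hlam.ne_zero).mpr hlam
  have : IsDomain (B ⧸ (Ideal.span {lam} : Ideal B)) := Ideal.Quotient.isDomain _
  refine ⟨?_, ?_, fun f g hfg => ?_⟩
  · intro h
    have := congrArg constantCoeff h
    rw [constantCoeff_C, map_zero] at this
    exact hlam.ne_zero this
  · intro h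
    have := isUnit_iff_constantCoeff.mp h
    rw [constantCoeff_C] at this
    exact hlam.not_isUnit this
  · rw [C_dvd_iff_map_eq_zero] at hfg ⊢
    rw [C_dvd_iff_map_eq_zero]
    rw [map_mul] at hfg
    exact mul_eq_zero.mp hfg

/-- transfer: non-squareness of the reduction in `(B ⧸ lam)⟦X⟧` gives `NonSq (C lam) Qe`. -/
theorem nonSq_C_of_map (lam : B) (Qe : B⟦X⟧)
    (h : ∀ a b : (B ⧸ (Ideal.span {lam} : Ideal B))⟦X⟧,
      a ^ 2 = PowerSeries.map (Ideal.Quotient.mk (Ideal.span {lam})) Qe * b ^ 2 → b = 0) :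
    NonSq (PowerSeries.C lam) Qe := by
  intro a b hab
  rw [C_dvd_iff_map_eq_zero] at hab ⊢
  refine h (PowerSeries.map (Ideal.Quotient.mk (Ideal.span {lam})) a) _ ?_
  rw [map_sub, map_mul, map_pow, map_pow, sub_eq_zero] at hab
  exact hab

/-- `NonSq (C lam) Qe` when the reduction of `Qe` modulo `lam` has odd order. -/
theorem nonSq_C_of_odd {lam : B} (hlam : Prime lam) (Qe : B⟦X⟧)
    (hq : PowerSeries.map (Ideal.Quotient.mk (Ideal.span {lam})) Qe ≠ 0)
    (hodd : Odd (PowerSeries.map (Ideal.Quotient.mk (Ideal.span {lam})) Qe).order.toNat) :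
    NonSq (PowerSeries.C lam) Qe := by
  have hP : (Ideal.span {lam} : Ideal B).IsPrime :=
    (Ideal.span_singleton_prime hlam.ne_zero).mpr hlam
  have : IsDomain (B ⧸ (Ideal.span {lam} : Ideal B)) := Ideal.Quotient.isDomain _
  exact nonSq_C_of_map lam Qe fun a b h => eq_zero_of_sq_eq_of_odd _ a b h hq hodd

/-- `NonSq (C lam) Qe` when the lowest coefficient of `Qe` not divisible by `lam` is a non-square
modulo `lam`. -/
theorem nonSq_C_of_coeff {lam : B} (hlam : Prime lam) (Qe : B⟦X⟧) (n : ℕ)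
    (hlow : ∀ i < n, lam ∣ coeff i Qe) (hn : NonSq lam (coeff n Qe)) :
    NonSq (PowerSeries.C lam) Qe := by
  have hP : (Ideal.span {lam} : Ideal B).IsPrime :=
    (Ideal.span_singleton_prime hlam.ne_zero).mpr hlam
  have : IsDomain (B ⧸ (Ideal.span {lam} : Ideal B)) := Ideal.Quotient.isDomain _
  set φ := Ideal.Quotient.mk (Ideal.span {lam} : Ideal B) with hφ
  have hzero : ∀ x : B, φ x = 0 ↔ lam ∣ x := fun x => by
    rw [hφ, Ideal.Quotient.eq_zero_iff_mem, Ideal.mem_span_singleton]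
  have hnd : ¬ lam ∣ coeff n Qe := by
    intro hd
    have : lam ∣ (0 : B) ^ 2 - coeff n Qe * 1 ^ 2 := by
      rw [one_pow, mul_one, zero_pow two_ne_zero, zero_sub]; exact (dvd_neg).mpr hd
    exact hlam.not_isUnit (isUnit_of_dvd_one (hn 0 1 this))
  have hord : (PowerSeries.map φ Qe).order = n := by
    rw [order_eq_nat]
    refine ⟨?_, fun i hi => ?_⟩
    · rw [coeff_map, Ne, hzero]; exact hnd
    · rw [coeff_map, hzero]; exact hlow i hi
  refine nonSq_C_of_map lam Qe fun a b h => eq_zero_of_sq_eq_of_lc _ a b h ?_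
  intro x y hxy
  rw [hord, ENat.toNat_natCast, coeff_map] at hxy
  obtain ⟨x, rfl⟩ := Ideal.Quotient.mk_surjective x
  obtain ⟨y, rfl⟩ := Ideal.Quotient.mk_surjective y
  rw [← map_pow, ← map_pow, ← map_mul, ← sub_eq_zero, ← map_sub] at hxy
  exact (hzero _).mpr (hn x y ((hzero _).mp hxy))

/-- instance for the non-scalar ring: `X` is a non-square modulo a constant prime. -/
theorem nonSq_C_X {lam : B} (hlam : Prime lam) : NonSq (PowerSeries.C lam) (X : B⟦X⟧) := by
  have hP : (Ideal.span {lam} : Ideal B).IsPrime :=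
    (Ideal.span_singleton_prime hlam.ne_zero).mpr hlam
  have : IsDomain (B ⧸ (Ideal.span {lam} : Ideal B)) := Ideal.Quotient.isDomain _
  refine nonSq_C_of_odd hlam X ?_ ?_
  · rw [PowerSeries.map_X]; exact X_ne_zero
  · rw [PowerSeries.map_X, order_X]; exact ⟨0, rfl⟩

/-- `X * C v` is a non-square modulo a constant prime not dividing `v`. -/
theorem nonSq_C_X_mul_C {lam : B} (hlam : Prime lam) {v : B} (hv : ¬ lam ∣ v) :
    NonSq (PowerSeries.C lam) (X * PowerSeries.C v : B⟦X⟧) := by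
  have hP : (Ideal.span {lam} : Ideal B).IsPrime :=
    (Ideal.span_singleton_prime hlam.ne_zero).mpr hlam
  have : IsDomain (B ⧸ (Ideal.span {lam} : Ideal B)) := Ideal.Quotient.isDomain _
  have hv' : Ideal.Quotient.mk (Ideal.span {lam} : Ideal B) v ≠ 0 := by
    rw [Ne, Ideal.Quotient.eq_zero_iff_mem, Ideal.mem_span_singleton]; exact hv
  have hC : (PowerSeries.C (Ideal.Quotient.mk (Ideal.span {lam} : Ideal B) v) :
      (B ⧸ (Ideal.span {lam} : Ideal B))⟦X⟧) ≠ 0 := by
    intro h
    have := congrArg constantCoeff h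
    rw [constantCoeff_C, map_zero] at this
    exact hv' this
  refine nonSq_C_of_odd hlam _ ?_ ?_
  · rw [map_mul, PowerSeries.map_X, PowerSeries.map_C]
    exact mul_ne_zero X_ne_zero hC
  · rw [map_mul, PowerSeries.map_X, PowerSeries.map_C, order_mul, order_X]
    have : (PowerSeries.C (Ideal.Quotient.mk (Ideal.span {lam} : Ideal B) v) :
        (B ⧸ (Ideal.span {lam} : Ideal B))⟦X⟧).order = 0 := by
      rw [← Nat.cast_zero, order_eq_nat]
      refine ⟨?_, fun i hi => absurd hi (Nat.not_lt_zero i)⟩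
      rw [coeff_zero_eq_constantCoeff_apply, constantCoeff_C]; exact hv'
    rw [this, add_zero]; exact ⟨0, rfl⟩

/-- instance for the scalar chart: `X ^ 2 + C w` with `w` a non-square modulo `lam`. -/
theorem nonSq_C_X_sq_add_C {lam : B} (hlam : Prime lam) {w : B} (hw : NonSq lam w) :
    NonSq (PowerSeries.C lam) (X ^ 2 + PowerSeries.C w : B⟦X⟧) := by
  refine nonSq_C_of_coeff hlam _ 0 (fun i hi => absurd hi (Nat.not_lt_zero i)) ?_
  have : coeff 0 (X ^ 2 + PowerSeries.C w : B⟦X⟧) = w := by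
    rw [map_add, coeff_X_pow, coeff_C, if_neg (by omega), if_pos rfl, zero_add]
  rw [this]; exact hw

end D4

/-! ### The two instances used by the local rings at `q` -/

section instances

variable {B : Type*} [CommRing B] [IsDomain B] [IsNoetherianRing B]

/-- the unit `C u` of `B⟦X⟧`. -/
noncomputable def unitC (u : Bˣ) : (B⟦X⟧)ˣ := Units.map (PowerSeries.C (R := B)).toMonoidHom u

omit [IsDomain B] [IsNoetherianRing B] in
theorem C_eq_unitC_mul {lam : B} (c : B) (u : Bˣ) (e : ℕ) (hc : c = u * lam ^ e) :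
    (PowerSeries.C c : B⟦X⟧) = (unitC u : B⟦X⟧) * PowerSeries.C lam ^ e := by
  rw [hc, map_mul, map_pow]; rfl

/-- NON-SCALAR case: `B⟦Δ⟧⟦v⟧ ⧸ (Δ * v ^ 2 - c ^ 2)` is a domain. -/
theorem isPrime_span_quad_X {lam : B} (hlam : Prime lam) (c : B) (u : Bˣ) (e : ℕ) (he : e ≠ 0)
    (hc : c = u * lam ^ e) :
    (Ideal.span {quad (X : B⟦X⟧) (PowerSeries.C c)} : Ideal B⟦X⟧⟦X⟧).IsPrime :=
  isPrime_span_quad (prime_C hlam) _ _ (unitC u) e he (C_eq_unitC_mul c u e hc)
    (nonSq_C_X hlam)

/-- SCALAR chart: `B⟦u₀⟧⟦s₂⟧ ⧸ ((u₀ ^ 2 + w) * s₂ ^ 2 - c ^ 2)` is a domain when `w` is not a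
square modulo `lam`. -/
theorem isPrime_span_quad_X_sq_add_C {lam : B} (hlam : Prime lam) (c : B) (u : Bˣ) (e : ℕ)
    (he : e ≠ 0) (hc : c = u * lam ^ e) {w : B} (hw : NonSq lam w) :
    (Ideal.span {quad (X ^ 2 + PowerSeries.C w : B⟦X⟧) (PowerSeries.C c)} :
      Ideal B⟦X⟧⟦X⟧).IsPrime :=
  isPrime_span_quad (prime_C hlam) _ _ (unitC u) e he (C_eq_unitC_mul c u e hc)
    (nonSq_C_X_sq_add_C hlam hw)

end instances

end Fermat.Agent.GB.Local.Dom
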