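/-
GATE-B, B1-LITE (C1)(C2) (helper51): the chart domain `D_ξ` of the scalar case at `q`, in the
representation `MvPowerSeries (Fin 5) O` that `S53/PSEval` can evaluate.

Index convention:  `X 0 = s₂`,  `X 1, X 2, X 3 = u₀, u₁, u₂`,  `X 4 = s₁`.
The chart is `(A₀, N₀) = (s₁ • u, s₂ • u)` and the relation is `s₂² Q(u) = c²`,
`Q(u) = u₀² + u₁ u₂`.
-/
import Mathlib
import Fermat.Agent.GB.Local.Dom

set_option autoImplicit false

namespace Fermat.Agent.GB.Local.Chart

open MvPowerSeries Fermat.Agent.GB.Local.Dom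

/-! ### Generalities on `MvPowerSeries` -/

section general

variable {σ : Type*} {B : Type*} [CommRing B]

instance instIsDomainMv [IsDomain B] : IsDomain (MvPowerSeries σ B) :=
  NoZeroDivisors.to_isDomain _

/-- divisibility by a constant is detected coefficientwise modulo that constant. -/
theorem C_dvd_iff_map_eq_zero (lam : B) (f : MvPowerSeries σ B) :
    (C lam : MvPowerSeries σ B) ∣ f ↔
      MvPowerSeries.map (Ideal.Quotient.mk (Ideal.span {lam})) f = 0 := by
  classical
  constructor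
  · rintro ⟨g, rfl⟩
    rw [map_mul, MvPowerSeries.map_C]
    have : Ideal.Quotient.mk (Ideal.span {lam}) lam = 0 :=
      Ideal.Quotient.eq_zero_iff_mem.mpr (Ideal.mem_span_singleton_self lam)
    rw [this, map_zero, zero_mul]
  · intro h
    have hcoef : ∀ n, lam ∣ coeff n f := by
      intro n
      have := congrArg (coeff n) h
      rw [coeff_map, map_zero, Ideal.Quotient.eq_zero_iff_mem, Ideal.mem_span_singleton] at this
      exact this
    choose g hg using hcoef
    let G : MvPowerSeries σ B := fun n => g n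
    refine ⟨G, ?_⟩
    ext n
    rw [coeff_C_mul]
    exact hg n

theorem prime_C {lam : B} (hlam : Prime lam) : Prime (C lam : MvPowerSeries σ B) := by
  have hP : (Ideal.span {lam} : Ideal B).IsPrime :=
    (Ideal.span_singleton_prime hlam.ne_zero).mpr hlam
  have : IsDomain (B ⧸ (Ideal.span {lam} : Ideal B)) := Ideal.Quotient.isDomain _
  refine ⟨?_, ?_, fun f g hfg => ?_⟩
  · intro h
    have := congrArg constantCoeff h
    rw [constantCoeff_C, map_zero] at this
    exact hlam.ne_zero this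
  · intro h
    have := (MvPowerSeries.isUnit_iff_constantCoeff).mp h
    rw [constantCoeff_C] at this
    exact hlam.not_isUnit this
  · rw [C_dvd_iff_map_eq_zero] at hfg ⊢
    rw [C_dvd_iff_map_eq_zero]
    rw [map_mul] at hfg
    exact mul_eq_zero.mp hfg

/-- `NonSq` is invariant under ring isomorphisms. -/
theorem nonSq_of_equiv {C C' : Type*} [CommRing C] [CommRing C'] (e : C ≃+* C') {l Qe : C}
    (h : NonSq (e l) (e Qe)) : NonSq l Qe := by
  intro a b hab
  have h1 : e l ∣ e a ^ 2 - e Qe * e b ^ 2 := by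
    have := map_dvd e hab
    simpa [map_sub, map_mul, map_pow] using this
  have h2 := h (e a) (e b) h1
  have := map_dvd e.symm h2
  simpa using this

end general

/-! ### The chart polynomial -/

section chart

variable {O : Type*} [CommRing O]

/-- the quadratic form `Q(u) = u₀² + u₁ u₂` in the first three of `n + 3` variables. -/
noncomputable def Qform (n : ℕ) : MvPowerSeries (Fin (n + 3)) O :=
  X 0 ^ 2 + X 1 * X 2

/-- the chart relation `s₂² Q(u) - c²` in `O[[s₂, u₀, u₁, u₂, s₁]]`. -/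
noncomputable def EEpoly (c : O) : MvPowerSeries (Fin 5) O :=
  X 0 ^ 2 * (X 1 ^ 2 + X 2 * X 3) - C (c ^ 2)

theorem finSuccEquiv_EEpoly (c : O) :
    finSuccEquiv O 4 (EEpoly c) = quad (Qform (O := O) 1) (C c) := by
  have h1 : (1 : Fin 5) = Fin.succ (0 : Fin 4) := rfl
  have h2 : (2 : Fin 5) = Fin.succ (1 : Fin 4) := rfl
  have h3 : (3 : Fin 5) = Fin.succ (2 : Fin 4) := rfl
  simp only [EEpoly, quad, Qform, map_sub, map_mul, map_pow, map_add, finSuccEquiv_X_zero, h1,
    h2, h3, finSuccEquiv_X_succ, finSuccEquiv_C]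
  ring

end chart

/-! ### The chart ideal is prime -/

section main

variable {O : Type*} [CommRing O]

theorem not_C_dvd_X {n : ℕ} {lam : O} (hlam : ¬ IsUnit lam) (i : Fin n) :
    ¬ (C lam : MvPowerSeries (Fin n) O) ∣ X i := by
  classical
  rintro ⟨g, hg⟩
  have := congrArg (coeff (Finsupp.single i 1)) hg
  rw [coeff_X, if_pos rfl, coeff_C_mul] at this
  exact hlam (IsUnit.of_mul_eq_one _ this.symm)

theorem nonSq_X_mul_X {lam : O} (hlam : Prime lam) :
    NonSq (C lam : MvPowerSeries (Fin 3) O) (X 0 * X 1) := by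
  refine nonSq_of_equiv (finSuccEquiv O 2).toRingEquiv ?_
  have h1 : (1 : Fin 3) = Fin.succ (0 : Fin 2) := rfl
  have e1 : (finSuccEquiv O 2).toRingEquiv (C lam) = PowerSeries.C (C lam) := by
    simp
  have e2 : (finSuccEquiv O 2).toRingEquiv (X 0 * X 1)
      = PowerSeries.X * PowerSeries.C (X 0 : MvPowerSeries (Fin 2) O) := by
    show (finSuccEquiv O 2) (X 0 * X 1) = _
    rw [map_mul, finSuccEquiv_X_zero, h1, finSuccEquiv_X_succ]
  rw [e1, e2]
  exact nonSq_C_X_mul_C (prime_C hlam) (not_C_dvd_X hlam.not_isUnit 0)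

theorem nonSq_Qform {lam : O} (hlam : Prime lam) :
    NonSq (C lam : MvPowerSeries (Fin 4) O) (Qform 1) := by
  refine nonSq_of_equiv (finSuccEquiv O 3).toRingEquiv ?_
  have h1 : (1 : Fin 4) = Fin.succ (0 : Fin 3) := rfl
  have h2 : (2 : Fin 4) = Fin.succ (1 : Fin 3) := rfl
  have e1 : (finSuccEquiv O 3).toRingEquiv (C lam) = PowerSeries.C (C lam) := by
    simp
  have e2 : (finSuccEquiv O 3).toRingEquiv (Qform 1)
      = PowerSeries.X ^ 2 + PowerSeries.C (X 0 * X 1 : MvPowerSeries (Fin 3) O) := by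
    show (finSuccEquiv O 3) (Qform 1) = _
    rw [Qform, map_add, map_pow, map_mul, finSuccEquiv_X_zero, h1, h2, finSuccEquiv_X_succ,
      finSuccEquiv_X_succ, map_mul]
  rw [e1, e2]
  exact nonSq_C_X_sq_add_C (prime_C hlam) (nonSq_X_mul_X hlam)

variable [IsDomain O] [IsNoetherianRing O]

/-- the unit `C u` of `MvPowerSeries σ O`. -/
noncomputable def unitCMv (σ : Type*) (u : Oˣ) : (MvPowerSeries σ O)ˣ :=
  Units.map (C (σ := σ) (R := O)).toMonoidHom u

omit [IsDomain O] [IsNoetherianRing O] in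
theorem C_eq_unitCMv_mul (σ : Type*) {lam : O} (c : O) (u : Oˣ) (e : ℕ) (hc : c = u * lam ^ e) :
    (C c : MvPowerSeries σ O) = (unitCMv σ u : MvPowerSeries σ O) * C lam ^ e := by
  rw [hc, map_mul, map_pow]; rfl

omit [IsDomain O] [IsNoetherianRing O] in
theorem mem_span_EEpoly_iff (c : O) (x : MvPowerSeries (Fin 5) O) :
    x ∈ (Ideal.span {EEpoly c} : Ideal (MvPowerSeries (Fin 5) O)) ↔
      finSuccEquiv O 4 x ∈
        (Ideal.span {quad (Qform (O := O) 1) (C c)} :
          Ideal (PowerSeries (MvPowerSeries (Fin 4) O))) := by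
  rw [Ideal.mem_span_singleton, Ideal.mem_span_singleton, ← finSuccEquiv_EEpoly]
  exact (map_dvd_iff (finSuccEquiv O 4)).symm

/-- **the chart ring `D_ξ = O[[s₂,u₀,u₁,u₂,s₁]] ⧸ (s₂² Q(u) - c²)` is a domain.** -/
theorem isPrime_span_EEpoly {lam : O} (hlam : Prime lam) (c : O) (u : Oˣ) (e : ℕ) (he : e ≠ 0)
    (hc : c = u * lam ^ e) :
    (Ideal.span {EEpoly c} : Ideal (MvPowerSeries (Fin 5) O)).IsPrime := by
  have hq : (Ideal.span {quad (Qform (O := O) 1) (C c)} :
      Ideal (PowerSeries (MvPowerSeries (Fin 4) O))).IsPrime :=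
    isPrime_span_quad (prime_C hlam) _ _ (unitCMv (Fin 4) u) e he
      (C_eq_unitCMv_mul (Fin 4) c u e hc) (nonSq_Qform hlam)
  have : (Ideal.span {EEpoly c} : Ideal (MvPowerSeries (Fin 5) O)) =
      Ideal.comap (finSuccEquiv O 4 : MvPowerSeries (Fin 5) O →+* _)
        (Ideal.span {quad (Qform (O := O) 1) (C c)}) := by
    ext x
    rw [mem_span_EEpoly_iff, Ideal.mem_comap]; rfl
  rw [this]
  exact Ideal.comap_isPrime _ _

/-- `O` injects into the chart ring. -/
theorem C_mem_span_EEpoly_iff {lam : O} (hlam : Prime lam) (c : O) (u : Oˣ) (e : ℕ) (he : e ≠ 0)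
    (hc : c = u * lam ^ e) (a : O) :
    (C a : MvPowerSeries (Fin 5) O) ∈
      (Ideal.span {EEpoly c} : Ideal (MvPowerSeries (Fin 5) O)) ↔ a = 0 := by
  rw [mem_span_EEpoly_iff, finSuccEquiv_C,
    C_mem_span_quad_iff (prime_C hlam) _ _ (unitCMv (Fin 4) u) e he
      (C_eq_unitCMv_mul (Fin 4) c u e hc) (nonSq_Qform hlam)]
  constructor
  · intro h
    have := congrArg constantCoeff h
    rwa [constantCoeff_C, map_zero] at this
  · rintro rfl; exact map_zero _

end main

/-! ### (b2): the special fibre of the chart, `t̄` is not nilpotent -/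

section residue

variable {O : Type*} [CommRing O]

theorem Qform_ne_zero {k : Type*} [CommRing k] [Nontrivial k] (n : ℕ) :
    (Qform n : MvPowerSeries (Fin (n + 3)) k) ≠ 0 := by
  classical
  intro h
  have := congrArg (coeff (Finsupp.single (0 : Fin (n + 3)) 2)) h
  rw [Qform, map_add, coeff_X_pow, if_pos rfl, X_def, X_def, monomial_mul_monomial,
    coeff_monomial, if_neg, add_zero, map_zero] at this
  · exact one_ne_zero this
  · intro h'
    have h20 : (2 : Fin (n + 3)) ≠ 0 := by
      intro h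
      have := congrArg Fin.val h
      rw [Fin.val_zero] at this
      have h2 : ((2 : Fin (n + 3)) : ℕ) = 2 := by
        show (2 : ℕ) % (n + 3) = 2
        exact Nat.mod_eq_of_lt (by omega)
      omega
    have := DFunLike.congr_fun h' (0 : Fin (n + 3))
    simp [h20] at this

/-- the residue map of the chart: kill `lam` and `s₂ = X 0`; the remaining variables
`u₀, u₁, u₂, s₁` become `X 0, X 1, X 2, X 3`. -/
noncomputable def resHom (lam : O) :
    MvPowerSeries (Fin 5) O →+* MvPowerSeries (Fin 4) (O ⧸ (Ideal.span {lam} : Ideal O)) :=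
  (MvPowerSeries.map (Ideal.Quotient.mk (Ideal.span {lam}))).comp
    ((PowerSeries.constantCoeff (R := MvPowerSeries (Fin 4) O)).comp
      (finSuccEquiv O 4 : MvPowerSeries (Fin 5) O →+* PowerSeries (MvPowerSeries (Fin 4) O)))

theorem resHom_X_zero (lam : O) : resHom lam (X 0) = 0 := by
  simp [resHom]

theorem resHom_X_succ (lam : O) (j : Fin 4) : resHom lam (X j.succ) = X j := by
  simp [resHom]

theorem resHom_C (lam a : O) :
    resHom lam (C a) = C (Ideal.Quotient.mk (Ideal.span {lam}) a) := by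
  simp [resHom]

theorem resHom_C_lam (lam : O) : resHom lam (C lam) = 0 := by
  rw [resHom_C]
  have : Ideal.Quotient.mk (Ideal.span {lam}) lam = 0 :=
    Ideal.Quotient.eq_zero_iff_mem.mpr (Ideal.mem_span_singleton_self lam)
  rw [this, map_zero]

theorem resHom_EEpoly {lam c : O} (hc : lam ∣ c) : resHom lam (EEpoly c) = 0 := by
  have h0 : Ideal.Quotient.mk (Ideal.span {lam}) (c ^ 2) = 0 := by
    rw [Ideal.Quotient.eq_zero_iff_mem, Ideal.mem_span_singleton]
    exact Dvd.dvd.mul_right hc _ |> fun h => by simpa [pow_two] using h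
  rw [EEpoly, map_sub, map_mul, map_pow, resHom_X_zero, resHom_C, h0, map_zero]
  ring

/-- everything in `(EEpoly c) + (lam)` dies under the residue map. -/
theorem resHom_eq_zero_of_mem {lam c : O} (hc : lam ∣ c) {x : MvPowerSeries (Fin 5) O}
    (hx : x ∈ (Ideal.span {EEpoly c} ⊔ Ideal.span {C lam} : Ideal (MvPowerSeries (Fin 5) O))) :
    resHom lam x = 0 := by
  obtain ⟨y, hy, z, hz, rfl⟩ := Submodule.mem_sup.mp hx
  obtain ⟨r, rfl⟩ := Ideal.mem_span_singleton'.mp hy
  obtain ⟨r', rfl⟩ := Ideal.mem_span_singleton'.mp hz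
  rw [map_add, map_mul, map_mul, resHom_EEpoly hc, resHom_C_lam, mul_zero, mul_zero, add_zero]

/-- the image of `t` in the chart, up to the unit `4` and modulo `lam`: `s₁² Q(u)`. -/
noncomputable def Tchart : MvPowerSeries (Fin 5) O :=
  X 4 ^ 2 * (X 1 ^ 2 + X 2 * X 3)

theorem resHom_Tchart (lam : O) :
    resHom lam (Tchart (O := O)) = X 3 ^ 2 * Qform 1 := by
  have h1 : (1 : Fin 5) = Fin.succ (0 : Fin 4) := rfl
  have h2 : (2 : Fin 5) = Fin.succ (1 : Fin 4) := rfl
  have h3 : (3 : Fin 5) = Fin.succ (2 : Fin 4) := rfl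
  have h4 : (4 : Fin 5) = Fin.succ (3 : Fin 4) := rfl
  rw [Tchart, Qform, map_mul, map_pow, map_add, map_pow, map_mul, h1, h2, h3, h4, resHom_X_succ,
    resHom_X_succ, resHom_X_succ, resHom_X_succ]

/-- **(b2)** in the chart ring modulo `lam`, no power of `v * s₁² Q(u)` (`v ∉ (lam)`) vanishes. -/
theorem pow_not_mem_of_sub_mem {lam : O} (hlam : Prime lam) {c : O} (hc : lam ∣ c) {v : O}
    (hv : ¬ lam ∣ v) {y : MvPowerSeries (Fin 5) O}
    (hy : y - C v * Tchart ∈
      (Ideal.span {EEpoly c} ⊔ Ideal.span {C lam} : Ideal (MvPowerSeries (Fin 5) O))) (n : ℕ) :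
    y ^ n ∉ (Ideal.span {EEpoly c} ⊔ Ideal.span {C lam} : Ideal (MvPowerSeries (Fin 5) O)) := by
  have hP : (Ideal.span {lam} : Ideal O).IsPrime :=
    (Ideal.span_singleton_prime hlam.ne_zero).mpr hlam
  have : IsDomain (O ⧸ (Ideal.span {lam} : Ideal O)) := Ideal.Quotient.isDomain _
  intro hmem
  have h1 := resHom_eq_zero_of_mem hc hmem
  have h2 := resHom_eq_zero_of_mem hc hy
  rw [map_sub, sub_eq_zero, map_mul, resHom_C, resHom_Tchart] at h2
  rw [map_pow, h2] at h1
  have hv' : (C (Ideal.Quotient.mk (Ideal.span {lam}) v) :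
      MvPowerSeries (Fin 4) (O ⧸ (Ideal.span {lam} : Ideal O))) ≠ 0 := by
    intro h
    have := congrArg constantCoeff h
    rw [constantCoeff_C, map_zero, Ideal.Quotient.eq_zero_iff_mem, Ideal.mem_span_singleton] at this
    exact hv this
  have hX : (X 3 : MvPowerSeries (Fin 4) (O ⧸ (Ideal.span {lam} : Ideal O))) ≠ 0 := by
    classical
    intro h
    have := congrArg (coeff (Finsupp.single (3 : Fin 4) 1)) h
    rw [coeff_X, if_pos rfl, map_zero] at this
    exact one_ne_zero this
  exact (pow_ne_zero n (mul_ne_zero hv' (mul_ne_zero (pow_ne_zero 2 hX) (Qform_ne_zero 1)))) h1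

/-- the same for `D₁ = O[[a₀,a₁,a₂]]` (`Σ = 1`): no power of `v * Q(a)` lies in `(lam)`. -/
theorem pow_not_mem_span_C {lam : O} (hlam : Prime lam) {v : O} (hv : ¬ lam ∣ v)
    {y : MvPowerSeries (Fin 3) O}
    (hy : y - C v * Qform 0 ∈ (Ideal.span {C lam} : Ideal (MvPowerSeries (Fin 3) O))) (n : ℕ) :
    y ^ n ∉ (Ideal.span {C lam} : Ideal (MvPowerSeries (Fin 3) O)) := by
  have hP : (Ideal.span {lam} : Ideal O).IsPrime :=
    (Ideal.span_singleton_prime hlam.ne_zero).mpr hlam
  have : IsDomain (O ⧸ (Ideal.span {lam} : Ideal O)) := Ideal.Quotient.isDomain _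
  rw [Ideal.mem_span_singleton, C_dvd_iff_map_eq_zero] at hy ⊢
  rw [map_sub, sub_eq_zero, map_mul, MvPowerSeries.map_C] at hy
  rw [map_pow, hy]
  have hv' : (C (Ideal.Quotient.mk (Ideal.span {lam}) v) :
      MvPowerSeries (Fin 3) (O ⧸ (Ideal.span {lam} : Ideal O))) ≠ 0 := by
    intro h
    have := congrArg constantCoeff h
    rw [constantCoeff_C, map_zero, Ideal.Quotient.eq_zero_iff_mem, Ideal.mem_span_singleton] at this
    exact hv this
  have hQ : MvPowerSeries.map (Ideal.Quotient.mk (Ideal.span {lam})) (Qform 0 : MvPowerSeries (Fin 3) O)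
      = Qform 0 := by
    simp [Qform]
  rw [hQ]
  exact pow_ne_zero n (mul_ne_zero hv' (Qform_ne_zero 0))

end residue

end Fermat.Agent.GB.Local.Chart
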