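/-
GATE-B / B1 LOC, node GB-LOC-B1LITE (helper54), file 1: the ring `Rloc` and its primes.

The local ring at `q` used by the Ihara-avoidance patching argument (CELL-B DESIGN v1, board 4996;
B1-LITE form, board 5100/5112).  NO universal framed ring is analysed.  Instead:

* `P6 = O⟦a₀,a₁,a₂,n₀,n₁,n₂⟧` : coordinates of the traceless parts of `Φ` and `Σ`;
* `D1 = O⟦a₀,a₁,a₂⟧`           : the points with `Σ = 1`,                 `toD1 : P6 → D1`;
* `EE c = O⟦s₂,u₀,u₁,u₂,s₁⟧ ⧸ (s₂² Q(u) − c²)` : helper51's scalar chart, `toEE c : P6 → EE c`,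
  `aᵢ ↦ s₁ uᵢ`, `nᵢ ↦ s₂ uᵢ`,  `Q(u) = u₀² + u₁ u₂`;
* `J 𝒞 = ker toD1 ⊓ ⨅ c ∈ 𝒞, ker (toEE c)`,  `Rloc 𝒞 = P6 ⧸ J 𝒞`.

Exports of this file:
* `evalHom`, `evalHom_X`, `evalHom_unique` : evaluation of power series (on `S53/PSEval`);
* `exists_ker_le` (R1) : every prime containing `J 𝒞` contains one of the named kernels;
* `notMem_radical_of_witness` : abstract radical test;
* `ker_toEE_le_ker_evalPair`, `ker_toD1_le_ker_evalPair`, `J_le_ker_evalPair_*` (R4) : a point of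
  the form `(a, n) = (s₁ • u, s₂ • u)` with `s₂² Q(u) = c²` (or with `n = 0`) kills `J 𝒞`;
* `tElt d = 4 Q(a) − d²` (`d = q − 1`), the test element; `toD1_tElt`, `toP5_tElt`;
* instances `Nontrivial`, `IsLocalRing` for `Rloc 𝒞` (`IsNoetherianRing` is automatic).

The relation of the chart is helper51's `Chart.EEpoly c` (`GB/Local/Chart.lean`), so that
`Rloc.EE O c` is syntactically his `MvPowerSeries (Fin 5) O ⧸ span {EEpoly c}`.
-/
import Mathlib
import Fermat.Agent.S53.PSEval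
import Fermat.Agent.S53.PSComplete
import Fermat.Agent.S53.PSBasic
import Fermat.Agent.GB.Local.Chart

set_option autoImplicit false
set_option linter.unusedSectionVars false
set_option linter.dupNamespace false

open IsLocalRing MvPowerSeries

namespace Fermat.Agent.GB.Local.Rloc

/-! ### Abstract lemmas -/

section Abstract

/-- a prime containing a finite intersection of ideals contains one of them -/
theorem exists_le_of_inf_le {P : Type*} [CommRing P] {ι : Type*} (s : Finset ι) (K : ι → Ideal P)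
    {𝔭 : Ideal P} (h𝔭 : 𝔭.IsPrime) (h : s.inf K ≤ 𝔭) : ∃ i ∈ s, K i ≤ 𝔭 :=
  (Ideal.IsPrime.inf_le' h𝔭).1 h

/-- **radical test**: if `ρ ∘ π` kills `lam` but not `t`, with values in a domain, then `t` is not
nilpotent modulo `ker π + (lam)`. -/
theorem notMem_radical_of_witness {P D E : Type*} [CommRing P] [CommRing D] [CommRing E]
    [IsDomain E] (π : P →+* D) (ρ : D →+* E) (lam t : P) (hlam : ρ (π lam) = 0)
    (ht : ρ (π t) ≠ 0) : t ∉ (RingHom.ker π ⊔ Ideal.span {lam}).radical := by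
  rintro ⟨n, hn⟩
  obtain ⟨k, hk, y, hy, hky⟩ := Submodule.mem_sup.1 hn
  obtain ⟨r, rfl⟩ := Ideal.mem_span_singleton'.1 hy
  have h1 : ρ (π (t ^ n)) = 0 := by
    rw [← hky, map_add, map_add, (RingHom.mem_ker).1 hk, map_zero, zero_add, map_mul, map_mul,
      hlam, mul_zero]
  rw [map_pow, map_pow] at h1
  exact ht (eq_zero_of_pow_eq_zero h1)

end Abstract

/-! ### Evaluation of power series in complete local algebras -/

section Eval

variable (O : Type*) [CommRing O] [IsLocalRing O]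
variable {ι : Type*} [Finite ι]
variable {A : Type*} [CommRing A] [IsLocalRing A] [Algebra O A]
  [IsAdicComplete (maximalIdeal A) A]

/-- evaluation of power series at elements of the maximal ideal of a complete local algebra -/
noncomputable def evalHom (a : ι → A) (ha : ∀ s, a s ∈ maximalIdeal A) :
    MvPowerSeries ι O →ₐ[O] A :=
  Classical.choose (Fermat.Agent.S53.exists_algHom_X (𝒪 := O) a ha)

@[simp] theorem evalHom_X (a : ι → A) (ha : ∀ s, a s ∈ maximalIdeal A) (s : ι) :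
    evalHom O a ha (X s) = a s :=
  Classical.choose_spec (Fermat.Agent.S53.exists_algHom_X (𝒪 := O) a ha) s

theorem evalHom_unique (a : ι → A) (ha : ∀ s, a s ∈ maximalIdeal A)
    (φ : MvPowerSeries ι O →ₐ[O] A) (h : ∀ s, φ (X s) = a s) : φ = evalHom O a ha := by
  refine Fermat.Agent.S53.algHom_ext_X φ _ (fun s => ?_) (fun s => ?_)
  · rw [h]; exact ha s
  · rw [h, evalHom_X]

end Eval

/-! ### The concrete rings -/

section Concrete

variable (O : Type*) [CommRing O] [IsLocalRing O] [IsNoetherianRing O]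
  [IsAdicComplete (maximalIdeal O) O]

/-- the power series rings over `O` are complete (from `S53/PSComplete`) -/
noncomputable local instance instCompletePS (n : ℕ) :
    IsAdicComplete (maximalIdeal (MvPowerSeries (Fin n) O)) (MvPowerSeries (Fin n) O) :=
  Fermat.Agent.S53.isAdicComplete_mvPowerSeries O (Fin n)

/-- the quadratic form `Q(x) = x₀² + x₁ x₂` (`= − det` of the traceless matrix
`(x₀ x₁; x₂ −x₀)`) -/
def Qf {R : Type*} [CommRing R] (x : Fin 3 → R) : R := x 0 ^ 2 + x 1 * x 2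

theorem map_Qf {R S : Type*} [CommRing R] [CommRing S] (f : R →+* S) (x : Fin 3 → R) :
    f (Qf x) = Qf (fun i => f (x i)) := by
  simp only [Qf, map_add, map_pow, map_mul]

theorem Qf_smul {R : Type*} [CommRing R] (s : R) (x : Fin 3 → R) :
    Qf (fun i => s * x i) = s ^ 2 * Qf x := by
  simp only [Qf]; ring

/-- `P6 = O⟦a₀,a₁,a₂,n₀,n₁,n₂⟧` -/
abbrev P6 := MvPowerSeries (Fin 6) O
/-- `P5 = O⟦s₂,u₀,u₁,u₂,s₁⟧` (in this order: `X 0 = s₂`, `X 1,2,3 = u`, `X 4 = s₁`) -/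
abbrev P5 := MvPowerSeries (Fin 5) O
/-- `D1 = O⟦a₀,a₁,a₂⟧` -/
abbrev P3 := MvPowerSeries (Fin 3) O

/-- the coordinates `aᵢ` of `P6` -/
noncomputable def aVar (i : Fin 3) : P6 O := X (Fin.castAdd 3 i)
/-- the coordinates `nᵢ` of `P6` -/
noncomputable def nVar (i : Fin 3) : P6 O := X (Fin.natAdd 3 i)

/-- the coordinate `s₂` of `P5` -/
noncomputable def s2Var : P5 O := X 0
/-- the coordinate `s₁` of `P5` -/
noncomputable def s1Var : P5 O := X 4
/-- the coordinates `uᵢ` of `P5` -/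
noncomputable def uVar (i : Fin 3) : P5 O := X (Fin.castSucc i).succ

theorem aVar_mem (i : Fin 3) : aVar O i ∈ maximalIdeal (P6 O) :=
  Fermat.Agent.S53.X_mem_maximalIdeal O (Fin 6) _

theorem nVar_mem (i : Fin 3) : nVar O i ∈ maximalIdeal (P6 O) :=
  Fermat.Agent.S53.X_mem_maximalIdeal O (Fin 6) _

theorem s2Var_mem : s2Var O ∈ maximalIdeal (P5 O) :=
  Fermat.Agent.S53.X_mem_maximalIdeal O (Fin 5) _

theorem s1Var_mem : s1Var O ∈ maximalIdeal (P5 O) :=
  Fermat.Agent.S53.X_mem_maximalIdeal O (Fin 5) _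

theorem uVar_mem (i : Fin 3) : uVar O i ∈ maximalIdeal (P5 O) :=
  Fermat.Agent.S53.X_mem_maximalIdeal O (Fin 5) _

section EvalPair

variable {O}
variable {A : Type*} [CommRing A] [IsLocalRing A] [Algebra O A]
  [IsAdicComplete (maximalIdeal A) A]

theorem append_mem {a n : Fin 3 → A} (ha : ∀ i, a i ∈ maximalIdeal A)
    (hn : ∀ i, n i ∈ maximalIdeal A) (j : Fin (3 + 3)) :
    Fin.append a n j ∈ maximalIdeal A := by
  induction j using Fin.addCases with
  | left i => rw [Fin.append_left]; exact ha i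
  | right i => rw [Fin.append_right]; exact hn i

/-- evaluation of `P6` at a pair of triples `(a, n)` in the maximal ideal -/
noncomputable def evalPair (a n : Fin 3 → A) (ha : ∀ i, a i ∈ maximalIdeal A)
    (hn : ∀ i, n i ∈ maximalIdeal A) : P6 O →ₐ[O] A :=
  evalHom O (ι := Fin 6) (Fin.append a n) (append_mem ha hn)

@[simp] theorem evalPair_aVar (a n : Fin 3 → A) (ha : ∀ i, a i ∈ maximalIdeal A)
    (hn : ∀ i, n i ∈ maximalIdeal A) (i : Fin 3) : evalPair a n ha hn (aVar O i) = a i := by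
  rw [evalPair, aVar, evalHom_X, Fin.append_left]

@[simp] theorem evalPair_nVar (a n : Fin 3 → A) (ha : ∀ i, a i ∈ maximalIdeal A)
    (hn : ∀ i, n i ∈ maximalIdeal A) (i : Fin 3) : evalPair a n ha hn (nVar O i) = n i := by
  rw [evalPair, nVar, evalHom_X, Fin.append_right]

theorem evalPair_unique (a n : Fin 3 → A) (ha : ∀ i, a i ∈ maximalIdeal A)
    (hn : ∀ i, n i ∈ maximalIdeal A) (φ : P6 O →ₐ[O] A) (h1 : ∀ i, φ (aVar O i) = a i)
    (h2 : ∀ i, φ (nVar O i) = n i) : φ = evalPair a n ha hn := by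
  refine evalHom_unique O _ _ φ fun j => ?_
  have key : ∀ j : Fin (3 + 3), φ (X j) = Fin.append a n j := by
    intro j
    induction j using Fin.addCases with
    | left i => rw [Fin.append_left]; exact h1 i
    | right i => rw [Fin.append_right]; exact h2 i
  exact key j

/-- the family `(s₂, u₀, u₁, u₂, s₁)` -/
def fam5 (s1 s2 : A) (u : Fin 3 → A) : Fin 5 → A :=
  Fin.cons s2 (Fin.snoc u s1)

theorem fam5_mem {s1 s2 : A} {u : Fin 3 → A} (h1 : s1 ∈ maximalIdeal A)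
    (h2 : s2 ∈ maximalIdeal A) (hu : ∀ i, u i ∈ maximalIdeal A) (j : Fin 5) :
    fam5 s1 s2 u j ∈ maximalIdeal A := by
  refine Fin.cases ?_ (fun k => ?_) j
  · rw [fam5, Fin.cons_zero]; exact h2
  · rw [fam5, Fin.cons_succ]
    refine Fin.lastCases ?_ (fun i => ?_) k
    · rw [Fin.snoc_last]; exact h1
    · rw [Fin.snoc_castSucc]; exact hu i

/-- evaluation of `P5` at `(s₁, s₂, u)` in the maximal ideal -/
noncomputable def evalP5 (s1 s2 : A) (u : Fin 3 → A) (h1 : s1 ∈ maximalIdeal A)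
    (h2 : s2 ∈ maximalIdeal A) (hu : ∀ i, u i ∈ maximalIdeal A) : P5 O →ₐ[O] A :=
  evalHom O (ι := Fin 5) (fam5 s1 s2 u) (fam5_mem h1 h2 hu)

@[simp] theorem evalP5_s2Var (s1 s2 : A) (u : Fin 3 → A) (h1 : s1 ∈ maximalIdeal A)
    (h2 : s2 ∈ maximalIdeal A) (hu : ∀ i, u i ∈ maximalIdeal A) :
    evalP5 s1 s2 u h1 h2 hu (s2Var O) = s2 := by
  rw [evalP5, s2Var, evalHom_X, fam5, Fin.cons_zero]

@[simp] theorem evalP5_s1Var (s1 s2 : A) (u : Fin 3 → A) (h1 : s1 ∈ maximalIdeal A)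
    (h2 : s2 ∈ maximalIdeal A) (hu : ∀ i, u i ∈ maximalIdeal A) :
    evalP5 s1 s2 u h1 h2 hu (s1Var O) = s1 := by
  rw [evalP5, s1Var, evalHom_X, fam5]
  exact (Fin.cons_succ _ _ _).trans (Fin.snoc_last _ _)

@[simp] theorem evalP5_uVar (s1 s2 : A) (u : Fin 3 → A) (h1 : s1 ∈ maximalIdeal A)
    (h2 : s2 ∈ maximalIdeal A) (hu : ∀ i, u i ∈ maximalIdeal A) (i : Fin 3) :
    evalP5 s1 s2 u h1 h2 hu (uVar O i) = u i := by
  rw [evalP5, uVar, evalHom_X, fam5, Fin.cons_succ, Fin.snoc_castSucc]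

end EvalPair

/-- the relation `s₂² Q(u) − c²` of the scalar chart is helper51's `Chart.EEpoly c` -/
theorem EEpoly_eq (c : O) :
    (Chart.EEpoly c : P5 O) = s2Var O ^ 2 * Qf (uVar O) - C (c ^ 2) := rfl

/-- helper51's scalar chart `EE c = O⟦s₂,u,s₁⟧ ⧸ (s₂² Q(u) − c²)` -/
abbrev EE (c : O) := P5 O ⧸ (Ideal.span {(Chart.EEpoly c : P5 O)} : Ideal (P5 O))

/-- `P6 → D1`, `a ↦ a`, `n ↦ 0` -/
noncomputable def toD1 : P6 O →ₐ[O] P3 O :=
  evalPair (fun i => (X i : P3 O)) (fun _ => 0)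
    (fun i => Fermat.Agent.S53.X_mem_maximalIdeal O (Fin 3) i) (fun _ => zero_mem _)

/-- `P6 → P5`, `aᵢ ↦ s₁ uᵢ`, `nᵢ ↦ s₂ uᵢ` -/
noncomputable def toP5 : P6 O →ₐ[O] P5 O :=
  evalPair (fun i => s1Var O * uVar O i) (fun i => s2Var O * uVar O i)
    (fun _ => Ideal.mul_mem_right _ _ (s1Var_mem O)) (fun _ => Ideal.mul_mem_right _ _ (s2Var_mem O))

/-- `P6 → EE c` -/
noncomputable def toEE (c : O) : P6 O →ₐ[O] EE O c :=
  (Ideal.Quotient.mkₐ O _).comp (toP5 O)

/-- the ideal `J 𝒞` of `P6` -/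
noncomputable def J (𝒞 : Finset O) : Ideal (P6 O) :=
  RingHom.ker (toD1 O) ⊓ 𝒞.inf fun c => RingHom.ker (toEE O c)

/-- **the local ring of B1** -/
abbrev Rloc (𝒞 : Finset O) := P6 O ⧸ J O 𝒞

/-- **(R1)** a prime of `P6` containing `J 𝒞` contains one of the named kernels -/
theorem exists_ker_le (𝒞 : Finset O) {𝔭 : Ideal (P6 O)} (h𝔭 : 𝔭.IsPrime) (h : J O 𝒞 ≤ 𝔭) :
    RingHom.ker (toD1 O) ≤ 𝔭 ∨ ∃ c ∈ 𝒞, RingHom.ker (toEE O c) ≤ 𝔭 := by
  rcases h𝔭.inf_le.1 h with h1 | h1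
  · exact Or.inl h1
  · exact Or.inr (exists_le_of_inf_le 𝒞 _ h𝔭 h1)

section Factor

variable {O}
variable {A : Type*} [CommRing A] [IsLocalRing A] [Algebra O A]
  [IsAdicComplete (maximalIdeal A) A]

/-- **(R4), `Σ = 1` points** -/
theorem ker_toD1_le_ker_evalPair (a : Fin 3 → A) (ha : ∀ i, a i ∈ maximalIdeal A) :
    RingHom.ker (toD1 O) ≤
      RingHom.ker (evalPair (O := O) a (fun _ => 0) ha (fun _ => zero_mem _)) := by
  have h : evalPair (O := O) a (fun _ => 0) ha (fun _ => zero_mem _) =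
      (evalHom O (ι := Fin 3) a ha).comp (toD1 O) := by
    symm
    refine evalPair_unique _ _ _ _ _ (fun i => ?_) (fun i => ?_)
    · rw [AlgHom.comp_apply, toD1, evalPair_aVar, evalHom_X]
    · rw [AlgHom.comp_apply, toD1, evalPair_nVar, map_zero]
  intro f hf
  rw [RingHom.mem_ker] at hf ⊢
  rw [h, AlgHom.comp_apply, hf, map_zero]

/-- **(R4), type `c` points**: a point of the form `(a, n) = (s₁ u, s₂ u)` with
`s₂² Q(u) = c²` factors through `EE c`. -/
theorem ker_toEE_le_ker_evalPair (c : O) (s1 s2 : A) (u : Fin 3 → A)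
    (h1 : s1 ∈ maximalIdeal A) (h2 : s2 ∈ maximalIdeal A) (hu : ∀ i, u i ∈ maximalIdeal A)
    (hrel : s2 ^ 2 * Qf u = algebraMap O A c ^ 2) :
    RingHom.ker (toEE O c) ≤
      RingHom.ker (evalPair (O := O) (fun i => s1 * u i) (fun i => s2 * u i)
        (fun _ => Ideal.mul_mem_right _ _ h1) (fun _ => Ideal.mul_mem_right _ _ h2)) := by
  set ψ := evalP5 (O := O) s1 s2 u h1 h2 hu with hψ
  have hfC : ψ (Chart.EEpoly c) = 0 := by
    have hC : ψ (C (c ^ 2) : P5 O) = algebraMap O A c ^ 2 := by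
      have : (C (c ^ 2) : P5 O) = algebraMap O (P5 O) (c ^ 2) := rfl
      rw [this, AlgHom.commutes, map_pow]
    have hQ : ψ (Qf (uVar O)) = Qf u := by
      simp only [Qf, map_add, map_pow, map_mul, hψ, evalP5_uVar]
    rw [EEpoly_eq, map_sub, map_mul, map_pow, hQ, hC, hψ, evalP5_s2Var, hrel, sub_self]
  have h : evalPair (O := O) (fun i => s1 * u i) (fun i => s2 * u i)
      (fun _ => Ideal.mul_mem_right _ _ h1) (fun _ => Ideal.mul_mem_right _ _ h2) =
      ψ.comp (toP5 O) := by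
    symm
    refine evalPair_unique _ _ _ _ _ (fun i => ?_) (fun i => ?_)
    · rw [AlgHom.comp_apply, toP5, evalPair_aVar, map_mul, evalP5_s1Var, evalP5_uVar]
    · rw [AlgHom.comp_apply, toP5, evalPair_nVar, map_mul, evalP5_s2Var, evalP5_uVar]
  intro f hf
  rw [RingHom.mem_ker] at hf ⊢
  rw [toEE, AlgHom.comp_apply, Ideal.Quotient.mkₐ_eq_mk, Ideal.Quotient.eq_zero_iff_mem,
    Ideal.mem_span_singleton'] at hf
  obtain ⟨g, hg⟩ := hf
  rw [h, AlgHom.comp_apply, ← hg, map_mul, hfC, mul_zero]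

end Factor

/-! ### Membership in `J`, the (R4) criterion in terms of `J`, instances -/

section JFacts

variable (𝒞 : Finset O)

theorem J_le_ker_toD1 : J O 𝒞 ≤ RingHom.ker (toD1 O) := inf_le_left

theorem J_le_ker_toEE {c : O} (hc : c ∈ 𝒞) : J O 𝒞 ≤ RingHom.ker (toEE O c) :=
  inf_le_right.trans (Finset.inf_le hc)

theorem mem_J_iff (f : P6 O) :
    f ∈ J O 𝒞 ↔ toD1 O f = 0 ∧ ∀ c ∈ 𝒞, toEE O c f = 0 := by
  rw [J, Ideal.mem_inf, RingHom.mem_ker, Submodule.mem_finsetInf]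
  simp only [RingHom.mem_ker]

theorem toEE_eq_zero_iff (c : O) (f : P6 O) :
    toEE O c f = 0 ↔ toP5 O f ∈ (Ideal.span {(Chart.EEpoly c : P5 O)} : Ideal (P5 O)) := by
  rw [toEE, AlgHom.comp_apply, Ideal.Quotient.mkₐ_eq_mk, Ideal.Quotient.eq_zero_iff_mem]

variable {O}
variable {A : Type*} [CommRing A] [IsLocalRing A] [Algebra O A]
  [IsAdicComplete (maximalIdeal A) A]

/-- **(R4)** for `J`: a point with `n = 0` kills `J 𝒞` -/
theorem J_le_ker_evalPair_of_zero (a : Fin 3 → A) (ha : ∀ i, a i ∈ maximalIdeal A) :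
    J O 𝒞 ≤ RingHom.ker (evalPair (O := O) a (fun _ => 0) ha (fun _ => zero_mem _)) :=
  (J_le_ker_toD1 O 𝒞).trans (ker_toD1_le_ker_evalPair a ha)

/-- **(R4)** for `J`: a point `(s₁ u, s₂ u)` with `s₂² Q(u) = c²`, `c ∈ 𝒞`, kills `J 𝒞` -/
theorem J_le_ker_evalPair_of_chart {c : O} (hc : c ∈ 𝒞) (s1 s2 : A) (u : Fin 3 → A)
    (h1 : s1 ∈ maximalIdeal A) (h2 : s2 ∈ maximalIdeal A) (hu : ∀ i, u i ∈ maximalIdeal A)
    (hrel : s2 ^ 2 * Qf u = algebraMap O A c ^ 2) :
    J O 𝒞 ≤ RingHom.ker (evalPair (O := O) (fun i => s1 * u i) (fun i => s2 * u i)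
        (fun _ => Ideal.mul_mem_right _ _ h1) (fun _ => Ideal.mul_mem_right _ _ h2)) :=
  (J_le_ker_toEE O 𝒞 hc).trans (ker_toEE_le_ker_evalPair c s1 s2 u h1 h2 hu hrel)

variable (O)

theorem J_ne_top : J O 𝒞 ≠ ⊤ := by
  intro h
  have h1 : (1 : P6 O) ∈ RingHom.ker (toD1 O) := J_le_ker_toD1 O 𝒞 (h ▸ Submodule.mem_top)
  rw [RingHom.mem_ker, map_one] at h1
  exact one_ne_zero h1

instance instNontrivialRloc : Nontrivial (Rloc O 𝒞) :=
  Ideal.Quotient.nontrivial_iff.2 (J_ne_top O 𝒞)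

instance instIsLocalRingRloc : IsLocalRing (Rloc O 𝒞) :=
  IsLocalRing.of_surjective' (Ideal.Quotient.mk (J O 𝒞)) Ideal.Quotient.mk_surjective

end JFacts

/-! ### The test element -/

section Test

@[simp] theorem toD1_aVar (i : Fin 3) : toD1 O (aVar O i) = X i := by
  rw [toD1, evalPair_aVar]

@[simp] theorem toD1_nVar (i : Fin 3) : toD1 O (nVar O i) = 0 := by
  rw [toD1, evalPair_nVar]

@[simp] theorem toP5_aVar (i : Fin 3) : toP5 O (aVar O i) = s1Var O * uVar O i := by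
  rw [toP5, evalPair_aVar]

@[simp] theorem toP5_nVar (i : Fin 3) : toP5 O (nVar O i) = s2Var O * uVar O i := by
  rw [toP5, evalPair_nVar]

theorem algHom_Qf {R S : Type*} [CommRing R] [CommRing S] [Algebra O R] [Algebra O S]
    (f : R →ₐ[O] S) (x : Fin 3 → R) : f (Qf x) = Qf (fun i => f (x i)) := by
  simp only [Qf, map_add, map_pow, map_mul]

theorem algHom_C {n m : ℕ} (f : MvPowerSeries (Fin n) O →ₐ[O] MvPowerSeries (Fin m) O) (x : O) :
    f (C x) = C x := by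
  have h1 : (C x : MvPowerSeries (Fin n) O) = algebraMap O _ x := rfl
  have h2 : (C x : MvPowerSeries (Fin m) O) = algebraMap O _ x := rfl
  rw [h1, h2, AlgHom.commutes]

/-- the test element `t = 4 Q(a) − d²` (`d = q − 1`): `t = (tr Φ)² − (1 + q)²` when `det Φ = q`
(helper96 `TamePoint.four_Q_tl_sub`) -/
noncomputable def tElt (d : O) : P6 O := 4 * Qf (aVar O) - C (d ^ 2)

theorem toD1_tElt (d : O) :
    toD1 O (tElt O d) = 4 * Qf (fun i => (X i : P3 O)) - C (d ^ 2) := by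
  rw [tElt, map_sub, map_mul, algHom_Qf, algHom_C, map_ofNat]
  simp only [toD1_aVar]

theorem toP5_tElt (d : O) :
    toP5 O (tElt O d) = 4 * (s1Var O ^ 2 * Qf (uVar O)) - C (d ^ 2) := by
  rw [tElt, map_sub, map_mul, algHom_Qf, algHom_C, map_ofNat]
  simp only [toP5_aVar]
  rw [Qf_smul]

theorem evalPair_tElt {A : Type*} [CommRing A] [IsLocalRing A] [Algebra O A]
    [IsAdicComplete (maximalIdeal A) A] (a n : Fin 3 → A) (ha : ∀ i, a i ∈ maximalIdeal A)
    (hn : ∀ i, n i ∈ maximalIdeal A) (d : O) :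
    evalPair (O := O) a n ha hn (tElt O d) = 4 * Qf a - algebraMap O A d ^ 2 := by
  have hC : evalPair (O := O) a n ha hn (C (d ^ 2) : P6 O) = algebraMap O A d ^ 2 := by
    have : (C (d ^ 2) : P6 O) = algebraMap O (P6 O) (d ^ 2) := rfl
    rw [this, AlgHom.commutes, map_pow]
  rw [tElt, map_sub, map_mul, algHom_Qf, hC, map_ofNat]
  simp only [evalPair_aVar]

end Test

end Concrete

end Fermat.Agent.GB.Local.Rloc
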