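/-
GATE-B / B1 LOC, node GB-LOC-B1LITE (helper54), file 3: the dimension bound (R3) for `Rloc`.

`ringKrullDim (Rloc 𝒞) ≤ 4`, by Krull's height theorem
(`ringKrullDim_le_ringKrullDim_quotient_add_card`) applied to the four elements
`λ, a₀, a₁ + n₂, a₂ + n₁` of the maximal ideal, and the following certificate that the quotient
has dimension `0`: the `2 × 2` minors `aᵢ nⱼ − aⱼ nᵢ` and `Q(n) ∏_{c ∈ 𝒞} (Q(n) − c²)` lie in `J 𝒞`,
so a prime `𝔮 ⊇ J 𝒞 + (λ, a₀, a₁ + n₂, a₂ + n₁)` of `P6` contains `Q(n)`, `n₀ n₁`, `n₀ n₂`,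
`n₁² − n₂²`, hence all `nᵢ`, all `aᵢ`, hence is the maximal ideal.
-/
import Mathlib
import Fermat.Agent.GB.Local.Rloc

set_option autoImplicit false
set_option linter.unusedSectionVars false

open IsLocalRing MvPowerSeries

namespace Fermat.Agent.GB.Local.Cert

open Fermat.Agent.GB.Local.Rloc

/-- the certificate, in a domain -/
theorem cert_domain {D : Type*} [CommRing D] [IsDomain D] (a n : Fin 3 → D)
    (h0 : a 0 = 0) (h1 : a 1 + n 2 = 0) (h2 : a 2 + n 1 = 0)
    (m1 : a 0 * n 1 - a 1 * n 0 = 0) (m2 : a 0 * n 2 - a 2 * n 0 = 0)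
    (m3 : a 1 * n 2 - a 2 * n 1 = 0) (hQ : Qf n = 0) :
    (∀ i, a i = 0) ∧ ∀ i, n i = 0 := by
  have e1 : a 1 = - n 2 := eq_neg_of_add_eq_zero_left h1
  have e2 : a 2 = - n 1 := eq_neg_of_add_eq_zero_left h2
  have k1 : n 2 * n 0 = 0 := by rw [h0, e1] at m1; linear_combination m1
  have k2 : n 1 * n 0 = 0 := by rw [h0, e2] at m2; linear_combination m2
  have k3 : n 1 ^ 2 = n 2 ^ 2 := by rw [e1, e2] at m3; linear_combination m3
  have k4 : n 0 ^ 2 + n 1 * n 2 = 0 := hQ
  have hn0 : n 0 = 0 := by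
    by_contra h
    have a2 : n 2 = 0 := (mul_eq_zero.1 k1).resolve_right h
    have a1 : n 1 = 0 := (mul_eq_zero.1 k2).resolve_right h
    have : n 0 ^ 2 = 0 := by rw [a1, a2] at k4; linear_combination k4
    exact h ((pow_eq_zero_iff two_ne_zero).1 this)
  have hn12 : n 1 * n 2 = 0 := by rw [hn0] at k4; linear_combination k4
  have hn1 : n 1 = 0 := by
    rcases mul_eq_zero.1 hn12 with h | h
    · exact h
    · have : n 1 ^ 2 = 0 := by rw [k3, h]; ring
      exact (pow_eq_zero_iff two_ne_zero).1 this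
  have hn2 : n 2 = 0 := by
    have : n 2 ^ 2 = 0 := by rw [← k3, hn1]; ring
    exact (pow_eq_zero_iff two_ne_zero).1 this
  refine ⟨fun i => ?_, fun i => ?_⟩
  · fin_cases i
    · exact h0
    · show a 1 = 0
      rw [e1, hn2, neg_zero]
    · show a 2 = 0
      rw [e2, hn1, neg_zero]
  · fin_cases i
    · exact hn0
    · exact hn1
    · exact hn2

/-! ### Power series with zero constant coefficient -/

section PS

variable {R : Type*} [CommRing R] {ι : Type*} [Finite ι]

theorem truncTotal_one_eq (f : MvPowerSeries ι R) :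
    truncTotal 1 f = MvPolynomial.C (constantCoeff f) := by
  classical
  ext x
  rw [coeff_truncTotal_eq_ite, MvPolynomial.coeff_C]
  by_cases hx : x = 0
  · subst hx
    simp
  · have h1 : ¬ x.degree < 1 := by
      rw [Nat.lt_one_iff, Finsupp.degree_eq_zero_iff]
      exact hx
    rw [if_neg h1, if_neg (Ne.symm hx)]

/-- `S53/PSEval.sub_truncTotal_mem_psVars_pow`, restated without the local-ring hypothesis -/
theorem sub_truncTotal_mem_span_pow [Nontrivial R] (n : ℕ) (f : MvPowerSeries ι R) :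
    f - ((truncTotal n f : MvPolynomial ι R) : MvPowerSeries ι R) ∈
      (Ideal.span (Set.range X) : Ideal (MvPowerSeries ι R)) ^ n := by
  set e := toAdicCompletionAlgEquiv ι R with he
  set g := f - ((truncTotal n f : MvPolynomial ι R) : MvPowerSeries ι R) with hg
  have hmap : (MvPolynomial.idealOfVars ι R).map
      (MvPolynomial.coeToMvPowerSeries.ringHom : MvPolynomial ι R →+* _) =
      Ideal.span (Set.range X) := by
    rw [MvPolynomial.idealOfVars, Ideal.map_span, ← Set.range_comp]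
    congr 2
    ext i : 1
    exact MvPolynomial.coe_X i
  have h1 : e g ∈ (MvPolynomial.idealOfVars ι R ^ n • ⊤ :
      Submodule (MvPolynomial ι R)
        (AdicCompletion (MvPolynomial.idealOfVars ι R) (MvPolynomial ι R))) := by
    rw [AdicCompletion.pow_smul_top_eq_ker_eval (MvPolynomial.idealOfVars_fg ι R),
      LinearMap.mem_ker, hg, map_sub, map_sub, sub_eq_zero, he,
      toAdicCompletionAlgEquiv_apply, toAdicCompletionAlgEquiv_apply, toAdicCompletion_coe,
      AdicCompletion.eval_of, AdicCompletion.eval_apply,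
      toAdicCompletion_apply_eq_mk_truncTotal]
    rfl
  have h2 : ∀ x ∈ (MvPolynomial.idealOfVars ι R ^ n • ⊤ :
      Submodule (MvPolynomial ι R)
        (AdicCompletion (MvPolynomial.idealOfVars ι R) (MvPolynomial ι R))),
      e.symm x ∈ (Ideal.span (Set.range X) : Ideal (MvPowerSeries ι R)) ^ n := by
    intro x hx
    refine Submodule.smul_induction_on hx (fun r hr y _ => ?_) (fun y z hy hz => ?_)
    · rw [map_smul, Algebra.smul_def]
      refine Ideal.mul_mem_right _ _ ?_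
      rw [← hmap, ← Ideal.map_pow]
      exact Ideal.mem_map_of_mem _ hr
    · rw [map_add]
      exact add_mem hy hz
  have h3 := h2 _ h1
  rwa [AlgEquiv.symm_apply_apply] at h3

/-- a power series differs from its constant coefficient by an element of `(Xᵢ)` -/
theorem sub_C_constantCoeff_mem (f : MvPowerSeries ι R) :
    f - C (constantCoeff f) ∈ (Ideal.span (Set.range X) : Ideal (MvPowerSeries ι R)) := by
  cases subsingleton_or_nontrivial R with
  | inl h =>
    have : Subsingleton (MvPowerSeries ι R) := ⟨fun a b => by ext; exact Subsingleton.elim _ _⟩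
    rw [Subsingleton.elim (f - C (constantCoeff f)) 0]
    exact zero_mem _
  | inr h =>
    have h1 := sub_truncTotal_mem_span_pow 1 f
    rwa [pow_one, truncTotal_one_eq, MvPolynomial.coe_C] at h1

end PS

variable (O : Type*) [CommRing O] [IsLocalRing O] [IsNoetherianRing O]
  [IsAdicComplete (maximalIdeal O) O]

/-! ### The certificate elements lie in `J` -/

theorem minor_mem_J (𝒞 : Finset O) (i j : Fin 3) :
    aVar O i * nVar O j - aVar O j * nVar O i ∈ J O 𝒞 := by
  rw [mem_J_iff]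
  refine ⟨?_, fun c _ => ?_⟩
  · rw [map_sub, map_mul, map_mul, toD1_nVar, toD1_nVar, mul_zero, mul_zero, sub_zero]
  · rw [toEE_eq_zero_iff]
    have : toP5 O (aVar O i * nVar O j - aVar O j * nVar O i) = 0 := by
      rw [map_sub, map_mul, map_mul, toP5_aVar, toP5_aVar, toP5_nVar, toP5_nVar]
      ring
    rw [this]
    exact zero_mem _

theorem toEE_Qf_nVar (c : O) : toEE O c (Qf (nVar O) - C (c ^ 2)) = 0 := by
  rw [toEE_eq_zero_iff, map_sub, algHom_Qf, algHom_C]
  simp only [toP5_nVar]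
  rw [Qf_smul, ← EEpoly_eq]
  exact Ideal.mem_span_singleton_self _

theorem Qcert_mem_J (𝒞 : Finset O) :
    Qf (nVar O) * ∏ c ∈ 𝒞, (Qf (nVar O) - C (c ^ 2)) ∈ J O 𝒞 := by
  rw [mem_J_iff]
  refine ⟨?_, fun c hc => ?_⟩
  · rw [map_mul, algHom_Qf]
    simp only [toD1_nVar]
    simp [Qf]
  · rw [map_mul, map_prod, Finset.prod_eq_zero hc (toEE_Qf_nVar O c), mul_zero]

/-! ### Primes containing the certificate ideal -/

variable {O}

/-- a prime of `P6` containing `J 𝒞`, `λ`, `a₀`, `a₁ + n₂`, `a₂ + n₁` is the maximal ideal -/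
theorem eq_maximalIdeal_of_cert {lam : O} (hmax : maximalIdeal O = Ideal.span {lam})
    (𝒞 : Finset O) (h𝒞 : ∀ c ∈ 𝒞, lam ∣ c) {𝔮 : Ideal (P6 O)} [h𝔮 : 𝔮.IsPrime]
    (hJ : J O 𝒞 ≤ 𝔮) (hl : (C lam : P6 O) ∈ 𝔮) (h0 : aVar O 0 ∈ 𝔮)
    (h1 : aVar O 1 + nVar O 2 ∈ 𝔮) (h2 : aVar O 2 + nVar O 1 ∈ 𝔮) :
    𝔮 = maximalIdeal (P6 O) := by
  set π := Ideal.Quotient.mk 𝔮 with hπ
  have hker : ∀ {x : P6 O}, x ∈ 𝔮 → π x = 0 := fun hx => Ideal.Quotient.eq_zero_iff_mem.2 hx
  have hC : ∀ c ∈ 𝒞, π (C (c ^ 2)) = 0 := by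
    intro c hc
    obtain ⟨e, rfl⟩ := h𝒞 c hc
    have : (C ((lam * e) ^ 2) : P6 O) = C lam * C (lam * e ^ 2) := by
      rw [← map_mul]; congr 1; ring
    rw [this]
    exact hker (Ideal.mul_mem_right _ _ hl)
  -- `Q(n) = 0` in the domain `P6 ⧸ 𝔮`
  have hQ : Qf (fun i => π (nVar O i)) = 0 := by
    have h := hker (hJ (Qcert_mem_J O 𝒞))
    rw [map_mul, map_prod] at h
    have h' : ∏ c ∈ 𝒞, π (Qf (nVar O) - C (c ^ 2)) = π (Qf (nVar O)) ^ 𝒞.card := by
      rw [← Finset.prod_const]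
      refine Finset.prod_congr rfl fun c hc => ?_
      rw [map_sub, hC c hc, sub_zero]
    rw [h', ← pow_succ'] at h
    have := eq_zero_of_pow_eq_zero h
    rwa [map_Qf] at this
  have hm : ∀ i j : Fin 3, π (aVar O i) * π (nVar O j) - π (aVar O j) * π (nVar O i) = 0 := by
    intro i j
    have := hker (hJ (minor_mem_J O 𝒞 i j))
    rwa [map_sub, map_mul, map_mul] at this
  obtain ⟨ha, hn⟩ := cert_domain (fun i => π (aVar O i)) (fun i => π (nVar O i)) (hker h0)
    (by have := hker h1; rwa [map_add] at this) (by have := hker h2; rwa [map_add] at this)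
    (hm 0 1) (hm 0 2) (hm 1 2) hQ
  have hX : ∀ j : Fin 6, (X j : P6 O) ∈ 𝔮 := by
    have key : ∀ j : Fin (3 + 3), (X j : P6 O) ∈ 𝔮 := by
      intro j
      induction j using Fin.addCases with
      | left i => exact Ideal.Quotient.eq_zero_iff_mem.1 (ha i)
      | right i => exact Ideal.Quotient.eq_zero_iff_mem.1 (hn i)
    exact key
  refine le_antisymm (le_maximalIdeal h𝔮.ne_top) fun f hf => ?_
  have hf0 : constantCoeff f ∈ maximalIdeal O := by
    rwa [Fermat.Agent.S53.mem_maximalIdeal_mvPowerSeries_iff] at hf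
  rw [hmax, Ideal.mem_span_singleton'] at hf0
  obtain ⟨r, hr⟩ := hf0
  have h3 : f = (f - C (constantCoeff f)) + C r * C lam := by
    rw [← map_mul, hr]; ring
  rw [h3]
  refine add_mem ?_ (Ideal.mul_mem_left _ _ hl)
  refine (Ideal.span_le.2 ?_) (sub_C_constantCoeff_mem f)
  rintro _ ⟨j, rfl⟩
  exact hX j

/-! ### The dimension bound -/

/-- **(R3)** `dim Rloc 𝒞 ≤ 4` -/
theorem ringKrullDim_Rloc_le {lam : O} (hmax : maximalIdeal O = Ideal.span {lam})
    (𝒞 : Finset O) (h𝒞 : ∀ c ∈ 𝒞, lam ∣ c) : ringKrullDim (Rloc O 𝒞) ≤ 4 := by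
  classical
  set mk := Ideal.Quotient.mk (J O 𝒞) with hmk
  have hlam : lam ∈ maximalIdeal O := by rw [hmax]; exact Ideal.mem_span_singleton_self _
  -- the four parameters
  set s : Finset (Rloc O 𝒞) :=
    {mk (C lam), mk (aVar O 0), mk (aVar O 1 + nVar O 2), mk (aVar O 2 + nVar O 1)} with hs
  have hCl : (C lam : P6 O) ∈ maximalIdeal (P6 O) := by
    rw [Fermat.Agent.S53.mem_maximalIdeal_mvPowerSeries_iff, constantCoeff_C]; exact hlam
  have hmkmem : ∀ {x : P6 O}, x ∈ maximalIdeal (P6 O) → mk x ∈ maximalIdeal (Rloc O 𝒞) := by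
    intro x hx
    rw [mem_maximalIdeal, mem_nonunits_iff] at hx ⊢
    intro hu
    apply hx
    have : IsLocalHom mk := IsLocalHom.of_surjective mk Ideal.Quotient.mk_surjective
    exact (isUnit_map_iff mk x).1 hu
  have hsub : (s : Set (Rloc O 𝒞)) ⊆ Ring.jacobson (Rloc O 𝒞) := by
    rw [IsLocalRing.ringJacobson_eq_maximalIdeal]
    intro x hx
    rw [hs, Finset.coe_insert, Finset.coe_insert, Finset.coe_insert, Finset.coe_singleton] at hx
    rcases hx with rfl | rfl | rfl | rfl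
    · exact hmkmem hCl
    · exact hmkmem (aVar_mem O 0)
    · exact hmkmem (add_mem (aVar_mem O 1) (nVar_mem O 2))
    · exact hmkmem (add_mem (aVar_mem O 2) (nVar_mem O 1))
  have h1 := ringKrullDim_le_ringKrullDim_quotient_add_card s hsub
  -- the quotient has dimension `0`
  have h0 : ringKrullDim (Rloc O 𝒞 ⧸ Ideal.span (s : Set (Rloc O 𝒞))) ≤ 0 := by
    rw [← Nat.cast_zero, ← Ring.krullDimLE_iff, Ring.krullDimLE_zero_iff]
    intro K hK
    set ρ : P6 O →+* Rloc O 𝒞 ⧸ Ideal.span (s : Set (Rloc O 𝒞)) :=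
      (Ideal.Quotient.mk _).comp mk with hρ
    have hρs : Function.Surjective ρ :=
      Ideal.Quotient.mk_surjective.comp Ideal.Quotient.mk_surjective
    have hmem : ∀ {x : P6 O}, mk x ∈ s → x ∈ K.comap ρ := by
      intro x hx
      rw [Ideal.mem_comap, hρ, RingHom.comp_apply,
        Ideal.Quotient.eq_zero_iff_mem.2 (Ideal.subset_span hx)]
      exact zero_mem _
    have hJK : J O 𝒞 ≤ K.comap ρ := by
      intro x hx
      rw [Ideal.mem_comap, hρ, RingHom.comp_apply, Ideal.Quotient.eq_zero_iff_mem.2 hx, map_zero]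
      exact zero_mem _
    have hcomap : K.comap ρ = maximalIdeal (P6 O) := by
      have : (K.comap ρ).IsPrime := Ideal.comap_isPrime ρ K
      refine eq_maximalIdeal_of_cert hmax 𝒞 h𝒞 hJK (hmem ?_) (hmem ?_) (hmem ?_) (hmem ?_)
      · rw [hs]; simp
      · rw [hs]; simp
      · rw [hs]; simp
      · rw [hs]; simp
    have hK2 : K = (maximalIdeal (P6 O)).map ρ := by
      rw [← hcomap, Ideal.map_comap_of_surjective ρ hρs]
    rcases Ideal.map_eq_top_or_isMaximal_of_surjective ρ hρs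
      (maximalIdeal.isMaximal (P6 O)) with h | h
    · exact absurd (hK2.trans h) hK.ne_top
    · rwa [hK2]
  have hcard : (s.card : WithBot ℕ∞) ≤ 4 := by
    have : s.card ≤ 4 := Finset.card_le_four
    exact_mod_cast this
  calc ringKrullDim (Rloc O 𝒞) ≤ _ := h1
    _ ≤ 0 + 4 := add_le_add h0 hcard
    _ = 4 := zero_add _

end Fermat.Agent.GB.Local.Cert
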