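/-
GATE-B, B1-LITE (b1) (helper51): a ring that embeds into a finite product of domains has its
minimal primes among the kernels of the projections; and the `t ∉ rad (P + λ)` test can be read
off in the domain.  Mathlib only.
-/
import Mathlib

set_option autoImplicit false

namespace Fermat.Agent.GB.Local.ProdDom

variable {R : Type*} [CommRing R] {ι : Type*} [Finite ι] {D : ι → Type*}
  [∀ i, CommRing (D i)] [∀ i, IsDomain (D i)] (φ : ∀ i, R →+* D i)

omit [∀ i, IsDomain (D i)] in
/-- every prime of `R` contains one of the kernels, if the kernels intersect in `0`. -/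
theorem exists_ker_le_of_isPrime (h : ⨅ i, RingHom.ker (φ i) = ⊥) (P : Ideal R) [hP : P.IsPrime] :
    ∃ i, RingHom.ker (φ i) ≤ P := by
  classical
  have := Fintype.ofFinite ι
  have h1 : (Finset.univ : Finset ι).inf (fun i => RingHom.ker (φ i)) ≤ P := by
    have : (Finset.univ : Finset ι).inf (fun i => RingHom.ker (φ i)) = ⨅ i, RingHom.ker (φ i) := by
      rw [Finset.inf_eq_iInf]; simp
    rw [this, h]; exact bot_le
  obtain ⟨i, -, hi⟩ := (Ideal.IsPrime.inf_le' hP).mp h1
  exact ⟨i, hi⟩

/-- the minimal primes of `R` are among the kernels. -/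
theorem exists_eq_ker_of_mem_minimalPrimes (h : ⨅ i, RingHom.ker (φ i) = ⊥) {P : Ideal R}
    (hP : P ∈ minimalPrimes R) : ∃ i, P = RingHom.ker (φ i) := by
  have : P.IsPrime := hP.1.1
  obtain ⟨i, hi⟩ := exists_ker_le_of_isPrime φ h P
  refine ⟨i, le_antisymm ?_ hi⟩
  exact hP.2 ⟨RingHom.ker_isPrime (φ i), bot_le⟩ hi

omit [Finite ι] [∀ i, IsDomain (D i)] in
/-- the radical test, read off in the target: if no power of `φ i t` is divisible by `φ i lam`
then `t ∉ rad (ker (φ i) + (lam))`. -/
theorem not_mem_radical_sup_of_forall (i : ι) (lam t : R)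
    (ht : ∀ n : ℕ, ¬ φ i lam ∣ φ i t ^ n) :
    t ∉ (RingHom.ker (φ i) ⊔ Ideal.span {lam}).radical := by
  rintro ⟨n, hn⟩
  obtain ⟨x, hx, y, hy, hxy⟩ := Submodule.mem_sup.mp hn
  obtain ⟨r, rfl⟩ := Ideal.mem_span_singleton'.mp hy
  apply ht n
  have : φ i t ^ n = φ i (x + r * lam) := by rw [hxy, map_pow]
  rw [this, map_add, RingHom.mem_ker.mp hx, zero_add, map_mul]
  exact Dvd.intro_left _ rfl

/-- consumer form for FIN': every minimal prime `P` of `R` fails to contain a power of `t`
modulo `lam`, provided this holds in each of the domains. -/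
theorem not_mem_radical_sup_of_mem_minimalPrimes (h : ⨅ i, RingHom.ker (φ i) = ⊥) (lam t : R)
    (ht : ∀ i, ∀ n : ℕ, ¬ φ i lam ∣ φ i t ^ n) {P : Ideal R} (hP : P ∈ minimalPrimes R) :
    t ∉ (P ⊔ Ideal.span {lam}).radical := by
  obtain ⟨i, rfl⟩ := exists_eq_ker_of_mem_minimalPrimes φ h hP
  exact not_mem_radical_sup_of_forall φ i lam t (ht i)

end Fermat.Agent.GB.Local.ProdDom
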