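/-
GATE-B / B1 LOC, node GB-LOC-B1LITE (helper54), file 2: the `t`-test (R2) for `Rloc`.

`Rloc 𝒞 = P6 ⧸ J 𝒞` embeds into the finite product of the domains `P6 ⧸ ker toD1` and
`P6 ⧸ ker (toEE c)`, `c ∈ 𝒞` (helper51's `ProdDom`), so its minimal primes are among the named
kernels; on each of them the test element `t = 4 Q(a) − d²` (`d = q − 1`, `λ ∣ d`) is not
nilpotent modulo `λ` (helper51's `Chart.pow_not_mem_span_C`, `Chart.pow_not_mem_of_sub_mem`).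

Export (the `hP` binder of helper66's `Fin.false_of_isRegular_of_forall_minimalPrime` for
`R = Rloc 𝒞`, to be transported to `Rloc 𝒞⟦x⟧` by helper5's
`PSDim.not_mem_radical_of_minimalPrimes`):

  `tElt_notMem_radical : P ∈ minimalPrimes (Rloc O 𝒞) →
      mk (tElt O d) ∉ (P ⊔ span {mk (C lam)}).radical`.
-/
import Mathlib
import Fermat.Agent.GB.Local.Rloc
import Fermat.Agent.GB.Local.ProdDom

set_option autoImplicit false
set_option linter.unusedSectionVars false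

open IsLocalRing MvPowerSeries

namespace Fermat.Agent.GB.Local.TTest

open Fermat.Agent.GB.Local.Rloc

variable (O : Type*) [CommRing O] [IsLocalRing O] [IsNoetherianRing O]
  [IsAdicComplete (maximalIdeal O) O]

/-- the named kernels, indexed by `Option 𝒞` -/
noncomputable def kerFam (𝒞 : Finset O) : Option {c : O // c ∈ 𝒞} → Ideal (P6 O)
  | none => RingHom.ker (toD1 O)
  | some c => RingHom.ker (toEE O c.1)

theorem J_le_kerFam (𝒞 : Finset O) (i : Option {c : O // c ∈ 𝒞}) : J O 𝒞 ≤ kerFam O 𝒞 i := by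
  cases i with
  | none => exact J_le_ker_toD1 O 𝒞
  | some c => exact J_le_ker_toEE O 𝒞 c.2

theorem mem_J_of_forall_mem_kerFam (𝒞 : Finset O) {f : P6 O}
    (h : ∀ i, f ∈ kerFam O 𝒞 i) : f ∈ J O 𝒞 := by
  rw [mem_J_iff]
  refine ⟨RingHom.mem_ker.1 (h none), fun c hc => RingHom.mem_ker.1 (h (some ⟨c, hc⟩))⟩

/-- the projections of `Rloc 𝒞` onto the quotients by the named kernels -/
noncomputable def proj (𝒞 : Finset O) (i : Option {c : O // c ∈ 𝒞}) :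
    Rloc O 𝒞 →+* P6 O ⧸ kerFam O 𝒞 i :=
  Ideal.Quotient.factor (J_le_kerFam O 𝒞 i)

@[simp] theorem proj_mk (𝒞 : Finset O) (i : Option {c : O // c ∈ 𝒞}) (f : P6 O) :
    proj O 𝒞 i (Ideal.Quotient.mk (J O 𝒞) f) = Ideal.Quotient.mk (kerFam O 𝒞 i) f :=
  Ideal.Quotient.factor_mk _ _

theorem iInf_ker_proj (𝒞 : Finset O) : ⨅ i, RingHom.ker (proj O 𝒞 i) = ⊥ := by
  rw [eq_bot_iff]
  intro x hx
  obtain ⟨f, rfl⟩ := Ideal.Quotient.mk_surjective x
  rw [Ideal.mem_iInf] at hx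
  rw [Ideal.mem_bot, Ideal.Quotient.eq_zero_iff_mem]
  refine mem_J_of_forall_mem_kerFam O 𝒞 fun i => ?_
  have := hx i
  rwa [RingHom.mem_ker, proj_mk, Ideal.Quotient.eq_zero_iff_mem] at this

variable {O}

/-- the test in `D₁`: no power of `toD1 t` is divisible by `λ` -/
theorem toD1_tElt_pow_notMem {lam : O} (hlam : Prime lam) (h4 : ¬ lam ∣ 4) {d : O}
    (hd : lam ∣ d) (n : ℕ) :
    toD1 O (tElt O d) ^ n ∉ (Ideal.span {(C lam : P3 O)} : Ideal (P3 O)) := by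
  refine Chart.pow_not_mem_span_C hlam h4 ?_ n
  have h : toD1 O (tElt O d) - C (4 : O) * Chart.Qform 0 = - C (d ^ 2) := by
    rw [toD1_tElt, map_ofNat]
    simp only [Qf, Chart.Qform]
    ring
  rw [h, neg_mem_iff, Ideal.mem_span_singleton]
  obtain ⟨e, rfl⟩ := hd
  exact ⟨C (lam * e ^ 2), by rw [← map_mul]; congr 1; ring⟩

/-- the test in `EE c`: no power of `toP5 t` lies in `(EEpoly c, λ)` -/
theorem toP5_tElt_pow_notMem {lam : O} (hlam : Prime lam) (h4 : ¬ lam ∣ 4) {c : O}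
    (hc : lam ∣ c) {d : O} (hd : lam ∣ d) (n : ℕ) :
    toP5 O (tElt O d) ^ n ∉
      (Ideal.span {(Chart.EEpoly c : P5 O)} ⊔ Ideal.span {(C lam : P5 O)} : Ideal (P5 O)) := by
  refine Chart.pow_not_mem_of_sub_mem hlam hc h4 ?_ n
  have h : toP5 O (tElt O d) - C (4 : O) * Chart.Tchart = - C (d ^ 2) := by
    rw [toP5_tElt, map_ofNat]
    simp only [Qf, Chart.Tchart, s1Var, uVar]
    have h1 : ((Fin.castSucc (0 : Fin 3)).succ : Fin 5) = 1 := rfl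
    have h2 : ((Fin.castSucc (1 : Fin 3)).succ : Fin 5) = 2 := rfl
    have h3 : ((Fin.castSucc (2 : Fin 3)).succ : Fin 5) = 3 := rfl
    rw [h1, h2, h3]
    ring
  rw [h, neg_mem_iff]
  refine Ideal.mem_sup_right ?_
  rw [Ideal.mem_span_singleton]
  obtain ⟨e, rfl⟩ := hd
  exact ⟨C (lam * e ^ 2), by rw [← map_mul]; congr 1; ring⟩

/-- the test on each named kernel -/
theorem not_dvd_proj_pow [IsDomain O] {lam : O} (hlam : Prime lam) (𝒞 : Finset O)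
    (h𝒞 : ∀ c ∈ 𝒞, lam ∣ c) (h4 : ¬ lam ∣ 4) {d : O} (hd : lam ∣ d)
    (i : Option {c : O // c ∈ 𝒞}) (n : ℕ) :
    ¬ proj O 𝒞 i (Ideal.Quotient.mk (J O 𝒞) (C lam)) ∣
      proj O 𝒞 i (Ideal.Quotient.mk (J O 𝒞) (tElt O d)) ^ n := by
  rintro ⟨x, hx⟩
  obtain ⟨g, rfl⟩ := Ideal.Quotient.mk_surjective x
  rw [proj_mk, proj_mk, ← map_pow, ← map_mul, Ideal.Quotient.eq] at hx
  cases i with
  | none =>
    have h1 : toD1 O (tElt O d ^ n - C lam * g) = 0 := RingHom.mem_ker.1 hx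
    rw [map_sub, map_pow, map_mul, algHom_C, sub_eq_zero] at h1
    refine toD1_tElt_pow_notMem hlam h4 hd n ?_
    rw [h1]
    exact Ideal.mul_mem_right _ _ (Ideal.mem_span_singleton_self _)
  | some c =>
    have h1 : toEE O c.1 (tElt O d ^ n - C lam * g) = 0 := RingHom.mem_ker.1 hx
    rw [toEE_eq_zero_iff, map_sub, map_pow, map_mul, algHom_C] at h1
    refine toP5_tElt_pow_notMem hlam h4 (h𝒞 c.1 c.2) hd n ?_
    have h2 : toP5 O (tElt O d) ^ n =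
        (toP5 O (tElt O d) ^ n - C lam * toP5 O g) + C lam * toP5 O g := by ring
    rw [h2]
    exact add_mem (Ideal.mem_sup_left h1)
      (Ideal.mem_sup_right (Ideal.mul_mem_right _ _ (Ideal.mem_span_singleton_self _)))

/-- the named kernels are prime -/
theorem kerFam_isPrime [IsDomain O] (𝒞 : Finset O)
    (hEE : ∀ c ∈ 𝒞, (Ideal.span {(Chart.EEpoly c : P5 O)} : Ideal (P5 O)).IsPrime)
    (i : Option {c : O // c ∈ 𝒞}) : (kerFam O 𝒞 i).IsPrime := by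
  cases i with
  | none => exact RingHom.ker_isPrime (toD1 O : P6 O →+* P3 O)
  | some c =>
    have := hEE c.1 c.2
    have : IsDomain (EE O c.1) := Ideal.Quotient.isDomain _
    exact RingHom.ker_isPrime (toEE O c.1 : P6 O →+* EE O c.1)

/-- **(R1), minimal-prime form**: the minimal primes of `Rloc 𝒞` are among the images of the named
kernels -/
theorem exists_eq_ker_proj [IsDomain O] (𝒞 : Finset O)
    (hEE : ∀ c ∈ 𝒞, (Ideal.span {(Chart.EEpoly c : P5 O)} : Ideal (P5 O)).IsPrime)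
    {P : Ideal (Rloc O 𝒞)} (hP : P ∈ minimalPrimes (Rloc O 𝒞)) :
    ∃ i, P = RingHom.ker (proj O 𝒞 i) := by
  have : ∀ i, (kerFam O 𝒞 i).IsPrime := kerFam_isPrime 𝒞 hEE
  exact ProdDom.exists_eq_ker_of_mem_minimalPrimes (proj O 𝒞) (iInf_ker_proj O 𝒞) hP

/-- **(R2)**: for every minimal prime `P` of `Rloc 𝒞`, the test element `t = 4 Q(a) − d²` is not
nilpotent modulo `P + (λ)`. -/
theorem tElt_notMem_radical [IsDomain O] {lam : O} (hlam : Prime lam) (𝒞 : Finset O)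
    (h𝒞 : ∀ c ∈ 𝒞, lam ∣ c)
    (hEE : ∀ c ∈ 𝒞, (Ideal.span {(Chart.EEpoly c : P5 O)} : Ideal (P5 O)).IsPrime)
    (h4 : ¬ lam ∣ 4) {d : O} (hd : lam ∣ d) {P : Ideal (Rloc O 𝒞)}
    (hP : P ∈ minimalPrimes (Rloc O 𝒞)) :
    Ideal.Quotient.mk (J O 𝒞) (tElt O d) ∉
      (P ⊔ Ideal.span {Ideal.Quotient.mk (J O 𝒞) (C lam)}).radical := by
  have : ∀ i, (kerFam O 𝒞 i).IsPrime := kerFam_isPrime 𝒞 hEE
  exact ProdDom.not_mem_radical_sup_of_mem_minimalPrimes (proj O 𝒞) (iInf_ker_proj O 𝒞) _ _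
    (fun i n => not_dvd_proj_pow hlam 𝒞 h𝒞 h4 hd i n) hP

/-- the hypothesis `hEE` from helper51's `Chart.isPrime_span_EEpoly` -/
theorem isPrime_span_EEpoly_of_forall [IsDomain O] {lam : O} (hlam : Prime lam) (𝒞 : Finset O)
    (h𝒞 : ∀ c ∈ 𝒞, ∃ (u : Oˣ) (e : ℕ), e ≠ 0 ∧ c = u * lam ^ e) :
    ∀ c ∈ 𝒞, (Ideal.span {(Chart.EEpoly c : P5 O)} : Ideal (P5 O)).IsPrime := by
  intro c hc
  obtain ⟨u, e, he, hce⟩ := h𝒞 c hc
  exact Chart.isPrime_span_EEpoly hlam c u e he hce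

theorem dvd_of_forall {lam : O} (𝒞 : Finset O)
    (h𝒞 : ∀ c ∈ 𝒞, ∃ (u : Oˣ) (e : ℕ), e ≠ 0 ∧ c = u * lam ^ e) : ∀ c ∈ 𝒞, lam ∣ c := by
  intro c hc
  obtain ⟨u, e, he, rfl⟩ := h𝒞 c hc
  exact Dvd.dvd.mul_left (dvd_pow_self lam he) _

/-- **(R2), DVR form**: `c = unit · λ^e`, `e ≠ 0`, for every `c ∈ 𝒞`. -/
theorem tElt_notMem_radical' [IsDomain O] {lam : O} (hlam : Prime lam) (𝒞 : Finset O)
    (h𝒞 : ∀ c ∈ 𝒞, ∃ (u : Oˣ) (e : ℕ), e ≠ 0 ∧ c = u * lam ^ e)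
    (h4 : ¬ lam ∣ 4) {d : O} (hd : lam ∣ d) {P : Ideal (Rloc O 𝒞)}
    (hP : P ∈ minimalPrimes (Rloc O 𝒞)) :
    Ideal.Quotient.mk (J O 𝒞) (tElt O d) ∉
      (P ⊔ Ideal.span {Ideal.Quotient.mk (J O 𝒞) (C lam)}).radical :=
  tElt_notMem_radical hlam 𝒞 (dvd_of_forall 𝒞 h𝒞) (isPrime_span_EEpoly_of_forall hlam 𝒞 h𝒞) h4 hd hP

/-- `mk (C x)` is the structure map of the `O`-algebra `Rloc 𝒞` -/
theorem mk_C_eq_algebraMap (𝒞 : Finset O) (x : O) :
    Ideal.Quotient.mk (J O 𝒞) (C x) = algebraMap O (Rloc O 𝒞) x := rfl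

end Fermat.Agent.GB.Local.TTest
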