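/-
GATE-B / B1 LOC, node GB-LOC-RLOCMAIN (helper54): the B1 package in the shape consumed by
helper9's `PatchSupp.isEmpty_of_patch_fin_quot` (board 5290).

* `Rinf g := MvPowerSeries (Fin g) (P6 O)`   — the patching ring `R = O⟦a,n⟧⟦x₁,…,x_g⟧`
  (ITERATED: power series in `x` over `P6 O`; helper9's `Filt.mvPowerSeries`,
  `exists_mvPowerSeries_c_le`, `hcont_of_cofinal` iterate verbatim);
* `toRlocX : Rinf g →+* MvPowerSeries (Fin g) (Rloc O 𝒞)` (coefficientwise quotient map,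
  surjective), `J2 := ker toRlocX` (`mem_J2_iff`: all `x`-coefficients lie in `J 𝒞`),
  `quotEquiv : Rinf g ⧸ J2 ≃+* MvPowerSeries (Fin g) (Rloc O 𝒞)`;
* `ringKrullDim_quot_le`  (= `hdim`) : `ringKrullDim (Rinf g ⧸ J2) ≤ 4 + g`;
* `tElt_notMem_radical_quot` (= `hP`, without the dimension side condition):
  for every minimal prime `P` of `Rinf g ⧸ J2`, `mk (C t) ∉ rad (P + (mk (C (C λ))))`;
* `J2_le_ker` (= how `kill₂` is proved): a ring hom `θ : Rinf g → B` into a separated local ring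
  with `θ (X j) ∈ 𝔪_B` and `θ ∘ C` killing `J 𝒞` kills `J2`.
-/
import Mathlib
import Fermat.Agent.GB.Local.Rloc
import Fermat.Agent.GB.Local.TTest
import Fermat.Agent.GB.Local.Cert
import Fermat.Agent.GB.Alg.PSMinPrimes
import Fermat.Agent.GB.Alg.PSDim

set_option autoImplicit false
set_option linter.unusedSectionVars false

open IsLocalRing MvPowerSeries

namespace Fermat.Agent.GB.Local.RlocMain

open Fermat.Agent.GB.Local.Rloc Fermat.Agent.GB.Alg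

/-! ### Transport of the FIN hypothesis along a ring isomorphism -/

section Transport

variable {A B : Type*} [CommRing A] [CommRing B]

theorem exists_minimalPrimes_comap_eq (e : A ≃+* B) {P : Ideal A} (hP : P ∈ minimalPrimes A) :
    ∃ Q ∈ minimalPrimes B, P = Q.comap (e : A →+* B) := by
  have h := Ideal.comap_minimalPrimes_eq_of_surjective (f := (e : A →+* B)) e.surjective
    (⊥ : Ideal B)
  have h0 : (⊥ : Ideal B).comap (e : A →+* B) = ⊥ := by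
    rw [← RingHom.ker_eq_comap_bot]
    exact (RingHom.injective_iff_ker_eq_bot _).1 e.injective
  rw [h0] at h
  have hP' : P ∈ (⊥ : Ideal A).minimalPrimes := hP
  rw [h] at hP'
  obtain ⟨Q, hQ, rfl⟩ := hP'
  exact ⟨Q, hQ, rfl⟩

theorem notMem_radical_of_ringEquiv (e : A ≃+* B) {t l : A}
    (h : ∀ Q ∈ minimalPrimes B, e t ∉ (Q ⊔ Ideal.span {e l}).radical) :
    ∀ P ∈ minimalPrimes A, t ∉ (P ⊔ Ideal.span {l}).radical := by
  intro P hP ht
  obtain ⟨Q, hQ, rfl⟩ := exists_minimalPrimes_comap_eq e hP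
  apply h Q hQ
  obtain ⟨n, hn⟩ := ht
  refine ⟨n, ?_⟩
  obtain ⟨x, hx, y, hy, hxy⟩ := Submodule.mem_sup.1 hn
  obtain ⟨r, rfl⟩ := Ideal.mem_span_singleton'.1 hy
  have : e t ^ n = e x + e r * e l := by
    rw [← map_pow, ← hxy, map_add, map_mul]
  rw [this]
  exact add_mem (Ideal.mem_sup_left hx)
    (Ideal.mem_sup_right (Ideal.mul_mem_left _ _ (Ideal.mem_span_singleton_self _)))

end Transport

variable (O : Type*) [CommRing O] [IsLocalRing O] [IsNoetherianRing O]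
  [IsAdicComplete (maximalIdeal O) O]

/-- the patching ring `O⟦a,n⟧⟦x₁,…,x_g⟧` -/
abbrev Rinf (g : ℕ) := MvPowerSeries (Fin g) (P6 O)

/-- `Rloc⟦x₁,…,x_g⟧` -/
abbrev RlocX (𝒞 : Finset O) (g : ℕ) := MvPowerSeries (Fin g) (Rloc O 𝒞)

/-- the coefficientwise quotient map `Rinf g → Rloc⟦x⟧` -/
noncomputable def toRlocX (𝒞 : Finset O) (g : ℕ) : Rinf O g →+* RlocX O 𝒞 g :=
  MvPowerSeries.map (Ideal.Quotient.mk (J O 𝒞))

theorem toRlocX_surjective (𝒞 : Finset O) (g : ℕ) : Function.Surjective (toRlocX O 𝒞 g) := by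
  intro F
  choose p hp using fun e : Fin g →₀ ℕ => Ideal.Quotient.mk_surjective (coeff e F)
  let G : Rinf O g := fun e => p e
  have hG : ∀ e, coeff e G = p e := fun e => rfl
  refine ⟨G, ?_⟩
  ext e
  rw [toRlocX, coeff_map, hG]
  exact hp e

@[simp] theorem toRlocX_C (𝒞 : Finset O) (g : ℕ) (f : P6 O) :
    toRlocX O 𝒞 g (C f) = C (Ideal.Quotient.mk (J O 𝒞) f) := by
  rw [toRlocX, MvPowerSeries.map_C]

@[simp] theorem toRlocX_X (𝒞 : Finset O) (g : ℕ) (j : Fin g) :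
    toRlocX O 𝒞 g (X j) = X j := by
  rw [toRlocX, MvPowerSeries.map_X]

/-- the killing ideal `J₂ = ker (Rinf g → Rloc⟦x⟧)` -/
noncomputable def J2 (𝒞 : Finset O) (g : ℕ) : Ideal (Rinf O g) := RingHom.ker (toRlocX O 𝒞 g)

theorem mem_J2_iff (𝒞 : Finset O) (g : ℕ) (f : Rinf O g) :
    f ∈ J2 O 𝒞 g ↔ ∀ e, coeff e f ∈ J O 𝒞 := by
  rw [J2, RingHom.mem_ker, MvPowerSeries.ext_iff]
  refine forall_congr' fun e => ?_
  rw [toRlocX, coeff_map, map_zero, Ideal.Quotient.eq_zero_iff_mem]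

theorem C_mem_J2 (𝒞 : Finset O) (g : ℕ) {f : P6 O} (hf : f ∈ J O 𝒞) :
    (C f : Rinf O g) ∈ J2 O 𝒞 g := by
  rw [J2, RingHom.mem_ker, toRlocX_C, Ideal.Quotient.eq_zero_iff_mem.2 hf, map_zero]

/-- `Rinf g ⧸ J₂ ≃ Rloc⟦x⟧` -/
noncomputable def quotEquiv (𝒞 : Finset O) (g : ℕ) :
    (Rinf O g ⧸ J2 O 𝒞 g) ≃+* RlocX O 𝒞 g :=
  RingHom.quotientKerEquivOfSurjective (toRlocX_surjective O 𝒞 g)

@[simp] theorem quotEquiv_mk (𝒞 : Finset O) (g : ℕ) (f : Rinf O g) :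
    quotEquiv O 𝒞 g (Ideal.Quotient.mk (J2 O 𝒞 g) f) = toRlocX O 𝒞 g f := rfl

variable {O}

/-- **`hdim`**: `dim (Rinf g ⧸ J₂) ≤ 4 + g` -/
theorem ringKrullDim_quot_le {lam : O} (hmax : maximalIdeal O = Ideal.span {lam})
    (𝒞 : Finset O) (h𝒞 : ∀ c ∈ 𝒞, lam ∣ c) (g : ℕ) :
    ringKrullDim (Rinf O g ⧸ J2 O 𝒞 g) ≤ ((4 + g : ℕ) : WithBot ℕ∞) := by
  rw [ringKrullDim_eq_of_ringEquiv (quotEquiv O 𝒞 g)]
  have h4 : ringKrullDim (Rloc O 𝒞) ≤ ((4 : ℕ) : WithBot ℕ∞) := by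
    have := Cert.ringKrullDim_Rloc_le hmax 𝒞 h𝒞
    exact_mod_cast this
  exact PSDim.ringKrullDim_mvPowerSeries_fin_le (Rloc O 𝒞) h4 g

/-- **`hP`** in `Rloc⟦x⟧` -/
theorem tElt_notMem_radical_RlocX [IsDomain O] {lam : O} (hlam : Prime lam) (𝒞 : Finset O)
    (h𝒞 : ∀ c ∈ 𝒞, ∃ (u : Oˣ) (e : ℕ), e ≠ 0 ∧ c = u * lam ^ e) (h4 : ¬ lam ∣ 4) {d : O}
    (hd : lam ∣ d) (g : ℕ) :
    ∀ Q ∈ minimalPrimes (RlocX O 𝒞 g),
      (C (Ideal.Quotient.mk (J O 𝒞) (tElt O d)) : RlocX O 𝒞 g) ∉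
        (Q ⊔ Ideal.span {(C (Ideal.Quotient.mk (J O 𝒞) (C lam)) : RlocX O 𝒞 g)}).radical :=
  PSDim.not_mem_radical_of_minimalPrimes
    (fun _ hP => TTest.tElt_notMem_radical' hlam 𝒞 h𝒞 h4 hd hP)

/-- **`hP`**: for every minimal prime `P` of `Rinf g ⧸ J₂`, the test element is not nilpotent
modulo `P + (λ)`. -/
theorem tElt_notMem_radical_quot [IsDomain O] {lam : O} (hlam : Prime lam) (𝒞 : Finset O)
    (h𝒞 : ∀ c ∈ 𝒞, ∃ (u : Oˣ) (e : ℕ), e ≠ 0 ∧ c = u * lam ^ e) (h4 : ¬ lam ∣ 4) {d : O}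
    (hd : lam ∣ d) (g : ℕ) :
    ∀ P ∈ minimalPrimes (Rinf O g ⧸ J2 O 𝒞 g),
      Ideal.Quotient.mk (J2 O 𝒞 g) (C (tElt O d)) ∉
        (P ⊔ Ideal.span {Ideal.Quotient.mk (J2 O 𝒞 g) (C (C lam))}).radical := by
  refine notMem_radical_of_ringEquiv (quotEquiv O 𝒞 g) ?_
  intro Q hQ
  rw [quotEquiv_mk, quotEquiv_mk, toRlocX_C, toRlocX_C]
  exact tElt_notMem_radical_RlocX hlam 𝒞 h𝒞 h4 hd g Q hQ

/-! ### Killing `J₂` -/

section Kill

variable {B : Type*} [CommRing B] [IsLocalRing B] [IsHausdorff (maximalIdeal B) B]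

/-- the coercion of a polynomial with coefficients in `J` is killed -/
theorem map_coe_eq_zero {g : ℕ} (𝒞 : Finset O) (θ : Rinf O g →+* B)
    (hJ : ∀ f ∈ J O 𝒞, θ (C f) = 0) (p : MvPolynomial (Fin g) (P6 O))
    (hp : ∀ e, MvPolynomial.coeff e p ∈ J O 𝒞) : θ (p : Rinf O g) = 0 := by
  classical
  have h1 : (p : Rinf O g) =
      ∑ v ∈ p.support, (C (MvPolynomial.coeff v p) : Rinf O g) * monomial v 1 := by
    conv_lhs => rw [p.as_sum]
    rw [← MvPolynomial.coeToMvPowerSeries.ringHom_apply, map_sum]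
    refine Finset.sum_congr rfl fun v _ => ?_
    rw [MvPolynomial.coeToMvPowerSeries.ringHom_apply, MvPolynomial.coe_monomial,
      ← MvPowerSeries.monomial_zero_eq_C_apply, MvPowerSeries.monomial_mul_monomial, zero_add,
      mul_one]
  rw [h1, map_sum]
  refine Finset.sum_eq_zero fun v _ => ?_
  rw [map_mul, hJ _ (hp v), zero_mul]

/-- **how `kill₂` is proved**: a ring hom out of `Rinf g` into a separated local ring, mapping the
`xⱼ` into the maximal ideal and killing `J 𝒞` on the coefficients, kills `J₂`. -/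
theorem J2_le_ker {g : ℕ} (𝒞 : Finset O) (θ : Rinf O g →+* B)
    (hJ : ∀ f ∈ J O 𝒞, θ (C f) = 0) (hx : ∀ j, θ (X j) ∈ maximalIdeal B) :
    J2 O 𝒞 g ≤ RingHom.ker θ := by
  intro f hf
  rw [mem_J2_iff] at hf
  rw [RingHom.mem_ker]
  apply IsHausdorff.haus (inferInstance : IsHausdorff (maximalIdeal B) B)
  intro N
  rw [smul_eq_mul, Ideal.mul_top, SModEq.zero]
  have hg := Cert.sub_truncTotal_mem_span_pow N f
  set p := truncTotal N f with hp
  have hp0 : θ (p : Rinf O g) = 0 := by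
    refine map_coe_eq_zero 𝒞 θ hJ p fun e => ?_
    rw [hp, coeff_truncTotal_eq_ite]
    split_ifs
    · exact hf e
    · exact zero_mem _
  have h1 : (Ideal.span (Set.range X) : Ideal (Rinf O g)).map θ ≤ maximalIdeal B := by
    rw [Ideal.map_span, Ideal.span_le]
    rintro _ ⟨_, ⟨j, rfl⟩, rfl⟩
    exact hx j
  have h2 : θ (f - (p : Rinf O g)) ∈
      ((Ideal.span (Set.range X) : Ideal (Rinf O g)) ^ N).map θ := Ideal.mem_map_of_mem _ hg
  rw [Ideal.map_pow] at h2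
  have h3 := Ideal.pow_right_mono h1 N h2
  rwa [map_sub, hp0, sub_zero] at h3

end Kill

end Fermat.Agent.GB.Local.RlocMain
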