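/-
CELL-B (Ribet S38/S43), CASE B, node B1 LOC — the GROUP LEMMA of helper53's DESIGN v1 §4
(helper96).  Mathlib only.

Tame relation at `q`: `Φ Σ Φ⁻¹ = Σ ^ q` with `det Σ = 1`, for `2 × 2` matrices `S = Σ`, `F = Φ`
over a domain `D`, `S` residually trivial (`tr S ≡ 2` modulo a proper ideal containing the odd
prime `p`), `p ∣ q − 1`, `p ^ a ‖ q − 1`.  Then every eigenvalue `ξ` of `S` is a `p ^ a`-th root
of unity; if `D ∋ ζ` primitive of order `p ^ a`, then `tr S = ζ ^ k + ζ ^ (−k)` for some `k`.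

* `trace_pow_eq` (G1) : `tr (S ^ n) = ξ ^ n + η ^ n` (`ξ η = 1`, `ξ + η = tr S`, `det S = 1`);
* `pow_eq_one_or` (G2) : `ξ ^ (q − 1) = 1 ∨ ξ ^ (q + 1) = 1`;
* `pow_eq_one_of_residual` : a root of unity of order prime to `p` that is `≡ 1` is `1`;
* `pow_prime_pow_eq_one` (G3), `exists_trace_eq`, `exists_trace_eq_factorization` (G4).
-/
import Mathlib

set_option autoImplicit false

namespace Fermat.Agent.GB.Local.GroupLemma

open Matrix

section Ring

variable {R : Type*} [CommRing R]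

/-- Cayley–Hamilton for a `2 × 2` matrix of determinant one. -/
theorem sq_eq_of_det_eq_one (S : Matrix (Fin 2) (Fin 2) R) (hS : S.det = 1) :
    S * S = S.trace • S - 1 := by
  rw [Matrix.det_fin_two] at hS
  ext i j
  fin_cases i <;> fin_cases j <;>
    simp [Matrix.mul_apply, Fin.sum_univ_two, Matrix.trace_fin_two] <;>
    first | ring1 | linear_combination -hS

/-- two-step recurrence for the traces of the powers -/
theorem trace_pow_add_two (S : Matrix (Fin 2) (Fin 2) R) (hS : S.det = 1) (n : ℕ) :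
    (S ^ (n + 2)).trace = S.trace * (S ^ (n + 1)).trace - (S ^ n).trace := by
  have h : S ^ (n + 2) = S.trace • S ^ (n + 1) - S ^ n := by
    rw [pow_add, pow_two, sq_eq_of_det_eq_one S hS, mul_sub, mul_one, Matrix.mul_smul, ← pow_succ]
  rw [h, Matrix.trace_sub, Matrix.trace_smul, smul_eq_mul]

/-- **(G1)** `tr (S ^ n) = ξ ^ n + η ^ n` when `ξ η = 1`, `ξ + η = tr S`, `det S = 1`. -/
theorem trace_pow_eq (S : Matrix (Fin 2) (Fin 2) R) (hS : S.det = 1) {ξ η : R} (hmul : ξ * η = 1)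
    (hadd : ξ + η = S.trace) (n : ℕ) : (S ^ n).trace = ξ ^ n + η ^ n := by
  induction n using Nat.twoStepInduction with
  | zero => simp; norm_num
  | one => simp [hadd]
  | more n h0 h1 =>
    rw [trace_pow_add_two S hS, h0, h1, ← hadd]
    linear_combination (ξ ^ n + η ^ n) * hmul

/-- conjugation invariance: `F S = S ^ q F`, `F` invertible ⟹ `tr (S ^ q) = tr S`. -/
theorem trace_pow_eq_trace (S F : Matrix (Fin 2) (Fin 2) R) (hF : IsUnit F.det) (q : ℕ)
    (hrel : F * S = S ^ q * F) : (S ^ q).trace = S.trace := by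
  have h1 : S ^ q = F * S * F⁻¹ := by
    rw [hrel, Matrix.mul_assoc, Matrix.mul_nonsing_inv F hF, Matrix.mul_one]
  rw [h1, Matrix.trace_mul_cycle, Matrix.nonsing_inv_mul F hF, Matrix.one_mul]

end Ring

section Field

variable {L : Type*} [Field L]

/-- a root of `X² − tX + 1` is nonzero and `ξ + ξ⁻¹ = t`. -/
theorem root_ne_zero {t ξ : L} (hξ : ξ ^ 2 - t * ξ + 1 = 0) : ξ ≠ 0 := by
  rintro rfl
  simp at hξ

theorem root_add_inv {t ξ : L} (hξ : ξ ^ 2 - t * ξ + 1 = 0) : ξ + ξ⁻¹ = t := by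
  have h0 := root_ne_zero hξ
  field_simp
  linear_combination hξ

/-- **(G2)** `F S = S ^ q F`, `det F ≠ 0`, `det S = 1`, `1 ≤ q`: every eigenvalue `ξ` of `S`
satisfies `ξ ^ (q − 1) = 1` or `ξ ^ (q + 1) = 1`. -/
theorem pow_eq_one_or (S F : Matrix (Fin 2) (Fin 2) L) (hF : F.det ≠ 0) (hS : S.det = 1)
    {q : ℕ} (hq : 1 ≤ q) (hrel : F * S = S ^ q * F) {ξ : L}
    (hξ : ξ ^ 2 - S.trace * ξ + 1 = 0) : ξ ^ (q - 1) = 1 ∨ ξ ^ (q + 1) = 1 := by
  have h0 := root_ne_zero hξ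
  have hadd := root_add_inv hξ
  have htr := trace_pow_eq_trace S F (isUnit_iff_ne_zero.mpr hF) q hrel
  rw [trace_pow_eq S hS (mul_inv_cancel₀ h0) hadd q, ← hadd] at htr
  -- `ξ^q + ξ^{-q} = ξ + ξ⁻¹`
  obtain ⟨m, rfl⟩ : ∃ m, q = m + 1 := ⟨q - 1, by omega⟩
  have hprod : (ξ ^ m - 1) * (ξ ^ (m + 2) - 1) = 0 := by
    have h1 : ξ⁻¹ ^ (m + 1) = (ξ ^ (m + 1))⁻¹ := inv_pow ξ (m + 1)
    rw [h1] at htr
    have h2 : ξ ^ (m + 1) ≠ 0 := pow_ne_zero _ h0
    field_simp at htr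
    have h3 : ξ * ((ξ ^ m - 1) * (ξ ^ (m + 2) - 1)) = 0 := by linear_combination htr
    exact (mul_eq_zero.mp h3).resolve_left h0
  rcases mul_eq_zero.mp hprod with h | h
  · left
    simpa using sub_eq_zero.mp h
  · right
    simpa using sub_eq_zero.mp h

end Field

section Residual

variable {D : Type*} [CommRing D] {L : Type*} [Field L] [Algebra D L]

/-- a root of a monic quadratic over `D` is integral over `D`. -/
theorem isIntegral_root (t : D) {ξ : L} (hξ : ξ ^ 2 - algebraMap D L t * ξ + 1 = 0) :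
    IsIntegral D ξ := by
  refine ⟨Polynomial.X ^ 2 - Polynomial.C t * Polynomial.X + 1, ?_, ?_⟩
  · have h : (Polynomial.X ^ 2 - Polynomial.C t * Polynomial.X + 1 : Polynomial D)
        = Polynomial.X ^ 2 + (Polynomial.C (-t) * Polynomial.X + Polynomial.C 1) := by
      rw [Polynomial.C_neg, Polynomial.C_1]; ring
    rw [h]
    exact Polynomial.monic_X_pow_add (by
      refine lt_of_le_of_lt (Polynomial.degree_linear_le) ?_
      norm_num)
  · simp [Polynomial.eval₂_sub, Polynomial.eval₂_add, Polynomial.eval₂_mul, hξ]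

/-- **the residual step**: in the integral closure `B` of `D` in `L` there is a maximal ideal
`Q` over (a maximal ideal containing) `𝔪`; an eigenvalue `ξ` of a residually trivial `S`
(`tr S ≡ 2 mod 𝔪`) is `≡ 1 mod Q`, so a prime-to-`p` power of `ξ ^ (p ^ b)` that equals one forces
`ξ ^ (p ^ b) = 1`. -/
theorem pow_eq_one_of_residual (hinj : Function.Injective (algebraMap D L)) {𝔪 : Ideal D}
    (h𝔪 : 𝔪 ≠ ⊤) {p : ℕ} (hp : p.Prime) (hp𝔪 : (p : D) ∈ 𝔪) {t : D} (ht : t - 2 ∈ 𝔪) {ξ : L}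
    (hξ : ξ ^ 2 - algebraMap D L t * ξ + 1 = 0) {b n' : ℕ} (hn' : ¬ p ∣ n')
    (hpow : ξ ^ (p ^ b * n') = 1) : ξ ^ (p ^ b) = 1 := by
  classical
  obtain ⟨M, hMmax, h𝔪M⟩ := Ideal.exists_le_maximal 𝔪 h𝔪
  let B : Subalgebra D L := integralClosure D L
  have hker : RingHom.ker (algebraMap D B) ≤ M := by
    intro x hx
    have hx0 : algebraMap D B x = 0 := hx
    have h1 : algebraMap D L x = 0 := by
      have := congrArg (fun y : B => (y : L)) hx0
      simpa using this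
    rw [(map_eq_zero_iff _ hinj).mp h1]
    exact M.zero_mem
  obtain ⟨Q, hQmax, hQM⟩ := Ideal.exists_ideal_over_maximal_of_isIntegral (S := B) M hker
  let φ : B →+* B ⧸ Q := Ideal.Quotient.mk Q
  let _ : Field (B ⧸ Q) := Ideal.Quotient.field Q
  have hφ𝔪 : ∀ x ∈ 𝔪, φ (algebraMap D B x) = 0 := by
    intro x hx
    have : x ∈ Q.comap (algebraMap D B) := by rw [hQM]; exact h𝔪M hx
    exact Ideal.Quotient.eq_zero_iff_mem.mpr this
  -- `ξ` as an element of `B`
  let ξB : B := ⟨ξ, isIntegral_root t hξ⟩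
  have hξB : ξB ^ 2 - algebraMap D B t * ξB + 1 = 0 := by
    apply Subtype.ext
    simpa [ξB] using hξ
  -- `φ ξ = 1`
  have hφt : φ (algebraMap D B t) = 2 := by
    have h := hφ𝔪 _ ht
    rw [map_sub, map_sub] at h
    have h2 : φ (algebraMap D B 2) = 2 := by
      rw [map_ofNat, map_ofNat]
    rw [h2] at h
    exact sub_eq_zero.mp h
  have hφξ : φ ξB = 1 := by
    have h := congrArg φ hξB
    simp only [map_add, map_sub, map_mul, map_pow, map_one, map_zero, hφt] at h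
    have h2 : (φ ξB - 1) ^ 2 = 0 := by linear_combination h
    exact sub_eq_zero.mp ((pow_eq_zero_iff (two_ne_zero)).mp h2)
  -- `p = 0` in the residue field, hence `n' ≠ 0` there
  have hφp : ((p : ℕ) : B ⧸ Q) = 0 := by
    have h := hφ𝔪 _ hp𝔪
    simpa using h
  have hn0 : ((n' : ℕ) : B ⧸ Q) ≠ 0 := by
    intro h
    have hc : ringChar (B ⧸ Q) ∣ p := (ringChar.spec (B ⧸ Q) p).mp hφp
    have hc' : ringChar (B ⧸ Q) ∣ n' := (ringChar.spec (B ⧸ Q) n').mp h
    rcases (Nat.dvd_prime hp).mp hc with h1 | h1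
    · have : (1 : B ⧸ Q) = 0 := by
        have := (ringChar.spec (B ⧸ Q) 1).mpr (by rw [h1])
        simp at this
      exact one_ne_zero this
    · exact hn' (h1 ▸ hc')
  -- the geometric sum
  set η : B := ξB ^ (p ^ b) with hη
  have hηpow : η ^ n' = 1 := by
    apply Subtype.ext
    simp only [hη, ξB, OneMemClass.coe_one, ← pow_mul]
    exact hpow
  have hφη : φ η = 1 := by rw [hη, map_pow, hφξ, one_pow]
  have hgeom := geom_sum_mul η n'
  rw [hηpow, sub_self] at hgeom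
  have hη1 : η = 1 := by
    rcases mul_eq_zero.mp hgeom with h | h
    · exfalso
      have h2 := congrArg φ h
      rw [map_sum, map_zero] at h2
      simp only [map_pow, hφη, one_pow, Finset.sum_const, Finset.card_range, nsmul_eq_mul,
        mul_one] at h2
      exact hn0 h2
    · exact sub_eq_zero.mp h
  have := congrArg (fun y : B => (y : L)) hη1
  simpa [hη, ξB] using this

/-- **(G3)** the GROUP LEMMA: `F S = S ^ q F` over `D`, `det F ≠ 0`, `det S = 1`, `S` residually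
trivial (`tr S ≡ 2` modulo a proper ideal containing `p`), `p` odd, `q − 1 = p ^ a · n'` with
`p ∣ q − 1`, `p ∤ n'`: every eigenvalue `ξ` of `S` (in any field `L ⊇ D`) is a `p ^ a`-th root of
unity. -/
theorem pow_prime_pow_eq_one (hinj : Function.Injective (algebraMap D L)) {𝔪 : Ideal D}
    (h𝔪 : 𝔪 ≠ ⊤) {p : ℕ} (hp : p.Prime) (hp2 : p ≠ 2) (hp𝔪 : (p : D) ∈ 𝔪)
    (S F : Matrix (Fin 2) (Fin 2) D) (hF : F.det ≠ 0) (hS : S.det = 1) {q a n' : ℕ}
    (hfac : q - 1 = p ^ a * n') (hn' : ¬ p ∣ n') (hpq : p ∣ q - 1) (hq : 1 ≤ q)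
    (hrel : F * S = S ^ q * F) (hres : S.trace - 2 ∈ 𝔪) {ξ : L}
    (hξ : ξ ^ 2 - algebraMap D L S.trace * ξ + 1 = 0) : ξ ^ (p ^ a) = 1 := by
  set f : D →+* L := algebraMap D L with hf
  have hSL : (f.mapMatrix S).det = 1 := by
    rw [← RingHom.map_det, hS, map_one]
  have hFL : (f.mapMatrix F).det ≠ 0 := by
    rw [← RingHom.map_det]
    exact fun h => hF ((map_eq_zero_iff f hinj).mp h)
  have hrelL : f.mapMatrix F * f.mapMatrix S = f.mapMatrix S ^ q * f.mapMatrix F := by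
    rw [← map_mul, hrel, map_mul, map_pow]
  have htr : (f.mapMatrix S).trace = f S.trace := by
    rw [RingHom.mapMatrix_apply, ← AddMonoidHom.map_trace]
  have hξ' : ξ ^ 2 - (f.mapMatrix S).trace * ξ + 1 = 0 := by rw [htr]; exact hξ
  rcases pow_eq_one_or (f.mapMatrix S) (f.mapMatrix F) hFL hSL hq hrelL hξ' with h | h
  · rw [hfac] at h
    exact pow_eq_one_of_residual hinj h𝔪 hp hp𝔪 hres hξ hn' h
  · have hnd : ¬ p ∣ q + 1 := by
      intro hd
      have h2 : p ∣ 2 := by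
        have : q + 1 = (q - 1) + 2 := by omega
        rw [this] at hd
        exact (Nat.dvd_add_right hpq).mp hd
      exact hp2 ((Nat.prime_dvd_prime_iff_eq hp Nat.prime_two).mp h2)
    have h1 : ξ ^ (p ^ 0 * (q + 1)) = 1 := by rw [pow_zero, one_mul]; exact h
    have h3 := pow_eq_one_of_residual hinj h𝔪 hp hp𝔪 hres hξ hnd h1
    rw [pow_zero, pow_one] at h3
    rw [h3, one_pow]

end Residual

section Consumer

variable {D : Type*} [CommRing D] [IsDomain D]

/-- **(G4)**, consumer form ('the point lies on some `C_ξ`'): if moreover `D` contains a primitive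
`p ^ a`-th root of unity `ζ`, then `tr S = ζ ^ k + ζ ^ (p ^ a − k)` for some `k < p ^ a`
(`k = 0`: `tr S = 2`, the unramified/unipotent locus). -/
theorem exists_trace_eq {𝔪 : Ideal D} (h𝔪 : 𝔪 ≠ ⊤) {p : ℕ} (hp : p.Prime) (hp2 : p ≠ 2)
    (hp𝔪 : (p : D) ∈ 𝔪) (S F : Matrix (Fin 2) (Fin 2) D) (hF : F.det ≠ 0) (hS : S.det = 1)
    {q a n' : ℕ} (hfac : q - 1 = p ^ a * n') (hn' : ¬ p ∣ n') (hpq : p ∣ q - 1) (hq : 1 ≤ q)
    (hrel : F * S = S ^ q * F) (hres : S.trace - 2 ∈ 𝔪) {ζ : D}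
    (hζ : IsPrimitiveRoot ζ (p ^ a)) :
    ∃ k < p ^ a, S.trace = ζ ^ k + ζ ^ (p ^ a - k) := by
  let L := AlgebraicClosure (FractionRing D)
  have hinj : Function.Injective (algebraMap D L) :=
    (algebraMap (FractionRing D) L).injective.comp (IsFractionRing.injective D (FractionRing D))
  -- an eigenvalue
  let P : Polynomial L := Polynomial.X ^ 2 - Polynomial.C (algebraMap D L S.trace) * Polynomial.X + 1
  have hPdeg : P.degree ≠ 0 := by
    have h : P = Polynomial.X ^ 2 + (Polynomial.C (-(algebraMap D L S.trace)) * Polynomial.X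
        + Polynomial.C 1) := by
      simp only [P, Polynomial.C_neg, Polynomial.C_1]; ring
    have hlt : (Polynomial.C (-(algebraMap D L S.trace)) * Polynomial.X
        + Polynomial.C 1 : Polynomial L).degree < ((2 : ℕ) : WithBot ℕ) := by
      refine lt_of_le_of_lt (Polynomial.degree_linear_le) ?_
      norm_num
    have hd : P.degree = ((2 : ℕ) : WithBot ℕ) := by
      rw [h, Polynomial.degree_add_eq_left_of_degree_lt (by rwa [Polynomial.degree_X_pow]),
        Polynomial.degree_X_pow]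
    rw [hd]; norm_num
  obtain ⟨ξ, hξ0⟩ := IsAlgClosed.exists_root P hPdeg
  have hξ : ξ ^ 2 - algebraMap D L S.trace * ξ + 1 = 0 := by
    simpa [P, Polynomial.IsRoot] using hξ0
  have hpow := pow_prime_pow_eq_one hinj h𝔪 hp hp2 hp𝔪 S F hF hS hfac hn' hpq hq hrel hres hξ
  have hζL : IsPrimitiveRoot (algebraMap D L ζ) (p ^ a) := hζ.map_of_injective hinj
  have : NeZero (p ^ a) := ⟨pow_ne_zero _ hp.ne_zero⟩
  obtain ⟨k, hk, hkξ⟩ := hζL.eq_pow_of_pow_eq_one hpow
  refine ⟨k, hk, hinj ?_⟩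
  have hadd := root_add_inv hξ
  have hinv : ξ⁻¹ = algebraMap D L ζ ^ (p ^ a - k) := by
    rw [← hkξ]
    refine inv_eq_of_mul_eq_one_right ?_
    rw [← pow_add, Nat.add_sub_cancel' hk.le, hζL.pow_eq_one]
  rw [map_add, map_pow, map_pow, ← hadd, hinv, hkξ]

/-- **(G4)** with `a := v_p(q − 1)`. -/
theorem exists_trace_eq_factorization {𝔪 : Ideal D} (h𝔪 : 𝔪 ≠ ⊤) {p : ℕ} (hp : p.Prime)
    (hp2 : p ≠ 2) (hp𝔪 : (p : D) ∈ 𝔪) (S F : Matrix (Fin 2) (Fin 2) D) (hF : F.det ≠ 0)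
    (hS : S.det = 1) {q : ℕ} (hq2 : 2 ≤ q) (hpq : p ∣ q - 1)
    (hrel : F * S = S ^ q * F) (hres : S.trace - 2 ∈ 𝔪) {ζ : D}
    (hζ : IsPrimitiveRoot ζ (p ^ (q - 1).factorization p)) :
    ∃ k < p ^ (q - 1).factorization p, S.trace = ζ ^ k + ζ ^ (p ^ (q - 1).factorization p - k) := by
  have hq1 : q - 1 ≠ 0 := by omega
  refine exists_trace_eq h𝔪 hp hp2 hp𝔪 S F hF hS
    (Nat.ordProj_mul_ordCompl_eq_self (q - 1) p).symm (Nat.not_dvd_ordCompl hp hq1) hpq
    (by omega) hrel hres hζ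

end Consumer

end Fermat.Agent.GB.Local.GroupLemma
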