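/-
CELL-B / S59-engine zero-regret leaf (helper2): the GROUP LEMMA for tame local lifts at a prime
`q ≡ 1 (p)` (CELL-B DESIGN v1, board 4996 §4; helper66 4904; helper59 4896 (A4)).

`R` a domain, `𝔪` a proper ideal with `p ∈ 𝔪`, `Φ, Sg ∈ M₂(R)` with `Φ` invertible,
`Φ * Sg = Sg ^ q * Φ` (the tame relation `φ σ φ⁻¹ = σ ^ q`), `det Sg = 1`, and the characteristic
polynomial of `Sg` split as `(X - ξ)(X - ξ')`, `ξ ξ' = 1`, with `ξ ≡ 1 mod 𝔪` (residually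
unramified).  Then

* `tr (Sg ^ n) = ξ ^ n + ξ' ^ n` (`trace_pow_eq`);
* `ξ ^ (q - 1) = 1 ∨ ξ ^ (q + 1) = 1` (`pow_sub_one_or_pow_add_one`);
* if `q - 1 = p ^ a * c`, `p ∤ c`, `p ∤ q + 1` then `ξ ^ (p ^ a) = 1` (`eigenvalue_pow_eq_one`):
  the inertial type is `(ξ, ξ⁻¹)` with `ξ ∈ μ_{p^a}`; the swapped case needs `p ∣ q + 1`;
* if `ξ ≠ ξ'` then `Sg ^ (p ^ a) = 1` and `Φ` commutes with `Sg` (`pow_eq_one_of_ne`,
  `commute_of_ne`); if `ξ = 1` then `(Sg - 1) ^ 2 = 0` (`sub_one_sq_eq_zero`).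

Mathlib only.
-/
import Mathlib

set_option autoImplicit false

namespace Fermat.Agent.GB.Local.TameGroup

open Matrix

section CayleyHamilton

variable {R : Type*} [CommRing R]

/-- Cayley–Hamilton for `2 × 2` matrices. -/
theorem sq_eq (M : Matrix (Fin 2) (Fin 2) R) : M ^ 2 = M.trace • M - M.det • (1 : Matrix _ _ R) := by
  ext i j
  fin_cases i <;> fin_cases j <;>
    simp [pow_two, Matrix.mul_apply, Fin.sum_univ_two, Matrix.trace_fin_two, Matrix.det_fin_two] <;>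
    ring

/-- the split form of Cayley–Hamilton -/
theorem sub_mul_sub_eq_zero (M : Matrix (Fin 2) (Fin 2) R) {ξ ξ' : R}
    (htr : M.trace = ξ + ξ') (hdet : M.det = ξ * ξ') :
    (M - ξ • (1 : Matrix _ _ R)) * (M - ξ' • (1 : Matrix _ _ R)) = 0 := by
  have h := sq_eq M
  rw [htr, hdet] at h
  have : (M - ξ • (1 : Matrix _ _ R)) * (M - ξ' • (1 : Matrix _ _ R))
      = M ^ 2 - (ξ + ξ') • M + (ξ * ξ') • (1 : Matrix _ _ R) := by
    rw [sub_mul, mul_sub, mul_sub, smul_mul_assoc, one_mul, mul_smul_comm, mul_one,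
      smul_mul_assoc, one_mul, smul_smul, pow_two, add_smul]
    abel
  rw [this, h]
  abel

theorem mul_sub_left (M : Matrix (Fin 2) (Fin 2) R) {ξ ξ' : R}
    (htr : M.trace = ξ + ξ') (hdet : M.det = ξ * ξ') :
    M * (M - ξ' • (1 : Matrix _ _ R)) = ξ • (M - ξ' • (1 : Matrix _ _ R)) := by
  have h := sub_mul_sub_eq_zero M htr hdet
  rw [sub_mul, smul_mul_assoc, one_mul, sub_eq_zero] at h
  exact h

theorem mul_sub_right (M : Matrix (Fin 2) (Fin 2) R) {ξ ξ' : R}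
    (htr : M.trace = ξ + ξ') (hdet : M.det = ξ * ξ') :
    M * (M - ξ • (1 : Matrix _ _ R)) = ξ' • (M - ξ • (1 : Matrix _ _ R)) := by
  refine mul_sub_left M (ξ := ξ') (ξ' := ξ) ?_ ?_
  · rw [htr, add_comm]
  · rw [hdet, mul_comm]

/-- Lagrange interpolation for the powers of a `2 × 2` matrix with split characteristic
polynomial. -/
theorem sub_smul_pow (M : Matrix (Fin 2) (Fin 2) R) {ξ ξ' : R}
    (htr : M.trace = ξ + ξ') (hdet : M.det = ξ * ξ') (n : ℕ) :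
    (ξ - ξ') • M ^ n
      = ξ ^ n • (M - ξ' • (1 : Matrix _ _ R)) - ξ' ^ n • (M - ξ • (1 : Matrix _ _ R)) := by
  induction n with
  | zero =>
    rw [pow_zero, pow_zero, pow_zero, one_smul, one_smul, sub_smul]
    abel
  | succ n ih =>
    calc (ξ - ξ') • M ^ (n + 1) = M * ((ξ - ξ') • M ^ n) := by rw [pow_succ', mul_smul_comm]
      _ = ξ ^ n • (M * (M - ξ' • (1 : Matrix _ _ R)))
            - ξ' ^ n • (M * (M - ξ • (1 : Matrix _ _ R))) := by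
          rw [ih, mul_sub, mul_smul_comm, mul_smul_comm]
      _ = ξ ^ (n + 1) • (M - ξ' • (1 : Matrix _ _ R))
            - ξ' ^ (n + 1) • (M - ξ • (1 : Matrix _ _ R)) := by
          rw [mul_sub_left M htr hdet, mul_sub_right M htr hdet, smul_smul, smul_smul, pow_succ,
            pow_succ]

/-- the trace recursion -/
theorem trace_pow_succ_succ (M : Matrix (Fin 2) (Fin 2) R) (n : ℕ) :
    (M ^ (n + 2)).trace = M.trace * (M ^ (n + 1)).trace - M.det * (M ^ n).trace := by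
  rw [pow_add, sq_eq, mul_sub, mul_smul_comm, mul_smul_comm, mul_one, ← pow_succ,
    Matrix.trace_sub, Matrix.trace_smul, Matrix.trace_smul, smul_eq_mul, smul_eq_mul]

/-- **the traces of the powers** of a determinant-one `2 × 2` matrix with eigenvalues `ξ, ξ'`. -/
theorem trace_pow_eq (M : Matrix (Fin 2) (Fin 2) R) {ξ ξ' : R}
    (htr : M.trace = ξ + ξ') (hdet : M.det = 1) (hξ : ξ * ξ' = 1) (n : ℕ) :
    (M ^ n).trace = ξ ^ n + ξ' ^ n := by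
  induction n using Nat.strong_induction_on with
  | _ n ih =>
    match n with
    | 0 =>
      rw [pow_zero, pow_zero, pow_zero, Matrix.trace_one, Fintype.card_fin]
      norm_num
    | 1 => rw [pow_one, pow_one, pow_one, htr]
    | (k + 2) =>
      rw [trace_pow_succ_succ, ih (k + 1) (by omega), ih k (by omega), htr, hdet]
      have e : ξ ^ (k + 2) + ξ' ^ (k + 2)
          = (ξ + ξ') * (ξ ^ (k + 1) + ξ' ^ (k + 1)) - (ξ * ξ') * (ξ ^ k + ξ' ^ k) := by ring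
      rw [e, hξ]

end CayleyHamilton

section Roots

variable {R : Type*} [CommRing R]

theorem pow_sub_one_mem {𝔪 : Ideal R} {ξ : R} (h : ξ - 1 ∈ 𝔪) (n : ℕ) : ξ ^ n - 1 ∈ 𝔪 := by
  have : ξ ^ n - 1 = (∑ i ∈ Finset.range n, ξ ^ i) * (ξ - 1) := (geom_sum_mul ξ n).symm
  rw [this]
  exact 𝔪.mul_mem_left _ h

/-- a root of unity of order prime to `p` that is `≡ 1` modulo a proper ideal containing `p` of a
domain is `1`. -/
theorem eq_one_of_pow_eq_one [IsDomain R] {𝔪 : Ideal R} (h𝔪 : 𝔪 ≠ ⊤) {p : ℕ} (hp : p.Prime)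
    (hpm : (p : R) ∈ 𝔪) {ζ : R} (hζm : ζ - 1 ∈ 𝔪) {n : ℕ} (hn : ¬ p ∣ n) (hζ : ζ ^ n = 1) :
    ζ = 1 := by
  have hgeom : (∑ i ∈ Finset.range n, ζ ^ i) * (ζ - 1) = 0 := by
    rw [geom_sum_mul, hζ, sub_self]
  rcases mul_eq_zero.mp hgeom with h0 | h1
  · exfalso
    -- the geometric sum is `≡ n` modulo `𝔪`
    have hsum : (∑ i ∈ Finset.range n, ζ ^ i) - (n : R) ∈ 𝔪 := by
      have : (∑ i ∈ Finset.range n, ζ ^ i) - (n : R) = ∑ i ∈ Finset.range n, (ζ ^ i - 1) := by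
        rw [Finset.sum_sub_distrib, Finset.sum_const, Finset.card_range, nsmul_eq_mul, mul_one]
      rw [this]
      exact 𝔪.sum_mem fun i _ => pow_sub_one_mem hζm i
    rw [h0, zero_sub, neg_mem_iff] at hsum
    have hcop : Nat.Coprime n p := (Nat.Coprime.symm ((Nat.Prime.coprime_iff_not_dvd hp).2 hn))
    have hone : ((1 : ℤ) : R) ∈ 𝔪 := by
      have hb := Int.gcd_eq_gcd_ab (n : ℤ) (p : ℤ)
      have hg : ((Int.gcd (n : ℤ) (p : ℤ) : ℕ) : ℤ) = 1 := by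
        rw [Int.gcd_natCast_natCast]
        exact_mod_cast hcop
      rw [hg] at hb
      rw [hb]
      push_cast
      exact 𝔪.add_mem (𝔪.mul_mem_right _ hsum) (𝔪.mul_mem_right _ hpm)
    rw [Int.cast_one] at hone
    exact h𝔪 ((Ideal.eq_top_iff_one 𝔪).2 hone)
  · exact sub_eq_zero.mp h1

/-- a root of unity `≡ 1` modulo a proper ideal containing `p` has `p`-power order. -/
theorem pow_pow_eq_one [IsDomain R] {𝔪 : Ideal R} (h𝔪 : 𝔪 ≠ ⊤) {p : ℕ} (hp : p.Prime)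
    (hpm : (p : R) ∈ 𝔪) {ξ : R} (hξm : ξ - 1 ∈ 𝔪) {a c : ℕ} (hc : ¬ p ∣ c)
    (hξ : ξ ^ (p ^ a * c) = 1) : ξ ^ (p ^ a) = 1 := by
  refine eq_one_of_pow_eq_one h𝔪 hp hpm (pow_sub_one_mem hξm _) hc ?_
  rw [← pow_mul, hξ]

/-- `ξ ^ q + ξ' ^ q = ξ + ξ'` with `ξ ξ' = 1` forces `ξ ^ (q - 1) = 1` or `ξ ^ (q + 1) = 1`. -/
theorem pow_sub_one_or_pow_add_one_of_eq [IsDomain R] {ξ ξ' : R} (hξ : ξ * ξ' = 1) {q : ℕ}
    (hq : 1 ≤ q) (h : ξ ^ q + ξ' ^ q = ξ + ξ') : ξ ^ (q - 1) = 1 ∨ ξ ^ (q + 1) = 1 := by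
  obtain ⟨k, rfl⟩ : ∃ k, q = k + 1 := ⟨q - 1, by omega⟩
  have h2 : ξ ^ (k + 1) * ξ' ^ (k + 1) = 1 := by rw [← mul_pow, hξ, one_pow]
  have h3 : ξ ^ (k + 1) * ξ' = ξ ^ k := by rw [pow_succ, mul_assoc, hξ, mul_one]
  have key : (ξ ^ k - 1) * (ξ ^ (k + 1 + 1) - 1) = 0 := by
    linear_combination (ξ ^ (k + 1)) * h - h2 + h3
  rcases mul_eq_zero.mp key with h1 | h2
  · left
    rw [Nat.add_sub_cancel]
    exact sub_eq_zero.mp h1
  · right
    exact sub_eq_zero.mp h2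

end Roots

section Main

variable {R : Type*} [CommRing R] [IsDomain R]

omit [IsDomain R] in
/-- conjugation invariance of the trace: `Φ Sg = Sg ^ q Φ`, `Φ` invertible. -/
theorem trace_pow_eq_trace {Φ Φ' Sg : Matrix (Fin 2) (Fin 2) R} (hΦ : Φ * Φ' = 1) {q : ℕ}
    (hrel : Φ * Sg = Sg ^ q * Φ) : (Sg ^ q).trace = Sg.trace := by
  have h1 : Sg ^ q = Φ * Sg * Φ' := by
    rw [hrel, mul_assoc, hΦ, mul_one]
  have hΦ' : Φ' * Φ = 1 := mul_eq_one_comm.mp hΦ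
  rw [h1, Matrix.trace_mul_comm, ← mul_assoc, hΦ', one_mul]

/-- **the dichotomy**: the inertial eigenvalue is a `(q - 1)`-st or a `(q + 1)`-st root of `1`. -/
theorem pow_sub_one_or_pow_add_one {Φ Φ' Sg : Matrix (Fin 2) (Fin 2) R} (hΦ : Φ * Φ' = 1)
    {q : ℕ} (hq : 1 ≤ q) (hrel : Φ * Sg = Sg ^ q * Φ) (hdet : Sg.det = 1) {ξ ξ' : R}
    (hξ : ξ * ξ' = 1) (htr : Sg.trace = ξ + ξ') : ξ ^ (q - 1) = 1 ∨ ξ ^ (q + 1) = 1 := by
  refine pow_sub_one_or_pow_add_one_of_eq hξ hq ?_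
  rw [← trace_pow_eq Sg htr hdet hξ q, trace_pow_eq_trace hΦ hrel, htr]

/-- **GROUP LEMMA**: in the residually unramified situation at `q` with `p ∤ q + 1` the inertial
eigenvalue lies in `μ_{p^a}`, `p ^ a ∥ q - 1`. -/
theorem eigenvalue_pow_eq_one {𝔪 : Ideal R} (h𝔪 : 𝔪 ≠ ⊤) {p : ℕ} (hp : p.Prime)
    (hpm : (p : R) ∈ 𝔪) {q a c : ℕ} (hq : 1 ≤ q) (hqa : q - 1 = p ^ a * c) (hc : ¬ p ∣ c)
    (hq' : ¬ p ∣ q + 1) {Φ Φ' Sg : Matrix (Fin 2) (Fin 2) R} (hΦ : Φ * Φ' = 1)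
    (hrel : Φ * Sg = Sg ^ q * Φ) (hdet : Sg.det = 1) {ξ ξ' : R} (hξ : ξ * ξ' = 1)
    (htr : Sg.trace = ξ + ξ') (hξm : ξ - 1 ∈ 𝔪) : ξ ^ (p ^ a) = 1 := by
  rcases pow_sub_one_or_pow_add_one hΦ hq hrel hdet hξ htr with h1 | h2
  · rw [hqa] at h1
    exact pow_pow_eq_one h𝔪 hp hpm hξm hc h1
  · have : ξ = 1 := eq_one_of_pow_eq_one h𝔪 hp hpm hξm hq' h2
    rw [this, one_pow]

/-- `p` odd and `p ∣ q - 1`, `1 ≤ q` give `p ∤ q + 1`. -/
theorem not_dvd_add_one {p q : ℕ} (hp : p.Prime) (hp2 : p ≠ 2) (hq : 1 ≤ q) (h : p ∣ q - 1) :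
    ¬ p ∣ q + 1 := by
  intro h'
  have h2 : p ∣ (q + 1) - (q - 1) := Nat.dvd_sub h' h
  have e : (q + 1) - (q - 1) = 2 := by omega
  rw [e] at h2
  exact hp2 ((Nat.prime_dvd_prime_iff_eq hp Nat.prime_two).mp h2)

omit [IsDomain R] in
/-- the other eigenvalue has the same order -/
theorem pow_eq_one_right {ξ ξ' : R} (hξ : ξ * ξ' = 1) {n : ℕ} (h : ξ ^ n = 1) : ξ' ^ n = 1 := by
  have : ξ ^ n * ξ' ^ n = 1 := by rw [← mul_pow, hξ, one_pow]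
  rwa [h, one_mul] at this

/-- **semisimple case**: distinct eigenvalues in `μ_n` give `Sg ^ n = 1`. -/
theorem pow_eq_one_of_ne {Sg : Matrix (Fin 2) (Fin 2) R} (hdet : Sg.det = 1) {ξ ξ' : R}
    (hξ : ξ * ξ' = 1) (htr : Sg.trace = ξ + ξ') (hne : ξ ≠ ξ') {n : ℕ} (hn : ξ ^ n = 1) :
    Sg ^ n = 1 := by
  have hdet' : Sg.det = ξ * ξ' := by rw [hdet, hξ]
  have h := sub_smul_pow Sg htr hdet' n
  rw [hn, pow_eq_one_right hξ hn, one_smul, one_smul] at h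
  have h2 : (ξ - ξ') • Sg ^ n = (ξ - ξ') • (1 : Matrix (Fin 2) (Fin 2) R) := by
    rw [h, sub_smul]
    abel
  have hne' : ξ - ξ' ≠ 0 := sub_ne_zero.mpr hne
  ext i j
  have := congrFun (congrFun h2 i) j
  simp only [Matrix.smul_apply, smul_eq_mul] at this
  exact mul_left_cancel₀ hne' this

/-- **semisimple case**: `Φ` commutes with `Sg`. -/
theorem commute_of_ne {Φ Sg : Matrix (Fin 2) (Fin 2) R} {q n c : ℕ} (hq : 1 ≤ q)
    (hqn : q - 1 = n * c) (hrel : Φ * Sg = Sg ^ q * Φ) (hdet : Sg.det = 1) {ξ ξ' : R}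
    (hξ : ξ * ξ' = 1) (htr : Sg.trace = ξ + ξ') (hne : ξ ≠ ξ') (hn : ξ ^ n = 1) :
    Φ * Sg = Sg * Φ := by
  have h1 : Sg ^ n = 1 := pow_eq_one_of_ne hdet hξ htr hne hn
  have h2 : Sg ^ q = Sg := by
    have e : q = n * c + 1 := by omega
    rw [e, pow_succ, pow_mul, h1, one_pow, one_mul]
  rw [hrel, h2]

omit [IsDomain R] in
/-- **unipotent case**: eigenvalue `1` gives `(Sg - 1) ^ 2 = 0`. -/
theorem sub_one_sq_eq_zero {Sg : Matrix (Fin 2) (Fin 2) R} (hdet : Sg.det = 1)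
    (htr : Sg.trace = 1 + 1) : (Sg - 1) ^ 2 = 0 := by
  have h := sub_mul_sub_eq_zero Sg (ξ := 1) (ξ' := 1) htr (by rw [hdet, one_mul])
  rw [one_smul] at h
  rw [pow_two, h]

end Main

end Fermat.Agent.GB.Local.TameGroup
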