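/-
GATE-B (Ribet S38/S43), CASE B, node B1 LOC — bridge from the GROUP LEMMA to the inputs of
helper54's `(R4)` factorisation criterion (helper96).  Mathlib only (on `GroupLemma`, `TameGroup`).

At a point `(S, F) = (Σ, Φ)` of the framed tame ring over a domain `D` in which `2` is invertible
(`2 * h = 1`) and which contains a primitive `p ^ a`-th root of unity `ζ`:

* either `tr S = 2` and `(S − 1) ^ 2 = 0` (unipotent branch), or
* `F S = S F`, the traceless coordinates `a' = tl h F`, `n' = tl h S` are proportional (the three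
  `2 × 2` minors vanish) and `Q n' = c ^ 2` with `c = h (ζ ^ k − ζ ^ (−k)) ≠ 0`.
-/
import Fermat.Agent.GB.Local.GroupLemma
import Fermat.Agent.GB.Local.TameGroup

set_option autoImplicit false

namespace Fermat.Agent.GB.Local.TamePoint

open Matrix

variable {D : Type*} [CommRing D]

/-- traceless coordinates `(a0, a1, a2)` of `M − (tr M / 2)`: `A0 = (a0 a1; a2 −a0)`; `h = 1/2`. -/
def tl (h : D) (M : Matrix (Fin 2) (Fin 2) D) : Fin 3 → D :=
  ![h * (M 0 0 - M 1 1), M 0 1, M 1 0]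

/-- the quadratic form `Q x = x0² + x1 x2` (`= − det` of the traceless matrix). -/
def Q (x : Fin 3 → D) : D := x 0 ^ 2 + x 1 * x 2

/-- the three `2 × 2` minors of the `2 × 3` matrix with rows `a`, `n` vanish. -/
def Minors (a n : Fin 3 → D) : Prop :=
  a 0 * n 1 - a 1 * n 0 = 0 ∧ a 0 * n 2 - a 2 * n 0 = 0 ∧ a 1 * n 2 - a 2 * n 1 = 0

@[simp] theorem tl_zero (h : D) (M : Matrix (Fin 2) (Fin 2) D) : tl h M 0 = h * (M 0 0 - M 1 1) :=
  rfl

@[simp] theorem tl_one (h : D) (M : Matrix (Fin 2) (Fin 2) D) : tl h M 1 = M 0 1 := rfl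

@[simp] theorem tl_two (h : D) (M : Matrix (Fin 2) (Fin 2) D) : tl h M 2 = M 1 0 := rfl

/-- `Q (tl M) = (tr M / 2)² − det M`. -/
theorem Q_tl {h : D} (hh : 2 * h = 1) (M : Matrix (Fin 2) (Fin 2) D) :
    Q (tl h M) = (h * M.trace) ^ 2 - M.det := by
  rw [Q, tl_zero, tl_one, tl_two, Matrix.trace_fin_two, Matrix.det_fin_two]
  have h4 : 4 * h ^ 2 = 1 := by linear_combination (2 * h + 1) * hh
  linear_combination (-(M 0 0 * M 1 1)) * h4

/-- helper54's sign-free test element: `t = 4 Q(a) − (q − 1)² = (tr Φ)² − (1 + q)²` when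
`det Φ = q`. -/
theorem four_Q_tl_sub {h : D} (hh : 2 * h = 1) (F : Matrix (Fin 2) (Fin 2) D) {q : D}
    (hdet : F.det = q) : 4 * Q (tl h F) - (q - 1) ^ 2 = F.trace ^ 2 - (1 + q) ^ 2 := by
  rw [Q_tl hh, hdet]
  have h4 : 4 * h ^ 2 = 1 := by linear_combination (2 * h + 1) * hh
  linear_combination (F.trace ^ 2) * h4

/-- the scalar matrix has zero traceless part: `tl 1 = 0`. -/
theorem tl_one_mat (h : D) : tl h (1 : Matrix (Fin 2) (Fin 2) D) = 0 := by
  funext i
  fin_cases i <;> simp [tl]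

/-- commuting matrices have proportional traceless parts. -/
theorem minors_of_commute (h : D) {F S : Matrix (Fin 2) (Fin 2) D} (hc : F * S = S * F) :
    Minors (tl h F) (tl h S) := by
  have h01 := congrFun (congrFun hc 0) 1
  have h10 := congrFun (congrFun hc 1) 0
  have h00 := congrFun (congrFun hc 0) 0
  simp only [Matrix.mul_apply, Fin.sum_univ_two] at h01 h10 h00
  refine ⟨?_, ?_, ?_⟩
  · simp only [tl_zero, tl_one]
    linear_combination h * h01
  · simp only [tl_zero, tl_two]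
    linear_combination (-h) * h10
  · simp only [tl_one, tl_two]
    linear_combination h00

/-- **the two branches of a point of the framed tame ring** (hypotheses of
`GroupLemma.exists_trace_eq` + `2 * h = 1`). -/
theorem point_cases [IsDomain D] {𝔪 : Ideal D} (h𝔪 : 𝔪 ≠ ⊤) {p : ℕ} (hp : p.Prime) (hp2 : p ≠ 2)
    (hp𝔪 : (p : D) ∈ 𝔪) (S F : Matrix (Fin 2) (Fin 2) D) (hF : F.det ≠ 0) (hS : S.det = 1)
    {q a n' : ℕ} (hfac : q - 1 = p ^ a * n') (hn' : ¬ p ∣ n') (hpq : p ∣ q - 1) (hq : 1 ≤ q)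
    (hrel : F * S = S ^ q * F) (hres : S.trace - 2 ∈ 𝔪) {ζ : D}
    (hζ : IsPrimitiveRoot ζ (p ^ a)) {h : D} (hh : 2 * h = 1) :
    (S.trace = 2 ∧ (S - 1) ^ 2 = 0) ∨
      ∃ k, 0 < k ∧ k < p ^ a ∧ F * S = S * F ∧ Minors (tl h F) (tl h S) ∧
        Q (tl h S) = (h * (ζ ^ k - ζ ^ (p ^ a - k))) ^ 2 ∧ ζ ^ k ≠ ζ ^ (p ^ a - k) := by
  obtain ⟨k, hk, htr⟩ :=
    GroupLemma.exists_trace_eq h𝔪 hp hp2 hp𝔪 S F hF hS hfac hn' hpq hq hrel hres hζ
  rcases Nat.eq_zero_or_pos k with rfl | hk0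
  · left
    have htr2 : S.trace = 1 + 1 := by
      rw [htr, pow_zero, Nat.sub_zero, hζ.pow_eq_one]
    refine ⟨by rw [htr2]; norm_num, TameGroup.sub_one_sq_eq_zero hS htr2⟩
  · right
    have hmul : ζ ^ k * ζ ^ (p ^ a - k) = 1 := by
      rw [← pow_add, Nat.add_sub_cancel' hk.le, hζ.pow_eq_one]
    have hne : ζ ^ k ≠ ζ ^ (p ^ a - k) := by
      intro he
      have h2k : ζ ^ (2 * k) = 1 := by
        rw [two_mul, pow_add]
        nth_rewrite 2 [he]
        exact hmul
      have hdvd : p ^ a ∣ 2 * k := hζ.dvd_of_pow_eq_one _ h2k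
      have hcop : Nat.Coprime (p ^ a) 2 := by
        apply Nat.Coprime.pow_left
        rw [Nat.coprime_primes hp Nat.prime_two]
        exact hp2
      have hdk : p ^ a ∣ k := hcop.dvd_of_dvd_mul_left hdvd
      exact absurd (Nat.le_of_dvd hk0 hdk) (not_le.mpr hk)
    have hpow : (ζ ^ k) ^ (p ^ a) = 1 := by
      rw [← pow_mul, mul_comm, pow_mul, hζ.pow_eq_one, one_pow]
    have hcomm : F * S = S * F :=
      TameGroup.commute_of_ne hq hfac hrel hS hmul htr hne hpow
    refine ⟨k, hk0, hk, hcomm, minors_of_commute h hcomm, ?_, hne⟩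
    rw [Q_tl hh, hS, htr]
    have h4 : 4 * h ^ 2 = 1 := by linear_combination (2 * h + 1) * hh
    linear_combination (4 * h ^ 2) * hmul + h4

/-- the constant `c = h (ζ ^ k − ζ ^ (−k))` of the semisimple branch is nonzero. -/
theorem c_ne_zero [IsDomain D] {h : D} (hh : 2 * h = 1) {x y : D} (hne : x ≠ y) :
    h * (x - y) ≠ 0 := by
  have hh0 : h ≠ 0 := by
    rintro rfl
    simp at hh
  exact mul_ne_zero hh0 (sub_ne_zero.mpr hne)

end Fermat.Agent.GB.Local.TamePoint
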