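/-
GATE-B (Ribet S38/S43), CASE B, node B1 LOC — sub-leaf `(R4-DVR)` of helper54's B1-LITE interface
(board 5112), written by helper59.  Mathlib + one proved Prelude lemma
(`IsLocalRing.isAdicComplete_of_module_finite`) + the spelling of `Q`, `Minors` from
`GB/Local/TamePoint`.

* PART 1 (`exists_decomp`, abstract, any local principal ideal domain `R` with maximal ideal `(π)`,
  any local `R`-algebra `B` with `IsLocalHom` and an element `ϖ` with `ϖ ^ 2 = π`):
  two PARALLEL vectors `a ∥ n` of `𝔪_R ^ 3` (the three `2 × 2` minors vanish), `n ≠ 0`, decompose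
  over `B` as `a = s1 • u`, `n = s2 • u` with `s1, s2, u i ∈ 𝔪_B`.  No valuations: `(n 0, n 1, n 2)`
  generates a principal ideal `(d)`, `n = d • n''` with `n''` unimodular, `a = m • n''`, and
  `m, d ∈ (π) = (ϖ ^ 2)`; take `u = ϖ • n''`, `s1 = ϖ • (m / π)`, `s2 = ϖ • (d / π)`.
  Consequently `s2 ^ 2 * Q u = Q n` (`exists_decomp_Q`).
* PART 2 (`Bsqrt π = AdjoinRoot (X ^ 2 - C π)` over a discrete valuation ring `R`): normal form
  `x = a + b ϖ`, uniqueness, `IsLocalRing`, `IsLocalHom (algebraMap R _)`, `𝔪 = (ϖ)`, finite free over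
  `R`, noetherian, a domain (Eisenstein), injective structure map, and — for `R` complete —
  `IsAdicComplete (maximalIdeal (Bsqrt π)) (Bsqrt π)`.
* PART 3 (`exists_decomp_bsqrt`, `exists_decomp_bsqrt_Q`): the two parts put together, in the shape
  of helper54's `(R4)` hypothesis.
-/
import Mathlib
import Fermat.Prelude.Thm_IsLocalRing_isAdicComplete_of_module_finite
import Fermat.Agent.GB.Local.TamePoint

set_option autoImplicit false

namespace Fermat.Agent.GB.Local.SqrtUnif

open Polynomial IsLocalRing Fermat.Agent.GB.Local.TamePoint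

/-! ### PART 0: two ring identities for `Q` -/

section QId

variable {D : Type*} [CommRing D]

/-- `Q (s • u) = s ^ 2 * Q u`. -/
theorem Q_smul (s : D) (u : Fin 3 → D) : Q (fun i => s * u i) = s ^ 2 * Q u := by
  simp only [Q]
  ring

/-- `Q` commutes with ring homomorphisms. -/
theorem Q_map {E : Type*} [CommRing E] (f : D →+* E) (x : Fin 3 → D) :
    Q (fun i => f (x i)) = f (Q x) := by
  simp only [Q, map_add, map_pow, map_mul]

/-- the minors in the symmetric form `a i * n k = a k * n i`. -/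
theorem minors_symm {a n : Fin 3 → D} (h : Minors a n) (i k : Fin 3) :
    a i * n k = a k * n i := by
  obtain ⟨h01, h02, h12⟩ := h
  fin_cases i <;> fin_cases k <;> simp only [Fin.zero_eta, Fin.mk_one, Fin.reduceFinMk] <;>
    first
      | rfl
      | linear_combination h01
      | linear_combination h02
      | linear_combination h12
      | linear_combination (-1 : D) * h01
      | linear_combination (-1 : D) * h02
      | linear_combination (-1 : D) * h12

end QId

/-! ### PART 1: the abstract decomposition -/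

section Abstract

variable {R : Type*} [CommRing R] [IsDomain R] [IsPrincipalIdealRing R]

/-- a nonzero vector of a principal ideal domain is `d •` a unimodular vector. -/
theorem exists_unimodular (n : Fin 3 → R) (hn0 : n ≠ 0) :
    ∃ (d : R) (n'' c : Fin 3 → R), d ≠ 0 ∧ (∀ i, n i = d * n'' i) ∧ (∑ i, c i * n'' i = 1) ∧
      ∑ i, c i * n i = d := by
  classical
  obtain ⟨d, hd⟩ := (IsPrincipalIdealRing.principal (Ideal.span (Set.range n))).principal
  have hd' : Ideal.span (Set.range n) = Ideal.span {d} := hd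
  have hmem : ∀ i, n i ∈ Ideal.span {d} := fun i =>
    hd' ▸ Ideal.subset_span (Set.mem_range_self i)
  have hex : ∀ i, ∃ x, n i = d * x := fun i => by
    obtain ⟨x, hx⟩ := Ideal.mem_span_singleton'.1 (hmem i)
    exact ⟨x, by rw [← hx, mul_comm]⟩
  choose n'' hn'' using hex
  have hdmem : d ∈ Ideal.span (Set.range n) := hd' ▸ Ideal.mem_span_singleton_self d
  obtain ⟨c, hc⟩ := (Ideal.mem_span_range_iff_exists_fun).1 hdmem
  have hd0 : d ≠ 0 := by
    rintro rfl
    apply hn0
    funext i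
    rw [hn'' i, zero_mul, Pi.zero_apply]
  refine ⟨d, n'', c, hd0, hn'', ?_, hc⟩
  have h1 : d * ∑ i, c i * n'' i = d * 1 := by
    rw [mul_one, Finset.mul_sum]
    conv_rhs => rw [← hc]
    refine Finset.sum_congr rfl fun i _ => ?_
    rw [hn'' i]
    ring
  exact mul_left_cancel₀ hd0 h1

variable [IsLocalRing R] {B : Type*} [CommRing B] [IsLocalRing B] [Algebra R B]
  [IsLocalHom (algebraMap R B)]

/-- a square root of a generator of `𝔪_R` lies in `𝔪_B`. -/
theorem sqrt_mem_maximalIdeal {π : R} (hπ : π ∈ maximalIdeal R) {ϖ : B}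
    (hϖ : ϖ ^ 2 = algebraMap R B π) : ϖ ∈ maximalIdeal B := by
  rw [mem_maximalIdeal, mem_nonunits_iff]
  intro hu
  have h1 : IsUnit (algebraMap R B π) := hϖ ▸ hu.pow 2
  exact (mem_nonunits_iff.1 ((mem_maximalIdeal π).1 hπ)) (isUnit_of_map_unit (algebraMap R B) π h1)

/-- **(R4-DVR), abstract form.**  `R` a local principal ideal domain with `𝔪_R = (π)`, `B` a local
`R`-algebra (local structure map) containing `ϖ` with `ϖ ^ 2 = π`.  Two parallel vectors
`a ∥ n` of `𝔪_R ^ 3`, `n ≠ 0`, decompose over `B` as `a = s1 • u`, `n = s2 • u` with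
`s1, s2, u i ∈ 𝔪_B`. -/
theorem exists_decomp {π : R} (hπ : maximalIdeal R = Ideal.span {π}) {ϖ : B}
    (hϖ : ϖ ^ 2 = algebraMap R B π) (a n : Fin 3 → R)
    (ha : ∀ i, a i ∈ maximalIdeal R) (hn : ∀ i, n i ∈ maximalIdeal R)
    (hmin : Minors a n) (hn0 : n ≠ 0) :
    ∃ (s1 s2 : B) (u : Fin 3 → B), s1 ∈ maximalIdeal B ∧ s2 ∈ maximalIdeal B ∧
      (∀ i, u i ∈ maximalIdeal B) ∧ (∀ i, algebraMap R B (a i) = s1 * u i) ∧
      (∀ i, algebraMap R B (n i) = s2 * u i) := by
  classical
  obtain ⟨d, n'', c, hd0, hnd, hc1, hcd⟩ := exists_unimodular n hn0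
  -- `a i * n'' k = a k * n'' i`
  have hsym : ∀ i k, a i * n'' k = a k * n'' i := by
    intro i k
    have h := minors_symm hmin i k
    rw [hnd k, hnd i] at h
    have h' : d * (a i * n'' k) = d * (a k * n'' i) := by linear_combination h
    exact mul_left_cancel₀ hd0 h'
  -- `a = m • n''`
  set m : R := ∑ k, c k * a k with hm
  have ham : ∀ i, a i = m * n'' i := by
    intro i
    calc a i = a i * ∑ k, c k * n'' k := by rw [hc1, mul_one]
      _ = ∑ k, c k * (a i * n'' k) := by
          rw [Finset.mul_sum]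
          exact Finset.sum_congr rfl fun k _ => by ring
      _ = ∑ k, c k * (a k * n'' i) := Finset.sum_congr rfl fun k _ => by rw [hsym i k]
      _ = m * n'' i := by
          rw [hm, Finset.sum_mul]
          exact Finset.sum_congr rfl fun k _ => by ring
  -- `m, d ∈ 𝔪_R = (π)`
  have hmmem : m ∈ maximalIdeal R :=
    Ideal.sum_mem _ fun k _ => Ideal.mul_mem_left _ _ (ha k)
  have hdmem : d ∈ maximalIdeal R := by
    rw [← hcd]
    exact Ideal.sum_mem _ fun k _ => Ideal.mul_mem_left _ _ (hn k)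
  rw [hπ] at hmmem hdmem
  obtain ⟨m', hm'⟩ := Ideal.mem_span_singleton'.1 hmmem
  obtain ⟨d', hd'⟩ := Ideal.mem_span_singleton'.1 hdmem
  have hπmem : π ∈ maximalIdeal R := hπ ▸ Ideal.mem_span_singleton_self π
  have hϖmem : ϖ ∈ maximalIdeal B := sqrt_mem_maximalIdeal hπmem hϖ
  refine ⟨ϖ * algebraMap R B m', ϖ * algebraMap R B d', fun i => ϖ * algebraMap R B (n'' i),
    Ideal.mul_mem_right _ _ hϖmem, Ideal.mul_mem_right _ _ hϖmem,
    fun i => Ideal.mul_mem_right _ _ hϖmem, fun i => ?_, fun i => ?_⟩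
  · rw [ham i, ← hm', map_mul, map_mul, ← hϖ]
    ring
  · rw [hnd i, ← hd', map_mul, map_mul, ← hϖ]
    ring

/-- **(R4-DVR) with the quadratic form**: moreover `s2 ^ 2 * Q u = Q n` (image in `B`). -/
theorem exists_decomp_Q {π : R} (hπ : maximalIdeal R = Ideal.span {π}) {ϖ : B}
    (hϖ : ϖ ^ 2 = algebraMap R B π) (a n : Fin 3 → R)
    (ha : ∀ i, a i ∈ maximalIdeal R) (hn : ∀ i, n i ∈ maximalIdeal R)
    (hmin : Minors a n) (hn0 : n ≠ 0) :
    ∃ (s1 s2 : B) (u : Fin 3 → B), s1 ∈ maximalIdeal B ∧ s2 ∈ maximalIdeal B ∧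
      (∀ i, u i ∈ maximalIdeal B) ∧ (∀ i, algebraMap R B (a i) = s1 * u i) ∧
      (∀ i, algebraMap R B (n i) = s2 * u i) ∧ s2 ^ 2 * Q u = algebraMap R B (Q n) := by
  obtain ⟨s1, s2, u, h1, h2, hu, hau, hnu⟩ := exists_decomp hπ hϖ a n ha hn hmin hn0
  refine ⟨s1, s2, u, h1, h2, hu, hau, hnu, ?_⟩
  rw [← Q_smul, ← Q_map]
  congr 1
  funext i
  exact (hnu i).symm

end Abstract

/-! ### PART 2: `AdjoinRoot (X ^ 2 - C π)` over a discrete valuation ring -/

section Sqrt

variable {R : Type*} [CommRing R] [IsDomain R] (π : R)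

/-- the polynomial `X ^ 2 - π`. -/
noncomputable def sqPoly : R[X] := X ^ 2 - C π

theorem sqPoly_monic : (sqPoly π).Monic := monic_X_pow_sub_C π (by norm_num)

theorem sqPoly_natDegree : (sqPoly π).natDegree = 2 := natDegree_X_pow_sub_C

theorem sqPoly_degree : (sqPoly π).degree = 2 := by
  rw [degree_eq_natDegree (sqPoly_monic π).ne_zero, sqPoly_natDegree]
  rfl

theorem sqPoly_ne_one : sqPoly π ≠ 1 := by
  intro h
  have := sqPoly_natDegree π
  rw [h, natDegree_one] at this
  exact absurd this (by norm_num)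

/-- `R[√π]`. -/
abbrev Bsqrt : Type _ := AdjoinRoot (sqPoly π)

/-- the square root `ϖ` of `π` in `Bsqrt π`. -/
noncomputable def varpi : Bsqrt π := AdjoinRoot.root (sqPoly π)

theorem varpi_sq : varpi π ^ 2 = algebraMap R (Bsqrt π) π := by
  have h : eval₂ (AdjoinRoot.of (sqPoly π)) (AdjoinRoot.root (sqPoly π)) (X ^ 2 - C π) = 0 :=
    AdjoinRoot.eval₂_root (sqPoly π)
  rw [eval₂_sub, eval₂_pow, eval₂_X, eval₂_C, sub_eq_zero] at h
  rw [AdjoinRoot.algebraMap_eq]
  exact h

theorem varpi_mul_varpi : varpi π * varpi π = algebraMap R (Bsqrt π) π := by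
  rw [← sq, varpi_sq]

/-- normal form `x = a + b ϖ`. -/
theorem exists_rep (x : Bsqrt π) :
    ∃ a b : R, x = algebraMap R (Bsqrt π) a + algebraMap R (Bsqrt π) b * varpi π := by
  obtain ⟨p, rfl⟩ := AdjoinRoot.mk_surjective x
  have hmonic := sqPoly_monic π
  have h1 : AdjoinRoot.mk (sqPoly π) p = AdjoinRoot.mk (sqPoly π) (p %ₘ sqPoly π) := by
    rw [AdjoinRoot.mk_eq_mk]
    refine ⟨p /ₘ sqPoly π, ?_⟩
    have := modByMonic_add_div p (sqPoly π)
    linear_combination this.symm
  have h2 : (p %ₘ sqPoly π).natDegree ≤ 1 := by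
    have := natDegree_modByMonic_lt p hmonic (sqPoly_ne_one π)
    rw [sqPoly_natDegree] at this
    omega
  obtain ⟨b, a, hab⟩ := exists_eq_X_add_C_of_natDegree_le_one h2
  refine ⟨a, b, ?_⟩
  rw [h1, hab]
  simp only [map_add, map_mul, AdjoinRoot.mk_C, AdjoinRoot.mk_X, AdjoinRoot.algebraMap_eq, varpi]
  ring

/-- uniqueness of the normal form. -/
theorem rep_eq_zero {a b : R}
    (h : algebraMap R (Bsqrt π) a + algebraMap R (Bsqrt π) b * varpi π = 0) : a = 0 ∧ b = 0 := by
  have h1 : AdjoinRoot.mk (sqPoly π) (C a + C b * X) = 0 := by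
    rw [map_add, map_mul, AdjoinRoot.mk_C, AdjoinRoot.mk_X]
    rw [AdjoinRoot.algebraMap_eq, varpi] at h
    exact h
  rw [AdjoinRoot.mk_eq_zero] at h1
  have hdeg : (C a + C b * X : R[X]).degree < (sqPoly π).degree := by
    rw [sqPoly_degree]
    refine lt_of_le_of_lt (degree_add_le _ _) (max_lt ?_ ?_)
    · exact lt_of_le_of_lt degree_C_le (by norm_num)
    · refine lt_of_le_of_lt (degree_C_mul_X_le b) ?_
      norm_num
  have h0 := eq_zero_of_dvd_of_degree_lt h1 hdeg
  have ha : (C a + C b * X : R[X]).coeff 0 = a := by simp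
  have hb : (C a + C b * X : R[X]).coeff 1 = b := by simp
  rw [h0] at ha hb
  exact ⟨by simpa using ha.symm, by simpa using hb.symm⟩

theorem rep_injective {a b a' b' : R}
    (h : algebraMap R (Bsqrt π) a + algebraMap R (Bsqrt π) b * varpi π =
      algebraMap R (Bsqrt π) a' + algebraMap R (Bsqrt π) b' * varpi π) : a = a' ∧ b = b' := by
  have h1 : algebraMap R (Bsqrt π) (a - a') + algebraMap R (Bsqrt π) (b - b') * varpi π = 0 := by
    rw [map_sub, map_sub]
    linear_combination h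
  obtain ⟨h2, h3⟩ := rep_eq_zero π h1
  exact ⟨sub_eq_zero.1 h2, sub_eq_zero.1 h3⟩

/-- the structure map is injective. -/
theorem algebraMap_injective : Function.Injective (algebraMap R (Bsqrt π)) := by
  intro a a' h
  have h1 : algebraMap R (Bsqrt π) a + algebraMap R (Bsqrt π) 0 * varpi π =
      algebraMap R (Bsqrt π) a' + algebraMap R (Bsqrt π) 0 * varpi π := by rw [h]
  exact (rep_injective π h1).1

instance instNontrivialBsqrt : Nontrivial (Bsqrt π) :=
  AdjoinRoot.nontrivial _ (by rw [sqPoly_degree]; norm_num)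

instance instFiniteBsqrt : Module.Finite R (Bsqrt π) := (sqPoly_monic π).finite_adjoinRoot

instance instFreeBsqrt : Module.Free R (Bsqrt π) := (sqPoly_monic π).free_adjoinRoot

/-- the conjugation product: `(a + bϖ)(a − bϖ) = a² − π b²`. -/
theorem rep_mul_conj (a b : R) :
    (algebraMap R (Bsqrt π) a + algebraMap R (Bsqrt π) b * varpi π) *
      (algebraMap R (Bsqrt π) a - algebraMap R (Bsqrt π) b * varpi π) =
      algebraMap R (Bsqrt π) (a ^ 2 - π * b ^ 2) := by
  rw [map_sub, map_mul, map_pow, map_pow, ← varpi_sq]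
  ring

variable [IsLocalRing R]

/-- `a + bϖ` is a unit as soon as `a` is (`π` a nonunit). -/
theorem isUnit_rep (hπ : π ∈ maximalIdeal R) {a : R} (ha : IsUnit a) (b : R) :
    IsUnit (algebraMap R (Bsqrt π) a + algebraMap R (Bsqrt π) b * varpi π) := by
  have h1 : IsUnit (a ^ 2 - π * b ^ 2) := by
    have h2 : IsUnit ((a ^ 2 - π * b ^ 2) + π * b ^ 2) := by
      rw [sub_add_cancel]
      exact ha.pow 2
    rcases isUnit_or_isUnit_of_isUnit_add h2 with h3 | h3
    · exact h3
    · exfalso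
      have : π * b ^ 2 ∈ maximalIdeal R := Ideal.mul_mem_right _ _ hπ
      exact (mem_nonunits_iff.1 ((mem_maximalIdeal _).1 this)) h3
  have h4 := (algebraMap R (Bsqrt π)).isUnit_map h1
  rw [← rep_mul_conj] at h4
  exact isUnit_of_mul_isUnit_left h4

/-- `Bsqrt π` is a local ring when `π` is a nonunit of the local ring `R`. -/
theorem isLocalRing_bsqrt (hπ : π ∈ maximalIdeal R) : IsLocalRing (Bsqrt π) := by
  refine IsLocalRing.of_isUnit_or_isUnit_one_sub_self fun x => ?_
  obtain ⟨a, b, rfl⟩ := exists_rep π x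
  by_cases ha : IsUnit a
  · exact Or.inl (isUnit_rep π hπ ha b)
  · right
    have h1 : IsUnit (1 - a) := by
      rcases IsLocalRing.isUnit_or_isUnit_one_sub_self a with h | h
      · exact absurd h ha
      · exact h
    have h2 : (1 : Bsqrt π) - (algebraMap R (Bsqrt π) a + algebraMap R (Bsqrt π) b * varpi π) =
        algebraMap R (Bsqrt π) (1 - a) + algebraMap R (Bsqrt π) (-b) * varpi π := by
      rw [map_sub, map_one, map_neg]
      ring
    rw [h2]
    exact isUnit_rep π hπ h1 (-b)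

/-- the structure map `R → Bsqrt π` is local. -/
theorem isLocalHom_algebraMap : IsLocalHom (algebraMap R (Bsqrt π)) := by
  refine ⟨fun r hr => ?_⟩
  obtain ⟨y, hy⟩ := hr.exists_right_inv
  obtain ⟨c, d, rfl⟩ := exists_rep π y
  have h1 : algebraMap R (Bsqrt π) (r * c) + algebraMap R (Bsqrt π) (r * d) * varpi π =
      algebraMap R (Bsqrt π) 1 + algebraMap R (Bsqrt π) 0 * varpi π := by
    rw [map_mul, map_mul, map_one, map_zero, zero_mul, add_zero, ← hy]
    ring
  exact IsUnit.of_mul_eq_one c (rep_injective π h1).1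

end Sqrt

section DVR

variable {R : Type*} [CommRing R] [IsDomain R] [IsDiscreteValuationRing R] (π : R)

/-- local-ring instance of `Bsqrt π` from `Irreducible π`. -/
theorem isLocalRing_of_irreducible (hπ : Irreducible π) : IsLocalRing (Bsqrt π) :=
  isLocalRing_bsqrt π (by
    rw [hπ.maximalIdeal_eq]
    exact Ideal.mem_span_singleton_self π)

instance instNoetherianBsqrt : IsNoetherianRing (Bsqrt π) := IsNoetherianRing.of_finite R _

/-- `X ^ 2 - π` is irreducible (Eisenstein). -/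
theorem sqPoly_irreducible (hπ : Irreducible π) : Irreducible (sqPoly π) := by
  have hprime : Prime π := hπ.prime
  have hP : (Ideal.span {π} : Ideal R).IsPrime :=
    (Ideal.span_singleton_prime hπ.ne_zero).2 hprime
  refine irreducible_of_eisenstein_criterion hP ?_ ?_ ?_ ?_ (sqPoly_monic π).isPrimitive
  · rw [(sqPoly_monic π).leadingCoeff]
    exact fun h => hP.ne_top ((Ideal.eq_top_iff_one _).2 h)
  · intro k hk
    rw [sqPoly_degree] at hk
    have hk' : k < 2 := by exact_mod_cast hk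
    interval_cases k
    · simp [sqPoly]
    · simp [sqPoly, coeff_X_pow]
  · rw [sqPoly_degree]
    norm_num
  · have h0 : (sqPoly π).coeff 0 = -π := by simp [sqPoly]
    rw [h0, Ideal.span_singleton_pow, Ideal.mem_span_singleton, dvd_neg]
    intro hdvd
    obtain ⟨x, hx⟩ := hdvd
    have h1 : π * 1 = π * (π * x) := by rw [mul_one]; linear_combination hx
    have h2 : 1 = π * x := mul_left_cancel₀ hπ.ne_zero h1
    exact hπ.not_isUnit (IsUnit.of_mul_eq_one x h2.symm)

/-- `Bsqrt π` is a domain. -/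
theorem isDomain_bsqrt (hπ : Irreducible π) : IsDomain (Bsqrt π) :=
  AdjoinRoot.isDomain_of_prime
    ((UniqueFactorizationMonoid.irreducible_iff_prime).1 (sqPoly_irreducible π hπ))

/-- the maximal ideal of `Bsqrt π` is `(ϖ)`. -/
theorem maximalIdeal_bsqrt (hπ : Irreducible π) :
    haveI := isLocalRing_of_irreducible π hπ
    maximalIdeal (Bsqrt π) = Ideal.span {varpi π} := by
  haveI := isLocalRing_of_irreducible π hπ
  haveI := isLocalHom_algebraMap π
  have hπmem : π ∈ maximalIdeal R := by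
    rw [hπ.maximalIdeal_eq]
    exact Ideal.mem_span_singleton_self π
  apply le_antisymm
  · intro x hx
    obtain ⟨a, b, rfl⟩ := exists_rep π x
    have ha : ¬ IsUnit a := fun h =>
      (mem_nonunits_iff.1 ((mem_maximalIdeal _).1 hx)) (isUnit_rep π hπmem h b)
    have ha' : a ∈ Ideal.span {π} := by
      rw [← hπ.maximalIdeal_eq]
      exact (mem_maximalIdeal a).2 (mem_nonunits_iff.2 ha)
    obtain ⟨a', rfl⟩ := Ideal.mem_span_singleton'.1 ha'
    rw [Ideal.mem_span_singleton]
    refine ⟨algebraMap R (Bsqrt π) a' * varpi π + algebraMap R (Bsqrt π) b, ?_⟩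
    rw [map_mul, ← varpi_sq]
    ring
  · rw [Ideal.span_singleton_le_iff_mem]
    exact sqrt_mem_maximalIdeal hπmem (varpi_sq π)

/-- **`Bsqrt π` is a complete local ring** when `R` is. -/
theorem isAdicComplete_bsqrt (hπ : Irreducible π) [IsAdicComplete (maximalIdeal R) R] :
    haveI := isLocalRing_of_irreducible π hπ
    IsAdicComplete (maximalIdeal (Bsqrt π)) (Bsqrt π) := by
  haveI := isLocalRing_of_irreducible π hπ
  haveI := isLocalHom_algebraMap π
  exact IsLocalRing.isAdicComplete_of_module_finite (𝒪 := R) (T := Bsqrt π)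

/-! ### PART 3: `(R4-DVR)` over `Bsqrt π` -/

/-- **(R4-DVR).**  Over a discrete valuation ring `R` with uniformiser `π`: two parallel vectors
`a ∥ n` of `𝔪_R ^ 3` with `n ≠ 0` decompose over `Bsqrt π = R[√π]` as `a = s1 • u`, `n = s2 • u`,
`s1, s2, u i ∈ 𝔪`, and `s2 ^ 2 * Q u = Q n`. -/
theorem exists_decomp_bsqrt (hπ : Irreducible π) (a n : Fin 3 → R)
    (ha : ∀ i, a i ∈ maximalIdeal R) (hn : ∀ i, n i ∈ maximalIdeal R)
    (hmin : Minors a n) (hn0 : n ≠ 0) :
    haveI := isLocalRing_of_irreducible π hπ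
    ∃ (s1 s2 : Bsqrt π) (u : Fin 3 → Bsqrt π), s1 ∈ maximalIdeal (Bsqrt π) ∧
      s2 ∈ maximalIdeal (Bsqrt π) ∧ (∀ i, u i ∈ maximalIdeal (Bsqrt π)) ∧
      (∀ i, algebraMap R (Bsqrt π) (a i) = s1 * u i) ∧
      (∀ i, algebraMap R (Bsqrt π) (n i) = s2 * u i) ∧
      s2 ^ 2 * Q u = algebraMap R (Bsqrt π) (Q n) := by
  haveI := isLocalRing_of_irreducible π hπ
  haveI := isLocalHom_algebraMap π
  exact exists_decomp_Q hπ.maximalIdeal_eq (varpi_sq π) a n ha hn hmin hn0

/-- **(R4-DVR) in helper54's `(R4)` spelling**: if `Q n = c ^ 2` with `c ≠ 0` then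
`s2 ^ 2 * Q u = c ^ 2` (image of `c`). -/
theorem exists_decomp_bsqrt_Q (hπ : Irreducible π) (a n : Fin 3 → R)
    (ha : ∀ i, a i ∈ maximalIdeal R) (hn : ∀ i, n i ∈ maximalIdeal R)
    (hmin : Minors a n) {c : R} (hc : c ≠ 0) (hQ : Q n = c ^ 2) :
    haveI := isLocalRing_of_irreducible π hπ
    ∃ (s1 s2 : Bsqrt π) (u : Fin 3 → Bsqrt π), s1 ∈ maximalIdeal (Bsqrt π) ∧
      s2 ∈ maximalIdeal (Bsqrt π) ∧ (∀ i, u i ∈ maximalIdeal (Bsqrt π)) ∧
      (∀ i, algebraMap R (Bsqrt π) (a i) = s1 * u i) ∧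
      (∀ i, algebraMap R (Bsqrt π) (n i) = s2 * u i) ∧
      s2 ^ 2 * Q u = algebraMap R (Bsqrt π) c ^ 2 := by
  haveI := isLocalRing_of_irreducible π hπ
  have hn0 : n ≠ 0 := by
    rintro rfl
    apply hc
    have : Q (0 : Fin 3 → R) = 0 := by simp [Q]
    rw [this] at hQ
    exact pow_eq_zero_iff (two_ne_zero) |>.1 hQ.symm
  obtain ⟨s1, s2, u, h1, h2, hu, hau, hnu, hq⟩ := exists_decomp_bsqrt π hπ a n ha hn hmin hn0
  exact ⟨s1, s2, u, h1, h2, hu, hau, hnu, by rw [hq, hQ, map_pow]⟩

end DVR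

end Fermat.Agent.GB.Local.SqrtUnif
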