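/-
GATE-B / B1 LOC, (R4) END TO END for points over a complete discrete valuation ring, including the
"framing for free" conjugation (helper51).

Let `O'` be a complete DVR which is an `O`-algebra, `Φ, Σ ∈ M₂(O')` with traceless coordinates
`a = tl Φ`, `n = tl Σ` in `𝔪'` (residually scalar), `γ ∈ GL₂(O'⟦z⟧)` arbitrary (`z` finitely many
variables).  If `Σ = 1`, or if `Φ Σ = Σ Φ` and `Q(tl Σ) = c²` with `c ∈ 𝒞`, `c ≠ 0` in `O'`, then
the evaluation `P6 → O'⟦z⟧` at `(tl (γ Φ γ⁻¹), tl (γ Σ γ⁻¹))` kills helper54's ideal `J 𝒞`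
(`GB/Local/Rloc`), i.e. factors through `Rloc 𝒞`.

Proof: over `B = O'[√π]` (helper59's `SqrtUnif`) one has `a = s₁ u`, `n = s₂ u`, `s₂² Q(u) = c²`;
conjugation acts linearly on traceless coordinates (`conjTl`), so over `B⟦z⟧` the point is
`(s₁ u_z, s₂ u_z)` with `u_z = conjTl u` and `Q(u_z) = Q(u)`; now `Rloc.J_le_ker_evalPair_of_chart`
in `B⟦z⟧`, and `O'⟦z⟧ → B⟦z⟧` is injective.
-/
import Mathlib
import Fermat.Agent.GB.Local.Rloc
import Fermat.Agent.GB.Local.SqrtUnif

set_option autoImplicit false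
set_option linter.unusedSectionVars false

open IsLocalRing

namespace Fermat.Agent.GB.Local.R4Point

open Fermat.Agent.GB.Local.TamePoint Matrix

/-! ### Conjugation in traceless coordinates -/

section Conj

variable {D : Type*} [CommRing D]

/-- the traceless matrix `(x₀ x₁; x₂ −x₀)` -/
def trl (x : Fin 3 → D) : Matrix (Fin 2) (Fin 2) D := !![x 0, x 1; x 2, -x 0]

theorem trace_trl (x : Fin 3 → D) : (trl x).trace = 0 := by
  simp [trl, Matrix.trace_fin_two]

theorem det_trl (x : Fin 3 → D) : (trl x).det = -Q x := by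
  simp only [trl, Matrix.det_fin_two_of, Q]; ring

theorem tl_trl {h : D} (hh : 2 * h = 1) (x : Fin 3 → D) : tl h (trl x) = x := by
  funext i
  fin_cases i
  · simp only [trl, Fin.zero_eta, tl_zero, Matrix.of_apply, Matrix.cons_val', Matrix.cons_val_zero,
      Matrix.cons_val_one, Matrix.cons_val_fin_one]
    linear_combination (x 0) * hh
  · simp [trl, tl]
  · simp [trl, tl]

/-- the action of conjugation by `γ` (with inverse `γi`) on traceless coordinates -/
def conjTl (h : D) (γ γi : Matrix (Fin 2) (Fin 2) D) (x : Fin 3 → D) : Fin 3 → D :=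
  ![(γ 0 0 * γi 0 0 - γ 1 0 * γi 0 1) * x 0 + h * (γ 0 0 * γi 1 0 - γ 1 0 * γi 1 1) * x 1 +
      h * (γ 0 1 * γi 0 0 - γ 1 1 * γi 0 1) * x 2,
    2 * γ 0 0 * γi 0 1 * x 0 + γ 0 0 * γi 1 1 * x 1 + γ 0 1 * γi 0 1 * x 2,
    2 * γ 1 0 * γi 0 0 * x 0 + γ 1 0 * γi 1 0 * x 1 + γ 1 1 * γi 0 0 * x 2]

/-- **conjugation is linear on traceless coordinates** -/
theorem tl_conj {h : D} (hh : 2 * h = 1) {γ γi : Matrix (Fin 2) (Fin 2) D} (hγ : γ * γi = 1)
    (M : Matrix (Fin 2) (Fin 2) D) : tl h (γ * M * γi) = conjTl h γ γi (tl h M) := by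
  have e00 := congrFun (congrFun hγ 0) 0
  have e01 := congrFun (congrFun hγ 0) 1
  have e10 := congrFun (congrFun hγ 1) 0
  have e11 := congrFun (congrFun hγ 1) 1
  simp only [Matrix.mul_apply, Fin.sum_univ_two, Matrix.one_apply_eq, Matrix.one_apply_ne,
    ne_eq, zero_ne_one, one_ne_zero, not_false_eq_true] at e00 e01 e10 e11
  funext i
  fin_cases i
  · simp only [Fin.zero_eta, tl_zero, conjTl, Matrix.cons_val_zero, Matrix.mul_apply,
      Fin.sum_univ_two, tl_one, tl_two]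
    linear_combination (h * M 1 1) * e00 - (h * M 1 1) * e11
  · simp only [Fin.mk_one, tl_one, conjTl, Matrix.cons_val_one, Matrix.cons_val_zero,
      Matrix.mul_apply, Fin.sum_univ_two, tl_zero, tl_two]
    linear_combination (M 1 1) * e01 - ((M 0 0 - M 1 1) * γ 0 0 * γi 0 1) * hh
  · simp only [Fin.reduceFinMk, tl_two, conjTl, Matrix.cons_val_two, Matrix.mul_apply,
      Fin.sum_univ_two, tl_zero, tl_one, Matrix.tail_cons, Matrix.head_cons]
    linear_combination (M 1 1) * e10 - ((M 0 0 - M 1 1) * γ 1 0 * γi 0 0) * hh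

theorem conjTl_smul (h : D) (γ γi : Matrix (Fin 2) (Fin 2) D) (s : D) (x : Fin 3 → D) :
    conjTl h γ γi (fun i => s * x i) = fun i => s * conjTl h γ γi x i := by
  funext i
  fin_cases i
  · simp only [Fin.zero_eta, conjTl, Matrix.cons_val_zero]; ring
  · simp only [Fin.mk_one, conjTl, Matrix.cons_val_one, Matrix.cons_val_zero]; ring
  · simp only [Fin.reduceFinMk, conjTl, Matrix.cons_val_two, Matrix.tail_cons,
      Matrix.head_cons]; ring

theorem conjTl_zero (h : D) (γ γi : Matrix (Fin 2) (Fin 2) D) : conjTl h γ γi 0 = 0 := by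
  funext i
  fin_cases i <;> simp [conjTl]

theorem conjTl_mem (h : D) (γ γi : Matrix (Fin 2) (Fin 2) D) (I : Ideal D) {x : Fin 3 → D}
    (hx : ∀ i, x i ∈ I) (i : Fin 3) : conjTl h γ γi x i ∈ I := by
  fin_cases i
  · simp only [Fin.zero_eta, conjTl, Matrix.cons_val_zero]
    exact I.add_mem (I.add_mem (I.mul_mem_left _ (hx 0)) (I.mul_mem_left _ (hx 1)))
      (I.mul_mem_left _ (hx 2))
  · simp only [Fin.mk_one, conjTl, Matrix.cons_val_one, Matrix.cons_val_zero]
    exact I.add_mem (I.add_mem (I.mul_mem_left _ (hx 0)) (I.mul_mem_left _ (hx 1)))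
      (I.mul_mem_left _ (hx 2))
  · simp only [Fin.reduceFinMk, conjTl, Matrix.cons_val_two, Matrix.tail_cons,
      Matrix.head_cons]
    exact I.add_mem (I.add_mem (I.mul_mem_left _ (hx 0)) (I.mul_mem_left _ (hx 1)))
      (I.mul_mem_left _ (hx 2))

theorem map_conjTl {E : Type*} [CommRing E] (f : D →+* E) (h : D)
    (γ γi : Matrix (Fin 2) (Fin 2) D) (x : Fin 3 → D) (i : Fin 3) :
    f (conjTl h γ γi x i) = conjTl (f h) (γ.map f) (γi.map f) (fun j => f (x j)) i := by
  fin_cases i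
  · simp only [Fin.zero_eta, conjTl, Matrix.cons_val_zero, map_add, map_mul, map_sub,
      Matrix.map_apply]
  · simp only [Fin.mk_one, conjTl, Matrix.cons_val_one, Matrix.cons_val_zero, map_add, map_mul,
      Matrix.map_apply, map_ofNat]
  · simp only [Fin.reduceFinMk, conjTl, Matrix.cons_val_two, Matrix.tail_cons,
      Matrix.head_cons, map_add, map_mul, Matrix.map_apply, map_ofNat]

/-- `Q` is invariant under conjugation -/
theorem Q_conjTl {h : D} (hh : 2 * h = 1) {γ γi : Matrix (Fin 2) (Fin 2) D} (hγ : γ * γi = 1)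
    (x : Fin 3 → D) : Q (conjTl h γ γi x) = Q x := by
  have hγ' : γi * γ = 1 := mul_eq_one_comm.mp hγ
  have h1 : conjTl h γ γi x = tl h (γ * trl x * γi) := by
    rw [tl_conj hh hγ, tl_trl hh]
  rw [h1, Q_tl hh, Matrix.trace_mul_cycle, hγ', Matrix.one_mul, trace_trl, Matrix.det_mul,
    Matrix.det_mul, det_trl]
  have hd : γ.det * γi.det = 1 := by rw [← Matrix.det_mul, hγ, Matrix.det_one]
  linear_combination (Q x) * hd

end Conj

/-! ### Transport of `J ≤ ker (evalPair …)` -/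

section Transport

open Fermat.Agent.GB.Local.Rloc

variable {O : Type*} [CommRing O] [IsLocalRing O] [IsNoetherianRing O]
  [IsAdicComplete (maximalIdeal O) O]
variable {A : Type*} [CommRing A] [IsLocalRing A] [Algebra O A]
  [IsAdicComplete (maximalIdeal A) A]

theorem tl_map {D E : Type*} [CommRing D] [CommRing E] (f : D →+* E) (h : D)
    (M : Matrix (Fin 2) (Fin 2) D) (i : Fin 3) : tl (f h) (M.map f) i = f (tl h M i) := by
  fin_cases i <;> simp [tl]

/-- `evalPair` only depends on the values -/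
theorem evalPair_congr {a n a' n' : Fin 3 → A} (ha : ∀ i, a i ∈ maximalIdeal A)
    (hn : ∀ i, n i ∈ maximalIdeal A) (ha' : ∀ i, a' i ∈ maximalIdeal A)
    (hn' : ∀ i, n' i ∈ maximalIdeal A) (h1 : ∀ i, a i = a' i) (h2 : ∀ i, n i = n' i) :
    evalPair (O := O) a n ha hn = evalPair (O := O) a' n' ha' hn' := by
  obtain rfl : a = a' := funext h1
  obtain rfl : n = n' := funext h2
  rfl

/-- a point with `n = 0` kills `J 𝒞` -/
theorem J_le_ker_evalPair_of_eq_zero (𝒞 : Finset O) {a n : Fin 3 → A}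
    (ha : ∀ i, a i ∈ maximalIdeal A) (hn : ∀ i, n i ∈ maximalIdeal A) (h0 : ∀ i, n i = 0) :
    J O 𝒞 ≤ RingHom.ker (evalPair (O := O) a n ha hn) := by
  rw [evalPair_congr ha hn ha (fun _ => zero_mem _) (fun _ => rfl) h0]
  exact J_le_ker_evalPair_of_zero 𝒞 a ha

/-- a point of the form `(s₁ u, s₂ u)`, `s₂² Q(u) = c²`, kills `J 𝒞` -/
theorem J_le_ker_evalPair_of_eq_smul (𝒞 : Finset O) {c : O} (hc : c ∈ 𝒞) {a n : Fin 3 → A}
    (ha : ∀ i, a i ∈ maximalIdeal A) (hn : ∀ i, n i ∈ maximalIdeal A) {s1 s2 : A} {u : Fin 3 → A}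
    (h1 : s1 ∈ maximalIdeal A) (h2 : s2 ∈ maximalIdeal A) (hu : ∀ i, u i ∈ maximalIdeal A)
    (hau : ∀ i, a i = s1 * u i) (hnu : ∀ i, n i = s2 * u i)
    (hrel : s2 ^ 2 * Q u = algebraMap O A c ^ 2) :
    J O 𝒞 ≤ RingHom.ker (evalPair (O := O) a n ha hn) := by
  rw [evalPair_congr ha hn (fun _ => Ideal.mul_mem_right _ _ h1)
    (fun _ => Ideal.mul_mem_right _ _ h2) hau hnu]
  exact J_le_ker_evalPair_of_chart 𝒞 hc s1 s2 u h1 h2 hu hrel

/-- the same after an arbitrary conjugation -/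
theorem J_le_ker_evalPair_of_eq_conjTl_smul (𝒞 : Finset O) {c : O} (hc : c ∈ 𝒞) {h : A}
    (hh : 2 * h = 1) {γ γi : Matrix (Fin 2) (Fin 2) A} (hγ : γ * γi = 1) {a n : Fin 3 → A}
    (ha : ∀ i, a i ∈ maximalIdeal A) (hn : ∀ i, n i ∈ maximalIdeal A) {s1 s2 : A}
    {u : Fin 3 → A} (h1 : s1 ∈ maximalIdeal A) (h2 : s2 ∈ maximalIdeal A)
    (hu : ∀ i, u i ∈ maximalIdeal A)
    (hau : ∀ i, a i = conjTl h γ γi (fun j => s1 * u j) i)
    (hnu : ∀ i, n i = conjTl h γ γi (fun j => s2 * u j) i)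
    (hrel : s2 ^ 2 * Q u = algebraMap O A c ^ 2) :
    J O 𝒞 ≤ RingHom.ker (evalPair (O := O) a n ha hn) := by
  refine J_le_ker_evalPair_of_eq_smul 𝒞 hc ha hn h1 h2
    (conjTl_mem h γ γi (maximalIdeal A) hu) (fun i => ?_) (fun i => ?_) ?_
  · rw [hau, conjTl_smul]
  · rw [hnu, conjTl_smul]
  · rw [Q_conjTl hh hγ, hrel]

/-- descent along an injective algebra map -/
theorem J_le_ker_evalPair_of_injective (𝒞 : Finset O) {A' : Type*} [CommRing A'] [IsLocalRing A']
    [Algebra O A'] [IsAdicComplete (maximalIdeal A') A'] (j : A →ₐ[O] A')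
    (hj : Function.Injective j) {a n : Fin 3 → A} (ha : ∀ i, a i ∈ maximalIdeal A)
    (hn : ∀ i, n i ∈ maximalIdeal A) (ha' : ∀ i, j (a i) ∈ maximalIdeal A')
    (hn' : ∀ i, j (n i) ∈ maximalIdeal A')
    (hJ : J O 𝒞 ≤ RingHom.ker (evalPair (O := O) (fun i => j (a i)) (fun i => j (n i)) ha' hn')) :
    J O 𝒞 ≤ RingHom.ker (evalPair (O := O) a n ha hn) := by
  have hcomp : j.comp (evalPair (O := O) a n ha hn) =
      evalPair (O := O) (fun i => j (a i)) (fun i => j (n i)) ha' hn' := by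
    refine evalPair_unique _ _ _ _ _ (fun i => ?_) (fun i => ?_)
    · rw [AlgHom.comp_apply, evalPair_aVar]
    · rw [AlgHom.comp_apply, evalPair_nVar]
  intro f hf
  have h1 := hJ hf
  rw [RingHom.mem_ker] at h1 ⊢
  rw [← hcomp, AlgHom.comp_apply] at h1
  exact hj (by rw [h1, map_zero])

end Transport

/-! ### Points over a complete discrete valuation ring -/

section DVRPoint

open Fermat.Agent.GB.Local.Rloc Fermat.Agent.GB.Local.SqrtUnif

variable (O : Type*) [CommRing O] [IsLocalRing O] [IsNoetherianRing O]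
  [IsAdicComplete (maximalIdeal O) O]
variable {O' : Type*} [CommRing O'] [IsDomain O'] [IsDiscreteValuationRing O']
  [IsAdicComplete (maximalIdeal O') O'] [Algebra O O']
variable {σ : Type*} [Finite σ]

/-- power series rings over a complete noetherian local ring are complete (`S53/PSComplete`) -/
theorem isAdicComplete_ps (R : Type*) [CommRing R] [IsLocalRing R] [IsNoetherianRing R]
    [IsAdicComplete (maximalIdeal R) R] (σ : Type*) [Finite σ] :
    IsAdicComplete (maximalIdeal (MvPowerSeries σ R)) (MvPowerSeries σ R) :=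
  Fermat.Agent.S53.isAdicComplete_mvPowerSeries R σ

theorem map_injective_of_injective {R S : Type*} [CommRing R] [CommRing S] (f : R →+* S)
    (hf : Function.Injective f) (σ : Type*) :
    Function.Injective (MvPowerSeries.map (σ := σ) f) := by
  intro x y hxy
  ext d
  have := congrArg (MvPowerSeries.coeff d) hxy
  rw [MvPowerSeries.coeff_map, MvPowerSeries.coeff_map] at this
  exact hf this

theorem C_mem_maximalIdeal {R : Type*} [CommRing R] [IsLocalRing R] (σ : Type*) {x : R}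
    (hx : x ∈ maximalIdeal R) :
    (MvPowerSeries.C x : MvPowerSeries σ R) ∈ maximalIdeal (MvPowerSeries σ R) := by
  rw [Fermat.Agent.S53.PSC.mem_maximalIdeal_iff]
  simpa using hx

/-- the framed traceless coordinates of a residually scalar matrix lie in the maximal ideal -/
theorem tl_conj_mem_maximalIdeal {R : Type*} [CommRing R] [IsLocalRing R] {h : R}
    (hh : 2 * h = 1) (M : Matrix (Fin 2) (Fin 2) R) (hM : ∀ i, tl h M i ∈ maximalIdeal R)
    {γ γi : Matrix (Fin 2) (Fin 2) (MvPowerSeries σ R)} (hγ : γ * γi = 1) (i : Fin 3) :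
    tl (MvPowerSeries.C h) (γ * M.map MvPowerSeries.C * γi) i ∈
      maximalIdeal (MvPowerSeries σ R) := by
  have hh' : 2 * (MvPowerSeries.C h : MvPowerSeries σ R) = 1 := by
    rw [← map_ofNat (MvPowerSeries.C (σ := σ) (R := R)) 2, ← map_mul, hh, map_one]
  rw [tl_conj hh' hγ]
  refine conjTl_mem _ _ _ _ (fun k => ?_) i
  rw [tl_map]
  exact C_mem_maximalIdeal σ (hM k)

/-- **(R4) end to end, `Σ` scalar**: a framed point with `tl Σ = 0` kills `J 𝒞`. -/
theorem J_le_ker_evalPair_conj_of_tl_eq_zero (𝒞 : Finset O)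
    [IsAdicComplete (maximalIdeal (MvPowerSeries σ O')) (MvPowerSeries σ O')] {h : O'}
    (hh : 2 * h = 1) (F S : Matrix (Fin 2) (Fin 2) O') (hn0 : tl h S = 0)
    {γ γi : Matrix (Fin 2) (Fin 2) (MvPowerSeries σ O')} (hγ : γ * γi = 1)
    (ha' : ∀ i, tl (MvPowerSeries.C h) (γ * F.map MvPowerSeries.C * γi) i ∈
      maximalIdeal (MvPowerSeries σ O'))
    (hn' : ∀ i, tl (MvPowerSeries.C h) (γ * S.map MvPowerSeries.C * γi) i ∈
      maximalIdeal (MvPowerSeries σ O')) :
    J O 𝒞 ≤ RingHom.ker (evalPair (O := O)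
      (tl (MvPowerSeries.C h) (γ * F.map MvPowerSeries.C * γi))
      (tl (MvPowerSeries.C h) (γ * S.map MvPowerSeries.C * γi)) ha' hn') := by
  have hh' : 2 * (MvPowerSeries.C h : MvPowerSeries σ O') = 1 := by
    rw [← map_ofNat (MvPowerSeries.C (σ := σ) (R := O')) 2, ← map_mul, hh, map_one]
  refine J_le_ker_evalPair_of_eq_zero 𝒞 ha' hn' (fun i => ?_)
  rw [tl_conj hh' hγ]
  have : tl (MvPowerSeries.C h : MvPowerSeries σ O') (S.map MvPowerSeries.C) = 0 := by
    funext k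
    rw [tl_map, hn0]
    simp
  rw [this, conjTl_zero]
  rfl

/-- **(R4) end to end, semisimple branch**: `Φ, Σ ∈ M₂(O')` residually scalar with proportional
traceless parts and `Q(tl Σ) = c²`, `c ∈ 𝒞` nonzero in the complete DVR `O'`; then for every
`γ ∈ GL₂(O'⟦z⟧)` the point `(tl (γ Φ γ⁻¹), tl (γ Σ γ⁻¹))` of `P6` kills `J 𝒞`. -/
theorem J_le_ker_evalPair_conj_of_minors (𝒞 : Finset O)
    [IsAdicComplete (maximalIdeal (MvPowerSeries σ O')) (MvPowerSeries σ O')] {c : O}
    (hc : c ∈ 𝒞) {h : O'} (hh : 2 * h = 1) (F S : Matrix (Fin 2) (Fin 2) O')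
    (ha : ∀ i, tl h F i ∈ maximalIdeal O') (hn : ∀ i, tl h S i ∈ maximalIdeal O')
    (hmin : Minors (tl h F) (tl h S)) (hc0 : algebraMap O O' c ≠ 0)
    (hQ : Q (tl h S) = algebraMap O O' c ^ 2)
    {γ γi : Matrix (Fin 2) (Fin 2) (MvPowerSeries σ O')} (hγ : γ * γi = 1)
    (ha' : ∀ i, tl (MvPowerSeries.C h) (γ * F.map MvPowerSeries.C * γi) i ∈
      maximalIdeal (MvPowerSeries σ O'))
    (hn' : ∀ i, tl (MvPowerSeries.C h) (γ * S.map MvPowerSeries.C * γi) i ∈
      maximalIdeal (MvPowerSeries σ O')) :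
    J O 𝒞 ≤ RingHom.ker (evalPair (O := O)
      (tl (MvPowerSeries.C h) (γ * F.map MvPowerSeries.C * γi))
      (tl (MvPowerSeries.C h) (γ * S.map MvPowerSeries.C * γi)) ha' hn') := by
  obtain ⟨π, hπ⟩ := IsDiscreteValuationRing.exists_irreducible O'
  have : IsLocalRing (Bsqrt π) := isLocalRing_of_irreducible π hπ
  have : IsAdicComplete (maximalIdeal (Bsqrt π)) (Bsqrt π) := isAdicComplete_bsqrt π hπ
  obtain ⟨s1, s2, u, h1, h2, hu, hau, hnu, hq⟩ :=
    exists_decomp_bsqrt_Q π hπ (tl h F) (tl h S) ha hn hmin hc0 hQ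
  have : IsAdicComplete (maximalIdeal (MvPowerSeries σ (Bsqrt π))) (MvPowerSeries σ (Bsqrt π)) :=
    isAdicComplete_ps (Bsqrt π) σ
  -- the injection `O'⟦z⟧ → B⟦z⟧`
  let j : MvPowerSeries σ O' →ₐ[O] MvPowerSeries σ (Bsqrt π) :=
    MvPowerSeries.mapAlgHom (IsScalarTower.toAlgHom O O' (Bsqrt π))
  have hjmap : ∀ x, j x = MvPowerSeries.map (algebraMap O' (Bsqrt π)) x := fun x => rfl
  have hj : Function.Injective j :=
    map_injective_of_injective (algebraMap O' (Bsqrt π)) (algebraMap_injective π) σ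
  have hjC : ∀ x : O', j (MvPowerSeries.C x) = MvPowerSeries.C (algebraMap O' (Bsqrt π) x) := by
    intro x; rw [hjmap, MvPowerSeries.map_C]
  set hB : MvPowerSeries σ (Bsqrt π) := MvPowerSeries.C (algebraMap O' (Bsqrt π) h) with hhB
  have hh' : 2 * (MvPowerSeries.C h : MvPowerSeries σ O') = 1 := by
    rw [← map_ofNat (MvPowerSeries.C (σ := σ) (R := O')) 2, ← map_mul, hh, map_one]
  have hhB2 : 2 * hB = 1 := by
    have := congrArg j hh'
    rwa [map_mul, map_ofNat, map_one, hjC] at this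
  set γB := γ.map j with hγB
  set γiB := γi.map j with hγiB
  have hγB1 : γB * γiB = 1 := by
    have := congrArg (fun M : Matrix (Fin 2) (Fin 2) (MvPowerSeries σ O') => M.map j) hγ
    simpa [Matrix.map_mul, hγB, hγiB] using this
  -- the images of the framed coordinates
  have key : ∀ (M : Matrix (Fin 2) (Fin 2) O') (s : Bsqrt π)
      (hs : ∀ i, algebraMap O' (Bsqrt π) (tl h M i) = s * u i) (i : Fin 3),
      j (tl (MvPowerSeries.C h) (γ * M.map MvPowerSeries.C * γi) i) =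
        conjTl hB γB γiB (fun k => MvPowerSeries.C s * MvPowerSeries.C (u k)) i := by
    intro M s hs i
    rw [tl_conj hh' hγ]
    have := map_conjTl (j : MvPowerSeries σ O' →+* MvPowerSeries σ (Bsqrt π))
      (MvPowerSeries.C h) γ γi (tl (MvPowerSeries.C h) (M.map MvPowerSeries.C)) i
    rw [RingHom.coe_coe] at this
    rw [this, hjC]
    congr 1
    funext k
    rw [tl_map, hjC, hs, map_mul]
  have hmemB : ∀ {x : MvPowerSeries σ O'}, x ∈ maximalIdeal (MvPowerSeries σ O') →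
      j x ∈ maximalIdeal (MvPowerSeries σ (Bsqrt π)) := by
    intro x hx
    rw [Fermat.Agent.S53.PSC.mem_maximalIdeal_iff] at hx ⊢
    rw [hjmap, ← MvPowerSeries.coeff_zero_eq_constantCoeff_apply, MvPowerSeries.coeff_map,
      MvPowerSeries.coeff_zero_eq_constantCoeff_apply]
    have := isLocalHom_algebraMap π
    exact _root_.map_nonunit (algebraMap O' (Bsqrt π)) _ hx
  refine J_le_ker_evalPair_of_injective 𝒞 j hj ha' hn' (fun i => hmemB (ha' i))
    (fun i => hmemB (hn' i)) ?_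
  refine J_le_ker_evalPair_of_eq_conjTl_smul 𝒞 hc hhB2 hγB1 _ _
    (C_mem_maximalIdeal σ h1) (C_mem_maximalIdeal σ h2) (fun k => C_mem_maximalIdeal σ (hu k))
    (fun i => key F s1 hau i) (fun i => key S s2 hnu i) ?_
  -- the relation
  have hQC : Q (fun k => (MvPowerSeries.C (u k) : MvPowerSeries σ (Bsqrt π))) =
      MvPowerSeries.C (Q u) := by
    simp only [Q, map_add, map_pow, map_mul]
  rw [hQC, ← map_pow, ← map_mul, hq]
  have halg : algebraMap O (MvPowerSeries σ (Bsqrt π)) c =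
      MvPowerSeries.C (algebraMap O' (Bsqrt π) (algebraMap O O' c)) := by
    rw [MvPowerSeries.algebraMap_apply, ← IsScalarTower.algebraMap_apply]
  rw [halg, map_pow]

/-- **(R4) end to end, commuting form** (`TamePoint.point_cases` output). -/
theorem J_le_ker_evalPair_conj_of_commute (𝒞 : Finset O)
    [IsAdicComplete (maximalIdeal (MvPowerSeries σ O')) (MvPowerSeries σ O')] {c : O}
    (hc : c ∈ 𝒞) {h : O'} (hh : 2 * h = 1) (F S : Matrix (Fin 2) (Fin 2) O')
    (ha : ∀ i, tl h F i ∈ maximalIdeal O') (hn : ∀ i, tl h S i ∈ maximalIdeal O')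
    (hcomm : F * S = S * F) (hc0 : algebraMap O O' c ≠ 0)
    (hQ : Q (tl h S) = algebraMap O O' c ^ 2)
    {γ γi : Matrix (Fin 2) (Fin 2) (MvPowerSeries σ O')} (hγ : γ * γi = 1)
    (ha' : ∀ i, tl (MvPowerSeries.C h) (γ * F.map MvPowerSeries.C * γi) i ∈
      maximalIdeal (MvPowerSeries σ O'))
    (hn' : ∀ i, tl (MvPowerSeries.C h) (γ * S.map MvPowerSeries.C * γi) i ∈
      maximalIdeal (MvPowerSeries σ O')) :
    J O 𝒞 ≤ RingHom.ker (evalPair (O := O)
      (tl (MvPowerSeries.C h) (γ * F.map MvPowerSeries.C * γi))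
      (tl (MvPowerSeries.C h) (γ * S.map MvPowerSeries.C * γi)) ha' hn') :=
  J_le_ker_evalPair_conj_of_minors O 𝒞 hc hh F S ha hn (minors_of_commute h hcomm) hc0 hQ hγ
    ha' hn'

end DVRPoint

end Fermat.Agent.GB.Local.R4Point
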