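/-
GATE-B / B1 LOC: the finite set `𝒞` of constants of the scalar charts, and (R4) end to end from the
tame relation (helper51).

`𝒞 = cSet h ζ N = { h (ζ^k − ζ^(N−k)) : 0 < k < N }` (`N = p^a`, `ζ` a primitive `N`-th root of
unity in `O`, `2 h = 1`).

* `exists_unit_mul_pow_of_mem_cSet` : for `O` a DVR with uniformiser `lam`, residue characteristic
  `p` odd, every `c ∈ 𝒞` is `u · lam^e` with `e ≠ 0` — the hypothesis `h𝒞` of helper54's
  `TTest.tElt_notMem_radical'`, `Cert.ringKrullDim_Rloc_le` (via `dvd_of_mem_cSet`).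
* `J_le_ker_evalPair_conj_of_tame` : for a complete DVR `O'` over `O`, matrices `F, S ∈ M₂(O')`
  with the tame relation `F S = S^q F`, residually scalar, `S` not non-trivially unipotent,
  and any `γ ∈ GL₂(O'⟦z⟧)`: the framed point `(tl (γ F γ⁻¹), tl (γ S γ⁻¹))` kills `J O 𝒞`.
  (`TamePoint.point_cases` + `R4Point`.)
-/
import Mathlib
import Fermat.Agent.GB.Local.R4Point

set_option autoImplicit false
set_option linter.unusedSectionVars false

open IsLocalRing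

namespace Fermat.Agent.GB.Local.TameC

open Fermat.Agent.GB.Local.TamePoint Fermat.Agent.GB.Local.Rloc Fermat.Agent.GB.Local.R4Point
open Matrix

section Defs

variable {O : Type*} [CommRing O]

/-- the constant `c_k = h (ζ^k − ζ^(N−k))` -/
def cOf (h ζ : O) (N k : ℕ) : O := h * (ζ ^ k - ζ ^ (N - k))

open Classical in
/-- the finite set `𝒞` of constants -/
noncomputable def cSet (h ζ : O) (N : ℕ) : Finset O := (Finset.Ioo 0 N).image (cOf h ζ N)

theorem cOf_mem_cSet (h ζ : O) {N k : ℕ} (hk0 : 0 < k) (hk : k < N) :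
    cOf h ζ N k ∈ cSet h ζ N := by
  classical
  exact Finset.mem_image.mpr ⟨k, Finset.mem_Ioo.mpr ⟨hk0, hk⟩, rfl⟩

theorem exists_of_mem_cSet {h ζ : O} {N : ℕ} {c : O} (hc : c ∈ cSet h ζ N) :
    ∃ k, 0 < k ∧ k < N ∧ c = cOf h ζ N k := by
  classical
  obtain ⟨k, hk, rfl⟩ := Finset.mem_image.mp hc
  exact ⟨k, (Finset.mem_Ioo.mp hk).1, (Finset.mem_Ioo.mp hk).2, rfl⟩

theorem map_cOf {E : Type*} [CommRing E] (f : O →+* E) (h ζ : O) (N k : ℕ) :
    f (cOf h ζ N k) = cOf (f h) (f ζ) N k := by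
  simp only [cOf, map_mul, map_sub, map_pow]

end Defs

section Val

variable {O : Type*} [CommRing O] [IsDomain O]

/-- for `N` odd and `0 < k < N`, `ζ^k ≠ ζ^(N−k)` -/
theorem pow_ne_pow_sub {ζ : O} {N : ℕ} (hζ : IsPrimitiveRoot ζ N) (hN : Nat.Coprime N 2) {k : ℕ}
    (hk0 : 0 < k) (hk : k < N) : ζ ^ k ≠ ζ ^ (N - k) := by
  intro he
  have hmul : ζ ^ k * ζ ^ (N - k) = 1 := by
    rw [← pow_add, Nat.add_sub_cancel' hk.le, hζ.pow_eq_one]
  have h2k : ζ ^ (2 * k) = 1 := by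
    rw [two_mul, pow_add]
    nth_rewrite 2 [he]
    exact hmul
  have hdvd : N ∣ 2 * k := hζ.dvd_of_pow_eq_one _ h2k
  have hdk : N ∣ k := hN.dvd_of_dvd_mul_left hdvd
  exact absurd (Nat.le_of_dvd hk0 hdk) (not_le.mpr hk)

theorem cOf_ne_zero {h ζ : O} (hh : 2 * h = 1) {N : ℕ} (hζ : IsPrimitiveRoot ζ N)
    (hN : Nat.Coprime N 2) {k : ℕ} (hk0 : 0 < k) (hk : k < N) : cOf h ζ N k ≠ 0 :=
  c_ne_zero hh (pow_ne_pow_sub hζ hN hk0 hk)

variable [IsLocalRing O]

/-- a `p`-power root of unity is `≡ 1` modulo the maximal ideal in residue characteristic `p` -/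
theorem sub_one_mem_maximalIdeal {p : ℕ} (hp : p.Prime) (hpO : (p : O) ∈ maximalIdeal O) {ζ : O}
    {a : ℕ} (hζ : ζ ^ (p ^ a) = 1) : ζ - 1 ∈ maximalIdeal O := by
  have : Fact p.Prime := ⟨hp⟩
  have h0 : ((p : ℕ) : ResidueField O) = 0 := by
    have := (residue_eq_zero_iff (p : O)).mpr hpO
    rwa [map_natCast] at this
  have : CharP (ResidueField O) p := (CharP.charP_iff_prime_eq_zero hp).mpr h0
  rw [← residue_eq_zero_iff, map_sub, map_one]
  have h1 : (residue O ζ - 1) ^ (p ^ a) = 0 := by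
    rw [sub_pow_char_pow, one_pow, ← map_pow, hζ, map_one, sub_self]
  exact pow_eq_zero_iff (pow_ne_zero a hp.ne_zero) |>.mp h1

theorem cOf_mem_maximalIdeal {p : ℕ} (hp : p.Prime) (hpO : (p : O) ∈ maximalIdeal O) {ζ : O}
    {a : ℕ} (hζ : ζ ^ (p ^ a) = 1) (h : O) (k : ℕ) : cOf h ζ (p ^ a) k ∈ maximalIdeal O := by
  have h1 := sub_one_mem_maximalIdeal hp hpO hζ
  rw [← residue_eq_zero_iff, map_sub, map_one, sub_eq_zero] at h1
  rw [← residue_eq_zero_iff, cOf, map_mul, map_sub, map_pow, map_pow, h1, one_pow, one_pow,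
    sub_self, mul_zero]

end Val

section DVR

variable {O : Type*} [CommRing O] [IsDomain O] [IsDiscreteValuationRing O]

/-- **valuation form of `𝒞`** = hypothesis `h𝒞` of `TTest.tElt_notMem_radical'` -/
theorem exists_unit_mul_pow_of_mem_cSet {p : ℕ} (hp : p.Prime) (hp2 : p ≠ 2)
    (hpO : (p : O) ∈ maximalIdeal O) {h ζ : O} (hh : 2 * h = 1) {a : ℕ}
    (hζ : IsPrimitiveRoot ζ (p ^ a)) {lam : O} (hlam : Irreducible lam) :
    ∀ c ∈ cSet h ζ (p ^ a), ∃ (u : Oˣ) (e : ℕ), e ≠ 0 ∧ c = u * lam ^ e := by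
  intro c hc
  obtain ⟨k, hk0, hk, rfl⟩ := exists_of_mem_cSet hc
  have hcop : Nat.Coprime (p ^ a) 2 :=
    Nat.Coprime.pow_left _ ((Nat.coprime_primes hp Nat.prime_two).mpr hp2)
  have hne := cOf_ne_zero hh hζ hcop hk0 hk
  obtain ⟨e, u, he⟩ := IsDiscreteValuationRing.eq_unit_mul_pow_irreducible hne hlam
  refine ⟨u, e, ?_, he⟩
  rintro rfl
  have hmem := cOf_mem_maximalIdeal hp hpO hζ.pow_eq_one h k
  rw [he, pow_zero, mul_one] at hmem
  exact hmem u.isUnit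

theorem dvd_of_mem_cSet {p : ℕ} (hp : p.Prime) (hp2 : p ≠ 2)
    (hpO : (p : O) ∈ maximalIdeal O) {h ζ : O} (hh : 2 * h = 1) {a : ℕ}
    (hζ : IsPrimitiveRoot ζ (p ^ a)) {lam : O} (hlam : Irreducible lam) :
    ∀ c ∈ cSet h ζ (p ^ a), lam ∣ c := by
  intro c hc
  obtain ⟨u, e, he, rfl⟩ := exists_unit_mul_pow_of_mem_cSet hp hp2 hpO hh hζ hlam c hc
  exact Dvd.dvd.mul_left (dvd_pow_self lam he) _

end DVR

section Tame

variable (O : Type*) [CommRing O] [IsLocalRing O] [IsNoetherianRing O]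
  [IsAdicComplete (maximalIdeal O) O]
variable {O' : Type*} [CommRing O'] [IsDomain O'] [IsDiscreteValuationRing O']
  [IsAdicComplete (maximalIdeal O') O'] [Algebra O O']
variable {σ : Type*} [Finite σ]

/-- **(R4) end to end from the tame relation.**  `F = ρ(φ_q)`, `S = ρ(σ_q)` over the complete DVR
`O'`, `F S = S^q F`, both residually scalar, `S` residually trivial, and `S` not non-trivially
unipotent (`hnu`); then every framed point `(tl (γ F γ⁻¹), tl (γ S γ⁻¹))` kills `J O 𝒞`,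
`𝒞 = cSet h ζ (p^a)`. -/
theorem J_le_ker_evalPair_conj_of_tame
    [IsAdicComplete (maximalIdeal (MvPowerSeries σ O')) (MvPowerSeries σ O')]
    {p : ℕ} (hp : p.Prime) (hp2 : p ≠ 2) (hpO' : (p : O') ∈ maximalIdeal O')
    (S F : Matrix (Fin 2) (Fin 2) O') (hF : F.det ≠ 0) (hS : S.det = 1)
    {q a n' : ℕ} (hfac : q - 1 = p ^ a * n') (hn' : ¬ p ∣ n') (hpq : p ∣ q - 1) (hq : 1 ≤ q)
    (hrel : F * S = S ^ q * F) (hres : S.trace - 2 ∈ maximalIdeal O')
    {h ζ : O} (hh : 2 * h = 1) (hζ : IsPrimitiveRoot (algebraMap O O' ζ) (p ^ a))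
    (hFres : ∀ i, tl (algebraMap O O' h) F i ∈ maximalIdeal O')
    (hSres : ∀ i, tl (algebraMap O O' h) S i ∈ maximalIdeal O')
    (hnu : (S - 1) ^ 2 = 0 → S = 1)
    {γ γi : Matrix (Fin 2) (Fin 2) (MvPowerSeries σ O')} (hγ : γ * γi = 1)
    (ha' : ∀ i, tl (MvPowerSeries.C (algebraMap O O' h)) (γ * F.map MvPowerSeries.C * γi) i ∈
      maximalIdeal (MvPowerSeries σ O'))
    (hn'' : ∀ i, tl (MvPowerSeries.C (algebraMap O O' h)) (γ * S.map MvPowerSeries.C * γi) i ∈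
      maximalIdeal (MvPowerSeries σ O')) :
    J O (cSet h ζ (p ^ a)) ≤ RingHom.ker (evalPair (O := O)
      (tl (MvPowerSeries.C (algebraMap O O' h)) (γ * F.map MvPowerSeries.C * γi))
      (tl (MvPowerSeries.C (algebraMap O O' h)) (γ * S.map MvPowerSeries.C * γi)) ha' hn'') := by
  have hh' : 2 * algebraMap O O' h = 1 := by
    rw [← map_ofNat (algebraMap O O') 2, ← map_mul, hh, map_one]
  rcases point_cases (maximalIdeal.isMaximal O').ne_top hp hp2 hpO' S F hF hS hfac hn' hpq hq hrel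
    hres hζ hh' with ⟨-, huni⟩ | ⟨k, hk0, hk, hcomm, -, hQ, hne⟩
  · -- unipotent branch: `S = 1`
    have hS1 := hnu huni
    refine J_le_ker_evalPair_conj_of_tl_eq_zero O _ hh' F S ?_ hγ ha' hn''
    rw [hS1]; exact tl_one_mat _
  · -- semisimple branch
    refine J_le_ker_evalPair_conj_of_commute O _ (cOf_mem_cSet h ζ hk0 hk) hh' F S hFres hSres
      hcomm ?_ ?_ hγ ha' hn''
    · rw [map_cOf]; exact c_ne_zero hh' hne
    · rw [hQ, map_cOf]; rfl

end Tame

end Fermat.Agent.GB.Local.TameC
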