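/-
GATE-B / B1 LOC → B9: the `kill₂` adapter (helper51).

`Θ : Rinf O g →ₐ[O] T⟦z⟧` (helper54's `Rinf O g = O⟦a,n⟧⟦x₁..x_g⟧`), whose `P6`-part is given by the
framed traceless coordinates of a pair `(F, S) ∈ M₂(T)²` (`F = ρ(φ_q)`, `S = ρ(σ_q)`), `T` any
commutative `O`-algebra with a jointly injective family of `O`-algebra points `x i : T → O' i` into
complete discrete valuation rings such that at every point the hypotheses of
`TameC.J_le_ker_evalPair_conj_of_tame` hold (tame relation, residually scalar, not non-trivially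
unipotent).  Then `Θ` kills `J₂ = J2 O 𝒞 g`, `𝒞 = cSet h ζ (p^a)`.
-/
import Mathlib
import Fermat.Agent.GB.Local.RlocMain
import Fermat.Agent.GB.Local.TameC

set_option autoImplicit false
set_option linter.unusedSectionVars false

open IsLocalRing

namespace Fermat.Agent.GB.Local.Kill2

open Fermat.Agent.GB.Local.TamePoint Fermat.Agent.GB.Local.Rloc Fermat.Agent.GB.Local.R4Point
open Fermat.Agent.GB.Local.TameC Fermat.Agent.GB.Local.RlocMain Matrix

variable (O : Type*) [CommRing O] [IsLocalRing O] [IsNoetherianRing O]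
  [IsAdicComplete (maximalIdeal O) O]

/-- the coefficient embedding `P6 → Rinf g` as an `O`-algebra hom -/
noncomputable def Calg (g : ℕ) : P6 O →ₐ[O] Rinf O g :=
  { (MvPowerSeries.C : P6 O →+* Rinf O g) with
    commutes' := fun _ => MvPowerSeries.algebraMap_apply.symm }

@[simp] theorem Calg_apply (g : ℕ) (f : P6 O) : Calg O g f = MvPowerSeries.C f := rfl

/-- images of framed coordinates under a coefficientwise map -/
theorem map_tl_conj {T T' : Type*} [CommRing T] [CommRing T'] {σ : Type*} (x : T →+* T') (hT : T)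
    (M : Matrix (Fin 2) (Fin 2) T) (γ γi : Matrix (Fin 2) (Fin 2) (MvPowerSeries σ T))
    (k : Fin 3) :
    MvPowerSeries.map x (tl (MvPowerSeries.C hT) (γ * M.map MvPowerSeries.C * γi) k) =
      tl (MvPowerSeries.C (x hT)) (γ.map (MvPowerSeries.map x) *
        (M.map x).map MvPowerSeries.C * γi.map (MvPowerSeries.map x)) k := by
  rw [← tl_map, MvPowerSeries.map_C, Matrix.map_mul, Matrix.map_mul]
  congr 3
  ext i j
  simp only [Matrix.map_apply, MvPowerSeries.map_C]

variable {O}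

/-- **`kill₂`**: `J₂ ≤ ker Θ`. -/
theorem J2_le_ker_of_points {T : Type*} [CommRing T] [Algebra O T] {σ : Type*} [Finite σ] {g : ℕ}
    (Θ : Rinf O g →ₐ[O] MvPowerSeries σ T)
    {ι : Type*} {O' : ι → Type*} [∀ i, CommRing (O' i)] [∀ i, IsDomain (O' i)]
    [∀ i, IsDiscreteValuationRing (O' i)] [∀ i, IsAdicComplete (maximalIdeal (O' i)) (O' i)]
    [∀ i, Algebra O (O' i)]
    (x : ∀ i, T →ₐ[O] O' i) (hxinj : ∀ t : T, (∀ i, x i t = 0) → t = 0)
    {p : ℕ} (hp : p.Prime) (hp2 : p ≠ 2) (hpO' : ∀ i, (p : O' i) ∈ maximalIdeal (O' i))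
    (S F : Matrix (Fin 2) (Fin 2) T) (hF : ∀ i, (F.map (x i)).det ≠ 0) (hS : S.det = 1)
    {q a n' : ℕ} (hfac : q - 1 = p ^ a * n') (hn' : ¬ p ∣ n') (hpq : p ∣ q - 1) (hq : 1 ≤ q)
    (hrel : F * S = S ^ q * F)
    (hres : ∀ i, (S.map (x i)).trace - 2 ∈ maximalIdeal (O' i))
    {h ζ : O} (hh : 2 * h = 1) (hζ : ∀ i, IsPrimitiveRoot (algebraMap O (O' i) ζ) (p ^ a))
    (hFres : ∀ i k, tl (algebraMap O (O' i) h) (F.map (x i)) k ∈ maximalIdeal (O' i))
    (hSres : ∀ i k, tl (algebraMap O (O' i) h) (S.map (x i)) k ∈ maximalIdeal (O' i))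
    (hnu : ∀ i, (S.map (x i) - 1) ^ 2 = 0 → S.map (x i) = 1)
    {γ γi : Matrix (Fin 2) (Fin 2) (MvPowerSeries σ T)} (hγ : γ * γi = 1)
    (hΘa : ∀ k, Θ (MvPowerSeries.C (aVar O k)) =
      tl (MvPowerSeries.C (algebraMap O T h)) (γ * F.map MvPowerSeries.C * γi) k)
    (hΘn : ∀ k, Θ (MvPowerSeries.C (nVar O k)) =
      tl (MvPowerSeries.C (algebraMap O T h)) (γ * S.map MvPowerSeries.C * γi) k)
    (hΘx : ∀ i j, MvPowerSeries.map (x i : T →+* O' i) (Θ (MvPowerSeries.X j)) ∈
      maximalIdeal (MvPowerSeries σ (O' i))) :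
    J2 O (cSet h ζ (p ^ a)) g ≤ RingHom.ker (Θ : Rinf O g →+* MvPowerSeries σ T) := by
  intro r hr
  rw [RingHom.mem_ker]
  ext d
  rw [map_zero]
  refine hxinj _ fun i => ?_
  -- the point `i`
  have hcomp : IsAdicComplete (maximalIdeal (MvPowerSeries σ (O' i))) (MvPowerSeries σ (O' i)) :=
    isAdicComplete_ps (O' i) σ
  have hhaus : IsHausdorff (maximalIdeal (MvPowerSeries σ (O' i))) (MvPowerSeries σ (O' i)) :=
    hcomp.toIsHausdorff
  set m : MvPowerSeries σ T →+* MvPowerSeries σ (O' i) :=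
    MvPowerSeries.map (x i : T →+* O' i) with hm
  set θ : Rinf O g →+* MvPowerSeries σ (O' i) := m.comp (Θ : Rinf O g →+* MvPowerSeries σ T)
    with hθ
  have hhi : 2 * algebraMap O (O' i) h = 1 := by
    rw [← map_ofNat (algebraMap O (O' i)) 2, ← map_mul, hh, map_one]
  have hγi : γ.map m * γi.map m = 1 := by
    rw [← Matrix.map_mul, hγ, Matrix.map_one m (map_zero m) (map_one m)]
  have hxh : (x i : T →+* O' i) (algebraMap O T h) = algebraMap O (O' i) h := (x i).commutes h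
  -- membership of the framed coordinates
  have ha' := fun k => tl_conj_mem_maximalIdeal (σ := σ) hhi (F.map (x i)) (hFres i) hγi k
  have hn'' := fun k => tl_conj_mem_maximalIdeal (σ := σ) hhi (S.map (x i)) (hSres i) hγi k
  -- the `P6`-part of `θ` is an evaluation
  let ψ : P6 O →ₐ[O] MvPowerSeries σ (O' i) :=
    ((MvPowerSeries.mapAlgHom (σ := σ) (x i)).comp Θ).comp (Calg O g)
  have hψ : ∀ f, ψ f = θ (MvPowerSeries.C f) := fun f => rfl
  have hψeq : ψ = evalPair (O := O) _ _ ha' hn'' := by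
    refine evalPair_unique _ _ _ _ ψ (fun k => ?_) (fun k => ?_)
    · rw [hψ, hθ, RingHom.comp_apply, AlgHom.coe_toRingHom, hΘa, hm, map_tl_conj, hxh]
      rfl
    · rw [hψ, hθ, RingHom.comp_apply, AlgHom.coe_toRingHom, hΘn, hm, map_tl_conj, hxh]
      rfl
  have hS' : (S.map (x i)).det = 1 := by
    have := congrArg (x i) hS
    rwa [AlgHom.map_det, map_one] at this
  have hrel' : F.map (x i) * S.map (x i) = S.map (x i) ^ q * F.map (x i) := by
    have := congrArg ((x i : T →+* O' i).mapMatrix (m := Fin 2)) hrel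
    rw [map_mul, map_mul, map_pow] at this
    exact this
  have hJ : ∀ f ∈ J O (cSet h ζ (p ^ a)), θ (MvPowerSeries.C f) = 0 := by
    intro f hf
    have h1 := J_le_ker_evalPair_conj_of_tame O hp hp2 (hpO' i) (S.map (x i)) (F.map (x i)) (hF i)
      hS' hfac hn' hpq hq hrel' (hres i) hh (hζ i) (hFres i) (hSres i) (hnu i) hγi ha' hn'' hf
    rw [RingHom.mem_ker, ← hψeq] at h1
    rw [← hψ]; exact h1
  have h2 := J2_le_ker (cSet h ζ (p ^ a)) θ hJ (fun j => hΘx i j) hr
  rw [RingHom.mem_ker, hθ, RingHom.comp_apply, hm] at h2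
  have h3 := congrArg (MvPowerSeries.coeff d) h2
  rwa [MvPowerSeries.coeff_map, map_zero] at h3

end Fermat.Agent.GB.Local.Kill2
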