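/-
GATE-B (Ribet S38/S43), CASE B, node B1 LOC — hedge leaf for Steinberg-type points (helper54 5632 §2,
helper6 5688 (b)), written by helper59.  Mathlib + one proved Prelude lemma
(`IsLocalRing.isAdicComplete_of_module_finite`).

`Broot n π = AdjoinRoot (X ^ n - C π)`: the extension of a discrete valuation ring `R` by an `n`-th
root `μ` of a uniformiser `π` (any `n ≠ 0`; `n = 2` is `GB/Local/SqrtUnif.Bsqrt`, `n = 3` is the
cube-root extension needed to move ALL FIVE Steinberg chart variables into the maximal ideal).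

* `mu_pow : μ ^ n = π`, `exists_rep : x = a + μ * y`,
* `Nontrivial`, `Module.Finite`, `Module.Free`, `IsNoetherianRing`,
* `algebraMap_injective`,
* `isLocalRing_broot`, `isLocalHom_algebraMap`, `maximalIdeal_broot : 𝔪 = (μ)`,
* `rootPoly_irreducible` (Eisenstein), `isDomain_broot`,
* `isAdicComplete_broot` for complete `R`,
* `exists_eq_mu_pow_mul` : an element of `π R` is `μ ^ n * (image)`, and the rescaling lemma
  `exists_div_mu_pow` : for `k < n`, every `x ∈ π R` is `μ ^ k * x'` with `x' ∈ 𝔪`.
-/
import Mathlib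
import Fermat.Prelude.Thm_IsLocalRing_isAdicComplete_of_module_finite

set_option autoImplicit false
set_option linter.style.haveILetI false
set_option linter.unusedSectionVars false

namespace Fermat.Agent.GB.Local.RootUnif

open Polynomial IsLocalRing

section Root

variable {R : Type*} [CommRing R] (n : ℕ) (π : R)

/-- the polynomial `X ^ n - π`. -/
noncomputable def rootPoly : R[X] := X ^ n - C π

theorem rootPoly_monic (hn : n ≠ 0) : (rootPoly n π).Monic := monic_X_pow_sub_C π hn

theorem rootPoly_natDegree [Nontrivial R] : (rootPoly n π).natDegree = n :=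
  natDegree_X_pow_sub_C

theorem rootPoly_degree [Nontrivial R] (hn : n ≠ 0) : (rootPoly n π).degree = n := by
  rw [degree_eq_natDegree (rootPoly_monic n π hn).ne_zero, rootPoly_natDegree n π]

/-- `R[π^{1/n}]`. -/
abbrev Broot : Type _ := AdjoinRoot (rootPoly n π)

/-- the `n`-th root `μ` of `π` in `Broot n π`. -/
noncomputable def mu : Broot n π := AdjoinRoot.root (rootPoly n π)

theorem mu_pow : mu n π ^ n = algebraMap R (Broot n π) π := by
  have h : eval₂ (AdjoinRoot.of (rootPoly n π)) (AdjoinRoot.root (rootPoly n π)) (X ^ n - C π) = 0 :=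
    AdjoinRoot.eval₂_root (rootPoly n π)
  rw [eval₂_sub, eval₂_pow, eval₂_X, eval₂_C, sub_eq_zero] at h
  rw [AdjoinRoot.algebraMap_eq]
  exact h

/-- every element is `a + μ * y` with `a` in the base. -/
theorem exists_rep (x : Broot n π) :
    ∃ (a : R) (y : Broot n π), x = algebraMap R (Broot n π) a + mu n π * y := by
  obtain ⟨p, rfl⟩ := AdjoinRoot.mk_surjective x
  refine ⟨p.coeff 0, AdjoinRoot.mk (rootPoly n π) p.divX, ?_⟩
  have h := divX_mul_X_add p
  conv_lhs => rw [← h]
  rw [map_add, map_mul, AdjoinRoot.mk_C, AdjoinRoot.mk_X, AdjoinRoot.algebraMap_eq, mu]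
  ring

instance instFiniteBroot [NeZero n] : Module.Finite R (Broot n π) :=
  (rootPoly_monic n π (NeZero.ne n)).finite_adjoinRoot

instance instFreeBroot [NeZero n] : Module.Free R (Broot n π) :=
  (rootPoly_monic n π (NeZero.ne n)).free_adjoinRoot

instance instNontrivialBroot [Nontrivial R] [NeZero n] : Nontrivial (Broot n π) := by
  have hg := rootPoly_monic n π (NeZero.ne n)
  have b := (AdjoinRoot.powerBasis' hg).basis
  have : NeZero (AdjoinRoot.powerBasis' hg).dim :=
    ⟨by rw [AdjoinRoot.powerBasis'_dim, rootPoly_natDegree n π]; exact NeZero.ne n⟩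
  exact ⟨⟨b 0, 0, b.ne_zero 0⟩⟩

instance instNoetherianBroot [IsNoetherianRing R] [NeZero n] : IsNoetherianRing (Broot n π) :=
  IsNoetherianRing.of_finite R _

/-- the structure map is injective. -/
theorem algebraMap_injective [Nontrivial R] [NeZero n] :
    Function.Injective (algebraMap R (Broot n π)) :=
  FaithfulSMul.algebraMap_injective R (Broot n π)

end Root

section Local

variable {R : Type*} [CommRing R] [IsLocalRing R] (n : ℕ) [NeZero n] (π : R)

/-- every maximal ideal of `Broot n π` contains the image of `𝔪_R`. -/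
theorem algebraMap_mem_of_isMaximal {M : Ideal (Broot n π)} (hM : M.IsMaximal) {r : R}
    (hr : r ∈ maximalIdeal R) : algebraMap R (Broot n π) r ∈ M := by
  haveI : Algebra.IsIntegral R (Broot n π) := Algebra.IsIntegral.of_finite R _
  have h1 : (M.comap (algebraMap R (Broot n π))).IsMaximal :=
    Ideal.isMaximal_comap_of_isIntegral_of_isMaximal M
  have h2 : M.comap (algebraMap R (Broot n π)) = maximalIdeal R := IsLocalRing.eq_maximalIdeal h1
  have h3 : r ∈ M.comap (algebraMap R (Broot n π)) := h2 ▸ hr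
  exact h3

/-- `μ` lies in every maximal ideal. -/
theorem mu_mem_of_isMaximal (hπ : π ∈ maximalIdeal R) {M : Ideal (Broot n π)} (hM : M.IsMaximal) :
    mu n π ∈ M := by
  have h1 : mu n π ^ n ∈ M := by
    rw [mu_pow]
    exact algebraMap_mem_of_isMaximal n π hM hπ
  exact hM.isPrime.mem_of_pow_mem n h1

/-- `μ` lies in the Jacobson radical. -/
theorem mu_mem_jacobson (hπ : π ∈ maximalIdeal R) :
    mu n π ∈ Ideal.jacobson (⊥ : Ideal (Broot n π)) := by
  rw [Ideal.jacobson, Ideal.mem_sInf]
  rintro M ⟨-, hM⟩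
  exact mu_mem_of_isMaximal n π hπ hM

/-- `a + μ y` is a unit as soon as `a` is. -/
theorem isUnit_rep (hπ : π ∈ maximalIdeal R) {a : R} (ha : IsUnit a) (y : Broot n π) :
    IsUnit (algebraMap R (Broot n π) a + mu n π * y) := by
  obtain ⟨u, hu⟩ := (algebraMap R (Broot n π)).isUnit_map ha
  have h1 := (Ideal.mem_jacobson_bot.1 (mu_mem_jacobson n π hπ)) (y * ↑u⁻¹)
  have h2 : algebraMap R (Broot n π) a + mu n π * y = (mu n π * (y * ↑u⁻¹) + 1) * ↑u := by
    have h3 : (↑u⁻¹ : Broot n π) * ↑u = 1 := Units.inv_mul u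
    rw [← hu]
    linear_combination (-(mu n π * y)) * h3
  rw [h2]
  exact h1.mul u.isUnit

/-- `Broot n π` is a local ring when `π` is a nonunit of the local ring `R`. -/
theorem isLocalRing_broot (hπ : π ∈ maximalIdeal R) : IsLocalRing (Broot n π) := by
  refine IsLocalRing.of_isUnit_or_isUnit_one_sub_self fun x => ?_
  obtain ⟨a, y, rfl⟩ := exists_rep n π x
  by_cases ha : IsUnit a
  · exact Or.inl (isUnit_rep n π hπ ha y)
  · right
    have h1 : IsUnit (1 - a) := by
      rcases IsLocalRing.isUnit_or_isUnit_one_sub_self a with h | h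
      · exact absurd h ha
      · exact h
    have h2 : (1 : Broot n π) - (algebraMap R (Broot n π) a + mu n π * y) =
        algebraMap R (Broot n π) (1 - a) + mu n π * (-y) := by
      rw [map_sub, map_one]
      ring
    rw [h2]
    exact isUnit_rep n π hπ h1 (-y)

/-- the structure map `R → Broot n π` is local. -/
theorem isLocalHom_algebraMap : IsLocalHom (algebraMap R (Broot n π)) := by
  refine ⟨fun r hr => ?_⟩
  by_contra hnu
  have hr' : r ∈ maximalIdeal R := (mem_maximalIdeal r).2 (mem_nonunits_iff.2 hnu)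
  obtain ⟨M, hM⟩ := Ideal.exists_maximal (Broot n π)
  have h1 := algebraMap_mem_of_isMaximal n π hM hr'
  exact hM.ne_top (Ideal.eq_top_of_isUnit_mem _ h1 hr)

/-- `μ` lies in the maximal ideal. -/
theorem mu_mem_maximalIdeal (hπ : π ∈ maximalIdeal R) :
    haveI := isLocalRing_broot n π hπ
    mu n π ∈ maximalIdeal (Broot n π) := by
  haveI := isLocalRing_broot n π hπ
  exact mu_mem_of_isMaximal n π hπ (maximalIdeal.isMaximal _)

/-- the maximal ideal of `Broot n π` is `(μ)` when `𝔪_R = (π)`. -/
theorem maximalIdeal_broot (hπ : maximalIdeal R = Ideal.span {π}) :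
    haveI := isLocalRing_broot n π (hπ ▸ Ideal.mem_span_singleton_self π)
    maximalIdeal (Broot n π) = Ideal.span {mu n π} := by
  have hπmem : π ∈ maximalIdeal R := hπ ▸ Ideal.mem_span_singleton_self π
  haveI := isLocalRing_broot n π hπmem
  apply le_antisymm
  · intro x hx
    obtain ⟨a, y, rfl⟩ := exists_rep n π x
    have ha : ¬ IsUnit a := fun h =>
      (mem_nonunits_iff.1 ((mem_maximalIdeal _).1 hx)) (isUnit_rep n π hπmem h y)
    have ha' : a ∈ Ideal.span {π} := by
      rw [← hπ]
      exact (mem_maximalIdeal a).2 (mem_nonunits_iff.2 ha)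
    obtain ⟨a', rfl⟩ := Ideal.mem_span_singleton'.1 ha'
    rw [Ideal.mem_span_singleton]
    obtain ⟨m, hm⟩ : ∃ m, n = m + 1 := Nat.exists_eq_succ_of_ne_zero (NeZero.ne n)
    refine ⟨algebraMap R (Broot n π) a' * mu n π ^ m + y, ?_⟩
    have h0 : ∀ (z : Broot n π) (j : ℕ), j = m + 1 → z ^ j = z ^ m * z := by
      intro z j hj
      rw [hj, pow_succ]
    have h1 : mu n π ^ n = mu n π ^ m * mu n π := h0 _ _ hm
    rw [map_mul, ← mu_pow n π, h1]
    ring
  · rw [Ideal.span_singleton_le_iff_mem]
    exact mu_mem_maximalIdeal n π hπmem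

/-- **`Broot n π` is a complete local ring** when `R` is a complete noetherian local ring. -/
theorem isAdicComplete_broot [IsNoetherianRing R] [IsAdicComplete (maximalIdeal R) R]
    (hπ : π ∈ maximalIdeal R) :
    haveI := isLocalRing_broot n π hπ
    IsAdicComplete (maximalIdeal (Broot n π)) (Broot n π) := by
  haveI := isLocalRing_broot n π hπ
  haveI := isLocalHom_algebraMap n π
  exact IsLocalRing.isAdicComplete_of_module_finite (𝒪 := R) (T := Broot n π)

/-- an element of `π R` is `μ ^ n` times an element of the base. -/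
theorem exists_eq_mu_pow_mul {x : R} (hx : x ∈ Ideal.span {π}) :
    ∃ x' : R, algebraMap R (Broot n π) x = mu n π ^ n * algebraMap R (Broot n π) x' := by
  obtain ⟨x', rfl⟩ := Ideal.mem_span_singleton'.1 hx
  exact ⟨x', by rw [map_mul, mu_pow]; ring⟩

/-- **the rescaling lemma**: for `k < n`, every `x ∈ π R` is `μ ^ k * x'` with `x' ∈ 𝔪`. -/
theorem exists_div_mu_pow (hπ : π ∈ maximalIdeal R) {k : ℕ} (hk : k < n) {x : R}
    (hx : x ∈ Ideal.span {π}) :
    haveI := isLocalRing_broot n π hπ
    ∃ x' : Broot n π, x' ∈ maximalIdeal (Broot n π) ∧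
      algebraMap R (Broot n π) x = mu n π ^ k * x' := by
  haveI := isLocalRing_broot n π hπ
  obtain ⟨x₀, hx₀⟩ := exists_eq_mu_pow_mul n π hx
  obtain ⟨j, hj⟩ : ∃ j, n = k + (j + 1) := ⟨n - k - 1, by omega⟩
  refine ⟨mu n π ^ (j + 1) * algebraMap R (Broot n π) x₀, ?_, ?_⟩
  · refine Ideal.mul_mem_right _ _ ?_
    rw [pow_succ]
    exact Ideal.mul_mem_left _ _ (mu_mem_maximalIdeal n π hπ)
  · have h1 : mu n π ^ n = mu n π ^ k * mu n π ^ (j + 1) := by
      rw [← pow_add, ← hj]
    rw [hx₀, h1]
    ring

end Local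

section DVR

variable {R : Type*} [CommRing R] [IsDomain R] [IsDiscreteValuationRing R] (n : ℕ) [NeZero n]
  (π : R)

theorem mem_maximalIdeal_of_irreducible (hπ : Irreducible π) : π ∈ maximalIdeal R := by
  rw [hπ.maximalIdeal_eq]
  exact Ideal.mem_span_singleton_self π

/-- local-ring instance of `Broot n π` from `Irreducible π`. -/
theorem isLocalRing_of_irreducible (hπ : Irreducible π) : IsLocalRing (Broot n π) :=
  isLocalRing_broot n π (mem_maximalIdeal_of_irreducible π hπ)

/-- `X ^ n - π` is irreducible (Eisenstein). -/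
theorem rootPoly_irreducible (hπ : Irreducible π) : Irreducible (rootPoly n π) := by
  have hn : n ≠ 0 := NeZero.ne n
  have hprime : Prime π := hπ.prime
  have hP : (Ideal.span {π} : Ideal R).IsPrime :=
    (Ideal.span_singleton_prime hπ.ne_zero).2 hprime
  refine irreducible_of_eisenstein_criterion hP ?_ ?_ ?_ ?_ (rootPoly_monic n π hn).isPrimitive
  · rw [(rootPoly_monic n π hn).leadingCoeff]
    exact fun h => hP.ne_top ((Ideal.eq_top_iff_one _).2 h)
  · intro k hk
    rw [rootPoly_degree n π hn] at hk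
    have hk' : k < n := by exact_mod_cast hk
    rw [rootPoly, coeff_sub, coeff_X_pow, if_neg (ne_of_lt hk'), zero_sub, coeff_C]
    split_ifs
    · exact (Ideal.neg_mem_iff _).2 (Ideal.mem_span_singleton_self π)
    · rw [neg_zero]; exact Ideal.zero_mem _
  · rw [rootPoly_degree n π hn]
    exact_mod_cast Nat.pos_of_ne_zero hn
  · have h0 : (rootPoly n π).coeff 0 = -π := by
      rw [rootPoly, coeff_sub, coeff_X_pow, if_neg (Ne.symm hn), zero_sub, coeff_C_zero]
    rw [h0, Ideal.span_singleton_pow, Ideal.mem_span_singleton, dvd_neg]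
    intro hdvd
    obtain ⟨x, hx⟩ := hdvd
    have h1 : π * 1 = π * (π * x) := by rw [mul_one]; linear_combination hx
    have h2 : 1 = π * x := mul_left_cancel₀ hπ.ne_zero h1
    exact hπ.not_isUnit (IsUnit.of_mul_eq_one x h2.symm)

/-- `Broot n π` is a domain. -/
theorem isDomain_broot (hπ : Irreducible π) : IsDomain (Broot n π) :=
  AdjoinRoot.isDomain_of_prime
    ((UniqueFactorizationMonoid.irreducible_iff_prime).1 (rootPoly_irreducible n π hπ))

/-- the maximal ideal is `(μ)`. -/
theorem maximalIdeal_of_irreducible (hπ : Irreducible π) :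
    haveI := isLocalRing_of_irreducible n π hπ
    maximalIdeal (Broot n π) = Ideal.span {mu n π} :=
  maximalIdeal_broot n π hπ.maximalIdeal_eq

/-- complete when `R` is. -/
theorem isAdicComplete_of_irreducible (hπ : Irreducible π) [IsAdicComplete (maximalIdeal R) R] :
    haveI := isLocalRing_of_irreducible n π hπ
    IsAdicComplete (maximalIdeal (Broot n π)) (Broot n π) :=
  isAdicComplete_broot n π (mem_maximalIdeal_of_irreducible π hπ)

end DVR

end Fermat.Agent.GB.Local.RootUnif
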