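/-
GATE-B / B1 LOC, (R3) in spelling-independent form (helper51).

* `ringKrullDim_le_of_forall_isPrime_exists_le` : if every prime of `R` contains one of the ideals
  `I i` and `dim R ⧸ I i ≤ d` for all `i`, then `dim R ≤ d`.
* `ringKrullDim_quotient_le_zero_of_forall` : in a local ring, if the only prime containing `I` is
  the maximal ideal, then `dim R ⧸ I ≤ 0`.
* `ringKrullDim_le_four_of_relations` : the Artinian certificate of helper54 (board 5100 (b3)):
  a noetherian local ring `A` whose maximal ideal is generated by `lam, a₀, a₁, a₂, n₀, n₁, n₂`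
  with `a ∥ n` (the three minors vanish) and `Q(n) = n₀² + n₁ n₂ = c²`, `c ∈ (lam)`, has
  dimension `≤ 4`: modulo `(lam, a₀, a₁ + n₂, a₂ + n₁)` one gets `n₀³ = n₁³ = n₂³ = 0`.
* `ringKrullDim_le_four_of_family` : the same for a local noetherian ring which embeds into a
  finite product of rings in each of which the relations hold (= `Rloc`).

Mathlib + `GB/Local/ProdDom` only.
-/
import Mathlib
import Fermat.Agent.GB.Local.ProdDom

set_option autoImplicit false

open IsLocalRing

namespace Fermat.Agent.GB.Local.DimCert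

section Generic

variable {R : Type*} [CommRing R]

/-- if every prime contains one of the `I i`, the dimension of `R` is the sup of the dimensions of
the `R ⧸ I i`. -/
theorem ringKrullDim_le_of_forall_isPrime_exists_le {ι : Type*} (I : ι → Ideal R)
    (d : WithBot ℕ∞) (hcov : ∀ p : Ideal R, p.IsPrime → ∃ i, I i ≤ p)
    (hd : ∀ i, ringKrullDim (R ⧸ I i) ≤ d) : ringKrullDim R ≤ d := by
  rw [ringKrullDim, Order.krullDim]
  refine iSup_le fun l => ?_
  obtain ⟨i, hi⟩ := hcov l.head.asIdeal l.head.2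
  have hmem : ∀ j, l j ∈ PrimeSpectrum.zeroLocus (R := R) (I i) := by
    intro j
    rw [PrimeSpectrum.mem_zeroLocus]
    have h1 : l.head ≤ l j := LTSeries.head_le l j
    exact fun x hx => h1 (hi hx)
  let l' : LTSeries (PrimeSpectrum.zeroLocus (R := R) (I i)) :=
    { length := l.length
      toFun := fun j => ⟨l j, hmem j⟩
      step := fun j => l.step j }
  have h2 := Order.LTSeries.length_le_krullDim l'
  rw [← ringKrullDim_quotient] at h2
  exact h2.trans (hd i)

/-- in a local ring, if the maximal ideal is the only prime containing `I` then `R ⧸ I` has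
dimension `≤ 0`. -/
theorem ringKrullDim_quotient_le_zero_of_forall [IsLocalRing R] (I : Ideal R)
    (h : ∀ p : Ideal R, p.IsPrime → I ≤ p → maximalIdeal R ≤ p) :
    ringKrullDim (R ⧸ I) ≤ 0 := by
  rw [ringKrullDim_quotient]
  have : Subsingleton (PrimeSpectrum.zeroLocus (R := R) I) := by
    refine ⟨fun x y => ?_⟩
    have hx : x.1.asIdeal = maximalIdeal R :=
      le_antisymm (le_maximalIdeal x.1.2.ne_top)
        (h _ x.1.2 (fun a ha => (PrimeSpectrum.mem_zeroLocus _ _).mp x.2 ha))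
    have hy : y.1.asIdeal = maximalIdeal R :=
      le_antisymm (le_maximalIdeal y.1.2.ne_top)
        (h _ y.1.2 (fun a ha => (PrimeSpectrum.mem_zeroLocus _ _).mp y.2 ha))
    exact Subtype.ext (PrimeSpectrum.ext (hx.trans hy.symm))
  exact Order.krullDim_nonpos_of_subsingleton

end Generic

section Surj

variable {R A : Type*} [CommRing R] [CommRing A] [IsLocalRing R] [IsLocalRing A]
  (f : R →+* A) (hf : Function.Surjective f)

include hf in
theorem map_mem_maximalIdeal_of_surjective {x : R} (hx : x ∈ maximalIdeal R) :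
    f x ∈ maximalIdeal A := by
  rw [mem_maximalIdeal, mem_nonunits_iff] at hx ⊢
  intro hu
  obtain ⟨y, hy⟩ := hf (↑hu.unit⁻¹ : A)
  have h1 : f (x * y) = 1 := by rw [map_mul, hy]; exact hu.mul_val_inv
  have h2 : 1 - x * y ∈ maximalIdeal R := by
    rw [mem_maximalIdeal, mem_nonunits_iff]
    intro hu'
    have h3 := hu'.map f
    rw [map_sub, map_one, h1, sub_self] at h3
    exact not_isUnit_zero h3
  have h4 : x * y ∈ maximalIdeal R :=
    Ideal.mul_mem_right _ _ (by rwa [mem_maximalIdeal, mem_nonunits_iff])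
  have h5 : (1 : R) ∈ maximalIdeal R := by
    have := Ideal.add_mem _ h2 h4
    rwa [sub_add_cancel] at this
  exact (Ideal.ne_top_iff_one _).mp (maximalIdeal.isMaximal R).ne_top h5

include hf in
theorem exists_mem_maximalIdeal_of_surjective {y : A} (hy : y ∈ maximalIdeal A) :
    ∃ x ∈ maximalIdeal R, f x = y := by
  obtain ⟨x, rfl⟩ := hf y
  refine ⟨x, ?_, rfl⟩
  rw [mem_maximalIdeal, mem_nonunits_iff] at hy ⊢
  exact fun hu => hy (hu.map f)

include hf in
/-- generators of the maximal ideal map to generators of the maximal ideal -/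
theorem maximalIdeal_le_span_image_of_surjective {S : Set R}
    (hS : maximalIdeal R ≤ Ideal.span S) : maximalIdeal A ≤ Ideal.span (f '' S) := by
  intro y hy
  obtain ⟨x, hx, rfl⟩ := exists_mem_maximalIdeal_of_surjective f hf hy
  rw [← Ideal.map_span]
  exact Ideal.mem_map_of_mem f (hS hx)

end Surj

section Cert

variable {A : Type*} [CommRing A] [IsLocalRing A] [IsNoetherianRing A]

/-- **the Artinian certificate** (helper54, board 5100 (b3)): `dim A ≤ 4` for a noetherian local
ring whose maximal ideal is generated by `lam, a, n` with `a ∥ n` and `Q(n) = c²`, `c ∈ (lam)`. -/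
theorem ringKrullDim_le_four_of_relations (lam a0 a1 a2 n0 n1 n2 c : A)
    (hm : maximalIdeal A ≤ Ideal.span {lam, a0, a1, a2, n0, n1, n2})
    (hlam : lam ∈ maximalIdeal A) (ha0 : a0 ∈ maximalIdeal A) (ha1 : a1 ∈ maximalIdeal A)
    (ha2 : a2 ∈ maximalIdeal A) (hn1 : n1 ∈ maximalIdeal A) (hn2 : n2 ∈ maximalIdeal A)
    (hc : c ∈ Ideal.span {lam})
    (h01 : a0 * n1 = a1 * n0) (h02 : a0 * n2 = a2 * n0) (h12 : a1 * n2 = a2 * n1)
    (hQ : n0 ^ 2 + n1 * n2 = c ^ 2) : ringKrullDim A ≤ 4 := by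
  classical
  let s : Finset A := {lam, a0, a1 + n2, a2 + n1}
  have hs : (s : Set A) ⊆ Ring.jacobson A := by
    rw [ringJacobson_eq_maximalIdeal]
    intro x hx
    simp only [s, Finset.coe_insert, Finset.coe_singleton, Set.mem_insert_iff,
      Set.mem_singleton_iff] at hx
    rcases hx with rfl | rfl | rfl | rfl
    · exact hlam
    · exact ha0
    · exact Ideal.add_mem _ ha1 hn2
    · exact Ideal.add_mem _ ha2 hn1
  have h1 := ringKrullDim_le_ringKrullDim_quotient_add_card s hs
  have h2 : ringKrullDim (A ⧸ Ideal.span (s : Set A)) ≤ 0 := by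
    refine ringKrullDim_quotient_le_zero_of_forall _ (fun p hp hle => ?_)
    have hin : ∀ x ∈ s, x ∈ p := fun x hx => hle (Ideal.subset_span hx)
    have plam : lam ∈ p := hin _ (by simp [s])
    have pa0 : a0 ∈ p := hin _ (by simp [s])
    have pb1 : a1 + n2 ∈ p := hin _ (by simp [s])
    have pb2 : a2 + n1 ∈ p := hin _ (by simp [s])
    have pc : c ∈ p := by
      obtain ⟨r, rfl⟩ := Ideal.mem_span_singleton'.mp hc
      exact Ideal.mul_mem_left _ _ plam
    -- `n0 * n2 ∈ p`
    have p02 : n0 * n2 ∈ p := by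
      have : n0 * n2 = (a1 + n2) * n0 - a0 * n1 := by rw [h01]; ring
      rw [this]
      exact Ideal.sub_mem _ (Ideal.mul_mem_right _ _ pb1) (Ideal.mul_mem_right _ _ pa0)
    have p01 : n0 * n1 ∈ p := by
      have : n0 * n1 = (a2 + n1) * n0 - a0 * n2 := by rw [h02]; ring
      rw [this]
      exact Ideal.sub_mem _ (Ideal.mul_mem_right _ _ pb2) (Ideal.mul_mem_right _ _ pa0)
    have psq : n1 ^ 2 - n2 ^ 2 ∈ p := by
      have : n1 ^ 2 - n2 ^ 2 = (a2 + n1) * n1 - (a1 + n2) * n2 + (a1 * n2 - a2 * n1) := by ring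
      rw [this, h12, sub_self, add_zero]
      exact Ideal.sub_mem _ (Ideal.mul_mem_right _ _ pb2) (Ideal.mul_mem_right _ _ pb1)
    have pQ : n0 ^ 2 + n1 * n2 ∈ p := by rw [hQ]; exact Ideal.pow_mem_of_mem _ pc 2 (by norm_num)
    have pn0 : n0 ∈ p := by
      have h3 : n0 ^ 3 ∈ p := by
        have : n0 ^ 3 = n0 * (n0 ^ 2 + n1 * n2) - n0 * n1 * n2 := by ring
        rw [this]
        exact Ideal.sub_mem _ (Ideal.mul_mem_left _ _ pQ) (Ideal.mul_mem_right _ _ p01)
      exact hp.mem_of_pow_mem 3 h3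
    have p12 : n1 * n2 ∈ p := by
      have : n1 * n2 = (n0 ^ 2 + n1 * n2) - n0 * n0 := by ring
      rw [this]
      exact Ideal.sub_mem _ pQ (Ideal.mul_mem_left _ _ pn0)
    have pn12 : n1 ∈ p ∧ n2 ∈ p := by
      rcases hp.mem_or_mem p12 with h | h
      · refine ⟨h, hp.mem_of_pow_mem 2 ?_⟩
        have : n2 ^ 2 = n1 * n1 - (n1 ^ 2 - n2 ^ 2) := by ring
        rw [this]
        exact Ideal.sub_mem _ (Ideal.mul_mem_left _ _ h) psq
      · refine ⟨hp.mem_of_pow_mem 2 ?_, h⟩
        have : n1 ^ 2 = n2 * n2 + (n1 ^ 2 - n2 ^ 2) := by ring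
        rw [this]
        exact Ideal.add_mem _ (Ideal.mul_mem_left _ _ h) psq
    have pa1 : a1 ∈ p := by
      have : a1 = (a1 + n2) - n2 := by ring
      rw [this]; exact Ideal.sub_mem _ pb1 pn12.2
    have pa2 : a2 ∈ p := by
      have : a2 = (a2 + n1) - n1 := by ring
      rw [this]; exact Ideal.sub_mem _ pb2 pn12.1
    refine hm.trans (Ideal.span_le.mpr ?_)
    intro x hx
    simp only [Set.mem_insert_iff, Set.mem_singleton_iff] at hx
    rcases hx with rfl | rfl | rfl | rfl | rfl | rfl | rfl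
    exacts [plam, pa0, pa1, pa2, pn0, pn12.1, pn12.2]
  have h3 : s.card ≤ 4 := Finset.card_le_four
  calc ringKrullDim A ≤ ringKrullDim (A ⧸ Ideal.span (s : Set A)) + s.card := h1
    _ ≤ 0 + (4 : ℕ) := add_le_add h2 (by exact_mod_cast h3)
    _ = 4 := by simp

end Cert

section Family

variable {R : Type*} [CommRing R] [IsLocalRing R] [IsNoetherianRing R]

/-- the certificate for one quotient `R ⧸ ker φ`, the relations holding after `φ`. -/
theorem ringKrullDim_quotient_ker_le_four {D : Type*} [CommRing D] (φ : R →+* D)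
    (lam a0 a1 a2 n0 n1 n2 c : R)
    (hm : maximalIdeal R ≤ Ideal.span {lam, a0, a1, a2, n0, n1, n2})
    (hlam : lam ∈ maximalIdeal R) (ha0 : a0 ∈ maximalIdeal R) (ha1 : a1 ∈ maximalIdeal R)
    (ha2 : a2 ∈ maximalIdeal R) (hn1 : n1 ∈ maximalIdeal R) (hn2 : n2 ∈ maximalIdeal R)
    (hc : c ∈ Ideal.span {lam})
    (h01 : φ (a0 * n1) = φ (a1 * n0)) (h02 : φ (a0 * n2) = φ (a2 * n0))
    (h12 : φ (a1 * n2) = φ (a2 * n1)) (hQ : φ (n0 ^ 2 + n1 * n2) = φ (c ^ 2)) :
    ringKrullDim (R ⧸ RingHom.ker φ) ≤ 4 := by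
  by_cases htop : RingHom.ker φ = ⊤
  · have : Subsingleton (R ⧸ RingHom.ker φ) := Ideal.Quotient.subsingleton_iff.mpr htop
    rw [ringKrullDim_eq_bot_of_subsingleton]; exact bot_le
  have : Nontrivial (R ⧸ RingHom.ker φ) := Ideal.Quotient.nontrivial_iff.mpr htop
  have : IsLocalRing (R ⧸ RingHom.ker φ) :=
    IsLocalRing.of_surjective' (Ideal.Quotient.mk _) Ideal.Quotient.mk_surjective
  set mk := Ideal.Quotient.mk (RingHom.ker φ) with hmk
  have hsurj : Function.Surjective mk := Ideal.Quotient.mk_surjective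
  have hmem : ∀ {x : R}, x ∈ maximalIdeal R → mk x ∈ maximalIdeal (R ⧸ RingHom.ker φ) :=
    fun hx => map_mem_maximalIdeal_of_surjective mk hsurj hx
  have heq : ∀ {x y : R}, φ x = φ y → mk x = mk y := by
    intro x y h
    rw [hmk, Ideal.Quotient.eq, RingHom.mem_ker, map_sub, h, sub_self]
  refine ringKrullDim_le_four_of_relations (mk lam) (mk a0) (mk a1) (mk a2) (mk n0) (mk n1)
    (mk n2) (mk c) ?_ (hmem hlam) (hmem ha0) (hmem ha1) (hmem ha2) (hmem hn1) (hmem hn2) ?_
    ?_ ?_ ?_ ?_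
  · have := maximalIdeal_le_span_image_of_surjective mk hsurj hm
    simpa only [Set.image_insert_eq, Set.image_singleton] using this
  · obtain ⟨r, rfl⟩ := Ideal.mem_span_singleton'.mp hc
    rw [map_mul]
    exact Ideal.mem_span_singleton'.mpr ⟨mk r, rfl⟩
  · rw [← map_mul, ← map_mul]; exact heq h01
  · rw [← map_mul, ← map_mul]; exact heq h02
  · rw [← map_mul, ← map_mul]; exact heq h12
  · rw [← map_pow, ← map_mul, ← map_add, ← map_pow]; exact heq hQ

/-- **(R3), spelling-independent**: a noetherian local ring `R` with maximal ideal generated by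
`lam, a, n`, embedded in a finite product `∏ D i` such that in each `D i` one has `a ∥ n` and
`Q(n) = (c i)²` with `c i ∈ (lam)`, has dimension `≤ 4`. -/
theorem ringKrullDim_le_four_of_family {ι : Type*} [Finite ι] {D : ι → Type*}
    [∀ i, CommRing (D i)] (φ : ∀ i, R →+* D i) (hker : ⨅ i, RingHom.ker (φ i) = ⊥)
    (lam a0 a1 a2 n0 n1 n2 : R) (c : ι → R)
    (hm : maximalIdeal R ≤ Ideal.span {lam, a0, a1, a2, n0, n1, n2})
    (hlam : lam ∈ maximalIdeal R) (ha0 : a0 ∈ maximalIdeal R) (ha1 : a1 ∈ maximalIdeal R)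
    (ha2 : a2 ∈ maximalIdeal R) (hn1 : n1 ∈ maximalIdeal R) (hn2 : n2 ∈ maximalIdeal R)
    (hc : ∀ i, c i ∈ Ideal.span {lam})
    (h01 : ∀ i, φ i (a0 * n1) = φ i (a1 * n0)) (h02 : ∀ i, φ i (a0 * n2) = φ i (a2 * n0))
    (h12 : ∀ i, φ i (a1 * n2) = φ i (a2 * n1))
    (hQ : ∀ i, φ i (n0 ^ 2 + n1 * n2) = φ i (c i ^ 2)) : ringKrullDim R ≤ 4 :=
  ringKrullDim_le_of_forall_isPrime_exists_le (fun i => RingHom.ker (φ i)) 4
    (fun p _ => ProdDom.exists_ker_le_of_isPrime φ hker p)
    (fun i => ringKrullDim_quotient_ker_le_four (φ i) lam a0 a1 a2 n0 n1 n2 (c i) hm hlam ha0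
      ha1 ha2 hn1 hn2 (hc i) (h01 i) (h02 i) (h12 i) (hQ i))

end Family

end Fermat.Agent.GB.Local.DimCert
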