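/-
GATE-B (Ribet S38/S43), CASE B, node B1 LOC (helper59): **the concrete constant set `𝒞`** of
helper54's `Rloc 𝒞`.

`𝒞 = consts h ζ (p ^ a) = { h (ζ ^ k − ζ ^ (p ^ a − k)) : 0 < k < p ^ a }`, with `h = 1/2` and `ζ` a
primitive `p ^ a`-th root of unity in a discrete valuation ring `O` with `p ∈ 𝔪`.

* `zeta_sub_one_mem`     : `ζ ^ (p ^ a) = 1`, `p ∈ 𝔪` ⟹ `ζ − 1 ∈ 𝔪` (any local ring);
* `const_mem`            : `h (ζ ^ k − ζ ^ m) ∈ 𝔪`;
* `const_ne_zero`        : `0 < k < p ^ a`, `p` odd ⟹ `h (ζ ^ k − ζ ^ (p ^ a − k)) ≠ 0`;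
* `consts_unit_mul_pow`  : every `c ∈ 𝒞` is `unit * lam ^ e`, `e ≠ 0`     (`TTest` binder `h𝒞`);
* `consts_dvd`           : `lam ∣ c` for every `c ∈ 𝒞`                   (`Cert` binder `h𝒞`);
* `consts_map`           : for every `O`-algebra `O'`, the image of `𝒞` contains the constants of
  `O'`                                                               (`PointKill` binder `h𝒞`);
* `not_dvd_four`, `dvd_natCast_sub_one` : the side conditions `¬ lam ∣ 4`, `lam ∣ q − 1`.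

Mathlib only.
-/
import Mathlib

set_option autoImplicit false

namespace Fermat.Agent.GB.Local.Consts

open IsLocalRing

section Local

variable {O : Type*} [CommRing O] [IsLocalRing O]

/-- a `p`-power root of unity is `≡ 1` modulo the maximal ideal when `p ∈ 𝔪`. -/
theorem zeta_sub_one_mem {p : ℕ} (hp : p.Prime) (hpO : (p : O) ∈ maximalIdeal O) {ζ : O} {a : ℕ}
    (hζ : ζ ^ (p ^ a) = 1) : ζ - 1 ∈ maximalIdeal O := by
  have h1 := add_pow_prime_pow_eq hp (ζ - 1) (1 : O) a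
  rw [sub_add_cancel, hζ, one_pow] at h1
  have h2 : (ζ - 1) ^ (p ^ a) = -((p : O) * (ζ - 1) * 1 *
      ∑ k ∈ Finset.Ioo 0 (p ^ a), (ζ - 1) ^ (k - 1) * (1 : O) ^ (p ^ a - k - 1) *
        (((p ^ a).choose k / p : ℕ) : O)) := by
    linear_combination -h1
  have h3 : (ζ - 1) ^ (p ^ a) ∈ maximalIdeal O := by
    rw [h2, neg_mem_iff, mul_assoc, mul_assoc]
    exact Ideal.mul_mem_right _ _ hpO
  exact (maximalIdeal.isMaximal O).isPrime.mem_of_pow_mem _ h3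

/-- powers of such a root are `≡ 1`. -/
theorem zeta_pow_sub_one_mem {ζ : O} (hζ : ζ - 1 ∈ maximalIdeal O) (k : ℕ) :
    ζ ^ k - 1 ∈ maximalIdeal O := by
  obtain ⟨x, hx⟩ := sub_dvd_pow_sub_pow ζ 1 k
  rw [one_pow] at hx
  rw [hx]
  exact Ideal.mul_mem_right _ _ hζ

/-- the constants lie in the maximal ideal. -/
theorem const_mem {ζ : O} (hζ : ζ - 1 ∈ maximalIdeal O) (h : O) (k m : ℕ) :
    h * (ζ ^ k - ζ ^ m) ∈ maximalIdeal O := by
  have e : ζ ^ k - ζ ^ m = (ζ ^ k - 1) - (ζ ^ m - 1) := by ring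
  rw [e]
  exact Ideal.mul_mem_left _ _
    (sub_mem (zeta_pow_sub_one_mem hζ k) (zeta_pow_sub_one_mem hζ m))

/-- `2` is a unit when an odd prime lies in `𝔪`. -/
theorem isUnit_two {p : ℕ} (hp : p.Prime) (hp2 : p ≠ 2) (hpO : (p : O) ∈ maximalIdeal O) :
    IsUnit (2 : O) := by
  by_contra h2
  have h2m : (2 : O) ∈ maximalIdeal O := (mem_maximalIdeal _).2 (mem_nonunits_iff.2 h2)
  have hcop : Nat.Coprime p 2 := (Nat.coprime_primes hp Nat.prime_two).2 hp2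
  have hb := Nat.gcd_eq_gcd_ab p 2
  rw [hcop.gcd_eq_one] at hb
  have h1 : (1 : O) = (p : O) * ((Nat.gcdA p 2 : ℤ) : O) + 2 * ((Nat.gcdB p 2 : ℤ) : O) := by
    have := congrArg (Int.cast : ℤ → O) hb
    push_cast at this
    exact this
  have : (1 : O) ∈ maximalIdeal O := by
    rw [h1]
    exact add_mem (Ideal.mul_mem_right _ _ hpO) (Ideal.mul_mem_right _ _ h2m)
  exact (maximalIdeal.isMaximal O).ne_top ((Ideal.eq_top_iff_one _).2 this)

/-- `λ ∤ 4`. -/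
theorem not_dvd_four {p : ℕ} (hp : p.Prime) (hp2 : p ≠ 2) (hpO : (p : O) ∈ maximalIdeal O)
    {lam : O} (hlam : lam ∈ maximalIdeal O) : ¬ lam ∣ 4 := by
  intro hd
  have h4 : IsUnit (4 : O) := by
    have : (4 : O) = 2 * 2 := by norm_num
    rw [this]
    exact (isUnit_two hp hp2 hpO).mul (isUnit_two hp hp2 hpO)
  exact (mem_nonunits_iff.1 ((mem_maximalIdeal _).1 hlam)) (isUnit_of_dvd_unit hd h4)

/-- `q ≡ 1 (p)`, `p ∈ 𝔪` ⟹ `q − 1 ∈ 𝔪`. -/
theorem natCast_sub_one_mem {p q : ℕ} (hpO : (p : O) ∈ maximalIdeal O) (hq : 1 ≤ q)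
    (hpq : p ∣ q - 1) : (q : O) - 1 ∈ maximalIdeal O := by
  obtain ⟨m, hm⟩ := hpq
  have : (q : O) - 1 = (p : O) * (m : O) := by
    have h1 : q = p * m + 1 := by omega
    rw [h1]
    push_cast
    ring
  rw [this]
  exact Ideal.mul_mem_right _ _ hpO

end Local

section Domain

variable {O : Type*} [CommRing O] [IsDomain O]

/-- the constants are nonzero: `ζ ^ k ≠ ζ ^ (−k)` for `0 < k < p ^ a`, `p` odd. -/
theorem zeta_pow_ne {p : ℕ} (hp : p.Prime) (hp2 : p ≠ 2) {a : ℕ} {ζ : O}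
    (hζ : IsPrimitiveRoot ζ (p ^ a)) {k : ℕ} (hk0 : 0 < k) (hk : k < p ^ a) :
    ζ ^ k ≠ ζ ^ (p ^ a - k) := by
  intro he
  have hmul : ζ ^ k * ζ ^ (p ^ a - k) = 1 := by
    rw [← pow_add, Nat.add_sub_cancel' hk.le, hζ.pow_eq_one]
  have h2k : ζ ^ (2 * k) = 1 := by
    rw [two_mul, pow_add]
    nth_rewrite 2 [he]
    exact hmul
  have hdvd : p ^ a ∣ 2 * k := hζ.dvd_of_pow_eq_one _ h2k
  have hcop : Nat.Coprime (p ^ a) 2 := by
    apply Nat.Coprime.pow_left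
    rw [Nat.coprime_primes hp Nat.prime_two]
    exact hp2
  have hdk : p ^ a ∣ k := hcop.dvd_of_dvd_mul_left hdvd
  exact absurd (Nat.le_of_dvd hk0 hdk) (not_le.mpr hk)

theorem const_ne_zero {p : ℕ} (hp : p.Prime) (hp2 : p ≠ 2) {a : ℕ} {ζ : O}
    (hζ : IsPrimitiveRoot ζ (p ^ a)) {h : O} (hh : 2 * h = 1) {k : ℕ} (hk0 : 0 < k)
    (hk : k < p ^ a) : h * (ζ ^ k - ζ ^ (p ^ a - k)) ≠ 0 := by
  have hh0 : h ≠ 0 := by
    rintro rfl
    simp at hh
  exact mul_ne_zero hh0 (sub_ne_zero.mpr (zeta_pow_ne hp hp2 hζ hk0 hk))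

end Domain

section Set

variable {O : Type*} [CommRing O]

open Classical in
/-- **the constant set** `𝒞 = { h (ζ ^ k − ζ ^ (n − k)) : 0 < k < n }`. -/
noncomputable def consts (h ζ : O) (n : ℕ) : Finset O :=
  (Finset.Ioo 0 n).image fun k => h * (ζ ^ k - ζ ^ (n - k))

theorem mem_consts {h ζ : O} {n : ℕ} {c : O} :
    c ∈ consts h ζ n ↔ ∃ k, 0 < k ∧ k < n ∧ h * (ζ ^ k - ζ ^ (n - k)) = c := by
  classical
  simp only [consts, Finset.mem_image, Finset.mem_Ioo, and_assoc]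

theorem const_mem_consts (h ζ : O) {n k : ℕ} (hk0 : 0 < k) (hk : k < n) :
    h * (ζ ^ k - ζ ^ (n - k)) ∈ consts h ζ n :=
  mem_consts.2 ⟨k, hk0, hk, rfl⟩

/-- **`PointKill` binder `h𝒞`**: for an `O`-algebra `O'`, with `h' = algebraMap h`,
`ζ' = algebraMap ζ`. -/
theorem consts_map {O' : Type*} [CommRing O'] [Algebra O O'] (h ζ : O) (n : ℕ) :
    ∀ k, 0 < k → k < n → ∃ c ∈ consts h ζ n, algebraMap O O' c ^ 2 =
      (algebraMap O O' h * (algebraMap O O' ζ ^ k - algebraMap O O' ζ ^ (n - k))) ^ 2 := by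
  intro k hk0 hk
  refine ⟨_, const_mem_consts h ζ hk0 hk, ?_⟩
  rw [map_mul, map_sub, map_pow, map_pow]

end Set

section DVR

variable {O : Type*} [CommRing O] [IsDomain O] [IsDiscreteValuationRing O]

/-- **`TTest` binder `h𝒞`**: every constant is `unit * lam ^ e` with `e ≠ 0`. -/
theorem consts_unit_mul_pow {p : ℕ} (hp : p.Prime) (hp2 : p ≠ 2)
    (hpO : (p : O) ∈ maximalIdeal O) {a : ℕ} {ζ : O} (hζ : IsPrimitiveRoot ζ (p ^ a)) {h : O}
    (hh : 2 * h = 1) {lam : O} (hlam : Irreducible lam) :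
    ∀ c ∈ consts h ζ (p ^ a), ∃ (u : Oˣ) (e : ℕ), e ≠ 0 ∧ c = u * lam ^ e := by
  intro c hc
  obtain ⟨k, hk0, hk, rfl⟩ := mem_consts.1 hc
  have hne := const_ne_zero hp hp2 hζ hh hk0 hk
  have hmem := const_mem (zeta_sub_one_mem hp hpO hζ.pow_eq_one) h k (p ^ a - k)
  obtain ⟨e, u, hu⟩ := IsDiscreteValuationRing.eq_unit_mul_pow_irreducible hne hlam
  refine ⟨u, e, ?_, hu⟩
  rintro rfl
  rw [pow_zero, mul_one] at hu
  rw [hu] at hmem
  exact (mem_nonunits_iff.1 ((mem_maximalIdeal _).1 hmem)) u.isUnit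

/-- **`Cert` binder `h𝒞`**: `lam` divides every constant. -/
theorem consts_dvd {p : ℕ} (hp : p.Prime) (hpO : (p : O) ∈ maximalIdeal O) {a : ℕ} {ζ : O}
    (hζ : ζ ^ (p ^ a) = 1) (h : O) {lam : O} (hlam : Irreducible lam) :
    ∀ c ∈ consts h ζ (p ^ a), lam ∣ c := by
  intro c hc
  obtain ⟨k, -, -, rfl⟩ := mem_consts.1 hc
  have hmem := const_mem (zeta_sub_one_mem hp hpO hζ) h k (p ^ a - k)
  rw [hlam.maximalIdeal_eq] at hmem
  exact Ideal.mem_span_singleton.1 hmem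

/-- `lam ∣ q − 1`. -/
theorem dvd_natCast_sub_one {p q : ℕ} (hpO : (p : O) ∈ maximalIdeal O) (hq : 1 ≤ q)
    (hpq : p ∣ q - 1) {lam : O} (hlam : Irreducible lam) : lam ∣ (q : O) - 1 := by
  have hmem := natCast_sub_one_mem hpO hq hpq
  rw [hlam.maximalIdeal_eq] at hmem
  exact Ideal.mem_span_singleton.1 hmem

/-- `¬ lam ∣ 4`, DVR form. -/
theorem not_dvd_four_of_irreducible {p : ℕ} (hp : p.Prime) (hp2 : p ≠ 2)
    (hpO : (p : O) ∈ maximalIdeal O) {lam : O} (hlam : Irreducible lam) : ¬ lam ∣ 4 :=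
  not_dvd_four hp hp2 hpO (by
    rw [hlam.maximalIdeal_eq]
    exact Ideal.mem_span_singleton_self lam)

end DVR

end Fermat.Agent.GB.Local.Consts
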