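/-
GATE-B / B1 LOC: helper51's `TameC.cSet` and helper59's `Consts.consts` are the SAME finite set
(definitionally), so that the two families of lemmas (`TameC.*`/`Kill2.*` and
`Consts.*`/`PointKill.*`) can be mixed freely for `Rloc O 𝒞`.
-/
import Fermat.Agent.GB.Local.TameC
import Fermat.Agent.GB.Local.Consts

set_option autoImplicit false

namespace Fermat.Agent.GB.Local.ConstsBridge

theorem cSet_eq_consts {O : Type*} [CommRing O] (h ζ : O) (N : ℕ) :
    TameC.cSet h ζ N = Consts.consts h ζ N := rfl

end Fermat.Agent.GB.Local.ConstsBridge
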