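/-
GATE-B / B1 LOC (helper54): the filtration `G` on the patching ring
`Rinf g = O⟦a,n⟧⟦x₁,…,x_g⟧` for helper9's `PatchSupp.isEmpty_of_patch_fin_quot` — the twice
iterated coefficientwise filtration of helper9's `PS.lean`, with finite quotients and cofinal in
the `𝔪`-adic filtration (so that `hcont` is `PatchSupp.hcont_of_cofinal`).
-/
import Mathlib
import Fermat.Agent.GB.Local.RlocMain
import Fermat.Agent.GB.PatchSupp.PSCofinal
import Fermat.Agent.GB.PatchSupp.Inst

set_option autoImplicit false
set_option linter.unusedSectionVars false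

open IsLocalRing MvPowerSeries

namespace Fermat.Agent.GB.Local.RlocFilt

open Fermat.Agent.GB.Local.Rloc Fermat.Agent.GB.Local.RlocMain Fermat.Agent.GB.PatchSupp

variable (O : Type*) [CommRing O] [IsLocalRing O] [IsNoetherianRing O]
  [IsAdicComplete (maximalIdeal O) O]

/-- the coefficientwise filtration of `P6 O` -/
noncomputable def G6 : Filt (P6 O) := (Filt.ofAdic (maximalIdeal O)).mvPowerSeries (Fin 6)

/-- the filtration of the patching ring `Rinf g` -/
noncomputable def Ginf (g : ℕ) : Filt (Rinf O g) := (G6 O).mvPowerSeries (Fin g)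

instance finite_quotient_ofAdic [Finite (ResidueField O)] (n : ℕ) :
    Finite (O ⧸ (Filt.ofAdic (maximalIdeal O)).c n) :=
  Filt.finite_quotient_maximalIdeal_pow n

instance finite_quotient_G6 [Finite (ResidueField O)] (n : ℕ) :
    Finite (P6 O ⧸ (G6 O).c n) :=
  Filt.finite_quotient_mvPowerSeries (Filt.ofAdic (maximalIdeal O)) (Fin 6) n

instance finite_quotient_Ginf [Finite (ResidueField O)] (g n : ℕ) :
    Finite (Rinf O g ⧸ (Ginf O g).c n) :=
  Filt.finite_quotient_mvPowerSeries (G6 O) (Fin g) n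

theorem G6_cofinal (N : ℕ) : ∃ k, (G6 O).c k ≤ maximalIdeal (P6 O) ^ N :=
  exists_mvPowerSeries_c_le (Filt.ofAdic (maximalIdeal O)) (fun N => ⟨N, le_rfl⟩) N

/-- `Ginf` is finer than the `𝔪`-adic filtration of the local ring `Rinf g`; feed this to
`PatchSupp.hcont_of_cofinal`. -/
theorem Ginf_cofinal (g N : ℕ) : ∃ k, (Ginf O g).c k ≤ maximalIdeal (Rinf O g) ^ N :=
  exists_mvPowerSeries_c_le (G6 O) (G6_cofinal O) N

end Fermat.Agent.GB.Local.RlocFilt
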