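/-
GATE-B / B1-LOC leaf GB-LOCAL-TAMEDIAG (helper91).  Mathlib only.

**Local structure at a Taylor–Wiles prime, matrix form.**

`R` a commutative local ring, `Φ, T ∈ M₂(R)`:

* `T ≡ 1 mod 𝔪` (the image of an inertia element: the residual representation is unramified),
* `Φ * T = T ^ q * Φ` (the tame relation `φ τ φ⁻¹ = τ ^ q`), `q ≡ 1 mod 𝔪` (`q ≡ 1 mod p`),
* the characteristic polynomial of `Φ` is `(X - a)(X - b)` with `a - b` a unit
  (distinct Frobenius eigenvalues mod `𝔪`; by Hensel such `a, b` exist in a henselian local ring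
  as soon as the residual eigenvalues are distinct: `exists_roots_of_henselian`).

Then there is `P ∈ GL₂(R)` with `P⁻¹ Φ P = diag(a, b)` (`exists_diagonalise`) and in that basis
`T` is diagonal (`offDiag_eq_zero`); basis-free: `T` commutes with `Φ` (`commute_of_tame`).
No completeness, no noetherianity, no finiteness of the residue field is needed.
-/
import Mathlib

set_option autoImplicit false

namespace Fermat.Agent.GB.Local.TameDiag

open Matrix IsLocalRing

section Core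

variable {R : Type*} [CommRing R]

/-- Entries of the powers of a matrix `T ≡ 1 mod 𝔪`: the diagonal entries stay `≡ 1`, and the
off-diagonal entries of `T ^ n` are the off-diagonal entries of `T` times a factor `≡ n`. -/
theorem pow_entries (𝔪 : Ideal R) (T : Matrix (Fin 2) (Fin 2) R)
    (h00 : T 0 0 - 1 ∈ 𝔪) (h11 : T 1 1 - 1 ∈ 𝔪) (h01 : T 0 1 ∈ 𝔪) (h10 : T 1 0 ∈ 𝔪) (n : ℕ) :
    (T ^ n) 0 0 - 1 ∈ 𝔪 ∧ (T ^ n) 1 1 - 1 ∈ 𝔪 ∧
      (∃ c : R, (T ^ n) 0 1 = T 0 1 * c ∧ c - n ∈ 𝔪) ∧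
      (∃ d : R, (T ^ n) 1 0 = T 1 0 * d ∧ d - n ∈ 𝔪) := by
  induction n with
  | zero =>
    refine ⟨by simp, by simp, ⟨0, by simp, by simp⟩, ⟨0, by simp, by simp⟩⟩
  | succ n ih =>
    obtain ⟨i00, i11, ⟨c, hc, hcn⟩, ⟨d, hd, hdn⟩⟩ := ih
    have e00 : (T ^ (n + 1)) 0 0 = (T ^ n) 0 0 * T 0 0 + (T ^ n) 0 1 * T 1 0 := by
      rw [pow_succ, Matrix.mul_apply, Fin.sum_univ_two]
    have e01 : (T ^ (n + 1)) 0 1 = (T ^ n) 0 0 * T 0 1 + (T ^ n) 0 1 * T 1 1 := by
      rw [pow_succ, Matrix.mul_apply, Fin.sum_univ_two]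
    have e10 : (T ^ (n + 1)) 1 0 = (T ^ n) 1 0 * T 0 0 + (T ^ n) 1 1 * T 1 0 := by
      rw [pow_succ, Matrix.mul_apply, Fin.sum_univ_two]
    have e11 : (T ^ (n + 1)) 1 1 = (T ^ n) 1 0 * T 0 1 + (T ^ n) 1 1 * T 1 1 := by
      rw [pow_succ, Matrix.mul_apply, Fin.sum_univ_two]
    refine ⟨?_, ?_, ⟨(T ^ n) 0 0 + c * T 1 1, ?_, ?_⟩, ⟨d * T 0 0 + (T ^ n) 1 1, ?_, ?_⟩⟩
    · have : (T ^ (n + 1)) 0 0 - 1 =
          ((T ^ n) 0 0 - 1) * T 0 0 + (T 0 0 - 1) + (T ^ n) 0 1 * T 1 0 := by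
        rw [e00]; ring
      rw [this]
      exact 𝔪.add_mem (𝔪.add_mem (𝔪.mul_mem_right _ i00) h00) (𝔪.mul_mem_left _ h10)
    · have : (T ^ (n + 1)) 1 1 - 1 =
          (T ^ n) 1 0 * T 0 1 + (((T ^ n) 1 1 - 1) * T 1 1 + (T 1 1 - 1)) := by
        rw [e11]; ring
      rw [this]
      exact 𝔪.add_mem (𝔪.mul_mem_left _ h01) (𝔪.add_mem (𝔪.mul_mem_right _ i11) h11)
    · rw [e01, hc]; ring
    · have : (T ^ n) 0 0 + c * T 1 1 - ((n + 1 : ℕ) : R) =
          ((T ^ n) 0 0 - 1) + ((c - n) * T 1 1 + n * (T 1 1 - 1)) := by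
        push_cast; ring
      rw [this]
      exact 𝔪.add_mem i00 (𝔪.add_mem (𝔪.mul_mem_right _ hcn) (𝔪.mul_mem_left _ h11))
    · rw [e10, hd]; ring
    · have : d * T 0 0 + (T ^ n) 1 1 - ((n + 1 : ℕ) : R) =
          ((d - n) * T 0 0 + n * (T 0 0 - 1)) + ((T ^ n) 1 1 - 1) := by
        push_cast; ring
      rw [this]
      exact 𝔪.add_mem (𝔪.add_mem (𝔪.mul_mem_right _ hdn) (𝔪.mul_mem_left _ h00)) i11

variable [IsLocalRing R]

/-- **Matrix core.**  `T ≡ 1 mod 𝔪`, `diag(a,b) * T = T ^ q * diag(a,b)`, `a - b` a unit,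
`q ≡ 1 mod 𝔪`: then `T` is diagonal. -/
theorem offDiag_eq_zero (T : Matrix (Fin 2) (Fin 2) R)
    (h00 : T 0 0 - 1 ∈ maximalIdeal R) (h11 : T 1 1 - 1 ∈ maximalIdeal R)
    (h01 : T 0 1 ∈ maximalIdeal R) (h10 : T 1 0 ∈ maximalIdeal R)
    (a b : R) (hab : IsUnit (a - b)) (q : ℕ) (hq : (q : R) - 1 ∈ maximalIdeal R)
    (h : Matrix.diagonal ![a, b] * T = T ^ q * Matrix.diagonal ![a, b]) :
    T 0 1 = 0 ∧ T 1 0 = 0 := by
  obtain ⟨-, -, ⟨c, hc, hcq⟩, ⟨d, hd, hdq⟩⟩ := pow_entries (maximalIdeal R) T h00 h11 h01 h10 q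
  have hc1 : c - 1 ∈ maximalIdeal R := by
    have : c - 1 = (c - q) + ((q : R) - 1) := by ring
    rw [this]; exact Ideal.add_mem _ hcq hq
  have hd1 : d - 1 ∈ maximalIdeal R := by
    have : d - 1 = (d - q) + ((q : R) - 1) := by ring
    rw [this]; exact Ideal.add_mem _ hdq hq
  have k01 := congrFun (congrFun h 0) 1
  have k10 := congrFun (congrFun h 1) 0
  rw [Matrix.diagonal_mul, Matrix.mul_diagonal] at k01 k10
  simp only [Matrix.cons_val_zero, Matrix.cons_val_one] at k01 k10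
  constructor
  · -- `a * T 0 1 = (T ^ q) 0 1 * b = T 0 1 * c * b`
    have hu : IsUnit (a - c * b) := by
      have hmem : (a - b) - (a - c * b) ∈ maximalIdeal R := by
        have : (a - b) - (a - c * b) = (c - 1) * b := by ring
        rw [this]; exact Ideal.mul_mem_right _ _ hc1
      by_contra hnu
      have h2 : a - c * b ∈ maximalIdeal R := (mem_maximalIdeal _).2 hnu
      have h3 : a - b ∈ maximalIdeal R := by
        have : a - b = ((a - b) - (a - c * b)) + (a - c * b) := by ring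
        rw [this]; exact Ideal.add_mem _ hmem h2
      exact (mem_maximalIdeal _).1 h3 hab
    have hz : T 0 1 * (a - c * b) = 0 := by
      rw [hc] at k01
      linear_combination k01
    exact (hu.mul_left_eq_zero).1 hz
  · have hu : IsUnit (b - d * a) := by
      have hmem : (a - b) + (b - d * a) ∈ maximalIdeal R := by
        have : (a - b) + (b - d * a) = -((d - 1) * a) := by ring
        rw [this]; exact Ideal.neg_mem_iff _ |>.2 (Ideal.mul_mem_right _ _ hd1)
      by_contra hnu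
      have h2 : b - d * a ∈ maximalIdeal R := (mem_maximalIdeal _).2 hnu
      have h3 : a - b ∈ maximalIdeal R := by
        have : a - b = ((a - b) + (b - d * a)) - (b - d * a) := by ring
        rw [this]; exact Ideal.sub_mem _ hmem h2
      exact (mem_maximalIdeal _).1 h3 hab
    have hz : T 1 0 * (b - d * a) = 0 := by
      rw [hd] at k10
      linear_combination k10
    exact (hu.mul_left_eq_zero).1 hz

end Core

section Hensel

variable {R : Type*} [CommRing R]

/-- **Hensel**: if `X² - t X + d` has residually the two roots `a₀, b₀` with `a₀ - b₀` a unit, it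
has roots `a ≡ a₀`, `b ≡ b₀` with `a + b = t`, `a * b = d` (and `a - b` is a unit). -/
theorem exists_roots_of_henselian [HenselianLocalRing R] (t d a₀ b₀ : R)
    (ht : t - (a₀ + b₀) ∈ maximalIdeal R) (hd : d - a₀ * b₀ ∈ maximalIdeal R)
    (hab : IsUnit (a₀ - b₀)) :
    ∃ a b : R, a - a₀ ∈ maximalIdeal R ∧ b - b₀ ∈ maximalIdeal R ∧ a + b = t ∧ a * b = d ∧
      IsUnit (a - b) := by
  have hnu : ∀ x y : R, IsUnit x → y - x ∈ maximalIdeal R → IsUnit y := by
    intro x y hx hyx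
    by_contra hy
    have h2 : y ∈ maximalIdeal R := (mem_maximalIdeal _).2 hy
    have h3 : x ∈ maximalIdeal R := by
      have : x = y - (y - x) := by ring
      rw [this]; exact Ideal.sub_mem _ h2 hyx
    exact (mem_maximalIdeal _).1 h3 hx
  set f : Polynomial R := Polynomial.X ^ 2 - Polynomial.C t * Polynomial.X + Polynomial.C d
    with hf
  have hmonic : f.Monic := by
    rw [hf, sub_add]
    refine Polynomial.monic_X_pow_sub ?_
    refine lt_of_le_of_lt (Polynomial.degree_sub_le _ _) (max_lt ?_ ?_)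
    · exact lt_of_le_of_lt (Polynomial.degree_C_mul_X_le t) (by norm_num)
    · exact lt_of_le_of_lt Polynomial.degree_C_le (by norm_num)
  have heval : ∀ x : R, f.eval x = x ^ 2 - t * x + d := by
    intro x; simp [hf]
  have hder : ∀ x : R, f.derivative.eval x = 2 * x - t := by
    intro x
    simp [hf]
    ring
  obtain ⟨a, ha, haa⟩ := HenselianLocalRing.is_henselian f hmonic a₀ (by
      rw [heval]
      have : a₀ ^ 2 - t * a₀ + d = -((t - (a₀ + b₀)) * a₀) + (d - a₀ * b₀) := by ring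
      rw [this]
      exact Ideal.add_mem _ (Ideal.neg_mem_iff _ |>.2 (Ideal.mul_mem_right _ _ ht)) hd) (by
      rw [hder]
      refine hnu (a₀ - b₀) _ hab ?_
      have : 2 * a₀ - t - (a₀ - b₀) = -(t - (a₀ + b₀)) := by ring
      rw [this]; exact Ideal.neg_mem_iff _ |>.2 ht)
  rw [Polynomial.IsRoot.def, heval] at ha
  have hb : (t - a) - b₀ ∈ maximalIdeal R := by
    have : (t - a) - b₀ = (t - (a₀ + b₀)) - (a - a₀) := by ring
    rw [this]; exact Ideal.sub_mem _ ht haa
  refine ⟨a, t - a, haa, hb, by ring, by linear_combination -ha, ?_⟩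
  refine hnu (a₀ - b₀) _ hab ?_
  have : a - (t - a) - (a₀ - b₀) = (a - a₀) - ((t - a) - b₀) := by ring
  rw [this]; exact Ideal.sub_mem _ haa hb

end Hensel

section Diag

variable {R : Type*} [CommRing R] [IsLocalRing R]

/-- **Diagonalisation.**  A `2 × 2` matrix over a local ring whose characteristic polynomial is
`(X - a)(X - b)` with `a - b` a unit is conjugate to `diag(a, b)`. -/
theorem exists_diagonalise (Φ : Matrix (Fin 2) (Fin 2) R) (a b : R) (hab : IsUnit (a - b))
    (htr : Φ.trace = a + b) (hdet : Φ.det = a * b) :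
    ∃ P : Matrix (Fin 2) (Fin 2) R, IsUnit P.det ∧ Φ * P = P * Matrix.diagonal ![a, b] := by
  obtain ⟨u, hu⟩ := hab
  rw [Matrix.trace_fin_two] at htr
  rw [Matrix.det_fin_two] at hdet
  -- the entries of the idempotent `e = (Φ - b) / (a - b)`
  set s : R := ↑u⁻¹ * (Φ 0 0 - b) with hs
  have hs' : (1 - s) = ↑u⁻¹ * (Φ 1 1 - b) := by
    have h1 : (↑u⁻¹ : R) * (a - b) = 1 := by rw [← hu]; exact u.inv_mul
    rw [hs]
    linear_combination (-1 : R) * h1 - (↑u⁻¹ : R) * htr
  have hinv : (↑u⁻¹ : R) * (a - b) = 1 := by rw [← hu]; exact u.inv_mul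
  rcases IsLocalRing.isUnit_or_isUnit_of_add_one (a := s) (b := 1 - s) (by ring) with hsu | hsu
  · -- first column of `Φ - b`, second column of `Φ - a`
    refine ⟨!![Φ 0 0 - b, Φ 0 1; Φ 1 0, Φ 1 1 - a], ?_, ?_⟩
    · rw [Matrix.det_fin_two_of]
      have : (Φ 0 0 - b) * (Φ 1 1 - a) - Φ 0 1 * Φ 1 0 = -((a - b) * (Φ 0 0 - b)) := by
        linear_combination hdet - b * htr
      rw [this, IsUnit.neg_iff]
      refine IsUnit.mul (hu ▸ u.isUnit) ?_
      have : Φ 0 0 - b = (a - b) * s := by rw [hs, ← mul_assoc, mul_comm (a - b), hinv, one_mul]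
      rw [this]
      exact IsUnit.mul (hu ▸ u.isUnit) hsu
    · ext i j
      fin_cases i <;> fin_cases j
      · simp [Matrix.mul_apply, Fin.sum_univ_two]
        linear_combination (-1 : R) * hdet + (Φ 0 0) * htr
      · simp [Matrix.mul_apply, Fin.sum_univ_two]
        linear_combination (Φ 0 1) * htr
      · simp [Matrix.mul_apply, Fin.sum_univ_two]
        linear_combination (Φ 1 0) * htr
      · simp [Matrix.mul_apply, Fin.sum_univ_two]
        linear_combination (-1 : R) * hdet + (Φ 1 1) * htr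
  · -- second column of `Φ - b`, first column of `Φ - a`
    refine ⟨!![Φ 0 1, Φ 0 0 - a; Φ 1 1 - b, Φ 1 0], ?_, ?_⟩
    · rw [Matrix.det_fin_two_of]
      have : Φ 0 1 * Φ 1 0 - (Φ 0 0 - a) * (Φ 1 1 - b) = (a - b) * (Φ 1 1 - b) := by
        linear_combination (-1 : R) * hdet + b * htr
      rw [this]
      refine IsUnit.mul (hu ▸ u.isUnit) ?_
      have : Φ 1 1 - b = (a - b) * (1 - s) := by
        rw [hs', ← mul_assoc, mul_comm (a - b), hinv, one_mul]
      rw [this]
      exact IsUnit.mul (hu ▸ u.isUnit) hsu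
    · ext i j
      fin_cases i <;> fin_cases j
      · simp [Matrix.mul_apply, Fin.sum_univ_two]
        linear_combination (Φ 0 1) * htr
      · simp [Matrix.mul_apply, Fin.sum_univ_two]
        linear_combination (-1 : R) * hdet + (Φ 0 0) * htr
      · simp [Matrix.mul_apply, Fin.sum_univ_two]
        linear_combination (-1 : R) * hdet + (Φ 1 1) * htr
      · simp [Matrix.mul_apply, Fin.sum_univ_two]
        linear_combination (Φ 1 0) * htr

end Diag

section EndForm

variable {R : Type*} [CommRing R] [IsLocalRing R]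
variable {V : Type*} [AddCommGroup V] [Module R V]

omit [IsLocalRing R] in
/-- Coordinates of an element of `I • ⊤` lie in `I`. -/
theorem repr_mem_of_mem_smul_top {ι : Type*} (B : Module.Basis ι R V) (I : Ideal R) {x : V}
    (hx : x ∈ I • (⊤ : Submodule R V)) (i : ι) : B.repr x i ∈ I := by
  refine Submodule.smul_induction_on (p := fun x => B.repr x i ∈ I) hx ?_ ?_
  · intro r hr n _
    rw [map_smul, Finsupp.smul_apply, smul_eq_mul]
    exact I.mul_mem_right _ hr
  · intro x y hx hy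
    rw [map_add, Finsupp.add_apply]
    exact I.add_mem hx hy

/-- **Eigenbasis.**  An endomorphism of a free module of rank `2` over a local ring with
characteristic polynomial `(X - a)(X - b)`, `a - b` a unit, has an eigenbasis. -/
theorem exists_eigenbasis [Module.Free R V] [Module.Finite R V] (hV : Module.finrank R V = 2)
    (f : Module.End R V) (a b : R) (hab : IsUnit (a - b))
    (htr : LinearMap.trace R V f = a + b) (hdet : LinearMap.det f = a * b) :
    ∃ B : Module.Basis (Fin 2) R V, f (B 0) = a • B 0 ∧ f (B 1) = b • B 1 := by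
  classical
  have B₀ : Module.Basis (Fin 2) R V := Module.finBasisOfFinrankEq R V hV
  set Φ := LinearMap.toMatrix B₀ B₀ f with hΦ
  have htr' : Φ.trace = a + b := by rw [hΦ, ← LinearMap.trace_eq_matrix_trace R B₀ f, htr]
  have hdet' : Φ.det = a * b := by rw [hΦ, LinearMap.det_toMatrix B₀ f, hdet]
  obtain ⟨P, hP, hΦP⟩ := exists_diagonalise Φ a b hab htr' hdet'
  have hPu : IsUnit P := (Matrix.isUnit_iff_isUnit_det P).2 hP
  -- the new basis: columns of `P`
  let g : V ≃ₗ[R] V := LinearEquiv.ofIsUnitDet (f := Matrix.toLin B₀ B₀ P)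
    (v := B₀) (v' := B₀) (by rw [LinearMap.toMatrix_toLin]; exact hP)
  have hg : ∀ v, g v = Matrix.toLin B₀ B₀ P v := fun v => rfl
  refine ⟨B₀.map g, ?_, ?_⟩
  · rw [Module.Basis.map_apply, hg]
    have h1 : f (Matrix.toLin B₀ B₀ P (B₀ 0)) =
        Matrix.toLin B₀ B₀ (Φ * P) (B₀ 0) := by
      rw [Matrix.toLin_mul B₀ B₀ B₀, hΦ, Matrix.toLin_toMatrix]; rfl
    rw [h1, hΦP, Matrix.toLin_mul B₀ B₀ B₀, LinearMap.comp_apply, Matrix.toLin_self,
      Fin.sum_univ_two]
    simp
  · rw [Module.Basis.map_apply, hg]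
    have h1 : f (Matrix.toLin B₀ B₀ P (B₀ 1)) =
        Matrix.toLin B₀ B₀ (Φ * P) (B₀ 1) := by
      rw [Matrix.toLin_mul B₀ B₀ B₀, hΦ, Matrix.toLin_toMatrix]; rfl
    rw [h1, hΦP, Matrix.toLin_mul B₀ B₀ B₀, LinearMap.comp_apply, Matrix.toLin_self,
      Fin.sum_univ_two]
    simp

/-- **Inertia is diagonal in a Frobenius eigenbasis.**  `f (B 0) = a • B 0`, `f (B 1) = b • B 1`,
`a - b` a unit; `s ≡ 1 mod 𝔪`, `f * s = s ^ q * f`, `q ≡ 1 mod 𝔪`.  Then `B 0` and `B 1` are
eigenvectors of `s`, with eigenvalues `≡ 1 mod 𝔪`. -/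
theorem tame_diagonal (B : Module.Basis (Fin 2) R V) (f s : Module.End R V) (a b : R)
    (hf0 : f (B 0) = a • B 0) (hf1 : f (B 1) = b • B 1) (hab : IsUnit (a - b))
    (hs : ∀ v, s v - v ∈ maximalIdeal R • (⊤ : Submodule R V))
    (q : ℕ) (hq : (q : R) - 1 ∈ maximalIdeal R) (h : f * s = s ^ q * f) :
    ∃ x y : R, s (B 0) = x • B 0 ∧ s (B 1) = y • B 1 ∧
      x - 1 ∈ maximalIdeal R ∧ y - 1 ∈ maximalIdeal R := by
  classical
  set T := LinearMap.toMatrix B B s with hT
  have hΦ : LinearMap.toMatrix B B f = Matrix.diagonal ![a, b] := by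
    ext i j
    rw [LinearMap.toMatrix_apply]
    fin_cases j
    · simp only [Fin.zero_eta, hf0, map_smul, Module.Basis.repr_self, Finsupp.smul_apply,
        smul_eq_mul]
      fin_cases i <;> simp
    · simp only [Fin.mk_one, hf1, map_smul, Module.Basis.repr_self, Finsupp.smul_apply,
        smul_eq_mul]
      fin_cases i <;> simp
  have hentry : ∀ i j, T i j - (if i = j then 1 else 0) ∈ maximalIdeal R := by
    intro i j
    have := repr_mem_of_mem_smul_top B (maximalIdeal R) (hs (B j)) i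
    rw [map_sub, Finsupp.sub_apply, Module.Basis.repr_self, Finsupp.single_apply] at this
    rw [hT, LinearMap.toMatrix_apply]
    convert this using 3
    exact eq_comm
  have h00 : T 0 0 - 1 ∈ maximalIdeal R := by simpa using hentry 0 0
  have h11 : T 1 1 - 1 ∈ maximalIdeal R := by simpa using hentry 1 1
  have h01 : T 0 1 ∈ maximalIdeal R := by simpa using hentry 0 1
  have h10 : T 1 0 ∈ maximalIdeal R := by simpa using hentry 1 0
  have hmat : Matrix.diagonal ![a, b] * T = T ^ q * Matrix.diagonal ![a, b] := by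
    rw [← hΦ, hT, ← LinearMap.toMatrix_mul, h, LinearMap.toMatrix_mul, LinearMap.toMatrix_pow]
  obtain ⟨z01, z10⟩ := offDiag_eq_zero T h00 h11 h01 h10 a b hab q hq hmat
  refine ⟨T 0 0, T 1 1, ?_, ?_, h00, h11⟩
  · have := B.sum_repr (s (B 0))
    rw [Fin.sum_univ_two] at this
    have e1 : B.repr (s (B 0)) 1 = T 1 0 := by rw [hT, LinearMap.toMatrix_apply]
    have e0 : B.repr (s (B 0)) 0 = T 0 0 := by rw [hT, LinearMap.toMatrix_apply]
    rw [e1, e0, z10, zero_smul, add_zero] at this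
    exact this.symm
  · have := B.sum_repr (s (B 1))
    rw [Fin.sum_univ_two] at this
    have e1 : B.repr (s (B 1)) 1 = T 1 1 := by rw [hT, LinearMap.toMatrix_apply]
    have e0 : B.repr (s (B 1)) 0 = T 0 1 := by rw [hT, LinearMap.toMatrix_apply]
    rw [e1, e0, z01, zero_smul, zero_add] at this
    exact this.symm

end EndForm

section GroupForm

variable {R : Type*} [CommRing R]
variable {V : Type*} [AddCommGroup V] [Module R V]
variable {G : Type*} [Group G]

/-- The elements of `G` acting diagonally in the basis `B`. -/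
def diagSubgroup (ρ : G →* Module.End R V) (B : Module.Basis (Fin 2) R V) : Subgroup G where
  carrier := {g | ∃ x y : R, ρ g (B 0) = x • B 0 ∧ ρ g (B 1) = y • B 1}
  one_mem' := ⟨1, 1, by simp, by simp⟩
  mul_mem' := by
    rintro g h ⟨x, y, hx, hy⟩ ⟨x', y', hx', hy'⟩
    refine ⟨x' * x, y' * y, ?_, ?_⟩
    · rw [map_mul, Module.End.mul_apply, hx', map_smul, hx, smul_smul]
    · rw [map_mul, Module.End.mul_apply, hy', map_smul, hy, smul_smul]
  inv_mem' := by
    rintro g ⟨x, y, hx, hy⟩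
    have hinv : ∀ v, ρ g⁻¹ (ρ g v) = v := fun v => by
      rw [← Module.End.mul_apply, ← map_mul, inv_mul_cancel, map_one, Module.End.one_apply]
    have hinv' : ∀ v, ρ g (ρ g⁻¹ v) = v := fun v => by
      rw [← Module.End.mul_apply, ← map_mul, mul_inv_cancel, map_one, Module.End.one_apply]
    -- coordinates of `ρ g⁻¹ (B 0)`, `ρ g⁻¹ (B 1)`
    have e0 := B.sum_repr (ρ g⁻¹ (B 0))
    have e1 := B.sum_repr (ρ g⁻¹ (B 1))
    rw [Fin.sum_univ_two] at e0 e1
    set c00 := B.repr (ρ g⁻¹ (B 0)) 0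
    set c10 := B.repr (ρ g⁻¹ (B 0)) 1
    set c01 := B.repr (ρ g⁻¹ (B 1)) 0
    set c11 := B.repr (ρ g⁻¹ (B 1)) 1
    -- apply `ρ g`
    have k0 : (c00 * x) • B 0 + (c10 * y) • B 1 = B 0 := by
      have := congrArg (ρ g) e0
      rw [hinv', map_add, map_smul, map_smul, hx, hy, smul_smul, smul_smul] at this
      exact this
    have k1 : (c01 * x) • B 0 + (c11 * y) • B 1 = B 1 := by
      have := congrArg (ρ g) e1
      rw [hinv', map_add, map_smul, map_smul, hx, hy, smul_smul, smul_smul] at this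
      exact this
    have r0 := congrArg (fun v => B.repr v 1) k0
    have r1 := congrArg (fun v => B.repr v 0) k1
    have r0' := congrArg (fun v => B.repr v 0) k0
    have r1' := congrArg (fun v => B.repr v 1) k1
    simp only [map_add, map_smul, Module.Basis.repr_self, Finsupp.add_apply, Finsupp.smul_apply,
      Finsupp.single_apply, smul_eq_mul] at r0 r1 r0' r1'
    simp at r0 r1 r0' r1'
    -- `c10 * y = 0`, `c11 * y = 1` ⟹ `c10 = 0`;  `c01 * x = 0`, `c00 * x = 1` ⟹ `c01 = 0`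
    have z10 : c10 = 0 := by
      have : c10 = c10 * (c11 * y) := by rw [r1', mul_one]
      rw [this, mul_comm c11, ← mul_assoc, r0, zero_mul]
    have z01 : c01 = 0 := by
      have : c01 = c01 * (c00 * x) := by rw [r0', mul_one]
      rw [this, mul_comm c00, ← mul_assoc, r1, zero_mul]
    refine ⟨c00, c11, ?_, ?_⟩
    · rw [← e0, z10, zero_smul, add_zero]
    · rw [← e1, z01, zero_smul, zero_add]

theorem mem_diagSubgroup {ρ : G →* Module.End R V} {B : Module.Basis (Fin 2) R V} {g : G} :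
    g ∈ diagSubgroup ρ B ↔ ∃ x y : R, ρ g (B 0) = x • B 0 ∧ ρ g (B 1) = y • B 1 := Iff.rfl

/-- The two diagonal characters on `diagSubgroup ρ B`. -/
noncomputable def diagChar (ρ : G →* Module.End R V) (B : Module.Basis (Fin 2) R V) (i : Fin 2) :
    diagSubgroup ρ B →* Rˣ :=
  MonoidHom.toHomUnits
    { toFun := fun g => B.repr (ρ (g : G) (B i)) i
      map_one' := by simp
      map_mul' := by
        rintro ⟨g, x, y, hx, hy⟩ ⟨h, x', y', hx', hy'⟩
        fin_cases i
        · simp only [Fin.zero_eta, Subgroup.coe_mul, map_mul, Module.End.mul_apply, hx', map_smul,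
            hx, Module.Basis.repr_self, Finsupp.smul_apply, Finsupp.single_eq_same, smul_eq_mul,
            mul_one]
          ring
        · simp only [Fin.mk_one, Subgroup.coe_mul, map_mul, Module.End.mul_apply, hy', map_smul,
            hy, Module.Basis.repr_self, Finsupp.smul_apply, Finsupp.single_eq_same, smul_eq_mul,
            mul_one]
          ring }

theorem diagChar_spec (ρ : G →* Module.End R V) (B : Module.Basis (Fin 2) R V) (i : Fin 2)
    (g : diagSubgroup ρ B) : ρ (g : G) (B i) = (diagChar ρ B i g : R) • B i := by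
  obtain ⟨g, x, y, hx, hy⟩ := g
  rw [diagChar, MonoidHom.coe_toHomUnits]
  fin_cases i
  · simp [hx]
  · simp [hy]

variable [IsLocalRing R]

/-- **Local structure at a Taylor–Wiles prime, group form.**  `ρ : G →* End V`, `V` free of rank
`2` with basis `B` of eigenvectors of `ρ φ` for eigenvalues `a, b`, `a - b` a unit; `I ⊆ G` with
`ρ τ ≡ 1 mod 𝔪` and `ρ (φ τ φ⁻¹) = ρ τ ^ q` for `τ ∈ I`, `q ≡ 1 mod 𝔪`.  Then `I` and `φ` act
diagonally in `B`. -/
theorem closure_le_diagSubgroup (ρ : G →* Module.End R V) (B : Module.Basis (Fin 2) R V)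
    (φ : G) (a b : R) (hf0 : ρ φ (B 0) = a • B 0) (hf1 : ρ φ (B 1) = b • B 1)
    (hab : IsUnit (a - b)) (I : Set G)
    (hI : ∀ τ ∈ I, ∀ v, ρ τ v - v ∈ maximalIdeal R • (⊤ : Submodule R V))
    (q : ℕ) (hq : (q : R) - 1 ∈ maximalIdeal R)
    (htame : ∀ τ ∈ I, ρ (φ * τ * φ⁻¹) = ρ τ ^ q) :
    Subgroup.closure (insert φ I) ≤ diagSubgroup ρ B := by
  rw [Subgroup.closure_le]
  rintro g (rfl | hg)
  · exact ⟨a, b, hf0, hf1⟩
  · have h : ρ φ * ρ g = ρ g ^ q * ρ φ := by
      rw [← htame g hg, ← map_mul, ← map_mul, inv_mul_cancel_right]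
    obtain ⟨x, y, hx, hy, -, -⟩ := tame_diagonal B (ρ φ) (ρ g) a b hf0 hf1 hab (hI g hg) q hq h
    exact ⟨x, y, hx, hy⟩

/-- On inertia the diagonal characters are `≡ 1 mod 𝔪` and killed by `q - 1`. -/
theorem diagChar_inertia (ρ : G →* Module.End R V) (B : Module.Basis (Fin 2) R V)
    (φ : G) (a b : R) (hf0 : ρ φ (B 0) = a • B 0) (hf1 : ρ φ (B 1) = b • B 1)
    (τ : G) (hτ : ∀ v, ρ τ v - v ∈ maximalIdeal R • (⊤ : Submodule R V))
    (q : ℕ) (htame : ρ (φ * τ * φ⁻¹) = ρ τ ^ q) (hτd : τ ∈ diagSubgroup ρ B) (i : Fin 2) :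
    (diagChar ρ B i ⟨τ, hτd⟩ : R) - 1 ∈ maximalIdeal R ∧
      (diagChar ρ B i ⟨τ, hτd⟩ : R) ^ q = diagChar ρ B i ⟨τ, hτd⟩ := by
  have hφd : φ ∈ diagSubgroup ρ B := ⟨a, b, hf0, hf1⟩
  constructor
  · have h1 := repr_mem_of_mem_smul_top B (maximalIdeal R) (hτ (B i)) i
    rw [map_sub, Finsupp.sub_apply, Module.Basis.repr_self, Finsupp.single_eq_same] at h1
    rw [diagChar, MonoidHom.coe_toHomUnits]
    exact h1
  · -- `χ (φ τ φ⁻¹) = χ τ` (commutativity of `Rˣ`) and `= χ τ ^ q`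
    have hconj : (⟨φ * τ * φ⁻¹, Subgroup.mul_mem _ (Subgroup.mul_mem _ hφd hτd)
        (Subgroup.inv_mem _ hφd)⟩ : diagSubgroup ρ B) = ⟨φ, hφd⟩ * ⟨τ, hτd⟩ * ⟨φ, hφd⟩⁻¹ := rfl
    have h1 : diagChar ρ B i ⟨φ * τ * φ⁻¹, Subgroup.mul_mem _ (Subgroup.mul_mem _ hφd hτd)
        (Subgroup.inv_mem _ hφd)⟩ = diagChar ρ B i ⟨τ, hτd⟩ := by
      rw [hconj, map_mul, map_mul, map_inv, mul_comm, inv_mul_cancel_left]
    have h2 := diagChar_spec ρ B i ⟨φ * τ * φ⁻¹, Subgroup.mul_mem _ (Subgroup.mul_mem _ hφd hτd)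
        (Subgroup.inv_mem _ hφd)⟩
    rw [h1] at h2
    simp only at h2
    rw [htame] at h2
    have h3 : ∀ n : ℕ, (ρ τ ^ n) (B i) = ((diagChar ρ B i ⟨τ, hτd⟩ : R) ^ n) • B i := by
      intro n
      induction n with
      | zero => simp
      | succ n ih =>
        rw [pow_succ, Module.End.mul_apply, diagChar_spec ρ B i ⟨τ, hτd⟩, map_smul, ih, smul_smul,
          pow_succ, mul_comm]
    rw [h3] at h2
    have h4 := congrArg (fun v => B.repr v i) h2
    simpa using h4

end GroupForm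

end Fermat.Agent.GB.Local.TameDiag
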