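/-
GATE-B (Ribet S38/S43), CASE B, node B1-ABIG (helper6): the dictionary between pairs of `2 × 2`
matrices `(Φ, Σ)` (images of a Frobenius lift and of a tame generator at `q`) and points of the
power series ring `P6 = 𝒪⟦a0, a1, a2, n0, n1, n2⟧` in TRACELESS coordinates.

* generic layer (any commutative ring): `mkM r a = !![r + a 0, a 1; a 2, r - a 0]`, trace `2 r`,
  determinant `r² − Q a`, inverse to `TamePoint.tl`; uniqueness of square roots; Hensel existence
  of square roots in henselian local rings;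
* the universal pair `PhiU`, `SigU` over `P6`, the test element `tU`, the relation ideal `relIdeal`
  (`Φ Σ = Σ^q Φ`) and the ring `ABig = P6 ⧸ relIdeal`;
* evaluation: for a complete noetherian local `𝒪`-algebra `B` and `Φ, Σ ∈ M₂(B)` with `det Φ = q`,
  `det Σ = 1`, `Φ ≡ u`, `Σ ≡ 1` modulo `𝔪_B`, the `𝒪`-algebra hom `ev : P6 → B` given by the
  traceless coordinates maps `PhiU ↦ Φ`, `SigU ↦ Σ` (so all entries of `Φ`, `Σ` lie in its range),
  `tU ↦ (tr Φ)² − (1 + q)²`, and kills `relIdeal` when `Φ Σ = Σ^q Φ` (universal property of `ABig`).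
-/
import Mathlib
import Fermat.Agent.S53.PSEval
import Fermat.Agent.S53.PSComplete
import Fermat.Agent.GB.Local.TamePoint

set_option autoImplicit false
set_option linter.unusedSectionVars false

namespace Fermat.Agent.GB.Local.ABig

open Matrix IsLocalRing Fermat.Agent.GB.Local.TamePoint

/-! ### generic layer -/

section Generic

variable {D : Type*} [CommRing D]

/-- the matrix with half-trace `r` and traceless coordinates `a`. -/
def mkM (r : D) (a : Fin 3 → D) : Matrix (Fin 2) (Fin 2) D :=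
  !![r + a 0, a 1; a 2, r - a 0]

@[simp] theorem mkM_apply_zero_zero (r : D) (a : Fin 3 → D) : mkM r a 0 0 = r + a 0 := rfl
@[simp] theorem mkM_apply_zero_one (r : D) (a : Fin 3 → D) : mkM r a 0 1 = a 1 := rfl
@[simp] theorem mkM_apply_one_zero (r : D) (a : Fin 3 → D) : mkM r a 1 0 = a 2 := rfl
@[simp] theorem mkM_apply_one_one (r : D) (a : Fin 3 → D) : mkM r a 1 1 = r - a 0 := rfl

theorem trace_mkM (r : D) (a : Fin 3 → D) : (mkM r a).trace = 2 * r := by
  rw [Matrix.trace_fin_two, mkM_apply_zero_zero, mkM_apply_one_one]; ring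

theorem det_mkM (r : D) (a : Fin 3 → D) : (mkM r a).det = r ^ 2 - Q a := by
  rw [Matrix.det_fin_two, mkM_apply_zero_zero, mkM_apply_one_one, mkM_apply_zero_one,
    mkM_apply_one_zero, Q]; ring

theorem tl_mkM {h : D} (hh : 2 * h = 1) (r : D) (a : Fin 3 → D) : tl h (mkM r a) = a := by
  funext i
  fin_cases i
  · show h * (mkM r a 0 0 - mkM r a 1 1) = a 0
    rw [mkM_apply_zero_zero, mkM_apply_one_one]
    linear_combination (a 0) * hh
  · rfl
  · rfl

/-- every matrix is `mkM` of its half-trace and its traceless coordinates. -/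
theorem mkM_tl {h : D} (hh : 2 * h = 1) (M : Matrix (Fin 2) (Fin 2) D) :
    mkM (h * M.trace) (tl h M) = M := by
  ext i j
  fin_cases i <;> fin_cases j
  · show h * M.trace + h * (M 0 0 - M 1 1) = M 0 0
    rw [Matrix.trace_fin_two]; linear_combination (M 0 0) * hh
  · rfl
  · rfl
  · show h * M.trace - h * (M 0 0 - M 1 1) = M 1 1
    rw [Matrix.trace_fin_two]; linear_combination (M 1 1) * hh

theorem map_mkM {E : Type*} [CommRing E] (f : D →+* E) (r : D) (a : Fin 3 → D) :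
    (mkM r a).map f = mkM (f r) (fun i => f (a i)) := by
  ext i j
  fin_cases i <;> fin_cases j <;> simp [mkM]

theorem Q_map {E : Type*} [CommRing E] (f : D →+* E) (a : Fin 3 → D) :
    Q (fun i => f (a i)) = f (Q a) := by
  simp [Q]

/-- uniqueness of square roots: `x² = y²` and `x + y` a unit force `x = y`. -/
theorem eq_of_sq_eq_sq_of_isUnit_add {x y : D} (h : x ^ 2 = y ^ 2) (hu : IsUnit (x + y)) :
    x = y := by
  have h0 : (x + y) * (x - y) = 0 := by linear_combination h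
  have := hu.mul_right_eq_zero.mp h0
  exact sub_eq_zero.mp this

end Generic

/-! ### square roots in complete local rings -/

section Sqrt

open Polynomial

variable {P : Type*} [CommRing P] [IsLocalRing P]

/-- in a local ring, `x - y ∈ 𝔪`, `y` a unit and `2` a unit give `x + y` a unit. -/
theorem isUnit_add_of_sub_mem (h2 : IsUnit (2 : P)) {x y : P} (hy : IsUnit y)
    (hxy : x - y ∈ maximalIdeal P) : IsUnit (x + y) := by
  by_contra hn
  have h1 : x + y ∈ maximalIdeal P := hn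
  have h3 : (2 : P) * y ∈ maximalIdeal P := by
    have := sub_mem h1 hxy
    have e : x + y - (x - y) = 2 * y := by ring
    rwa [e] at this
  exact ((mem_maximalIdeal _).mp h3) (h2.mul hy)

/-- uniqueness of the square root congruent to a given unit. -/
theorem sqrt_unique (h2 : IsUnit (2 : P)) {x y u : P} (hu : IsUnit u) (h : x ^ 2 = y ^ 2)
    (hx : x - u ∈ maximalIdeal P) (hy : y - u ∈ maximalIdeal P) : x = y := by
  have hyu : IsUnit y := by
    by_contra hn
    have h1 : y ∈ maximalIdeal P := hn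
    have h3 : u ∈ maximalIdeal P := by
      have := sub_mem h1 hy
      rwa [sub_sub_cancel] at this
    exact ((mem_maximalIdeal _).mp h3) hu
  have hxy : x - y ∈ maximalIdeal P := by
    have := sub_mem hx hy
    have e : x - u - (y - u) = x - y := by ring
    rwa [e] at this
  exact eq_of_sq_eq_sq_of_isUnit_add h (isUnit_add_of_sub_mem h2 hyu hxy)

/-- Hensel: existence of the square root congruent to a given unit `u` of `c ≡ u²`. -/
theorem exists_sqrt [IsAdicComplete (maximalIdeal P) P] (h2 : IsUnit (2 : P)) {c u : P}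
    (hu : IsUnit u) (hc : c - u ^ 2 ∈ maximalIdeal P) :
    ∃ r : P, r ^ 2 = c ∧ r - u ∈ maximalIdeal P := by
  have hf : (X ^ 2 - C c : P[X]).Monic := monic_X_pow_sub_C c two_ne_zero
  have h1 : (X ^ 2 - C c : P[X]).eval u ∈ maximalIdeal P := by
    rw [eval_sub, eval_pow, eval_X, eval_C]
    have := neg_mem hc
    rwa [neg_sub] at this
  have h3 : IsUnit (Ideal.Quotient.mk (maximalIdeal P)
      ((X ^ 2 - C c : P[X]).derivative.eval u)) := by
    apply IsUnit.map
    rw [derivative_sub, derivative_C, sub_zero, derivative_X_pow, eval_mul, eval_pow, eval_X]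
    simp only [Nat.cast_ofNat, Nat.add_one_sub_one, pow_one]
    rw [eval_C]
    exact h2.mul hu
  obtain ⟨r, hr, hru⟩ := HenselianRing.is_henselian (I := maximalIdeal P) _ hf u h1 h3
  refine ⟨r, ?_, hru⟩
  rw [IsRoot.def, eval_sub, eval_pow, eval_X, eval_C] at hr
  exact sub_eq_zero.mp hr

end Sqrt

/-! ### the universal pair over `P6` -/

section Universal

open MvPowerSeries

/-- the numerical datum at `q`: the rational prime `q`, the scalar `u` of the residual Frobenius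
(`u² ≡ q`), and `2` invertible. -/
structure TameDatum (𝒪 : Type*) [CommRing 𝒪] [IsLocalRing 𝒪] where
  /-- the prime `q` -/
  q : ℕ
  /-- the residual Frobenius scalar -/
  u : 𝒪
  h2 : IsUnit (2 : 𝒪)
  hu : IsUnit u
  hq : (q : 𝒪) - u ^ 2 ∈ maximalIdeal 𝒪

variable {𝒪 : Type*} [CommRing 𝒪] [IsLocalRing 𝒪] [IsNoetherianRing 𝒪]
  [IsAdicComplete (maximalIdeal 𝒪) 𝒪]

/-- the power series ring of the six traceless coordinates. -/
abbrev P6 (𝒪 : Type*) [CommRing 𝒪] : Type _ := MvPowerSeries (Fin 6) 𝒪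

/-- `1/2 ∈ 𝒪`. -/
noncomputable def TameDatum.half (d : TameDatum 𝒪) : 𝒪 := ((d.h2.unit⁻¹ : 𝒪ˣ) : 𝒪)

theorem TameDatum.two_mul_half (d : TameDatum 𝒪) : 2 * d.half = 1 := by
  have := d.h2.unit.mul_inv
  rwa [IsUnit.unit_spec] at this

/-- the universal traceless coordinates of `Φ`. -/
noncomputable def aU (𝒪 : Type*) [CommRing 𝒪] : Fin 3 → P6 𝒪 := ![X 0, X 1, X 2]

/-- the universal traceless coordinates of `Σ`. -/
noncomputable def nU (𝒪 : Type*) [CommRing 𝒪] : Fin 3 → P6 𝒪 := ![X 3, X 4, X 5]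

instance : IsAdicComplete (maximalIdeal (P6 𝒪)) (P6 𝒪) :=
  Fermat.Agent.S53.isAdicComplete_mvPowerSeries 𝒪 (Fin 6)

theorem X_mem (i : Fin 6) : (X i : P6 𝒪) ∈ maximalIdeal (P6 𝒪) :=
  Fermat.Agent.S53.PSC.X_mem 𝒪 (Fin 6) i

theorem aU_mem (i : Fin 3) : aU 𝒪 i ∈ maximalIdeal (P6 𝒪) := by
  fin_cases i <;> exact X_mem _

theorem nU_mem (i : Fin 3) : nU 𝒪 i ∈ maximalIdeal (P6 𝒪) := by
  fin_cases i <;> exact X_mem _

theorem Q_mem {B : Type*} [CommRing B] [IsLocalRing B] {a : Fin 3 → B}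
    (ha : ∀ i, a i ∈ maximalIdeal B) : Q a ∈ maximalIdeal B := by
  rw [Q, pow_two]
  exact add_mem (Ideal.mul_mem_left _ _ (ha 0)) (Ideal.mul_mem_left _ _ (ha 2))

theorem isUnit_two_P6 (d : TameDatum 𝒪) : IsUnit (2 : P6 𝒪) := by
  have := d.h2.map (C : 𝒪 →+* P6 𝒪)
  rwa [map_ofNat] at this

theorem C_sub_mem {c : 𝒪} (hc : c ∈ maximalIdeal 𝒪) : (C c : P6 𝒪) ∈ maximalIdeal (P6 𝒪) := by
  rw [Fermat.Agent.S53.PSC.mem_maximalIdeal_iff, constantCoeff_C]; exact hc

theorem exists_rPhi (d : TameDatum 𝒪) :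
    ∃ r : P6 𝒪, r ^ 2 = (d.q : P6 𝒪) + Q (aU 𝒪) ∧ r - C d.u ∈ maximalIdeal (P6 𝒪) := by
  apply exists_sqrt (isUnit_two_P6 d) (d.hu.map (C : 𝒪 →+* P6 𝒪))
  have e : (d.q : P6 𝒪) + Q (aU 𝒪) - C d.u ^ 2 = C ((d.q : 𝒪) - d.u ^ 2) + Q (aU 𝒪) := by
    rw [map_sub, map_pow, map_natCast]; ring
  rw [e]
  exact add_mem (C_sub_mem d.hq) (Q_mem aU_mem)

theorem exists_rSig (d : TameDatum 𝒪) :
    ∃ r : P6 𝒪, r ^ 2 = 1 + Q (nU 𝒪) ∧ r - 1 ∈ maximalIdeal (P6 𝒪) := by
  apply exists_sqrt (isUnit_two_P6 d) isUnit_one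
  have e : (1 : P6 𝒪) + Q (nU 𝒪) - 1 ^ 2 = Q (nU 𝒪) := by ring
  rw [e]
  exact Q_mem nU_mem

/-- the universal half-trace of `Φ`: `rPhi² = q + Q a`, `rPhi ≡ u`. -/
noncomputable def rPhi (d : TameDatum 𝒪) : P6 𝒪 := Classical.choose (exists_rPhi d)

theorem rPhi_sq (d : TameDatum 𝒪) : rPhi d ^ 2 = (d.q : P6 𝒪) + Q (aU 𝒪) :=
  (Classical.choose_spec (exists_rPhi d)).1

theorem rPhi_sub_mem (d : TameDatum 𝒪) : rPhi d - C d.u ∈ maximalIdeal (P6 𝒪) :=
  (Classical.choose_spec (exists_rPhi d)).2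

/-- the universal half-trace of `Σ`: `rSig² = 1 + Q n`, `rSig ≡ 1`. -/
noncomputable def rSig (d : TameDatum 𝒪) : P6 𝒪 := Classical.choose (exists_rSig d)

theorem rSig_sq (d : TameDatum 𝒪) : rSig d ^ 2 = 1 + Q (nU 𝒪) :=
  (Classical.choose_spec (exists_rSig d)).1

theorem rSig_sub_mem (d : TameDatum 𝒪) : rSig d - 1 ∈ maximalIdeal (P6 𝒪) :=
  (Classical.choose_spec (exists_rSig d)).2

/-- the universal Frobenius matrix. -/
noncomputable def PhiU (d : TameDatum 𝒪) : Matrix (Fin 2) (Fin 2) (P6 𝒪) := mkM (rPhi d) (aU 𝒪)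

/-- the universal tame inertia matrix. -/
noncomputable def SigU (d : TameDatum 𝒪) : Matrix (Fin 2) (Fin 2) (P6 𝒪) := mkM (rSig d) (nU 𝒪)

theorem det_PhiU (d : TameDatum 𝒪) : (PhiU d).det = (d.q : P6 𝒪) := by
  rw [PhiU, det_mkM, rPhi_sq]; ring

theorem det_SigU (d : TameDatum 𝒪) : (SigU d).det = 1 := by
  rw [SigU, det_mkM, rSig_sq]; ring

theorem trace_PhiU (d : TameDatum 𝒪) : (PhiU d).trace = 2 * rPhi d := trace_mkM _ _

theorem trace_SigU (d : TameDatum 𝒪) : (SigU d).trace = 2 * rSig d := trace_mkM _ _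

/-- helper54's sign-free test element `t = 4 Q(a) − (q − 1)²`. -/
noncomputable def tU (d : TameDatum 𝒪) : P6 𝒪 := 4 * Q (aU 𝒪) - ((d.q : P6 𝒪) - 1) ^ 2

theorem tU_eq (d : TameDatum 𝒪) : tU d = (PhiU d).trace ^ 2 - (1 + (d.q : P6 𝒪)) ^ 2 := by
  rw [tU, trace_PhiU, mul_pow, rPhi_sq]; ring

/-- the matrix of relations `Φ Σ − Σ^q Φ`. -/
noncomputable def relMat (d : TameDatum 𝒪) : Matrix (Fin 2) (Fin 2) (P6 𝒪) :=
  PhiU d * SigU d - SigU d ^ d.q * PhiU d

/-- the ideal of the tame relation. -/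
noncomputable def relIdeal (d : TameDatum 𝒪) : Ideal (P6 𝒪) :=
  Ideal.span (Set.range fun ij : Fin 2 × Fin 2 => relMat d ij.1 ij.2)

/-- **the unrestricted fixed-determinant framed tame ring at `q`**. -/
abbrev ABigRing (d : TameDatum 𝒪) : Type _ := P6 𝒪 ⧸ relIdeal d

theorem relMat_apply_mem (d : TameDatum 𝒪) (i j : Fin 2) : relMat d i j ∈ relIdeal d :=
  Ideal.subset_span ⟨(i, j), rfl⟩

/-- the tame relation holds in `ABigRing`. -/
theorem map_mk_relation (d : TameDatum 𝒪) :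
    (PhiU d).map (Ideal.Quotient.mk (relIdeal d)) * (SigU d).map (Ideal.Quotient.mk (relIdeal d)) =
      (SigU d).map (Ideal.Quotient.mk (relIdeal d)) ^ d.q *
        (PhiU d).map (Ideal.Quotient.mk (relIdeal d)) := by
  have h : (relMat d).map (Ideal.Quotient.mk (relIdeal d)) = 0 := by
    ext i j
    rw [Matrix.map_apply, Matrix.zero_apply, Ideal.Quotient.eq_zero_iff_mem]
    exact relMat_apply_mem d i j
  have e : (relMat d).map (Ideal.Quotient.mk (relIdeal d)) =
      (Ideal.Quotient.mk (relIdeal d)).mapMatrix (relMat d) := rfl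
  rw [e, relMat, map_sub, map_mul, map_mul, map_pow, sub_eq_zero] at h
  exact h

end Universal

/-! ### evaluation at a pair of matrices -/

section Eval

open MvPowerSeries

variable {𝒪 : Type*} [CommRing 𝒪] [IsLocalRing 𝒪] [IsNoetherianRing 𝒪]
  [IsAdicComplete (maximalIdeal 𝒪) 𝒪]
  {B : Type*} [CommRing B] [IsLocalRing B] [Algebra 𝒪 B] [IsLocalHom (algebraMap 𝒪 B)]

/-- an `𝒪`-algebra hom out of a power series ring mapping the variables into `𝔪_B` maps the
maximal ideal into `𝔪_B`. -/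
theorem algHom_mem_maximalIdeal {ι : Type*} [Finite ι] (φ : MvPowerSeries ι 𝒪 →ₐ[𝒪] B)
    (hφ : ∀ s, φ (X s) ∈ maximalIdeal B) {f : MvPowerSeries ι 𝒪}
    (hf : f ∈ maximalIdeal (MvPowerSeries ι 𝒪)) : φ f ∈ maximalIdeal B := by
  classical
  have h1 := Fermat.Agent.S53.algHom_mem_pow_of_mem_psVars_pow φ hφ
    (Fermat.Agent.S53.sub_truncTotal_mem_psVars_pow 1 f)
  rw [pow_one, map_sub] at h1
  have hc : (truncTotal 1 f : MvPolynomial ι 𝒪) = MvPolynomial.C (constantCoeff f) := by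
    ext e
    rw [MvPowerSeries.coeff_truncTotal_eq_ite, MvPolynomial.coeff_C]
    by_cases he : e = 0
    · subst he; simp
    · have : ¬ e.degree < 1 := by
        rw [Nat.lt_one_iff, Finsupp.degree_eq_zero_iff]; exact he
      rw [if_neg this, if_neg (Ne.symm he)]
  have h2 : φ ((truncTotal 1 f : MvPolynomial ι 𝒪) : MvPowerSeries ι 𝒪) ∈ maximalIdeal B := by
    rw [hc, MvPolynomial.coe_C]
    have hCa : φ (C (constantCoeff f)) = algebraMap 𝒪 B (constantCoeff f) := by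
      have := φ.commutes (constantCoeff f)
      rwa [MvPowerSeries.algebraMap_apply, Algebra.algebraMap_self, RingHom.id_apply] at this
    rw [hCa]
    exact map_nonunit (algebraMap 𝒪 B) _
      ((Fermat.Agent.S53.PSC.mem_maximalIdeal_iff 𝒪 ι f).mp hf)
  have h3 : φ f = (φ f - φ ((truncTotal 1 f : MvPolynomial ι 𝒪) : MvPowerSeries ι 𝒪)) +
      φ ((truncTotal 1 f : MvPolynomial ι 𝒪) : MvPowerSeries ι 𝒪) := by ring
  rw [h3]
  exact add_mem h1 h2

theorem algHom_C (φ : P6 𝒪 →ₐ[𝒪] B) (c : 𝒪) : φ (C c) = algebraMap 𝒪 B c := by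
  have := φ.commutes c
  rwa [MvPowerSeries.algebraMap_apply, Algebra.algebraMap_self, RingHom.id_apply] at this

/-- the hypotheses on a pair of matrices `(Φ, Σ)` over `B`: determinants `q` and `1`, residually
`u` and `1`. -/
structure IsTamePair (d : TameDatum 𝒪) (Φ Sg : Matrix (Fin 2) (Fin 2) B) : Prop where
  detΦ : Φ.det = (d.q : B)
  detS : Sg.det = 1
  resΦ : ∀ i j, (Φ - algebraMap 𝒪 B d.u • (1 : Matrix (Fin 2) (Fin 2) B)) i j ∈ maximalIdeal B
  resS : ∀ i j, (Sg - 1) i j ∈ maximalIdeal B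

variable (d : TameDatum 𝒪) {Φ Sg : Matrix (Fin 2) (Fin 2) B}

/-- `1/2 ∈ B`. -/
noncomputable def halfB (B : Type*) [CommRing B] [Algebra 𝒪 B] : B := algebraMap 𝒪 B d.half

theorem two_mul_halfB : 2 * halfB d B = 1 := by
  have := congrArg (algebraMap 𝒪 B) d.two_mul_half
  rwa [map_mul, map_ofNat, map_one] at this

include d in
theorem isUnit_two_B : IsUnit (2 : B) := by
  have := d.h2.map (algebraMap 𝒪 B)
  rwa [map_ofNat] at this

theorem IsTamePair.tlΦ_mem (hp : IsTamePair d Φ Sg) (i : Fin 3) :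
    tl (halfB d B) Φ i ∈ maximalIdeal B := by
  have h00 := hp.resΦ 0 0
  have h11 := hp.resΦ 1 1
  have h01 := hp.resΦ 0 1
  have h10 := hp.resΦ 1 0
  simp only [Matrix.sub_apply, Matrix.smul_apply, Matrix.one_apply_eq, smul_eq_mul, mul_one,
    Matrix.one_apply_ne (show (0 : Fin 2) ≠ 1 by decide),
    Matrix.one_apply_ne (show (1 : Fin 2) ≠ 0 by decide), mul_zero, sub_zero] at h00 h11 h01 h10
  fin_cases i
  · show halfB d B * (Φ 0 0 - Φ 1 1) ∈ maximalIdeal B
    have e : Φ 0 0 - Φ 1 1 = (Φ 0 0 - algebraMap 𝒪 B d.u) - (Φ 1 1 - algebraMap 𝒪 B d.u) := by ring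
    rw [e]
    exact Ideal.mul_mem_left _ _ (sub_mem h00 h11)
  · exact h01
  · exact h10

theorem IsTamePair.tlS_mem (hp : IsTamePair d Φ Sg) (i : Fin 3) :
    tl (halfB d B) Sg i ∈ maximalIdeal B := by
  have h00 := hp.resS 0 0
  have h11 := hp.resS 1 1
  have h01 := hp.resS 0 1
  have h10 := hp.resS 1 0
  simp only [Matrix.sub_apply, Matrix.one_apply_eq,
    Matrix.one_apply_ne (show (0 : Fin 2) ≠ 1 by decide),
    Matrix.one_apply_ne (show (1 : Fin 2) ≠ 0 by decide), sub_zero] at h00 h11 h01 h10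
  fin_cases i
  · show halfB d B * (Sg 0 0 - Sg 1 1) ∈ maximalIdeal B
    have e : Sg 0 0 - Sg 1 1 = (Sg 0 0 - 1) - (Sg 1 1 - 1) := by ring
    rw [e]
    exact Ideal.mul_mem_left _ _ (sub_mem h00 h11)
  · exact h01
  · exact h10

theorem IsTamePair.halfTraceΦ_sub_mem (hp : IsTamePair d Φ Sg) :
    halfB d B * Φ.trace - algebraMap 𝒪 B d.u ∈ maximalIdeal B := by
  have h00 := hp.resΦ 0 0
  have h11 := hp.resΦ 1 1
  simp only [Matrix.sub_apply, Matrix.smul_apply, Matrix.one_apply_eq, smul_eq_mul, mul_one]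
    at h00 h11
  have e : halfB d B * Φ.trace - algebraMap 𝒪 B d.u =
      halfB d B * ((Φ 0 0 - algebraMap 𝒪 B d.u) + (Φ 1 1 - algebraMap 𝒪 B d.u)) := by
    rw [Matrix.trace_fin_two]
    linear_combination (algebraMap 𝒪 B d.u) * two_mul_halfB (B := B) d
  rw [e]
  exact Ideal.mul_mem_left _ _ (add_mem h00 h11)

theorem IsTamePair.halfTraceS_sub_mem (hp : IsTamePair d Φ Sg) :
    halfB d B * Sg.trace - 1 ∈ maximalIdeal B := by
  have h00 := hp.resS 0 0
  have h11 := hp.resS 1 1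
  simp only [Matrix.sub_apply, Matrix.one_apply_eq] at h00 h11
  have e : halfB d B * Sg.trace - 1 = halfB d B * ((Sg 0 0 - 1) + (Sg 1 1 - 1)) := by
    rw [Matrix.trace_fin_two]
    linear_combination two_mul_halfB (B := B) d
  rw [e]
  exact Ideal.mul_mem_left _ _ (add_mem h00 h11)

/-- the six coordinates of a pair. -/
noncomputable def coords (Φ Sg : Matrix (Fin 2) (Fin 2) B) : Fin 6 → B :=
  ![tl (halfB d B) Φ 0, tl (halfB d B) Φ 1, tl (halfB d B) Φ 2,
    tl (halfB d B) Sg 0, tl (halfB d B) Sg 1, tl (halfB d B) Sg 2]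

theorem IsTamePair.coords_mem (hp : IsTamePair d Φ Sg) (s : Fin 6) :
    coords d Φ Sg s ∈ maximalIdeal B := by
  fin_cases s
  · exact hp.tlΦ_mem d 0
  · exact hp.tlΦ_mem d 1
  · exact hp.tlΦ_mem d 2
  · exact hp.tlS_mem d 0
  · exact hp.tlS_mem d 1
  · exact hp.tlS_mem d 2

/-- **the dictionary**: an `𝒪`-algebra hom `ev : P6 → B` with the coordinates of `(Φ, Σ)` as values
on the variables maps the universal pair to `(Φ, Σ)`. -/
theorem map_PhiU_SigU_of_coords (hp : IsTamePair d Φ Sg) (ev : P6 𝒪 →ₐ[𝒪] B)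
    (hev : ∀ s, ev (X s) = coords d Φ Sg s) :
    (PhiU d).map ev = Φ ∧ (SigU d).map ev = Sg := by
  have hX : ∀ s, ev (X s) ∈ maximalIdeal B := fun s => by rw [hev]; exact hp.coords_mem d s
  have haU : (fun i => ev (aU 𝒪 i)) = tl (halfB d B) Φ := by
    funext i; fin_cases i
    · exact hev 0
    · exact hev 1
    · exact hev 2
  have hnU : (fun i => ev (nU 𝒪 i)) = tl (halfB d B) Sg := by
    funext i; fin_cases i
    · exact hev 3
    · exact hev 4
    · exact hev 5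
  have hh := two_mul_halfB (B := B) d
  -- the half-traces
  have hrΦ : ev (rPhi d) = halfB d B * Φ.trace := by
    apply sqrt_unique (isUnit_two_B (B := B) d) (d.hu.map (algebraMap 𝒪 B))
    · have hQ : ev (Q (aU 𝒪)) = Q (fun i => ev (aU 𝒪 i)) := by simp [Q]
      rw [← map_pow, rPhi_sq, map_add, map_natCast, hQ, haU, Q_tl hh, hp.detΦ]; ring
    · have := algHom_mem_maximalIdeal ev hX (rPhi_sub_mem d)
      rwa [map_sub, algHom_C] at this
    · exact hp.halfTraceΦ_sub_mem d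
  have hrS : ev (rSig d) = halfB d B * Sg.trace := by
    apply sqrt_unique (isUnit_two_B (B := B) d) (isUnit_one)
    · have hQ : ev (Q (nU 𝒪)) = Q (fun i => ev (nU 𝒪 i)) := by simp [Q]
      rw [← map_pow, rSig_sq, map_add, map_one, hQ, hnU, Q_tl hh, hp.detS]; ring
    · have := algHom_mem_maximalIdeal ev hX (rSig_sub_mem d)
      rwa [map_sub, map_one] at this
    · exact hp.halfTraceS_sub_mem d
  constructor
  · have := map_mkM (ev : P6 𝒪 →+* B) (rPhi d) (aU 𝒪)
    rw [PhiU]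
    refine this.trans ?_
    show mkM (ev (rPhi d)) (fun i => ev (aU 𝒪 i)) = Φ
    rw [hrΦ, haU, mkM_tl hh]
  · have := map_mkM (ev : P6 𝒪 →+* B) (rSig d) (nU 𝒪)
    rw [SigU]
    refine this.trans ?_
    show mkM (ev (rSig d)) (fun i => ev (nU 𝒪 i)) = Sg
    rw [hrS, hnU, mkM_tl hh]

end Eval

/-! ### the evaluation hom, its range, the relation ideal, the universal property -/

section Main

open MvPowerSeries

variable {𝒪 : Type*} [CommRing 𝒪] [IsLocalRing 𝒪] [IsNoetherianRing 𝒪]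
  [IsAdicComplete (maximalIdeal 𝒪) 𝒪]
  {B : Type*} [CommRing B] [IsLocalRing B] [Algebra 𝒪 B] [IsLocalHom (algebraMap 𝒪 B)]
  [IsAdicComplete (maximalIdeal B) B]
  (d : TameDatum 𝒪) {Φ Sg : Matrix (Fin 2) (Fin 2) B}

/-- **existence**: the evaluation hom of a tame pair. -/
theorem exists_eval (hp : IsTamePair d Φ Sg) :
    ∃ ev : P6 𝒪 →ₐ[𝒪] B, (∀ s, ev (X s) = coords d Φ Sg s) ∧
      (PhiU d).map ev = Φ ∧ (SigU d).map ev = Sg := by
  obtain ⟨ev, hev⟩ := Fermat.Agent.S53.exists_algHom_X (𝒪 := 𝒪) (coords d Φ Sg) (hp.coords_mem d)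
  exact ⟨ev, hev, map_PhiU_SigU_of_coords d hp ev hev⟩

/-- **uniqueness**: an `𝒪`-algebra hom mapping the universal pair to `(Φ, Σ)` has the coordinates
of `(Φ, Σ)` as values on the variables; so there is only one. -/
theorem coords_of_map (ev : P6 𝒪 →ₐ[𝒪] B) (hΦ : (PhiU d).map ev = Φ) (hS : (SigU d).map ev = Sg)
    (s : Fin 6) : ev (X s) = coords d Φ Sg s := by
  have hh := two_mul_halfB (B := B) d
  have h1 : tl (halfB d B) Φ = fun i => ev (aU 𝒪 i) := by
    rw [← hΦ, PhiU]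
    have := map_mkM (ev : P6 𝒪 →+* B) (rPhi d) (aU 𝒪)
    rw [show (mkM (rPhi d) (aU 𝒪)).map ev = (mkM (rPhi d) (aU 𝒪)).map (ev : P6 𝒪 →+* B) from rfl,
      this, tl_mkM hh]
    rfl
  have h2 : tl (halfB d B) Sg = fun i => ev (nU 𝒪 i) := by
    rw [← hS, SigU]
    have := map_mkM (ev : P6 𝒪 →+* B) (rSig d) (nU 𝒪)
    rw [show (mkM (rSig d) (nU 𝒪)).map ev = (mkM (rSig d) (nU 𝒪)).map (ev : P6 𝒪 →+* B) from rfl,
      this, tl_mkM hh]
    rfl
  fin_cases s
  · exact (congrFun h1 0).symm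
  · exact (congrFun h1 1).symm
  · exact (congrFun h1 2).symm
  · exact (congrFun h2 0).symm
  · exact (congrFun h2 1).symm
  · exact (congrFun h2 2).symm

theorem eval_unique (hp : IsTamePair d Φ Sg) (ev ev' : P6 𝒪 →ₐ[𝒪] B)
    (hΦ : (PhiU d).map ev = Φ) (hS : (SigU d).map ev = Sg)
    (hΦ' : (PhiU d).map ev' = Φ) (hS' : (SigU d).map ev' = Sg) : ev = ev' := by
  apply Fermat.Agent.S53.algHom_ext_X
  · intro s
    rw [coords_of_map d ev hΦ hS s]
    exact hp.coords_mem d s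
  · intro s
    rw [coords_of_map d ev hΦ hS s, coords_of_map d ev' hΦ' hS' s]

omit [IsLocalRing B] [IsLocalHom (algebraMap 𝒪 B)] [IsAdicComplete (maximalIdeal B) B] in
/-- all entries of `Φ` and `Σ` lie in the range of the evaluation hom. -/
theorem entries_mem_range (ev : P6 𝒪 →ₐ[𝒪] B) (hΦ : (PhiU d).map ev = Φ)
    (hS : (SigU d).map ev = Sg) (i j : Fin 2) :
    Φ i j ∈ Set.range ev ∧ Sg i j ∈ Set.range ev :=
  ⟨⟨PhiU d i j, by rw [← hΦ]; rfl⟩, ⟨SigU d i j, by rw [← hS]; rfl⟩⟩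

omit [IsLocalRing B] [IsLocalHom (algebraMap 𝒪 B)] [IsAdicComplete (maximalIdeal B) B] in
/-- the image of the test element: `ev tU = (tr Φ)² − (1 + q)²`. -/
theorem eval_tU (ev : P6 𝒪 →ₐ[𝒪] B) (hΦ : (PhiU d).map ev = Φ) :
    ev (tU d) = Φ.trace ^ 2 - (1 + (d.q : B)) ^ 2 := by
  rw [tU_eq, map_sub, map_pow, map_pow, map_add, map_one, map_natCast, ← hΦ]
  congr 2
  rw [Matrix.trace_fin_two, Matrix.trace_fin_two, map_add]
  rfl

omit [IsLocalRing B] [IsLocalHom (algebraMap 𝒪 B)] [IsAdicComplete (maximalIdeal B) B] in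
/-- the tame relation `Φ Σ = Σ^q Φ` puts the relation ideal in the kernel. -/
theorem relIdeal_le_ker (ev : P6 𝒪 →ₐ[𝒪] B) (hΦ : (PhiU d).map ev = Φ)
    (hS : (SigU d).map ev = Sg) (hrel : Φ * Sg = Sg ^ d.q * Φ) :
    relIdeal d ≤ RingHom.ker (ev : P6 𝒪 →+* B) := by
  rw [relIdeal, Ideal.span_le]
  rintro _ ⟨⟨i, j⟩, rfl⟩
  rw [SetLike.mem_coe, RingHom.mem_ker]
  have h : (ev : P6 𝒪 →+* B).mapMatrix (relMat d) = 0 := by
    rw [relMat, map_sub, map_mul, map_mul, map_pow]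
    have e1 : (ev : P6 𝒪 →+* B).mapMatrix (PhiU d) = Φ := hΦ
    have e2 : (ev : P6 𝒪 →+* B).mapMatrix (SigU d) = Sg := hS
    rw [e1, e2, hrel, sub_self]
  exact congrFun (congrFun h i) j

omit [IsLocalRing B] [IsLocalHom (algebraMap 𝒪 B)] [IsAdicComplete (maximalIdeal B) B] in
/-- conversely a hom killing the relation ideal maps the universal pair to a pair satisfying the
tame relation. -/
theorem relation_of_relIdeal_le_ker (ev : P6 𝒪 →ₐ[𝒪] B)
    (hker : relIdeal d ≤ RingHom.ker (ev : P6 𝒪 →+* B)) :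
    (PhiU d).map ev * (SigU d).map ev = (SigU d).map ev ^ d.q * (PhiU d).map ev := by
  have h : (ev : P6 𝒪 →+* B).mapMatrix (relMat d) = 0 := by
    ext i j
    exact hker (relMat_apply_mem d i j)
  rw [relMat, map_sub, map_mul, map_mul, map_pow, sub_eq_zero] at h
  exact h

/-- **universal property of `ABigRing`** (existence): a tame pair satisfying the tame relation is
the image of the universal pair under an `𝒪`-algebra hom `ABigRing d → B`. -/
theorem exists_algHom_ABigRing (hp : IsTamePair d Φ Sg) (hrel : Φ * Sg = Sg ^ d.q * Φ) :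
    ∃ φ : ABigRing d →ₐ[𝒪] B,
      ((PhiU d).map (Ideal.Quotient.mk (relIdeal d))).map φ = Φ ∧
        ((SigU d).map (Ideal.Quotient.mk (relIdeal d))).map φ = Sg := by
  obtain ⟨ev, -, hΦ, hS⟩ := exists_eval d hp
  have hker := relIdeal_le_ker d ev hΦ hS hrel
  refine ⟨Ideal.Quotient.liftₐ (relIdeal d) ev (fun a ha => hker ha), ?_, ?_⟩
  · rw [← hΦ]
    ext i j
    simp only [Matrix.map_apply]
    exact Ideal.Quotient.liftₐ_apply (relIdeal d) ev _ _
  · rw [← hS]
    ext i j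
    simp only [Matrix.map_apply]
    exact Ideal.Quotient.liftₐ_apply (relIdeal d) ev _ _

/-- **universal property of `ABigRing`** (uniqueness). -/
theorem algHom_ABigRing_unique (hp : IsTamePair d Φ Sg) (φ φ' : ABigRing d →ₐ[𝒪] B)
    (hΦ : ((PhiU d).map (Ideal.Quotient.mk (relIdeal d))).map φ = Φ)
    (hS : ((SigU d).map (Ideal.Quotient.mk (relIdeal d))).map φ = Sg)
    (hΦ' : ((PhiU d).map (Ideal.Quotient.mk (relIdeal d))).map φ' = Φ)
    (hS' : ((SigU d).map (Ideal.Quotient.mk (relIdeal d))).map φ' = Sg) : φ = φ' := by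
  have key : φ.comp (Ideal.Quotient.mkₐ 𝒪 (relIdeal d)) =
      φ'.comp (Ideal.Quotient.mkₐ 𝒪 (relIdeal d)) := by
    apply eval_unique d hp
    · rw [← hΦ]; ext i j; simp [Matrix.map_apply]
    · rw [← hS]; ext i j; simp [Matrix.map_apply]
    · rw [← hΦ']; ext i j; simp [Matrix.map_apply]
    · rw [← hS']; ext i j; simp [Matrix.map_apply]
  ext x
  obtain ⟨y, rfl⟩ := Ideal.Quotient.mk_surjective x
  exact congrArg (fun f : P6 𝒪 →ₐ[𝒪] B => f y) key

end Main

/-! ### residual form of the hypotheses, functoriality -/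

section Functorial

open MvPowerSeries

variable {𝒪 : Type*} [CommRing 𝒪] [IsLocalRing 𝒪] [IsNoetherianRing 𝒪]
  [IsAdicComplete (maximalIdeal 𝒪) 𝒪]
  {B : Type*} [CommRing B] [IsLocalRing B] [Algebra 𝒪 B] [IsLocalHom (algebraMap 𝒪 B)]
  {B' : Type*} [CommRing B'] [IsLocalRing B'] [Algebra 𝒪 B'] [IsLocalHom (algebraMap 𝒪 B')]
  (d : TameDatum 𝒪) {Φ Sg : Matrix (Fin 2) (Fin 2) B}

omit [IsNoetherianRing 𝒪] [IsAdicComplete (maximalIdeal 𝒪) 𝒪] [IsLocalHom (algebraMap 𝒪 B)] in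
/-- the residual form: `Φ` reduces to the scalar `u`, `Σ` reduces to `1`. -/
theorem isTamePair_of_residue (hdetΦ : Φ.det = (d.q : B)) (hdetS : Sg.det = 1)
    (hΦ : Φ.map (residue B) = residue B (algebraMap 𝒪 B d.u) • (1 : Matrix (Fin 2) (Fin 2) _))
    (hS : Sg.map (residue B) = 1) : IsTamePair d Φ Sg where
  detΦ := hdetΦ
  detS := hdetS
  resΦ i j := by
    rw [← residue_eq_zero_iff, Matrix.sub_apply, map_sub, Matrix.smul_apply, smul_eq_mul, map_mul]
    have := congrFun (congrFun hΦ i) j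
    rw [Matrix.map_apply, Matrix.smul_apply, smul_eq_mul] at this
    rw [this]
    by_cases hij : i = j
    · subst hij; simp
    · simp [Matrix.one_apply_ne hij]
  resS i j := by
    rw [← residue_eq_zero_iff, Matrix.sub_apply, map_sub]
    have := congrFun (congrFun hS i) j
    rw [Matrix.map_apply] at this
    rw [this]
    by_cases hij : i = j
    · subst hij; simp
    · simp [Matrix.one_apply_ne hij]

omit [IsNoetherianRing 𝒪] [IsAdicComplete (maximalIdeal 𝒪) 𝒪] [IsLocalHom (algebraMap 𝒪 B)]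
  [IsLocalHom (algebraMap 𝒪 B')] in
/-- tame pairs are preserved by local `𝒪`-algebra homs. -/
theorem IsTamePair.map (hp : IsTamePair d Φ Sg) (f : B →ₐ[𝒪] B')
    (hf : ∀ x ∈ maximalIdeal B, f x ∈ maximalIdeal B') :
    IsTamePair d (Φ.map f) (Sg.map f) where
  detΦ := by
    have := congrArg f hp.detΦ
    rw [map_natCast] at this
    rw [← this]
    exact (RingHom.map_det (f : B →+* B') Φ).symm
  detS := by
    have := congrArg f hp.detS
    rw [map_one] at this
    rw [← this]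
    exact (RingHom.map_det (f : B →+* B') Sg).symm
  resΦ i j := by
    have := hf _ (hp.resΦ i j)
    rw [Matrix.sub_apply, Matrix.smul_apply, map_sub, smul_eq_mul, map_mul, f.commutes] at this
    rw [Matrix.sub_apply, Matrix.smul_apply, smul_eq_mul, Matrix.map_apply]
    by_cases hij : i = j
    · subst hij
      simpa using this
    · simpa [Matrix.one_apply_ne hij] using this
  resS i j := by
    have := hf _ (hp.resS i j)
    rw [Matrix.sub_apply, map_sub] at this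
    rw [Matrix.sub_apply, Matrix.map_apply]
    by_cases hij : i = j
    · subst hij
      simpa using this
    · simpa [Matrix.one_apply_ne hij] using this

/-- the evaluation hom is natural: `ev_{f(Φ), f(Σ)} = f ∘ ev_{Φ,Σ}`. -/
theorem eval_comp [IsAdicComplete (maximalIdeal B') B'] (hp : IsTamePair d Φ Sg) (f : B →ₐ[𝒪] B')
    (hf : ∀ x ∈ maximalIdeal B, f x ∈ maximalIdeal B')
    (ev : P6 𝒪 →ₐ[𝒪] B) (hΦ : (PhiU d).map ev = Φ) (hS : (SigU d).map ev = Sg)
    (ev' : P6 𝒪 →ₐ[𝒪] B') (hΦ' : (PhiU d).map ev' = Φ.map f) (hS' : (SigU d).map ev' = Sg.map f) :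
    ev' = f.comp ev := by
  apply eval_unique d (hp.map d f hf) ev' (f.comp ev) hΦ' hS'
  · rw [← hΦ]; ext i j; simp [Matrix.map_apply]
  · rw [← hS]; ext i j; simp [Matrix.map_apply]

end Functorial

/-! ### producing the datum -/

section Datum

variable {𝒪 : Type*} [CommRing 𝒪] [IsLocalRing 𝒪]

/-- `2` is a unit when the residue characteristic is an odd prime. -/
theorem isUnit_two_of_prime_mem {p : ℕ} (hp : p.Prime) (hp2 : p ≠ 2)
    (hp𝒪 : (p : 𝒪) ∈ maximalIdeal 𝒪) : IsUnit (2 : 𝒪) := by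
  by_contra hn
  have h2 : (2 : 𝒪) ∈ maximalIdeal 𝒪 := hn
  have hcop : Nat.Coprime 2 p := (Nat.coprime_primes Nat.prime_two hp).mpr (Ne.symm hp2)
  have hb := Nat.Coprime.isCoprime hcop
  obtain ⟨a, b, hab⟩ := hb
  have h1 : ((a : ℤ) : 𝒪) * 2 + ((b : ℤ) : 𝒪) * (p : 𝒪) = 1 := by
    have := congrArg (Int.cast : ℤ → 𝒪) hab
    push_cast at this
    exact this
  have : (1 : 𝒪) ∈ maximalIdeal 𝒪 := by
    rw [← h1]
    exact add_mem (Ideal.mul_mem_left _ _ h2) (Ideal.mul_mem_left _ _ hp𝒪)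
  exact (Ideal.ne_top_iff_one _).1 (maximalIdeal.isMaximal 𝒪).ne_top this

/-- `q ≡ 1` in `𝒪` when `p ∣ q − 1` and `p ∈ 𝔪`. -/
theorem natCast_sub_one_mem {p q : ℕ} (hp𝒪 : (p : 𝒪) ∈ maximalIdeal 𝒪) (hq : 1 ≤ q)
    (hpq : p ∣ q - 1) : (q : 𝒪) - 1 ∈ maximalIdeal 𝒪 := by
  obtain ⟨c, hc⟩ := hpq
  have e : (q : 𝒪) - 1 = (p : 𝒪) * (c : 𝒪) := by
    have : q = p * c + 1 := by omega
    rw [this]; push_cast; ring
  rw [e]
  exact Ideal.mul_mem_right _ _ hp𝒪

/-- the datum at a prime `q ≡ 1 (p)` with residual Frobenius scalar `u = ±1` (`u² = 1`). -/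
def TameDatum.ofPrime {p : ℕ} (hp : p.Prime) (hp2 : p ≠ 2) (hp𝒪 : (p : 𝒪) ∈ maximalIdeal 𝒪)
    (q : ℕ) (hq : 1 ≤ q) (hpq : p ∣ q - 1) (u : 𝒪) (hu : u ^ 2 = 1) : TameDatum 𝒪 where
  q := q
  u := u
  h2 := isUnit_two_of_prime_mem hp hp2 hp𝒪
  hu := IsUnit.of_mul_eq_one u (by rw [← pow_two]; exact hu)
  hq := by rw [hu]; exact natCast_sub_one_mem hp𝒪 hq hpq

end Datum

end Fermat.Agent.GB.Local.ABig
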