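/-
GATE-B / B1 LOC → B9: the `kill₁` adapter in traceless coordinates (helper51), twin of `Kill2`.

If the `P6`-part of `Θ : Rinf O g →ₐ[O] T⟦z⟧` is given by the framed traceless coordinates of
`F ∈ M₂(T)` with `det F = q`, then `Θ (C (tElt O (q − 1))) = C ((tr F)² − (1 + q)²)`; so the test
element is killed as soon as `(tr F)² = (1 + q)²` in `T` (B7: all eigensystems `q`-new, S35).
No completeness / locality of `T` is needed.
-/
import Mathlib
import Fermat.Agent.GB.Local.Kill2

set_option autoImplicit false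
set_option linter.unusedSectionVars false

open IsLocalRing

namespace Fermat.Agent.GB.Local.Kill1

open Fermat.Agent.GB.Local.TamePoint Fermat.Agent.GB.Local.Rloc Fermat.Agent.GB.Local.R4Point
open Fermat.Agent.GB.Local.RlocMain Matrix

variable {O : Type*} [CommRing O] [IsLocalRing O] [IsNoetherianRing O]
  [IsAdicComplete (maximalIdeal O) O]
variable {T : Type*} [CommRing T] [Algebra O T] {σ : Type*} {g : ℕ}

/-- the image of the test element -/
theorem map_tElt (Θ : Rinf O g →ₐ[O] MvPowerSeries σ T) (F : Matrix (Fin 2) (Fin 2) T) {q : ℕ}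
    (hFdet : F.det = (q : T)) {h : O} (hh : 2 * h = 1)
    {γ γi : Matrix (Fin 2) (Fin 2) (MvPowerSeries σ T)} (hγ : γ * γi = 1)
    (hΘa : ∀ k, Θ (MvPowerSeries.C (aVar O k)) =
      tl (MvPowerSeries.C (algebraMap O T h)) (γ * F.map MvPowerSeries.C * γi) k) :
    Θ (MvPowerSeries.C (tElt O ((q : O) - 1))) =
      MvPowerSeries.C (F.trace ^ 2 - (1 + (q : T)) ^ 2) := by
  have hhT : 2 * algebraMap O T h = 1 := by
    rw [← map_ofNat (algebraMap O T) 2, ← map_mul, hh, map_one]
  have hhC : 2 * (MvPowerSeries.C (algebraMap O T h) : MvPowerSeries σ T) = 1 := by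
    rw [← map_ofNat (MvPowerSeries.C (σ := σ) (R := T)) 2, ← map_mul, hhT, map_one]
  -- constants
  have hconst : ∀ r : O, Θ (MvPowerSeries.C (MvPowerSeries.C r : P6 O)) =
      MvPowerSeries.C (algebraMap O T r) := by
    intro r
    have h1 : (MvPowerSeries.C (MvPowerSeries.C r : P6 O) : Rinf O g) =
        algebraMap O (Rinf O g) r := by
      rw [MvPowerSeries.algebraMap_apply]; rfl
    rw [h1, AlgHom.commutes, MvPowerSeries.algebraMap_apply]
  -- the quadratic form
  have hQ : Qf (fun k => Θ (MvPowerSeries.C (aVar O k))) =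
      MvPowerSeries.C (Q (tl (algebraMap O T h) F)) := by
    have h1 : (fun k => Θ (MvPowerSeries.C (aVar O k))) =
        conjTl (MvPowerSeries.C (algebraMap O T h)) γ γi
          (tl (MvPowerSeries.C (algebraMap O T h)) (F.map MvPowerSeries.C)) := by
      funext k
      rw [hΘa, tl_conj hhC hγ]
    have h2 : Qf (conjTl (MvPowerSeries.C (algebraMap O T h)) γ γi
        (tl (MvPowerSeries.C (algebraMap O T h)) (F.map MvPowerSeries.C))) =
        Q (tl (MvPowerSeries.C (algebraMap O T h)) (F.map MvPowerSeries.C)) :=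
      Q_conjTl hhC hγ _
    rw [h1, h2]
    have h3 : tl (MvPowerSeries.C (algebraMap O T h) : MvPowerSeries σ T)
        (F.map MvPowerSeries.C) = fun k => MvPowerSeries.C (tl (algebraMap O T h) F k) := by
      funext k; exact tl_map _ _ _ k
    rw [h3]
    simp only [Q, map_add, map_pow, map_mul]
  have h4 : Θ (MvPowerSeries.C (tElt O ((q : O) - 1))) =
      4 * Qf (fun k => Θ (MvPowerSeries.C (aVar O k))) -
        MvPowerSeries.C (algebraMap O T (((q : O) - 1) ^ 2)) := by
    rw [tElt, map_sub, map_sub, map_mul, map_mul, map_ofNat, map_ofNat, hconst]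
    congr 2
    simp only [Qf, map_add, map_pow, map_mul]
  rw [h4, hQ, ← four_Q_tl_sub hhT F hFdet, map_sub, map_mul, map_ofNat, map_pow, map_sub,
    map_natCast, map_one]

/-- **`kill₁`**: if `(tr F)² = (1 + q)²` in `T` then `Θ` kills the test element. -/
theorem tElt_mem_ker (Θ : Rinf O g →ₐ[O] MvPowerSeries σ T) (F : Matrix (Fin 2) (Fin 2) T)
    {q : ℕ} (hFdet : F.det = (q : T)) {h : O} (hh : 2 * h = 1)
    {γ γi : Matrix (Fin 2) (Fin 2) (MvPowerSeries σ T)} (hγ : γ * γi = 1)
    (hΘa : ∀ k, Θ (MvPowerSeries.C (aVar O k)) =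
      tl (MvPowerSeries.C (algebraMap O T h)) (γ * F.map MvPowerSeries.C * γi) k)
    (htr : F.trace ^ 2 = (1 + (q : T)) ^ 2) :
    Ideal.span {(MvPowerSeries.C (tElt O ((q : O) - 1)) : Rinf O g)} ≤
      RingHom.ker (Θ : Rinf O g →+* MvPowerSeries σ T) := by
  rw [Ideal.span_le, Set.singleton_subset_iff, SetLike.mem_coe, RingHom.mem_ker]
  show Θ _ = 0
  rw [map_tElt Θ F hFdet hh hγ hΘa, htr, sub_self, map_zero]

end Fermat.Agent.GB.Local.Kill1
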