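/-
GATE-B (Ribet S38/S43), CASE B, seam B1 LOC → B9 (helper59): **every point of `P6` over a complete
discrete valuation ring kills `J 𝒞`** (the `kill₂` input of the B9 design note N1, board 5224 (5)).

Composition of
* `SqrtUnif.exists_decomp_bsqrt_Q`      (helper59): `a ∥ n`, `Q n = c²` ⟹ `(a, n) = (s₁ • u, s₂ • u)`
  over `O'[√π]`;
* `Rloc.J_le_ker_evalPair_of_chart/_of_zero` (helper54): such points kill `J 𝒞`;
* `TamePoint.point_cases`                (helper96): the two branches of a tame point.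

Exports:
* `(K1) J_le_ker_evalPair_of_parallel` : `a ∥ n` in `𝔪_{O'}`, `Q n = c²`, `c ∈ 𝒞`, `c ≠ 0` in `O'`;
* `(K2) J_le_ker_of_parallel`, `J_le_ker_of_zero` : the same for an arbitrary
  `φ : P6 O →ₐ[O] O'`;
* `(K3) J_le_ker_of_tamePoint` : the matrix form;
* `(K4) J_le_ker_of_isTamePair` : the matrix form in helper6's `ABig` vocabulary (`TameDatum`,
  `IsTamePair`, an evaluation hom `ev` with `(PhiU d).map ev = Φ`, `(SigU d).map ev = Σ`).
-/
import Mathlib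
import Fermat.Agent.GB.Local.Rloc
import Fermat.Agent.GB.Local.SqrtUnif
import Fermat.Agent.GB.Local.TamePoint
import Fermat.Agent.GB.Local.ABig

set_option autoImplicit false

namespace Fermat.Agent.GB.Local.PointKill

open IsLocalRing MvPowerSeries Fermat.Agent.GB.Local.Rloc Fermat.Agent.GB.Local.TamePoint
  Fermat.Agent.GB.Local.SqrtUnif

variable {O : Type*} [CommRing O] [IsLocalRing O] [IsNoetherianRing O]
  [IsAdicComplete (maximalIdeal O) O]
variable {O' : Type*} [CommRing O'] [IsDomain O'] [IsDiscreteValuationRing O'] [Algebra O O']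
  [IsAdicComplete (maximalIdeal O') O']

/-- helper54's `Qf` is helper96's `Q`. -/
theorem Qf_eq_Q {D : Type*} [CommRing D] (x : Fin 3 → D) : Qf x = Q x := rfl

/-- **(K1)** a point `(a, n)` of `P6` over a complete discrete valuation ring `O'` with `a ∥ n`
and `Q n = c ^ 2`, `c ∈ 𝒞` nonzero in `O'`, kills `J 𝒞`. -/
theorem J_le_ker_evalPair_of_parallel (𝒞 : Finset O) (a n : Fin 3 → O')
    (ha : ∀ i, a i ∈ maximalIdeal O') (hn : ∀ i, n i ∈ maximalIdeal O') (hmin : Minors a n)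
    {c : O} (hc : c ∈ 𝒞) (hc0 : algebraMap O O' c ≠ 0) (hQ : Q n = algebraMap O O' c ^ 2) :
    J O 𝒞 ≤ RingHom.ker (evalPair (O := O) a n ha hn) := by
  classical
  obtain ⟨π, hπ⟩ := IsDiscreteValuationRing.exists_irreducible O'
  haveI : IsLocalRing (Bsqrt π) := isLocalRing_of_irreducible π hπ
  haveI : IsAdicComplete (maximalIdeal (Bsqrt π)) (Bsqrt π) := isAdicComplete_bsqrt π hπ
  obtain ⟨s1, s2, u, h1, h2, hu, hau, hnu, hq⟩ :=
    exists_decomp_bsqrt_Q π hπ a n ha hn hmin hc0 hQ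
  have hrel : s2 ^ 2 * Qf u = algebraMap O (Bsqrt π) c ^ 2 := by
    rw [IsScalarTower.algebraMap_apply O O' (Bsqrt π)]
    exact hq
  have key := J_le_ker_evalPair_of_chart (O := O) 𝒞 hc s1 s2 u h1 h2 hu hrel
  -- the point over `Bsqrt π` is the composite of the point over `O'` with `O' → Bsqrt π`
  have hcomp : evalPair (O := O) (fun i => s1 * u i) (fun i => s2 * u i)
      (fun _ => Ideal.mul_mem_right _ _ h1) (fun _ => Ideal.mul_mem_right _ _ h2) =
      (IsScalarTower.toAlgHom O O' (Bsqrt π)).comp (evalPair (O := O) a n ha hn) := by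
    symm
    refine evalPair_unique _ _ _ _ _ (fun i => ?_) (fun i => ?_)
    · rw [AlgHom.comp_apply, evalPair_aVar, IsScalarTower.coe_toAlgHom', hau i]
    · rw [AlgHom.comp_apply, evalPair_nVar, IsScalarTower.coe_toAlgHom', hnu i]
  intro f hf
  have h0 := key hf
  rw [RingHom.mem_ker, hcomp, AlgHom.comp_apply, IsScalarTower.coe_toAlgHom'] at h0
  rw [RingHom.mem_ker]
  exact (algebraMap_injective π) (by rw [h0, map_zero])

/-- **(K2)** the same for an arbitrary `O`-algebra homomorphism `φ : P6 O → O'`. -/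
theorem J_le_ker_of_parallel (𝒞 : Finset O) (φ : P6 O →ₐ[O] O')
    (ha : ∀ i, φ (aVar O i) ∈ maximalIdeal O') (hn : ∀ i, φ (nVar O i) ∈ maximalIdeal O')
    (hmin : Minors (fun i => φ (aVar O i)) (fun i => φ (nVar O i)))
    {c : O} (hc : c ∈ 𝒞) (hc0 : algebraMap O O' c ≠ 0)
    (hQ : Q (fun i => φ (nVar O i)) = algebraMap O O' c ^ 2) :
    J O 𝒞 ≤ RingHom.ker φ := by
  have h := evalPair_unique (O := O) (fun i => φ (aVar O i)) (fun i => φ (nVar O i)) ha hn φ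
    (fun _ => rfl) (fun _ => rfl)
  rw [h]
  exact J_le_ker_evalPair_of_parallel 𝒞 _ _ ha hn hmin hc hc0 hQ

/-- **(K2), `Σ = 1` points**: an `O`-algebra homomorphism `φ : P6 O → O'` with `φ n = 0` kills
`J 𝒞`. -/
theorem J_le_ker_of_zero (𝒞 : Finset O) (φ : P6 O →ₐ[O] O')
    (ha : ∀ i, φ (aVar O i) ∈ maximalIdeal O') (hn : ∀ i, φ (nVar O i) = 0) :
    J O 𝒞 ≤ RingHom.ker φ := by
  have h := evalPair_unique (O := O) (fun i => φ (aVar O i)) (fun _ => (0 : O')) ha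
    (fun _ => zero_mem _) φ (fun _ => rfl) hn
  rw [h]
  exact J_le_ker_evalPair_of_zero 𝒞 _ ha

/-- **(K3)** the matrix form: a tame point `(S, F) = (Σ, Φ)` over the complete discrete valuation
ring `O'` which is not ramified-unipotent (`hW`) kills `J 𝒞`, as soon as `𝒞` contains (up to sign,
after `O → O'`) the constants `h (ζ ^ k − ζ ^ (−k))`, `0 < k < p ^ a`. -/
theorem J_le_ker_of_tamePoint (𝒞 : Finset O) {p : ℕ} (hp : p.Prime) (hp2 : p ≠ 2)
    (hpO' : (p : O') ∈ maximalIdeal O') (S F : Matrix (Fin 2) (Fin 2) O') (hF : F.det ≠ 0)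
    (hS : S.det = 1) {q a n' : ℕ} (hfac : q - 1 = p ^ a * n') (hn' : ¬ p ∣ n') (hpq : p ∣ q - 1)
    (hq : 1 ≤ q) (hrel : F * S = S ^ q * F) (hres : S.trace - 2 ∈ maximalIdeal O') {ζ : O'}
    (hζ : IsPrimitiveRoot ζ (p ^ a)) {h : O'} (hh : 2 * h = 1)
    (hW : S.trace = 2 → (S - 1) ^ 2 = 0 → S = 1)
    (h𝒞 : ∀ k, 0 < k → k < p ^ a →
      ∃ c ∈ 𝒞, algebraMap O O' c ^ 2 = (h * (ζ ^ k - ζ ^ (p ^ a - k))) ^ 2)
    (φ : P6 O →ₐ[O] O') (hφa : ∀ i, φ (aVar O i) = tl h F i) (hφn : ∀ i, φ (nVar O i) = tl h S i)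
    (ha : ∀ i, tl h F i ∈ maximalIdeal O') (hn : ∀ i, tl h S i ∈ maximalIdeal O') :
    J O 𝒞 ≤ RingHom.ker φ := by
  have hane : (maximalIdeal O') ≠ ⊤ := (maximalIdeal.isMaximal O').ne_top
  have hfa : (fun i => φ (aVar O i)) = tl h F := funext hφa
  have hfn : (fun i => φ (nVar O i)) = tl h S := funext hφn
  rcases point_cases hane hp hp2 hpO' S F hF hS hfac hn' hpq hq hrel hres hζ hh with
    ⟨htr, hsq⟩ | ⟨k, hk0, hk, -, hmin, hQ, hne⟩
  · -- unipotent branch: `S = 1`, so `n = 0`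
    have hS1 : S = 1 := hW htr hsq
    refine J_le_ker_of_zero 𝒞 φ (fun i => by rw [hφa]; exact ha i) fun i => ?_
    rw [hφn, hS1, tl_one_mat]
    rfl
  · obtain ⟨c, hc, hcsq⟩ := h𝒞 k hk0 hk
    have hc0 : algebraMap O O' c ≠ 0 := by
      intro h0
      rw [h0, zero_pow two_ne_zero] at hcsq
      exact c_ne_zero hh hne (pow_eq_zero_iff two_ne_zero |>.1 hcsq.symm)
    refine J_le_ker_of_parallel 𝒞 φ (fun i => by rw [hφa]; exact ha i)
      (fun i => by rw [hφn]; exact hn i) ?_ hc hc0 ?_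
    · rw [hfa, hfn]; exact hmin
    · rw [hfn, hQ, hcsq]

/-- **(K4)** the same in helper6's `ABig` vocabulary: `ev : P6 O →ₐ[O] O'` maps the universal
pair `(PhiU d, SigU d)` to a tame pair `(Φ, Σ)` satisfying the tame relation, `Σ` not
ramified-unipotent. -/
theorem J_le_ker_of_isTamePair [IsLocalHom (algebraMap O O')] (𝒞 : Finset O)
    (d : ABig.TameDatum O) {p : ℕ} (hp : p.Prime) (hp2 : p ≠ 2)
    (hpO' : (p : O') ∈ maximalIdeal O') (hq0 : (d.q : O') ≠ 0)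
    {Φ Sg : Matrix (Fin 2) (Fin 2) O'} (hpair : ABig.IsTamePair d Φ Sg)
    (hrel : Φ * Sg = Sg ^ d.q * Φ) {a n' : ℕ} (hfac : d.q - 1 = p ^ a * n') (hn' : ¬ p ∣ n')
    (hpq : p ∣ d.q - 1) (hq : 1 ≤ d.q) {ζ : O'} (hζ : IsPrimitiveRoot ζ (p ^ a))
    (hW : Sg.trace = 2 → (Sg - 1) ^ 2 = 0 → Sg = 1)
    (h𝒞 : ∀ k, 0 < k → k < p ^ a →
      ∃ c ∈ 𝒞, algebraMap O O' c ^ 2 = (ABig.halfB d O' * (ζ ^ k - ζ ^ (p ^ a - k))) ^ 2)
    (ev : P6 O →ₐ[O] O') (hΦ : (ABig.PhiU d).map ev = Φ) (hS : (ABig.SigU d).map ev = Sg) :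
    J O 𝒞 ≤ RingHom.ker ev := by
  have hh : 2 * ABig.halfB d O' = 1 := ABig.two_mul_halfB (B := O') d
  have hres : Sg.trace - 2 ∈ maximalIdeal O' := by
    have h00 := hpair.resS 0 0
    have h11 := hpair.resS 1 1
    simp only [Matrix.sub_apply, Matrix.one_apply_eq] at h00 h11
    have e : Sg.trace - 2 = (Sg 0 0 - 1) + (Sg 1 1 - 1) := by
      rw [Matrix.trace_fin_two]; ring
    rw [e]
    exact add_mem h00 h11
  have hdet : Φ.det ≠ 0 := by rw [hpair.detΦ]; exact hq0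
  have hco := ABig.coords_of_map d ev hΦ hS
  have hφa : ∀ i, ev (aVar O i) = tl (ABig.halfB d O') Φ i := by
    intro i
    fin_cases i
    · exact hco 0
    · exact hco 1
    · exact hco 2
  have hφn : ∀ i, ev (nVar O i) = tl (ABig.halfB d O') Sg i := by
    intro i
    fin_cases i
    · exact hco 3
    · exact hco 4
    · exact hco 5
  exact J_le_ker_of_tamePoint 𝒞 hp hp2 hpO' Sg Φ hdet hpair.detS hfac hn' hpq hq hrel hres hζ hh hW
    h𝒞 ev hφa hφn (fun i => hpair.tlΦ_mem d i) (fun i => hpair.tlS_mem d i)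

end Fermat.Agent.GB.Local.PointKill
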