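/-
GATE-B (Ribet S38/S43), CASE B, node B1 LOC → B9 (helper59): **the B1 package in the shape of
helper55's `B9.AlgHyp`**, binder-free for the concrete constant set
`𝒞 = Consts.consts h ζ (p ^ a)` over a complete discrete valuation ring `O`.

* `tElt_eq_tU`        : helper54's test element `tElt O (q − 1)` is helper6's `ABig.tU d`;
* `ringKrullDim_mvPowerSeries_dvr` : `dim O⟦x₁,…,x_n⟧ = 1 + n`;
* `algHyp`            : `B9.AlgHyp` for `R = Rinf O g = O⟦a,n⟧⟦x₁..x_g⟧`, `J₂ = J2 O 𝒞 g`,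
  `t = C (tElt O (q − 1))`, `J₁ = J₂ ⊔ (t)`, `λ_R = C (C lam)`, any `S` of dimension `≥ 4 + g`
  (finite), any filtration `G` finer than the `𝔪`-adic one;
* `algHyp_mvPowerSeries` : the same with `S = O⟦y₁..y_g, z₁, z₂, z₃⟧ = MvPowerSeries (Fin (g + 3)) O`;
* `J2_le_ker_of_isTamePair` : the `kill₂` seam — a ring hom `θ : Rinf O g → O'` into a complete
  discrete valuation ring, compatible with `O → O'`, `θ (X j) ∈ 𝔪`, whose restriction to `P6 O` maps
  the universal pair to a tame pair which is not ramified-unipotent, kills `J₂`.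
-/
import Mathlib
import Fermat.Agent.GB.B9.Skeleton
import Fermat.Agent.GB.Local.RlocMain
import Fermat.Agent.GB.Local.Consts
import Fermat.Agent.GB.Local.PointKill
import Fermat.Agent.GB.Alg.PSKrull

set_option autoImplicit false

namespace Fermat.Agent.GB.Local.B1Pkg

open IsLocalRing MvPowerSeries Fermat.Agent.GB.Local.Rloc Fermat.Agent.GB.Local.RlocMain
  Fermat.Agent.GB.Local.Consts Fermat.Agent.GB.Local.TamePoint

section Coord

variable {O : Type*} [CommRing O]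

/-- helper54's coordinates are helper6's. -/
theorem aVar_eq_aU (i : Fin 3) : aVar O i = ABig.aU O i := by
  fin_cases i <;> rfl

theorem nVar_eq_nU (i : Fin 3) : nVar O i = ABig.nU O i := by
  fin_cases i <;> rfl

end Coord

section Test

variable {O : Type*} [CommRing O] [IsLocalRing O] [IsNoetherianRing O]
  [IsAdicComplete (maximalIdeal O) O]

/-- helper54's test element is helper6's. -/
theorem tElt_eq_tU (d : ABig.TameDatum O) : tElt O ((d.q : O) - 1) = ABig.tU d := by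
  have hQ : Qf (aVar O) = Q (ABig.aU O) := by
    simp only [Qf, Q, aVar_eq_aU]
  rw [tElt, ABig.tU, hQ, map_pow, map_sub, map_natCast, map_one]

end Test

section Dim

variable {O : Type*} [CommRing O] [IsDomain O] [IsDiscreteValuationRing O]

/-- `dim O⟦x₁,…,x_n⟧ = 1 + n` over a discrete valuation ring. -/
theorem ringKrullDim_mvPowerSeries_dvr (n : ℕ) :
    ringKrullDim (MvPowerSeries (Fin n) O) = ((1 + n : ℕ) : WithBot ℕ∞) := by
  rw [Fermat.Agent.GB.Alg.ringKrullDim_mvPowerSeries_fin_eq n,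
    IsDiscreteValuationRing.ringKrullDim_eq_one]
  push_cast
  rfl

end Dim

section Pkg

variable {O : Type} [CommRing O] [IsDomain O] [IsDiscreteValuationRing O]
  [IsAdicComplete (maximalIdeal O) O]

/-- **the B1 half of the engine**: `B9.AlgHyp` for the concrete constant set. -/
theorem algHyp {S : Type} [CommRing S] (g : ℕ)
    (hS : ((4 + g : ℕ) : WithBot ℕ∞) ≤ ringKrullDim S) (hfin : ringKrullDim S ≠ ⊤)
    {p : ℕ} (hp : p.Prime) (hp2 : p ≠ 2) (hpO : (p : O) ∈ maximalIdeal O) {a : ℕ} {ζ : O}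
    (hζ : IsPrimitiveRoot ζ (p ^ a)) {h : O} (hh : 2 * h = 1) {lam : O} (hlam : Irreducible lam)
    {q : ℕ} (hq : 1 ≤ q) (hpq : p ∣ q - 1) (lamS : S)
    (G : Fermat.Agent.GB.PatchSupp.Filt (Rinf O g))
    (hG : ∀ N, ∃ k, G.c k ≤ maximalIdeal (Rinf O g) ^ N) :
    Fermat.Agent.GB.B9.AlgHyp (R := Rinf O g) (S := S) (C (C lam)) lamS G
      (J2 O (consts h ζ (p ^ a)) g ⊔ Ideal.span {C (tElt O ((q : O) - 1))})
      (J2 O (consts h ζ (p ^ a)) g) (C (tElt O ((q : O) - 1))) where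
  hG := hG
  ht := Ideal.mem_sup_right (Ideal.mem_span_singleton_self _)
  hdim := (ringKrullDim_quot_le hlam.maximalIdeal_eq _
    (consts_dvd hp hpO hζ.pow_eq_one h hlam) g).trans hS
  hfin := hfin
  hP := fun P hP _ =>
    tElt_notMem_radical_quot hlam.prime _ (consts_unit_mul_pow hp hp2 hpO hζ hh hlam)
      (not_dvd_four_of_irreducible hp hp2 hpO hlam) (dvd_natCast_sub_one hpO hq hpq hlam) g P hP

/-- the same with `S = O⟦y₁..y_g, z₁, z₂, z₃⟧`. -/
theorem algHyp_mvPowerSeries (g : ℕ)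
    {p : ℕ} (hp : p.Prime) (hp2 : p ≠ 2) (hpO : (p : O) ∈ maximalIdeal O) {a : ℕ} {ζ : O}
    (hζ : IsPrimitiveRoot ζ (p ^ a)) {h : O} (hh : 2 * h = 1) {lam : O} (hlam : Irreducible lam)
    {q : ℕ} (hq : 1 ≤ q) (hpq : p ∣ q - 1) (lamS : MvPowerSeries (Fin (g + 3)) O)
    (G : Fermat.Agent.GB.PatchSupp.Filt (Rinf O g))
    (hG : ∀ N, ∃ k, G.c k ≤ maximalIdeal (Rinf O g) ^ N) :
    Fermat.Agent.GB.B9.AlgHyp (R := Rinf O g) (S := MvPowerSeries (Fin (g + 3)) O) (C (C lam)) lamS G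
      (J2 O (consts h ζ (p ^ a)) g ⊔ Ideal.span {C (tElt O ((q : O) - 1))})
      (J2 O (consts h ζ (p ^ a)) g) (C (tElt O ((q : O) - 1))) := by
  have hd : ringKrullDim (MvPowerSeries (Fin (g + 3)) O) = ((4 + g : ℕ) : WithBot ℕ∞) := by
    rw [ringKrullDim_mvPowerSeries_dvr]
    congr 1
    omega
  refine algHyp g hd.ge ?_ hp hp2 hpO hζ hh hlam hq hpq lamS G hG
  rw [hd]
  intro h0
  have h2 : ((4 + g : ℕ) : WithBot ℕ∞) = ((⊤ : ℕ∞) : WithBot ℕ∞) := h0
  exact ENat.natCast_ne_top _ (WithBot.coe_injective h2)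

end Pkg

section Kill

variable {O : Type*} [CommRing O] [IsLocalRing O] [IsNoetherianRing O]
  [IsAdicComplete (maximalIdeal O) O]
variable {O' : Type*} [CommRing O'] [IsDomain O'] [IsDiscreteValuationRing O'] [Algebra O O']
  [IsLocalHom (algebraMap O O')] [IsAdicComplete (maximalIdeal O') O']

/-- the restriction of `θ : Rinf O g → O'` to the coefficient ring `P6 O`, as an `O`-algebra hom. -/
noncomputable def restrictP6 {g : ℕ} (θ : Rinf O g →+* O')
    (hθO : ∀ r : O, θ (C (C r)) = algebraMap O O' r) : P6 O →ₐ[O] O' where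
  toRingHom := θ.comp C
  commutes' := fun r => by
    show θ (C (algebraMap O (P6 O) r)) = algebraMap O O' r
    rw [← hθO r]
    rfl

@[simp] theorem restrictP6_apply {g : ℕ} (θ : Rinf O g →+* O')
    (hθO : ∀ r : O, θ (C (C r)) = algebraMap O O' r) (f : P6 O) :
    restrictP6 θ hθO f = θ (C f) := rfl

/-- **the `kill₂` seam**: a point `θ : Rinf O g → O'` of the patching ring over a complete discrete
valuation ring whose `P6`-part is a tame pair which is not ramified-unipotent kills `J₂`. -/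
theorem J2_le_ker_of_isTamePair {g : ℕ} (𝒞 : Finset O) (θ : Rinf O g →+* O')
    (hθO : ∀ r : O, θ (C (C r)) = algebraMap O O' r) (hx : ∀ j, θ (X j) ∈ maximalIdeal O')
    (d : ABig.TameDatum O) {p : ℕ} (hp : p.Prime) (hp2 : p ≠ 2)
    (hpO' : (p : O') ∈ maximalIdeal O') (hq0 : (d.q : O') ≠ 0)
    {Φ Sg : Matrix (Fin 2) (Fin 2) O'} (hpair : ABig.IsTamePair d Φ Sg)
    (hrel : Φ * Sg = Sg ^ d.q * Φ) {a n' : ℕ} (hfac : d.q - 1 = p ^ a * n') (hn' : ¬ p ∣ n')
    (hpq : p ∣ d.q - 1) (hq : 1 ≤ d.q) {ζ : O'} (hζ : IsPrimitiveRoot ζ (p ^ a))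
    (hW : Sg.trace = 2 → (Sg - 1) ^ 2 = 0 → Sg = 1)
    (h𝒞 : ∀ k, 0 < k → k < p ^ a →
      ∃ c ∈ 𝒞, algebraMap O O' c ^ 2 = (ABig.halfB d O' * (ζ ^ k - ζ ^ (p ^ a - k))) ^ 2)
    (hΦ : (ABig.PhiU d).map (fun f => θ (C f)) = Φ)
    (hS : (ABig.SigU d).map (fun f => θ (C f)) = Sg) :
    J2 O 𝒞 g ≤ RingHom.ker θ := by
  have hker := PointKill.J_le_ker_of_isTamePair 𝒞 d hp hp2 hpO' hq0 hpair hrel hfac hn' hpq hq hζ
    hW h𝒞 (restrictP6 θ hθO) hΦ hS
  refine J2_le_ker 𝒞 θ (fun f hf => ?_) hx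
  have := hker hf
  rwa [RingHom.mem_ker, restrictP6_apply] at this

end Kill

end Fermat.Agent.GB.Local.B1Pkg
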