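/-
GATE-B, B1-LITE (R4, first half) (helper51): the chart ring `EE c` as a complete noetherian local
domain, its tautological elements, and the evaluation homomorphism to complete local
`O`-algebras.

Index convention of `Chart.lean`: `X 0 = s₂`, `X 1, X 2, X 3 = u₀, u₁, u₂`, `X 4 = s₁`.
-/
import Mathlib
import Fermat.Agent.GB.Local.Chart
import Fermat.Agent.S53.PSEval
import Fermat.Agent.S53.PSComplete
import Fermat.Agent.S53_helper15.LimitRing

set_option autoImplicit false

namespace Fermat.Agent.GB.Local.EEInst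

open MvPowerSeries IsLocalRing Fermat.Agent.GB.Local.Chart Fermat.Agent.GB.Local.Dom

variable {O : Type*} [CommRing O]

/-- the chart ring `O[[s₂,u₀,u₁,u₂,s₁]] ⧸ (s₂² Q(u) - c²)`. -/
abbrev EE (c : O) : Type _ :=
  MvPowerSeries (Fin 5) O ⧸ (Ideal.span {EEpoly c} : Ideal (MvPowerSeries (Fin 5) O))

/-- the quotient map. -/
noncomputable abbrev mkEE (c : O) : MvPowerSeries (Fin 5) O →ₐ[O] EE c :=
  Ideal.Quotient.mkₐ O _

/-- tautological elements of the chart. -/
noncomputable def s2 (c : O) : EE c := mkEE c (X 0)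
noncomputable def s1 (c : O) : EE c := mkEE c (X 4)
noncomputable def u (c : O) (i : Fin 3) : EE c := mkEE c (X i.succ.castSucc)

theorem u_zero (c : O) : u c 0 = mkEE c (X 1) := rfl
theorem u_one (c : O) : u c 1 = mkEE c (X 2) := rfl
theorem u_two (c : O) : u c 2 = mkEE c (X 3) := rfl

/-- the chart relation `s₂² Q(u) = c²`. -/
theorem relation (c : O) :
    s2 c ^ 2 * (u c 0 ^ 2 + u c 1 * u c 2) = algebraMap O (EE c) (c ^ 2) := by
  have h : mkEE c (EEpoly c) = 0 := by
    show Ideal.Quotient.mk _ (EEpoly c) = 0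
    exact Ideal.Quotient.eq_zero_iff_mem.mpr (Ideal.mem_span_singleton_self _)
  have h' : mkEE c (X 0 ^ 2 * (X 1 ^ 2 + X 2 * X 3) - C (c ^ 2)) = 0 := h
  clear h
  rename' h' => h
  rw [map_sub, sub_eq_zero] at h
  rw [u_zero, u_one, u_two, s2, ← map_pow, ← map_pow, ← map_mul, ← map_add, ← map_mul, h,
    c_eq_algebraMap, AlgHom.commutes]

section instances

variable [IsDomain O] [IsNoetherianRing O]

theorem isDomain_EE {lam : O} (hlam : Prime lam) (c : O) (v : Oˣ) (e : ℕ) (he : e ≠ 0)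
    (hc : c = v * lam ^ e) : IsDomain (EE c) := by
  have := isPrime_span_EEpoly hlam c v e he hc
  exact Ideal.Quotient.isDomain _

/-- `O` injects into `EE c`. -/
theorem algebraMap_injective {lam : O} (hlam : Prime lam) (c : O) (v : Oˣ) (e : ℕ) (he : e ≠ 0)
    (hc : c = v * lam ^ e) : Function.Injective (algebraMap O (EE c)) := by
  rw [injective_iff_map_eq_zero]
  intro a ha
  have h1 : algebraMap O (EE c) a = Ideal.Quotient.mk _ (C a) := by
    rw [c_eq_algebraMap]; rfl
  rw [h1, Ideal.Quotient.eq_zero_iff_mem] at ha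
  exact (C_mem_span_EEpoly_iff hlam c v e he hc a).mp ha

end instances

section local_

variable [IsLocalRing O]

theorem EEpoly_mem_maximalIdeal {c : O} (hc : ¬ IsUnit c) :
    EEpoly c ∈ maximalIdeal (MvPowerSeries (Fin 5) O) := by
  rw [Fermat.Agent.S53.PSC.mem_maximalIdeal_iff]
  have : constantCoeff (EEpoly c) = - c ^ 2 := by
    simp [EEpoly]
  rw [this, neg_mem_iff]
  exact Ideal.pow_mem_of_mem _ ((mem_maximalIdeal c).mpr hc) 2 (by norm_num)

theorem span_EEpoly_ne_top {c : O} (hc : ¬ IsUnit c) :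
    (Ideal.span {EEpoly c} : Ideal (MvPowerSeries (Fin 5) O)) ≠ ⊤ := by
  intro h
  have hle : (Ideal.span {EEpoly c} : Ideal (MvPowerSeries (Fin 5) O)) ≤
      maximalIdeal (MvPowerSeries (Fin 5) O) := by
    rw [Ideal.span_singleton_le_iff_mem]; exact EEpoly_mem_maximalIdeal hc
  rw [h, top_le_iff] at hle
  exact (maximalIdeal.isMaximal _).ne_top hle

theorem isLocalRing_EE {c : O} (hc : ¬ IsUnit c) : IsLocalRing (EE c) := by
  have : Nontrivial (EE c) := Ideal.Quotient.nontrivial_iff.mpr (span_EEpoly_ne_top hc)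
  exact IsLocalRing.of_surjective' (Ideal.Quotient.mk _) Ideal.Quotient.mk_surjective

theorem isAdicComplete_EE [IsNoetherianRing O] [IsAdicComplete (maximalIdeal O) O] {c : O}
    (hc : ¬ IsUnit c) :
    letI := isLocalRing_EE hc
    IsAdicComplete (maximalIdeal (EE c)) (EE c) := by
  let _ := isLocalRing_EE hc
  have := Fermat.Agent.S53.isAdicComplete_mvPowerSeries O (Fin 5)
  exact Fermat.Agent.S53_helper15.isAdicComplete_quotient _

/-- the image of a power series with non-unit constant coefficient lies in the maximal ideal. -/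
theorem mkEE_mem_maximalIdeal {c : O} (hc : ¬ IsUnit c) {f : MvPowerSeries (Fin 5) O}
    (hf : constantCoeff f ∈ maximalIdeal O) :
    letI := isLocalRing_EE hc
    mkEE c f ∈ maximalIdeal (EE c) := by
  let _ := isLocalRing_EE hc
  rw [mem_maximalIdeal, mem_nonunits_iff]
  intro hunit
  have hJ := span_EEpoly_ne_top hc
  have hloc := Fermat.Agent.S53_helper15.isLocalHom_quotient_mk
    (Ideal.span {EEpoly c} : Ideal (MvPowerSeries (Fin 5) O)) hJ
  have h1 : IsUnit f := hloc.map_nonunit f hunit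
  rw [MvPowerSeries.isUnit_iff_constantCoeff] at h1
  exact (mem_maximalIdeal _).mp hf h1

theorem s2_mem {c : O} (hc : ¬ IsUnit c) :
    letI := isLocalRing_EE hc
    s2 c ∈ maximalIdeal (EE c) :=
  mkEE_mem_maximalIdeal hc (by simp)

theorem s1_mem {c : O} (hc : ¬ IsUnit c) :
    letI := isLocalRing_EE hc
    s1 c ∈ maximalIdeal (EE c) :=
  mkEE_mem_maximalIdeal hc (by simp)

theorem u_mem {c : O} (hc : ¬ IsUnit c) (i : Fin 3) :
    letI := isLocalRing_EE hc
    u c i ∈ maximalIdeal (EE c) :=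
  mkEE_mem_maximalIdeal hc (by simp)

end local_

/-! ### Evaluation -/

section eval

variable [IsLocalRing O] {B : Type*} [CommRing B] [IsLocalRing B] [Algebra O B]
  [IsAdicComplete (maximalIdeal B) B]

/-- **(R4), first half**: a point `(s₁', s₂', u')` of the chart in the maximal ideal of a complete
local `O`-algebra defines an `O`-algebra homomorphism out of `EE c`. -/
theorem exists_algHom_EE (c : O) (s1' s2' : B) (u' : Fin 3 → B) (hs1 : s1' ∈ maximalIdeal B)
    (hs2 : s2' ∈ maximalIdeal B) (hu : ∀ i, u' i ∈ maximalIdeal B)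
    (hrel : s2' ^ 2 * (u' 0 ^ 2 + u' 1 * u' 2) = algebraMap O B (c ^ 2)) :
    ∃ φ : EE c →ₐ[O] B, φ (s1 c) = s1' ∧ φ (s2 c) = s2' ∧ ∀ i, φ (u c i) = u' i := by
  let a : Fin 5 → B := ![s2', u' 0, u' 1, u' 2, s1']
  have ha : ∀ s, a s ∈ maximalIdeal B := by
    intro s
    fin_cases s
    · exact hs2
    · exact hu 0
    · exact hu 1
    · exact hu 2
    · exact hs1
  obtain ⟨ψ, hψ⟩ := Fermat.Agent.S53.exists_algHom_X (𝒪 := O) a ha
  have hker : ∀ x ∈ (Ideal.span {EEpoly c} : Ideal (MvPowerSeries (Fin 5) O)), ψ x = 0 := by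
    intro x hx
    obtain ⟨r, rfl⟩ := Ideal.mem_span_singleton'.mp hx
    have h0 : ψ (EEpoly c) = 0 := by
      rw [EEpoly, map_sub, map_mul, map_pow, map_add, map_pow, map_mul, hψ, hψ, hψ, hψ,
        c_eq_algebraMap, AlgHom.commutes, sub_eq_zero]
      exact hrel
    rw [map_mul, h0, mul_zero]
  refine ⟨Ideal.Quotient.liftₐ _ ψ hker, ?_, ?_, fun i => ?_⟩
  · show ψ (X 4) = s1'
    rw [hψ]; rfl
  · show ψ (X 0) = s2'
    rw [hψ]; rfl
  · show ψ (X i.succ.castSucc) = u' i
    rw [hψ]
    fin_cases i <;> rfl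

omit [IsAdicComplete (maximalIdeal B) B] in
/-- uniqueness of the evaluation homomorphism. -/
theorem algHom_EE_ext [IsHausdorff (maximalIdeal B) B] (c : O) (φ ψ : EE c →ₐ[O] B)
    (hs1 : φ (s1 c) ∈ maximalIdeal B) (hs2 : φ (s2 c) ∈ maximalIdeal B)
    (hu : ∀ i, φ (u c i) ∈ maximalIdeal B)
    (h1 : φ (s1 c) = ψ (s1 c)) (h2 : φ (s2 c) = ψ (s2 c)) (h3 : ∀ i, φ (u c i) = ψ (u c i)) :
    φ = ψ := by
  have key : φ.comp (mkEE c) = ψ.comp (mkEE c) := by
    refine Fermat.Agent.S53.algHom_ext_X _ _ (fun s => ?_) (fun s => ?_)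
    · fin_cases s
      · exact hs2
      · exact hu 0
      · exact hu 1
      · exact hu 2
      · exact hs1
    · fin_cases s
      · exact h2
      · exact h3 0
      · exact h3 1
      · exact h3 2
      · exact h1
  ext x
  obtain ⟨y, rfl⟩ := Ideal.Quotient.mk_surjective x
  exact DFunLike.congr_fun key y

end eval

end Fermat.Agent.GB.Local.EEInst
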