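/-
GATE-B / B1 LOC → B9: `kill₂` for a reduced finite free local `O`-algebra `T` (helper51).

`Kill2.J2_le_ker_of_points` specialised to helper83's DVR-points `ψ q : T →ₐ[O] Rq q`
(`GB/Glue/Points`): all hypotheses except the non-unipotence `hnu` (B5) are now statements over
`T` itself.
-/
import Mathlib
import Fermat.Agent.GB.Local.Kill2
import Fermat.Agent.GB.Glue.Points

set_option autoImplicit false
set_option linter.unusedSectionVars false

open IsLocalRing

namespace Fermat.Agent.GB.Local.Kill2T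

open Fermat.Agent.GB.Local.TamePoint Fermat.Agent.GB.Local.Rloc Fermat.Agent.GB.Local.R4Point
open Fermat.Agent.GB.Local.TameC Fermat.Agent.GB.Local.RlocMain Fermat.Agent.GB.Local.Kill2
open Fermat.Agent.GB.Glue.Points Matrix

variable {O : Type} [CommRing O] [IsDomain O] [IsDiscreteValuationRing O]
  [IsAdicComplete (maximalIdeal O) O] [CharZero O]
variable {T : Type} [CommRing T] [Algebra O T] [Module.Finite O T] [Module.Free O T]
  [IsReduced T] [IsLocalRing T]

/-- **`kill₂` over a reduced finite free local `O`-algebra**: `J₂ ≤ ker Θ`. -/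
theorem J2_le_ker_of_reduced {σ : Type*} [Finite σ] {g : ℕ}
    (Θ : Rinf O g →ₐ[O] MvPowerSeries σ T)
    {p : ℕ} (hp : p.Prime) (hp2 : p ≠ 2) (hpO : (p : O) ∈ maximalIdeal O)
    (S F : Matrix (Fin 2) (Fin 2) T) {q a n' : ℕ} (hFdet : F.det = (q : T)) (hS : S.det = 1)
    (hfac : q - 1 = p ^ a * n') (hn' : ¬ p ∣ n') (hpq : p ∣ q - 1) (hq : 1 ≤ q)
    (hrel : F * S = S ^ q * F) (hres : S.trace - 2 ∈ maximalIdeal T)
    {h ζ : O} (hh : 2 * h = 1) (hζ : IsPrimitiveRoot ζ (p ^ a))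
    (hFres : ∀ k, tl (algebraMap O T h) F k ∈ maximalIdeal T)
    (hSres : ∀ k, tl (algebraMap O T h) S k ∈ maximalIdeal T)
    (hnu : ∀ i : Idx O T, (S.map (ψ i) - 1) ^ 2 = 0 → S.map (ψ i) = 1)
    {γ γi : Matrix (Fin 2) (Fin 2) (MvPowerSeries σ T)} (hγ : γ * γi = 1)
    (hΘa : ∀ k, Θ (MvPowerSeries.C (aVar O k)) =
      tl (MvPowerSeries.C (algebraMap O T h)) (γ * F.map MvPowerSeries.C * γi) k)
    (hΘn : ∀ k, Θ (MvPowerSeries.C (nVar O k)) =
      tl (MvPowerSeries.C (algebraMap O T h)) (γ * S.map MvPowerSeries.C * γi) k)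
    (hΘx : ∀ j, Θ (MvPowerSeries.X j) ∈ maximalIdeal (MvPowerSeries σ T)) :
    J2 O (cSet h ζ (p ^ a)) g ≤ RingHom.ker (Θ : Rinf O g →+* MvPowerSeries σ T) := by
  have hloc : ∀ i : Idx O T, IsLocalHom (ψ i : T →+* Rq i) := isLocalHom_ψ
  have hmem : ∀ (i : Idx O T) {t : T}, t ∈ maximalIdeal T → ψ i t ∈ maximalIdeal (Rq i) := by
    intro i t ht
    have := hloc i
    exact _root_.map_nonunit (ψ i : T →+* Rq i) t ht
  have hcomm : ∀ (i : Idx O T), ψ i (algebraMap O T h) = algebraMap O (Rq i) h :=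
    fun i => (ψ i).commutes h
  refine J2_le_ker_of_points Θ (O' := fun i : Idx O T => Rq i) (fun i => ψ i)
    (fun t ht => eq_zero_of_forall_ψ ht) hp hp2 (fun i => natCast_mem_maximalIdeal_Rq i hpO)
    S F (fun i => ?_) hS hfac hn' hpq hq hrel (fun i => ?_) hh (fun i => ?_) (fun i k => ?_)
    (fun i k => ?_) hnu hγ hΘa hΘn (fun i j => ?_)
  · -- `det ≠ 0`
    have h1 : (F.map (ψ i)).det = ψ i F.det := (AlgHom.map_det (ψ i) F).symm
    rw [h1, hFdet, map_natCast]
    exact Nat.cast_ne_zero.mpr (by omega)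
  · -- trace
    have h1 : (S.map (ψ i)).trace - 2 = ψ i (S.trace - 2) := by
      rw [map_sub, map_ofNat, Matrix.trace_fin_two, Matrix.trace_fin_two, map_add]
      rfl
    rw [h1]; exact hmem i hres
  · exact hζ.map_of_injective (algebraMap_Rq_injective i)
  · rw [← hcomm i]
    have := tl_map (ψ i : T →+* Rq i) (algebraMap O T h) F k
    rw [RingHom.coe_coe] at this
    rw [this]; exact hmem i (hFres k)
  · rw [← hcomm i]
    have := tl_map (ψ i : T →+* Rq i) (algebraMap O T h) S k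
    rw [RingHom.coe_coe] at this
    rw [this]; exact hmem i (hSres k)
  · have h1 := hΘx j
    rw [Fermat.Agent.S53.PSC.mem_maximalIdeal_iff] at h1 ⊢
    rw [← MvPowerSeries.coeff_zero_eq_constantCoeff_apply, MvPowerSeries.coeff_map,
      MvPowerSeries.coeff_zero_eq_constantCoeff_apply]
    exact hmem i h1

end Fermat.Agent.GB.Local.Kill2T
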