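/-
GATE-B / B1 LOC → B9: bridge between helper4's framing vocabulary (`GB/Def/Frame`: `Box ι T`,
`frame v M = g_v M g_v⁻¹`, `Frame.tl` with `[Invertible 2]`) and the `kill₁` / `kill₂` adapters
`Kill1.tElt_mem_ker`, `Kill2T.J2_le_ker_of_reduced` (helper51), which are stated with
`TamePoint.tl h` and an arbitrary conjugating matrix.
-/
import Mathlib
import Fermat.Agent.GB.Def.Frame
import Fermat.Agent.GB.Local.Kill1
import Fermat.Agent.GB.Local.Kill2T

set_option autoImplicit false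
set_option linter.unusedSectionVars false

open IsLocalRing

namespace Fermat.Agent.GB.Local.FrameBridge

open Fermat.Agent.GB.Local.Rloc Fermat.Agent.GB.Local.RlocMain Fermat.Agent.GB.Local.TameC
open Fermat.Agent.GB.Def Matrix

section Tl

variable {S : Type*} [CommRing S] [Invertible (2 : S)]

/-- helper4's `Frame.tl` is helper96's `TamePoint.tl` at `h = ⅟2` -/
theorem frameTl_eq (M : Matrix (Fin 2) (Fin 2) S) : Frame.tl M = TamePoint.tl (⅟ (2 : S)) M := rfl

/-- … and at any `h` with `2 h = 1` -/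
theorem frameTl_eq_of {h : S} (hh : 2 * h = 1) (M : Matrix (Fin 2) (Fin 2) S) :
    Frame.tl M = TamePoint.tl h M := by
  rw [frameTl_eq, invOf_eq_right_inv hh]

end Tl

section FrameTl

variable {O : Type*} [CommRing O] {T : Type*} [CommRing T] [Algebra O T] [Invertible (2 : T)]
  {ι : Type*}

/-- the framed traceless coordinates in the `Kill1` / `Kill2` shape -/
theorem frameTl_frame {h : O} (hh : 2 * h = 1) (v : ι) (M : Matrix (Fin 2) (Fin 2) T) :
    Frame.tl (Frame.frame v M : Matrix (Fin 2) (Fin 2) (Frame.Box ι T)) =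
      TamePoint.tl (MvPowerSeries.C (algebraMap O T h))
        (Frame.gMat v * M.map MvPowerSeries.C * (Frame.gMat v)⁻¹) := by
  have hhT : 2 * algebraMap O T h = 1 := by
    rw [← map_ofNat (algebraMap O T) 2, ← map_mul, hh, map_one]
  have hhC : 2 * (MvPowerSeries.C (algebraMap O T h) : Frame.Box ι T) = 1 := by
    rw [← map_ofNat (MvPowerSeries.C (σ := ι × Fin 3) (R := T)) 2, ← map_mul, hhT, map_one]
  rw [frameTl_eq_of hhC, Frame.frame_apply]

end FrameTl

section Kill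

variable {O : Type} [CommRing O] [IsDomain O] [IsDiscreteValuationRing O]
  [IsAdicComplete (maximalIdeal O) O] [CharZero O]
variable {T : Type} [CommRing T] [Algebra O T] [Invertible (2 : T)] {ι : Type*} [Finite ι]
  {g : ℕ}

/-- **`kill₁` in helper4's vocabulary** -/
theorem tElt_mem_ker_frame (Θ : Rinf O g →ₐ[O] Frame.Box ι T) (v : ι)
    (F : Matrix (Fin 2) (Fin 2) T) {q : ℕ} (hFdet : F.det = (q : T)) {h : O} (hh : 2 * h = 1)
    (hΘa : ∀ k, Θ (MvPowerSeries.C (aVar O k)) =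
      Frame.tl (Frame.frame v F : Matrix (Fin 2) (Fin 2) (Frame.Box ι T)) k)
    (htr : F.trace ^ 2 = (1 + (q : T)) ^ 2) :
    Ideal.span {(MvPowerSeries.C (tElt O ((q : O) - 1)) : Rinf O g)} ≤
      RingHom.ker (Θ : Rinf O g →+* Frame.Box ι T) :=
  Kill1.tElt_mem_ker Θ F hFdet hh (Frame.gMat_mul_inv v)
    (fun k => by rw [hΘa, frameTl_frame hh]) htr

variable [Module.Finite O T] [Module.Free O T] [IsReduced T] [IsLocalRing T]

/-- **`kill₂` in helper4's vocabulary** -/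
theorem J2_le_ker_frame (Θ : Rinf O g →ₐ[O] Frame.Box ι T) (v : ι)
    {p : ℕ} (hp : p.Prime) (hp2 : p ≠ 2) (hpO : (p : O) ∈ maximalIdeal O)
    (S F : Matrix (Fin 2) (Fin 2) T) {q a n' : ℕ} (hFdet : F.det = (q : T)) (hS : S.det = 1)
    (hfac : q - 1 = p ^ a * n') (hn' : ¬ p ∣ n') (hpq : p ∣ q - 1) (hq : 1 ≤ q)
    (hrel : F * S = S ^ q * F) (hres : S.trace - 2 ∈ maximalIdeal T)
    {h ζ : O} (hh : 2 * h = 1) (hζ : IsPrimitiveRoot ζ (p ^ a))
    (hFres : ∀ k, Frame.tl F k ∈ maximalIdeal T) (hSres : ∀ k, Frame.tl S k ∈ maximalIdeal T)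
    (hnu : ∀ i : Fermat.Agent.GB.Glue.Points.Idx O T,
      (S.map (Fermat.Agent.GB.Glue.Points.ψ i) - 1) ^ 2 = 0 →
        S.map (Fermat.Agent.GB.Glue.Points.ψ i) = 1)
    (hΘa : ∀ k, Θ (MvPowerSeries.C (aVar O k)) =
      Frame.tl (Frame.frame v F : Matrix (Fin 2) (Fin 2) (Frame.Box ι T)) k)
    (hΘn : ∀ k, Θ (MvPowerSeries.C (nVar O k)) =
      Frame.tl (Frame.frame v S : Matrix (Fin 2) (Fin 2) (Frame.Box ι T)) k)
    (hΘx : ∀ j, Θ (MvPowerSeries.X j) ∈ maximalIdeal (Frame.Box ι T)) :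
    J2 O (cSet h ζ (p ^ a)) g ≤ RingHom.ker (Θ : Rinf O g →+* Frame.Box ι T) := by
  have hhT : 2 * algebraMap O T h = 1 := by
    rw [← map_ofNat (algebraMap O T) 2, ← map_mul, hh, map_one]
  refine Kill2T.J2_le_ker_of_reduced Θ hp hp2 hpO S F hFdet hS hfac hn' hpq hq hrel hres hh hζ
    (fun k => ?_) (fun k => ?_) hnu (Frame.gMat_mul_inv v)
    (fun k => by rw [hΘa, frameTl_frame hh]) (fun k => by rw [hΘn, frameTl_frame hh]) hΘx
  · rw [← frameTl_eq_of hhT]; exact hFres k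
  · rw [← frameTl_eq_of hhT]; exact hSres k

end Kill

end Fermat.Agent.GB.Local.FrameBridge
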