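/-
CELL-B / CASE A (Mazur principle at `q ≠ p`), node A4a, commutative-algebra core (helper25).
Mathlib only.

* `isPrincipal_of_isPrincipal_map_mk` **(PP)** : `x` in the Jacobson radical, `P` a finitely
  generated prime ideal with `x ∉ P` whose image in `R ⧸ (x)` is principal ⟹ `P` is principal
  (`P = (f) + x P` and Nakayama).
* `ufm_of_quotient_isPrincipalIdealRing` **(UFD)** : a noetherian domain `R`, `x` a prime element in
  the Jacobson radical with `R ⧸ (x)` a principal ideal ring (e.g. a DVR) ⟹ `R` is a UFD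
  (Kaplansky's criterion).  This is "a two-dimensional regular local ring whose special fibre branch
  `R ⧸ (x)` is a DVR is factorial" WITHOUT Auslander–Buchsbaum.
* `exists_eq_unit_mul_pow_mul_pow` : in a UFD, an element all of whose prime factors not associated
  to `y` occur with multiplicity divisible by `m` is `unit * y ^ n * c ^ m`;
  `exists_mul_pow_eq_unit_mul_pow_mul_pow` : the fraction form (`a / b`).

Use (board 4942): `R` = local ring at a supersingular node `s` of the model of `X₀(N'q)` over the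
unramified DVR, `x = X = j^q - j_q`, `y = Y = j - j_q^q`, `X Y = q · unit` (thickness one);
`R ⧸ (X)` is the local ring of the component `C₁` at `s`.  For `u` with `div u = m · D` on the
generic fibre, `w₁(u) = 0`, `w₂(u) = n · v(q)`: `u = unit · Y ^ n · c ^ m`, hence
`ord_s (u mod X) ≡ n (mod m)` — the finite-level Picard–Lefschetz formula.
-/
import Mathlib

set_option autoImplicit false

namespace Fermat.Agent.GB.Local

open Ideal

section PP

variable {R : Type*} [CommRing R]

/-- **(PP)**  If `x` lies in the Jacobson radical, `P` is a finitely generated prime ideal not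
containing `x`, and the image of `P` in `R ⧸ (x)` is principal, then `P` is principal. -/
theorem isPrincipal_of_isPrincipal_map_mk {x : R} (hx : x ∈ jacobson (⊥ : Ideal R))
    (P : Ideal R) [hP : P.IsPrime] (hfg : P.FG) (hxP : x ∉ P)
    (hpr : (P.map (Ideal.Quotient.mk (span {x}))).IsPrincipal) :
    Submodule.IsPrincipal P := by
  obtain ⟨fbar, hfbar⟩ := hpr.principal
  have hmem : fbar ∈ P.map (Ideal.Quotient.mk (span {x})) := by
    rw [hfbar]
    exact Submodule.mem_span_singleton_self fbar
  obtain ⟨f, hfP, rfl⟩ :=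
    (Ideal.mem_map_iff_of_surjective _ Ideal.Quotient.mk_surjective).1 hmem
  have key : P ≤ span {f} ⊔ span {x} • P := by
    intro g hg
    have hg' : Ideal.Quotient.mk (span {x}) g ∈ P.map (Ideal.Quotient.mk (span {x})) :=
      Ideal.mem_map_of_mem _ hg
    rw [hfbar] at hg'
    obtain ⟨hbar, hh⟩ := Submodule.mem_span_singleton.1 hg'
    obtain ⟨h, rfl⟩ := Ideal.Quotient.mk_surjective hbar
    have h1 : g - h * f ∈ span {x} := by
      rw [← Ideal.Quotient.eq, map_mul]
      exact hh.symm
    obtain ⟨c, hc⟩ := Ideal.mem_span_singleton'.1 h1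
    have hcP : c ∈ P := by
      have h2 : c * x ∈ P := by
        rw [hc]
        exact P.sub_mem hg (P.mul_mem_left h hfP)
      exact (hP.mem_or_mem h2).resolve_right hxP
    have h3 : g = h * f + x • c := by
      rw [smul_eq_mul, mul_comm x c, hc]
      ring
    rw [h3]
    exact Submodule.add_mem_sup (Ideal.mem_span_singleton'.2 ⟨h, rfl⟩)
      (Submodule.smul_mem_smul (Ideal.mem_span_singleton_self x) hcP)
  have hle : P ≤ span {f} :=
    Submodule.le_of_le_smul_of_le_jacobson_bot hfg ((Ideal.span_singleton_le_iff_mem _).2 hx) key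
  exact ⟨⟨f, le_antisymm hle ((Ideal.span_singleton_le_iff_mem _).2 hfP)⟩⟩

/-- (PP) in a local ring. -/
theorem isPrincipal_of_isPrincipal_map_mk_of_isLocalRing [IsLocalRing R] {x : R}
    (hx : x ∈ IsLocalRing.maximalIdeal R)
    (P : Ideal R) [P.IsPrime] (hfg : P.FG) (hxP : x ∉ P)
    (hpr : (P.map (Ideal.Quotient.mk (span {x}))).IsPrincipal) :
    Submodule.IsPrincipal P :=
  isPrincipal_of_isPrincipal_map_mk (IsLocalRing.maximalIdeal_le_jacobson ⊥ hx) P hfg hxP hpr

end PP

section UFD

variable {R : Type*} [CommRing R] [IsDomain R]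

/-- **(UFD)**  A noetherian domain with a prime element `x` in the Jacobson radical such that
`R ⧸ (x)` is a principal ideal ring is a unique factorisation domain. -/
theorem ufm_of_quotient_isPrincipalIdealRing [IsNoetherianRing R] {x : R}
    (hx : x ∈ jacobson (⊥ : Ideal R)) (hxp : Prime x)
    [IsPrincipalIdealRing (R ⧸ span {x})] : UniqueFactorizationMonoid R := by
  refine UniqueFactorizationMonoid.iff_exists_prime_mem_of_isPrime.2 fun I hI hIp => ?_
  by_cases hxI : x ∈ I
  · exact ⟨x, hxI, hxp⟩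
  · have := hIp
    obtain ⟨⟨f, hf⟩⟩ := isPrincipal_of_isPrincipal_map_mk hx I (IsNoetherian.noetherian I) hxI
      (IsPrincipalIdealRing.principal _)
    have hfI : f ∈ I := by
      rw [hf]
      exact Submodule.mem_span_singleton_self f
    have hf0 : f ≠ 0 := by
      rintro rfl
      apply hI
      rw [hf]
      simp
    refine ⟨f, hfI, ?_⟩
    have hIp' : (span {f} : Ideal R).IsPrime := by
      have : (span {f} : Ideal R) = I := hf.symm
      rw [this]
      exact hIp
    exact (Ideal.span_singleton_prime hf0).1 hIp'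

/-- (UFD) for a noetherian local domain: `x ∈ 𝔪` prime with `R ⧸ (x)` a principal ideal ring. -/
theorem ufm_of_quotient_isPrincipalIdealRing_of_isLocalRing [IsNoetherianRing R] [IsLocalRing R]
    {x : R} (hx : x ∈ IsLocalRing.maximalIdeal R) (hxp : Prime x)
    [IsPrincipalIdealRing (R ⧸ span {x})] : UniqueFactorizationMonoid R :=
  ufm_of_quotient_isPrincipalIdealRing (IsLocalRing.maximalIdeal_le_jacobson ⊥ hx) hxp

end UFD

section Factor

variable {R : Type*} [CommRing R] [IsDomain R] [UniqueFactorizationMonoid R]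

/-- a prime not dividing `d` has the same multiplicity in `d * b` and in `b` -/
theorem multiplicity_mul_of_not_dvd {ρ d b : R} (hρ : Prime ρ) (hd : ¬ ρ ∣ d) (hdb : d * b ≠ 0) :
    multiplicity ρ (d * b) = multiplicity ρ b := by
  rw [multiplicity_mul hρ (FiniteMultiplicity.of_prime_left hρ hdb), multiplicity_eq_zero.2 hd,
    zero_add]

omit [UniqueFactorizationMonoid R] in
/-- non-associated primes do not divide each other's powers -/
theorem not_dvd_pow_of_not_associated {ρ π : R} (hρ : Prime ρ) (hπ : Prime π)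
    (h : ¬ Associated ρ π) (j : ℕ) : ¬ ρ ∣ π ^ j := fun hd =>
  h ((hρ.dvd_prime_iff_associated hπ).1 (hρ.dvd_of_dvd_pow hd))

/-- **Factorisation with `m`-divisible multiplicities.**  In a UFD, a nonzero element all of whose
prime factors not associated to `y` occur with multiplicity divisible by `m` is
`unit * y ^ n * c ^ m`. -/
theorem exists_eq_unit_mul_pow_mul_pow (m : ℕ) (y : R) (a : R) (ha : a ≠ 0)
    (hdiv : ∀ π : R, Prime π → ¬ Associated π y → m ∣ multiplicity π a) :
    ∃ (u : Rˣ) (n : ℕ) (c : R), a = u * y ^ n * c ^ m := by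
  revert ha hdiv
  refine WellFounded.induction (C := fun a => a ≠ 0 →
    (∀ π : R, Prime π → ¬ Associated π y → m ∣ multiplicity π a) →
      ∃ (u : Rˣ) (n : ℕ) (c : R), a = u * y ^ n * c ^ m)
    (wellFounded_dvdNotUnit (α := R)) a ?_
  intro a IH ha hdiv
  by_cases hu : IsUnit a
  · obtain ⟨u, rfl⟩ := hu
    exact ⟨u, 0, 1, by simp⟩
  obtain ⟨π, hπirr, hπa⟩ := WfDvdMonoid.exists_irreducible_factor hu ha
  have hπ : Prime π := UniqueFactorizationMonoid.irreducible_iff_prime.1 hπirr
  by_cases hy : Associated π y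
  · -- `π ~ y`: peel off one factor `y`
    obtain ⟨b, rfl⟩ := hπa
    have hb0 : b ≠ 0 := right_ne_zero_of_mul ha
    have hlt : DvdNotUnit b (π * b) := ⟨hb0, π, hπ.not_isUnit, mul_comm _ _⟩
    obtain ⟨u, n, c, hb⟩ := IH b hlt hb0 (fun ρ hρ hρy => by
      have hρπ : ¬ Associated ρ π := fun h => hρy (h.trans hy)
      have h1 := hdiv ρ hρ hρy
      rwa [multiplicity_mul_of_not_dvd hρ
        (fun hd => hρπ ((hρ.dvd_prime_iff_associated hπ).1 hd)) ha] at h1)
    obtain ⟨v, hv⟩ := hy
    refine ⟨u * v⁻¹, n + 1, c, ?_⟩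
    rw [hb, ← hv, Units.val_mul, pow_succ]
    have hvv : (v : R) * ((v⁻¹ : Rˣ) : R) = 1 := by simp
    calc π * (↑u * (π * ↑v) ^ n * c ^ m)
        = ↑u * (π * ↑v) ^ n * π * c ^ m * 1 := by ring
      _ = ↑u * (π * ↑v) ^ n * π * c ^ m * ((v : R) * ((v⁻¹ : Rˣ) : R)) := by rw [hvv]
      _ = ↑u * ↑v⁻¹ * ((π * ↑v) ^ n * (π * ↑v)) * c ^ m := by ring
  · -- `π ≁ y`: the multiplicity of `π` is `m * k`, peel off `(π ^ k) ^ m`
    have hfin : FiniteMultiplicity π a := FiniteMultiplicity.of_prime_left hπ ha
    obtain ⟨k, hk⟩ := hdiv π hπ hy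
    obtain ⟨b, hab, hπb⟩ := hfin.exists_eq_pow_mul_and_not_dvd
    have hpos : 0 < multiplicity π a := multiplicity_pos_of_dvd hπa
    rw [hk] at hab hpos
    have hb0 : b ≠ 0 := by
      rintro rfl
      exact ha (by rw [hab, mul_zero])
    have hnu : ¬ IsUnit (π ^ (m * k)) := by
      rw [isUnit_pow_iff hpos.ne']
      exact hπ.not_isUnit
    have hlt : DvdNotUnit b a := ⟨hb0, π ^ (m * k), hnu, by rw [hab, mul_comm]⟩
    have ha' : π ^ (m * k) * b ≠ 0 := by rw [← hab]; exact ha
    obtain ⟨u, n, c, hb⟩ := IH b hlt hb0 (fun ρ hρ hρy => by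
      by_cases hρπ : Associated ρ π
      · rw [multiplicity_eq_of_associated_left hρπ.symm, multiplicity_eq_zero.2 hπb]
        exact dvd_zero m
      · have h1 := hdiv ρ hρ hρy
        rw [hab, multiplicity_mul_of_not_dvd hρ (not_dvd_pow_of_not_associated hρ hπ hρπ _) ha']
          at h1
        exact h1)
    refine ⟨u, n, π ^ k * c, ?_⟩
    rw [hab, hb, mul_pow, ← pow_mul, mul_comm k m]
    ring

/-- **Fraction form.**  If the multiplicities of `a` and `b` agree modulo `m` at every prime not
associated to `y`, then `a * b ^ (m - 1) = unit * y ^ n * c ^ m`, i.e.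
`a / b = unit * y ^ n * (c / b) ^ m` in the fraction field. -/
theorem exists_mul_pow_eq_unit_mul_pow_mul_pow (m : ℕ) (hm : 0 < m) (y a b : R) (ha : a ≠ 0)
    (hb : b ≠ 0)
    (hdiv : ∀ π : R, Prime π → ¬ Associated π y →
      (multiplicity π a : ℤ) ≡ (multiplicity π b : ℤ) [ZMOD (m : ℤ)]) :
    ∃ (u : Rˣ) (n : ℕ) (c : R), a * b ^ (m - 1) = u * y ^ n * c ^ m := by
  have hab0 : a * b ^ (m - 1) ≠ 0 := mul_ne_zero ha (pow_ne_zero _ hb)
  refine exists_eq_unit_mul_pow_mul_pow m y _ hab0 fun π hπ hπy => ?_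
  have h1 : multiplicity π (a * b ^ (m - 1)) = multiplicity π a + (m - 1) * multiplicity π b := by
    rw [multiplicity_mul hπ (FiniteMultiplicity.of_prime_left hπ hab0),
      (FiniteMultiplicity.of_prime_left hπ hb).multiplicity_pow hπ]
  rw [h1, ← Int.natCast_dvd_natCast]
  have h2 := (hdiv π hπ hπy).dvd
  have h3 : ((multiplicity π a + (m - 1) * multiplicity π b : ℕ) : ℤ)
      = (m : ℤ) * (multiplicity π b : ℤ) - ((multiplicity π b : ℤ) - (multiplicity π a : ℤ)) := by
    push_cast [Nat.cast_sub hm]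
    ring
  rw [h3]
  exact dvd_sub (dvd_mul_right _ _) h2

end Factor

end Fermat.Agent.GB.Local
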