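/-
GATE-B / B1 LOC → B9: building `Θ : Rinf O g →ₐ[O] B` (helper51).

`Rinf O g = MvPowerSeries (Fin g) (P6 O)` (helper54's `RlocMain`).  Given an `O`-algebra hom
`ev0 : P6 O →ₐ[O] B` into a complete local `O`-algebra (e.g. `Rloc.evalPair a n ha hn`) and
`x : Fin g → 𝔪_B`, there is an `O`-algebra hom `Θ` with `Θ ∘ C = ev0` and `Θ (X j) = x j`.
In particular the `kill` adapters (`Kill1`, `Kill2`, `Kill2T`, `FrameBridge`) apply to it with
`hΘa`, `hΘn` given by `evalPair_aVar`, `evalPair_nVar`.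
-/
import Mathlib
import Fermat.Agent.GB.Local.RlocMain

set_option autoImplicit false
set_option linter.unusedSectionVars false
set_option linter.style.haveILetI false

open IsLocalRing

namespace Fermat.Agent.GB.Local.ThetaBuild

open Fermat.Agent.GB.Local.Rloc Fermat.Agent.GB.Local.RlocMain

variable {O : Type*} [CommRing O] [IsLocalRing O] [IsNoetherianRing O]
  [IsAdicComplete (maximalIdeal O) O]
variable {B : Type*} [CommRing B] [IsLocalRing B] [Algebra O B]
  [IsAdicComplete (maximalIdeal B) B]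

/-- **existence of `Θ`** -/
theorem exists_Theta (ev0 : P6 O →ₐ[O] B) {g : ℕ} (x : Fin g → B)
    (hx : ∀ j, x j ∈ maximalIdeal B) :
    ∃ Θ : Rinf O g →ₐ[O] B, (∀ f, Θ (MvPowerSeries.C f) = ev0 f) ∧
      ∀ j, Θ (MvPowerSeries.X j) = x j := by
  letI : Algebra (P6 O) B := ev0.toRingHom.toAlgebra
  have tower : IsScalarTower O (P6 O) B :=
    IsScalarTower.of_algebraMap_eq (fun r => (ev0.commutes r).symm)
  obtain ⟨Θ', hΘ'⟩ := Fermat.Agent.S53.exists_algHom_X (𝒪 := P6 O) (A := B) x hx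
  refine ⟨Θ'.restrictScalars O, fun f => ?_, hΘ'⟩
  have h1 : (MvPowerSeries.C f : Rinf O g) = algebraMap (P6 O) (Rinf O g) f := by
    rw [MvPowerSeries.algebraMap_apply]; rfl
  rw [AlgHom.restrictScalars_apply, h1, AlgHom.commutes]
  rfl

/-- the `P6`-part given by an evaluation at a pair `(a, n)` -/
theorem exists_Theta_evalPair (a n : Fin 3 → B) (ha : ∀ i, a i ∈ maximalIdeal B)
    (hn : ∀ i, n i ∈ maximalIdeal B) {g : ℕ} (x : Fin g → B) (hx : ∀ j, x j ∈ maximalIdeal B) :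
    ∃ Θ : Rinf O g →ₐ[O] B, (∀ k, Θ (MvPowerSeries.C (aVar O k)) = a k) ∧
      (∀ k, Θ (MvPowerSeries.C (nVar O k)) = n k) ∧ ∀ j, Θ (MvPowerSeries.X j) = x j := by
  obtain ⟨Θ, h1, h2⟩ := exists_Theta (evalPair (O := O) a n ha hn) x hx
  exact ⟨Θ, fun k => by rw [h1, evalPair_aVar], fun k => by rw [h1, evalPair_nVar], h2⟩

end Fermat.Agent.GB.Local.ThetaBuild
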